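/-
Consequences of Riemann's theorem on a curve over an algebraically closed field used for S26:
functions with a single pole, a divisor of degree `g` with one-dimensional space of functions.
-/
import Fermat.Agent.Curve.ReductionAux
import Fermat.Agent.Curve.BasicFunctionField

set_option autoImplicit false

noncomputable section

namespace Fermat.Agent.AbelianVariety.Riemann

open AlgebraicCurve Fermat.Agent.Curve Fermat.Agent.Curve.RedAux

variable {k F : Type*} [Field k] [Field F] [Algebra k F] [IsAlgClosed k] [IsFunctionFieldOne k F]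

theorem mem_range_of_isAlgebraic {f : F} (hf : IsAlgebraic k f) :
    f ∈ Set.range (algebraMap k F) := by
  obtain ⟨p, hp, hpf⟩ := hf
  have hint : IsIntegral k f := IsAlgebraic.isIntegral ⟨p, hp, hpf⟩
  have h1 := IsAlgClosed.degree_eq_one_of_irreducible k (minpoly.irreducible hint)
  exact minpoly.mem_range_of_degree_eq_one k f h1

theorem infinite_place : Infinite (Place k F) := by
  obtain ⟨x, hx, -⟩ := IsFunctionFieldOne.exists_transcendental_finite (K := k) (F := F)
  have h : ∀ a : k, Transcendental k (x - algebraMap k F a) := fun a ha => hx <| by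
    simpa using ha.add (isAlgebraic_algebraMap (R := k) a)
  choose v hv using fun a => exists_place_ord_pos (K := k) (F := F) (h a)
  refine Infinite.of_injective v fun a b hab => ?_
  by_contra hne
  have hb := hv b
  rw [← hab] at hb
  have hne' : (x - algebraMap k F a) + -(x - algebraMap k F b) = algebraMap k F (b - a) := by
    rw [map_sub]; ring
  have h0 : algebraMap k F (b - a) ≠ 0 := by simpa [sub_eq_zero] using Ne.symm hne
  have h1 : (1 : ℤ) ≤ (v a).ord ((x - algebraMap k F a) + -(x - algebraMap k F b)) :=
    le_ord_add (v a) _ (by rw [hne']; exact h0) (fun _ => hv a)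
      (fun _ => by rw [ord_neg]; exact hb)
  rw [hne', ord_algebraMap] at h1
  omega

theorem one_le_finrank_of_nonneg {D : Divisor k F} (hD : 0 ≤ D) :
    1 ≤ Module.finrank k (riemannRochSpace D) := by
  haveI := finite_L D
  exact Module.finrank_pos_iff_exists_ne_zero.mpr
    ⟨⟨1, one_mem_L hD⟩, fun h => one_ne_zero (congrArg Subtype.val h)⟩

theorem exists_single_pole (v : Place k F) :
    ∃ f : F, f ≠ 0 ∧ v.ord f < 0 ∧ ∀ w : Place k F, w ≠ v → 0 ≤ w.ord f := by
  classical
  let m : ℤ := (genusFF k F : ℤ) + 1
  let D : Divisor k F := Finsupp.single v m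
  have hD : 0 ≤ D := Finsupp.le_def.2 fun w => by
    simp only [D, m, Finsupp.single_apply, Finsupp.zero_apply]
    split_ifs <;> omega
  have h := le_finrank_L D
  rw [Divisor.degree_single, deg_one] at h
  have h2 : 1 < Module.finrank k (riemannRochSpace D) := by simp only [m] at h; omega
  haveI := finite_L D
  by_contra hc
  push Not at hc
  have hsub : riemannRochSpace D ≤ Submodule.span k {(1 : F)} := by
    intro f hf
    rcases eq_or_ne f 0 with rfl | hf0
    · exact Submodule.zero_mem _
    have hall : ∀ w : Place k F, 0 ≤ w.ord f := by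
      intro w
      by_contra hw
      have hwv : w = v := by
        by_contra hne
        have := (mem_L_iff hf0).1 hf w
        simp only [D, Finsupp.single_eq_of_ne hne] at this
        omega
      subst hwv
      obtain ⟨w', hw', hneg⟩ := hc f hf0 (by omega)
      have := (mem_L_iff hf0).1 hf w'
      simp only [D, Finsupp.single_eq_of_ne hw'] at this
      omega
    obtain ⟨a, rfl⟩ := mem_range_of_isAlgebraic (isAlgebraic_of_forall_ord_nonneg hall)
    exact Submodule.mem_span_singleton.mpr ⟨a, by rw [Algebra.smul_def, mul_one]⟩
  have h3 := Submodule.finrank_mono hsub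
  rw [finrank_span_singleton (one_ne_zero)] at h3
  omega

/-- A transcendental function regular on a given finite set of places. -/
theorem exists_transcendental_regular (S : Finset (Place k F)) :
    ∃ f : F, Transcendental k f ∧ ∀ w ∈ S, 0 ≤ w.ord f := by
  haveI := infinite_place (k := k) (F := F)
  obtain ⟨v, hv⟩ := Infinite.exists_notMem_finset S
  obtain ⟨f, -, hneg, hpos⟩ := exists_single_pole v
  exact ⟨f, transcendental_of_ord_ne_zero v (by omega),
    fun w hw => hpos w fun h => hv (h ▸ hw)⟩

variable (k F) in
/-- A divisor of degree `genus` with only constants as functions. -/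
theorem exists_nonspecial : ∃ D : Divisor k F, 0 ≤ D ∧
    Divisor.degree D = (genusFF k F : ℤ) ∧ Module.finrank k (riemannRochSpace D) = 1 := by
  classical
  haveI := infinite_place (k := k) (F := F)
  obtain ⟨c, hc⟩ := exists_finrank_L_eq (K := k) (F := F)
  obtain ⟨v₀⟩ : Nonempty (Place k F) := inferInstance
  suffices key : ∀ (n : ℕ) (D : Divisor k F),
      Divisor.degree D = (genusFF k F : ℤ) + n →
      Module.finrank k (riemannRochSpace D) = n + 1 →
      ∃ D : Divisor k F, Divisor.degree D = (genusFF k F : ℤ) ∧
        Module.finrank k (riemannRochSpace D) = 1 by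
    obtain ⟨n, hn⟩ : ∃ n : ℕ, c ≤ (genusFF k F : ℤ) + n := ⟨c.toNat, by omega⟩
    have hdeg : Divisor.degree (Finsupp.single v₀ ((genusFF k F : ℤ) + n)) =
        (genusFF k F : ℤ) + n := by rw [Divisor.degree_single, deg_one]; push_cast; ring
    have h := hc _ (hdeg ▸ hn)
    rw [hdeg] at h
    obtain ⟨D, hD, hr⟩ := key n _ hdeg (by omega)
    haveI := finite_L D
    obtain ⟨⟨f, hf⟩, hne⟩ :=
      Module.finrank_pos_iff_exists_ne_zero.mp (show 0 < Module.finrank k (riemannRochSpace D) by
        omega)
    have hf0 : f ≠ 0 := fun h => hne (Subtype.ext h)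
    refine ⟨D + divisorOf k f, Finsupp.le_def.2 fun w => ?_, ?_, ?_⟩
    · have := (mem_L_iff hf0).1 hf w
      rw [Finsupp.zero_apply, Finsupp.add_apply, divisorOf_apply]
      omega
    · rw [map_add, degree_divisorOf, add_zero, hD]
    · rw [← hr]
      have hmem : ∀ h : F, h ∈ riemannRochSpace (D + divisorOf k f) ↔
          h * f ∈ riemannRochSpace D := by
        intro h
        rcases eq_or_ne h 0 with rfl | h0
        · simp
        rw [mem_L_iff h0, mem_L_iff (mul_ne_zero h0 hf0)]
        refine forall_congr' fun w => ?_
        rw [Finsupp.add_apply, divisorOf_apply, w.ord_mul h0 hf0]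
        omega
      let φ : riemannRochSpace (D + divisorOf k f) ≃ₗ[k] riemannRochSpace D :=
        { toFun := fun h => ⟨h * f, (hmem _).1 h.2⟩
          invFun := fun h => ⟨h / f, (hmem _).2 (by rw [div_mul_cancel₀ _ hf0]; exact h.2)⟩
          left_inv := fun h => Subtype.ext (mul_div_cancel_right₀ _ hf0)
          right_inv := fun h => Subtype.ext (div_mul_cancel₀ _ hf0)
          map_add' := fun a b => Subtype.ext (add_mul _ _ _)
          map_smul' := fun a b => Subtype.ext (smul_mul_assoc _ _ _) }
      exact φ.finrank_eq
  intro n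
  induction n with
  | zero => exact fun D hD hr => ⟨D, by simpa using hD, hr⟩
  | succ n ih =>
    intro D hD hr
    haveI := finite_L D
    obtain ⟨⟨f, hf⟩, hne⟩ :=
      Module.finrank_pos_iff_exists_ne_zero.mp (show 0 < Module.finrank k (riemannRochSpace D) by
        omega)
    have hf0 : f ≠ 0 := fun h => hne (Subtype.ext h)
    obtain ⟨P, hP⟩ := Infinite.exists_notMem_finset
      (D.support ∪ (divisorOf k f).support)
    simp only [Finset.mem_union, Finsupp.mem_support_iff, divisorOf_apply, not_or, not_not] at hP
    let D' : Divisor k F := D - Finsupp.single P 1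
    have hle : D' ≤ D := Finsupp.le_def.2 fun w => by
      simp only [D', Finsupp.sub_apply, Finsupp.single_apply]
      split_ifs <;> omega
    have hlt : riemannRochSpace D' < riemannRochSpace D := by
      refine lt_of_le_of_ne (L_mono hle) fun he => ?_
      have := (mem_L_iff hf0).1 (he ▸ hf) P
      simp only [D', Finsupp.sub_apply, Finsupp.single_eq_same, hP.1, hP.2] at this
      omega
    have h1 := Submodule.finrank_lt_finrank_of_lt hlt
    have h2 := le_finrank_L D'
    have hdeg : Divisor.degree D' = (genusFF k F : ℤ) + n := by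
      simp only [D', map_sub, Divisor.degree_single, deg_one, hD]
      push_cast; ring
    exact ih D' hdeg (by omega)

/-- The effective divisor in the class of a divisor with one-dimensional space of functions is
unique. -/
theorem eq_of_equiv {D D' : Divisor k F} (hD : 0 ≤ D) (hD' : 0 ≤ D')
    (h1 : Module.finrank k (riemannRochSpace D) = 1)
    (h : D' - D ∈ Divisor.principal (K := k) (F := F)) : D' = D := by
  obtain ⟨f, hf, hord⟩ := h
  have hmem : f ∈ riemannRochSpace D := by
    rw [mem_L_iff hf]
    intro w
    have := hord w
    have := Finsupp.le_def.mp hD' w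
    simp only [Finsupp.sub_apply, Finsupp.zero_apply] at *
    omega
  haveI := finite_L D
  have hle : Submodule.span k {(1 : F)} ≤ riemannRochSpace D :=
    (Submodule.span_singleton_le_iff_mem _ _).mpr (one_mem_L hD)
  have heq := Submodule.eq_of_le_of_finrank_le hle (by rw [h1, finrank_span_singleton one_ne_zero])
  rw [← heq, Submodule.mem_span_singleton] at hmem
  obtain ⟨a, rfl⟩ := hmem
  refine Finsupp.ext fun w => ?_
  have := hord w
  rw [Finsupp.sub_apply, Algebra.smul_def, mul_one, ord_algebraMap] at this
  omega

/-- A divisor of degree at least the genus is equivalent to an effective one. -/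
theorem exists_effective_equiv {X : Divisor k F}
    (hX : (genusFF k F : ℤ) ≤ Divisor.degree X) :
    ∃ X' : Divisor k F, 0 ≤ X' ∧ X' - X ∈ Divisor.principal (K := k) (F := F) := by
  have h := le_finrank_L X
  haveI := finite_L X
  obtain ⟨⟨f, hf⟩, hne⟩ :=
    Module.finrank_pos_iff_exists_ne_zero.mp (show 0 < Module.finrank k (riemannRochSpace X) by
      omega)
  have hf0 : f ≠ 0 := fun h => hne (Subtype.ext h)
  refine ⟨X + divisorOf k f, Finsupp.le_def.2 fun w => ?_, f, hf0, fun w => ?_⟩
  · have := (mem_L_iff hf0).1 hf w
    rw [Finsupp.zero_apply, Finsupp.add_apply, divisorOf_apply]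
    omega
  · rw [Finsupp.sub_apply, Finsupp.add_apply, divisorOf_apply]
    ring

end Fermat.Agent.AbelianVariety.Riemann
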