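/-
Good reduction of a constant curve: for a valuation ring of an extension of the constants, the
Gauss valuation on the extended function field.
-/
import Fermat.Agent.Curve.Setup
import Fermat.Agent.Curve.DivisibleGauss
import Fermat.Agent.Curve.ConstExtGenus
import Fermat.Agent.Curve.ConstExtMk
import Fermat.Agent.Curve.BasicInstances
import Mathlib.RingTheory.Flat.Basic

set_option autoImplicit false

noncomputable section

namespace Fermat.Agent.AbelianVariety.GaussConst

open AlgebraicCurve TensorProduct Fermat.Agent.Curve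

universe u

variable {k F L E κ Eb : Type u} [Field k] [Field F] [Field L] [Field E] [Field κ] [Field Eb]
  [Algebra k F] [Algebra k L] [Algebra k E] [Algebra F E] [Algebra L E]
  [IsScalarTower k F E] [IsScalarTower k L E]
  [Algebra k κ] [Algebra k Eb] [Algebra F Eb] [Algebra κ Eb]
  [IsScalarTower k F Eb] [IsScalarTower k κ Eb]
  (A : ValuationSubring L) [Algebra k A] [IsScalarTower k A L]
  (π : A →ₐ[k] κ)

/-- The inclusion of `A` as an algebra map. -/
abbrev incl : A →ₐ[k] L := IsScalarTower.toAlgHom k A L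

variable (F) in
/-- The Gauss ring before division: `A ⊗ F → L ⊗ F`. -/
def baseMap : A ⊗[k] F →ₐ[k] L ⊗[k] F :=
  Algebra.TensorProduct.map (incl A) (AlgHom.id k F)

theorem baseMap_injective : Function.Injective (baseMap F A (k := k)) :=
  Module.Flat.rTensor_preserves_injective_linearMap (M := F)
    (incl A (k := k)).toLinearMap Subtype.val_injective

variable (E) in
/-- `A ⊗ F → E`. -/
def integralMap : A ⊗[k] F →ₐ[k] E :=
  ((extConstMap k F L E).restrictScalars k).comp (baseMap F A)

variable (Eb F) in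
/-- `A ⊗ F → Eb`. -/
def redMap : A ⊗[k] F →ₐ[k] Eb :=
  ((extConstMap k F κ Eb).restrictScalars k).comp
    (Algebra.TensorProduct.map π (AlgHom.id k F))

theorem integralMap_tmul (a : A) (f : F) :
    integralMap E A (a ⊗ₜ[k] f) = algebraMap L E (a : L) * algebraMap F E f := by
  simp [integralMap, baseMap, extConstMap_tmul]

theorem redMap_tmul (a : A) (f : F) :
    redMap F Eb A π (a ⊗ₜ[k] f) = algebraMap κ Eb (π a) * algebraMap F Eb f := by
  simp [redMap, extConstMap_tmul]

variable [IsConstExt k F L E] [IsConstExt k F κ Eb]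

theorem integralMap_injective : Function.Injective (integralMap E A (k := k) (F := F)) :=
  (IsConstExt.injective (K := k) (F := F) (Ω := L) (E := E)).comp (baseMap_injective A)

theorem integralMap_ne_zero {z : A ⊗[k] F} (hz : redMap F Eb A π z ≠ 0) :
    integralMap E A z ≠ 0 := by
  rw [map_ne_zero_iff _ (integralMap_injective A)]
  rintro rfl
  exact hz (map_zero _)

omit [IsConstExt k F L E] in
/-- Every non-zero element of `L ⊗ F` is a constant times an integral one with non-zero
reduction. -/
theorem exists_scale {h : L ⊗[k] F} (hh : h ≠ 0) :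
    ∃ (c : L) (z : A ⊗[k] F), c ≠ 0 ∧ redMap F Eb A π z ≠ 0 ∧ h = c • baseMap F A z := by
  classical
  let b := Module.Free.chooseBasis k F
  let B := b.baseChange L
  obtain ⟨j, hj, hj0, hmem⟩ := exists_scale_div A (B.repr h).support (B.repr h) (by
    by_contra hc
    push Not at hc
    refine hh (B.repr.injective (Finsupp.ext fun i => ?_))
    by_cases hi : i ∈ (B.repr h).support
    · simp [hc i hi]
    · simpa using hi)
  let a : Module.Free.ChooseBasisIndex k F → A := fun i =>
    if hi : i ∈ (B.repr h).support then ⟨_, hmem i hi⟩ else 0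
  refine ⟨B.repr h j, ∑ i ∈ (B.repr h).support, a i ⊗ₜ[k] b i, hj0, ?_, ?_⟩
  · have h1 : redMap F Eb A π (∑ i ∈ (B.repr h).support, a i ⊗ₜ[k] b i) =
        extConstMap k F κ Eb (∑ i ∈ (B.repr h).support, π (a i) ⊗ₜ[k] b i) := by
      simp [map_sum, redMap_tmul, extConstMap_tmul]
    rw [h1, map_ne_zero_iff _ (IsConstExt.injective (K := k) (F := F) (Ω := κ) (E := Eb))]
    intro h0
    have h2 := congrArg (fun z => (b.baseChange κ).repr z j) h0
    simp only [map_sum, map_zero, Finsupp.finsetSum_apply, Finsupp.coe_zero, Pi.zero_apply,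
      Module.Basis.baseChange_repr_tmul] at h2
    rw [Finset.sum_eq_single j (fun i _ hij => by simp [Finsupp.single_eq_of_ne hij.symm])
      (fun hn => absurd hj hn)] at h2
    have haj : a j = 1 := by
      simp only [a, dif_pos hj]
      exact Subtype.ext (div_self hj0)
    simp [haj] at h2
  · conv_lhs => rw [← B.linearCombination_repr h]
    rw [Finsupp.linearCombination_apply, Finsupp.sum, map_sum, Finset.smul_sum]
    refine Finset.sum_congr rfl fun i hi => ?_
    simp only [B, Module.Basis.baseChange_apply, baseMap, Algebra.TensorProduct.map_tmul,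
      AlgHom.coe_id, id_eq, smul_tmul', smul_eq_mul, mul_one]
    congr 1
    show _ = B.repr h j * (a i : L)
    simp only [a, dif_pos hi]
    exact (mul_div_cancel₀ _ hj0).symm

variable (F E Eb) in
/-- The Gauss valuation ring, as a subring. -/
def gaussSubring : Subring E where
  carrier := {q | ∃ a b : A ⊗[k] F, redMap F Eb A π b ≠ 0 ∧
    q * integralMap E A b = integralMap E A a}
  mul_mem' := by
    rintro q q' ⟨a, b, hb, h⟩ ⟨a', b', hb', h'⟩
    refine ⟨a * a', b * b', by rw [map_mul]; exact mul_ne_zero hb hb', ?_⟩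
    rw [map_mul, map_mul, ← h, ← h']; ring
  one_mem' := ⟨1, 1, by rw [map_one]; exact one_ne_zero, by rw [one_mul]⟩
  add_mem' := by
    rintro q q' ⟨a, b, hb, h⟩ ⟨a', b', hb', h'⟩
    refine ⟨a * b' + a' * b, b * b', by rw [map_mul]; exact mul_ne_zero hb hb', ?_⟩
    rw [map_mul, map_add, map_mul, map_mul, ← h, ← h']; ring
  zero_mem' := ⟨0, 1, by rw [map_one]; exact one_ne_zero, by rw [map_zero, zero_mul]⟩
  neg_mem' := by
    rintro q ⟨a, b, hb, h⟩
    exact ⟨-a, b, hb, by rw [map_neg, ← h]; ring⟩

theorem mem_gaussSubring {q : E} :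
    q ∈ gaussSubring F E Eb A π ↔ ∃ a b : A ⊗[k] F, redMap F Eb A π b ≠ 0 ∧
      q * integralMap E A b = integralMap E A a :=
  Iff.rfl

theorem mem_or_inv_mem (q : E) :
    q ∈ gaussSubring F E Eb A π ∨ q⁻¹ ∈ gaussSubring F E Eb A π := by
  obtain ⟨h₁, h₂, h₂0, hq⟩ := IsConstExt.exists_eq_div (K := k) (F := F) (Ω := L) q
  rcases eq_or_ne q 0 with rfl | hq0
  · exact Or.inl (Subring.zero_mem _)
  have h₁0 : h₁ ≠ 0 := fun h0 => by
    rw [h0, map_zero] at hq
    exact mul_ne_zero hq0 h₂0 hq
  obtain ⟨c₁, z₁, hc₁, hz₁, rfl⟩ := exists_scale A π (F := F) (Eb := Eb) h₁0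
  obtain ⟨c₂, z₂, hc₂, hz₂, rfl⟩ := exists_scale A π (F := F) (Eb := Eb) (h := h₂)
    (fun h0 => h₂0 (by rw [h0, map_zero]))
  rw [map_smul, map_smul, Algebra.smul_def, Algebra.smul_def] at hq
  change q * (algebraMap L E c₂ * integralMap E A z₂) =
    algebraMap L E c₁ * integralMap E A z₁ at hq
  rcases A.mem_or_inv_mem (c₁ / c₂) with hc | hc
  · refine Or.inl ⟨((⟨_, hc⟩ : A) ⊗ₜ[k] (1 : F)) * z₁, z₂, hz₂, ?_⟩
    rw [map_mul, integralMap_tmul, map_one, mul_one, map_div₀, div_mul_eq_mul_div,
      eq_div_iff ((map_ne_zero _).mpr hc₂), ← hq]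
    ring
  · rw [inv_div] at hc
    refine Or.inr ⟨((⟨_, hc⟩ : A) ⊗ₜ[k] (1 : F)) * z₂, z₁, hz₁, ?_⟩
    rw [map_mul, integralMap_tmul, map_one, mul_one, map_div₀, inv_mul_eq_div, eq_comm,
      div_mul_eq_mul_div, div_eq_div_iff ((map_ne_zero _).mpr hc₁) hq0]
    linear_combination hq

variable (F E Eb) in
/-- The Gauss valuation ring. -/
def gaussRing : ValuationSubring E :=
  { gaussSubring F E Eb A π with mem_or_inv_mem' := mem_or_inv_mem A π }

theorem mem_gaussRing {q : E} :
    q ∈ gaussRing F E Eb A π ↔ ∃ a b : A ⊗[k] F, redMap F Eb A π b ≠ 0 ∧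
      q * integralMap E A b = integralMap E A a :=
  Iff.rfl

variable (F E Eb) in
/-- The reduction of a function. -/
def gaussValue (q : gaussRing F E Eb A π) : Eb :=
  redMap F Eb A π ((mem_gaussRing A π).mp q.2).choose /
    redMap F Eb A π ((mem_gaussRing A π).mp q.2).choose_spec.choose

theorem gaussValue_eq (q : gaussRing F E Eb A π) {a b : A ⊗[k] F}
    (hb : redMap F Eb A π b ≠ 0) (h : (q : E) * integralMap E A b = integralMap E A a) :
    gaussValue F E Eb A π q = redMap F Eb A π a / redMap F Eb A π b := by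
  have key : ∀ a' b' : A ⊗[k] F, redMap F Eb A π b' ≠ 0 →
      (q : E) * integralMap E A b' = integralMap E A a' →
        redMap F Eb A π a' / redMap F Eb A π b' = redMap F Eb A π a / redMap F Eb A π b := by
    intro a' b' hb' h'
    rw [div_eq_div_iff hb' hb, ← map_mul, ← map_mul]
    congr 1
    apply integralMap_injective A (E := E)
    rw [map_mul, map_mul, ← h, ← h']
    ring
  obtain ⟨hb', h'⟩ := ((mem_gaussRing A π).mp q.2).choose_spec.choose_spec
  exact key _ _ hb' h'

variable (F E Eb) in
/-- The reduction of functions. -/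
def gaussHom : gaussRing F E Eb A π →+* Eb where
  toFun := gaussValue F E Eb A π
  map_one' := by
    rw [gaussValue_eq A π 1 (a := 1) (b := 1) (by rw [map_one]; exact one_ne_zero) (one_mul _),
      map_one, div_one]
  map_mul' q q' := by
    obtain ⟨a, b, hb, h⟩ := (mem_gaussRing A π).mp q.2
    obtain ⟨a', b', hb', h'⟩ := (mem_gaussRing A π).mp q'.2
    rw [gaussValue_eq A π q hb h, gaussValue_eq A π q' hb' h',
      gaussValue_eq A π (q * q') (a := a * a') (b := b * b')
        (by rw [map_mul]; exact mul_ne_zero hb hb')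
        (by rw [MulMemClass.coe_mul, map_mul, map_mul, ← h, ← h']; ring),
      map_mul, map_mul, div_mul_div_comm]
  map_zero' := by
    rw [gaussValue_eq A π 0 (a := 0) (b := 1) (by rw [map_one]; exact one_ne_zero)
      (by rw [ZeroMemClass.coe_zero, zero_mul, map_zero]), map_zero, zero_div]
  map_add' q q' := by
    obtain ⟨a, b, hb, h⟩ := (mem_gaussRing A π).mp q.2
    obtain ⟨a', b', hb', h'⟩ := (mem_gaussRing A π).mp q'.2
    rw [gaussValue_eq A π q hb h, gaussValue_eq A π q' hb' h',
      gaussValue_eq A π (q + q') (a := a * b' + b * a') (b := b * b')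
        (by rw [map_mul]; exact mul_ne_zero hb hb')
        (by rw [AddMemClass.coe_add, map_mul, map_add, map_mul, map_mul, ← h, ← h']; ring),
      map_mul, map_add, map_mul, map_mul, div_add_div _ _ hb hb']

theorem gaussHom_apply (q : gaussRing F E Eb A π) {a b : A ⊗[k] F}
    (hb : redMap F Eb A π b ≠ 0) (h : (q : E) * integralMap E A b = integralMap E A a) :
    gaussHom F E Eb A π q = redMap F Eb A π a / redMap F Eb A π b :=
  gaussValue_eq A π q hb h

theorem algebraMap_const_mem (a : A) : algebraMap L E (a : L) ∈ gaussRing F E Eb A π :=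
  ⟨a ⊗ₜ 1, 1, by rw [map_one]; exact one_ne_zero, by
    rw [integralMap_tmul, map_one, map_one]⟩

theorem gaussHom_const (a : A) :
    gaussHom F E Eb A π ⟨_, algebraMap_const_mem A π a⟩ = algebraMap κ Eb (π a) := by
  rw [gaussHom_apply A π _ (a := a ⊗ₜ 1) (b := 1) (by rw [map_one]; exact one_ne_zero)
    (by rw [integralMap_tmul, map_one, map_one]), redMap_tmul, map_one, map_one, mul_one, div_one]

theorem algebraMap_base_mem (f : F) : algebraMap F E f ∈ gaussRing F E Eb A π :=
  ⟨1 ⊗ₜ f, 1, by rw [map_one]; exact one_ne_zero, by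
    rw [integralMap_tmul, OneMemClass.coe_one, map_one, map_one, one_mul, mul_one]⟩

theorem gaussHom_base (f : F) :
    gaussHom F E Eb A π ⟨_, algebraMap_base_mem A π f⟩ = algebraMap F Eb f := by
  rw [gaussHom_apply A π _ (a := 1 ⊗ₜ f) (b := 1) (by rw [map_one]; exact one_ne_zero)
    (by rw [integralMap_tmul, OneMemClass.coe_one, map_one, map_one, one_mul, mul_one]),
    redMap_tmul, map_one, map_one, one_mul, map_one, div_one]

theorem mem_gaussRing_const_iff (hπ : ∀ a : A, ¬ IsUnit a → π a = 0) (c : L) :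
    algebraMap L E c ∈ gaussRing F E Eb A π ↔ c ∈ A := by
  refine ⟨fun hc => ?_, fun hc => algebraMap_const_mem A π ⟨c, hc⟩⟩
  by_contra hcA
  have hc0 : c ≠ 0 := fun h => hcA (h ▸ A.zero_mem)
  have hci : c⁻¹ ∈ A := (A.mem_or_inv_mem c).resolve_left hcA
  have hnu : ¬ IsUnit (⟨c⁻¹, hci⟩ : A) := by
    intro hu
    obtain ⟨w, hw⟩ := isUnit_iff_exists_inv.mp hu
    have hw' : c⁻¹ * (w : L) = 1 := congrArg Subtype.val hw
    rw [inv_mul_eq_one₀ hc0] at hw'
    exact hcA (hw' ▸ w.2)
  have h1 : (⟨_, hc⟩ : gaussRing F E Eb A π) *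
      ⟨_, algebraMap_const_mem A π ⟨c⁻¹, hci⟩⟩ = 1 :=
    Subtype.ext (by
      rw [MulMemClass.coe_mul, OneMemClass.coe_one, ← map_mul, mul_inv_cancel₀ hc0, map_one])
  have h2 := congrArg (gaussHom F E Eb A π) h1
  rw [map_mul, map_one, gaussHom_const, hπ _ hnu, map_zero, mul_zero] at h2
  exact zero_ne_one h2

theorem gaussHom_surjective (hπ : Function.Surjective π) :
    Function.Surjective (gaussHom F E Eb A π) := by
  intro e
  have hlift : Function.Surjective (Algebra.TensorProduct.map π (AlgHom.id k F)) :=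
    Algebra.TensorProduct.map_surjective _ _ hπ Function.surjective_id
  obtain ⟨a, b, hb, he⟩ := IsConstExt.exists_eq_div (K := k) (F := F) (Ω := κ) e
  obtain ⟨a', rfl⟩ := hlift a
  obtain ⟨b', rfl⟩ := hlift b
  have hb' : redMap F Eb A π b' ≠ 0 := hb
  refine ⟨⟨integralMap E A a' / integralMap E A b', a', b', hb',
    div_mul_cancel₀ _ (integralMap_ne_zero A π hb')⟩, ?_⟩
  rw [gaussHom_apply A π _ hb' (div_mul_cancel₀ _ (integralMap_ne_zero A π hb')),
    div_eq_iff hb']
  exact he.symm

variable (F E Eb) in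
/-- Good reduction of a constant curve. -/
def goodReduction [IsAlgClosed k] [IsAlgClosed L] [IsAlgClosed κ] [IsFunctionFieldOne k F]
    [IsFunctionFieldOne L E] [IsFunctionFieldOne κ Eb]
    (hπ : Function.Surjective π) (hker : ∀ a : A, ¬ IsUnit a → π a = 0) :
    GoodReduction A E κ Eb :=
  let x : F := (IsFunctionFieldOne.exists_transcendental_finite (K := k) (F := F)).choose
  have hx : Transcendental k x :=
    (IsFunctionFieldOne.exists_transcendental_finite (K := k) (F := F)).choose_spec.1
  { π := π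
    π_surjective := hπ
    V := gaussRing F E Eb A π
    mem_V_iff := mem_gaussRing_const_iff A π hker
    φ := gaussHom F E Eb A π
    φ_surjective := gaussHom_surjective A π hπ
    φ_algebraMap := fun a => gaussHom_const A π a
    exists_scale := fun q hq => by
      obtain ⟨h₁, h₂, h₂0, he⟩ := IsConstExt.exists_eq_div (K := k) (F := F) (Ω := L) q
      have h₁0 : h₁ ≠ 0 := fun h0 => mul_ne_zero hq h₂0 (by rw [he, h0, map_zero])
      obtain ⟨c₁, z₁, hc₁, hz₁, rfl⟩ := exists_scale A π (F := F) (Eb := Eb) h₁0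
      obtain ⟨c₂, z₂, hc₂, hz₂, rfl⟩ := exists_scale A π (F := F) (Eb := Eb) (h := h₂)
        (fun h0 => h₂0 (by rw [h0, map_zero]))
      rw [map_smul, map_smul, Algebra.smul_def, Algebra.smul_def] at he
      change q * (algebraMap L E c₂ * integralMap E A z₂) =
        algebraMap L E c₁ * integralMap E A z₁ at he
      have hmem : (c₂ / c₁) • q * integralMap E A z₂ = integralMap E A z₁ := by
        rw [Algebra.smul_def, map_div₀, div_mul_eq_mul_div, div_mul_eq_mul_div,
          div_eq_iff ((map_ne_zero _).mpr hc₁)]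
        linear_combination he
      refine ⟨c₂ / c₁, ⟨z₁, z₂, hz₂, hmem⟩, ?_⟩
      rw [gaussHom_apply A π _ hz₂ hmem]
      exact div_ne_zero hz₁ hz₂
    x := ⟨algebraMap F E x, algebraMap_base_mem A π x⟩
    x_transcendental := by
      rw [gaussHom_base]
      exact IsConstExt.transcendental (K := k) hx
    degree_eq := by
      haveI := finite_adjoin_of_transcendental (K := k) hx
      rw [gaussHom_base, IsConstExt.finrank_adjoin (K := k) hx,
        IsConstExt.finrank_adjoin (K := k) hx]
    degree_pos := by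
      haveI := finite_adjoin_of_transcendental (K := k) hx
      rw [gaussHom_base, IsConstExt.finrank_adjoin (K := k) hx]
      exact finrank_adjoin_pos hx
    genus_eq := (genusFF_eq (K := k) (F := F) (Ω := κ) (E := Eb)).trans
      (genusFF_eq (K := k) (F := F) (Ω := L) (E := E)).symm }

end Fermat.Agent.AbelianVariety.GaussConst
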