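/-
Functor-of-points language for the proof of S26: groups of points on commutative `K`-algebras,
line bundle cocycles and their sections, all given by natural families.
-/
import Mathlib.Algebra.Algebra.Tower
import Mathlib.Algebra.Group.Hom.Defs
import Mathlib.RingTheory.LocalRing.Defs
import Mathlib.RingTheory.LocalRing.RingHom.Basic
import Mathlib.RingTheory.Valuation.ValuationSubring

set_option autoImplicit false

noncomputable section

namespace Fermat.Agent.AbelianVariety

universe u

variable {K : Type u} [Field K]

/-- The `K`-algebra structure of a valuation subring containing `K`. -/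
@[reducible]
def valuationAlgebra {L : Type u} [Field L] [Algebra K L] (V : ValuationSubring L)
    (hV : ∀ a : K, algebraMap K L a ∈ V) : Algebra K V :=
  ((algebraMap K L).codRestrict V hV).toAlgebra

/-- The inclusion of a valuation subring containing `K`. -/
def valuationIncl {L : Type u} [Field L] [Algebra K L] (V : ValuationSubring L)
    (hV : ∀ a : K, algebraMap K L a ∈ V) :
    letI := valuationAlgebra V hV
    V →ₐ[K] L :=
  letI := valuationAlgebra V hV
  { V.subtype with commutes' := fun _ => rfl }

/-- A group-valued functor of points on commutative `K`-algebras. -/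
structure PointFunctor (K : Type u) [Field K] where
  /-- the points with values in `R` -/
  Pt : (R : Type u) → [CommRing R] → [Algebra K R] → Type u
  /-- the group law -/
  [addCommGroup : ∀ (R : Type u) [CommRing R] [Algebra K R], AddCommGroup (Pt R)]
  /-- functoriality -/
  map : ∀ {R S : Type u} [CommRing R] [Algebra K R] [CommRing S] [Algebra K S],
    (R →ₐ[K] S) → (Pt R →+ Pt S)
  map_id : ∀ (R : Type u) [CommRing R] [Algebra K R] (P : Pt R), map (AlgHom.id K R) P = P
  map_comp : ∀ {R S T : Type u} [CommRing R] [Algebra K R] [CommRing S] [Algebra K S]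
    [CommRing T] [Algebra K T] (φ : R →ₐ[K] S) (ψ : S →ₐ[K] T) (P : Pt R),
    map (ψ.comp φ) P = map ψ (map φ P)

attribute [instance] PointFunctor.addCommGroup

namespace PointFunctor

variable (A : PointFunctor K)

theorem map_map {R S T : Type u} [CommRing R] [Algebra K R] [CommRing S] [Algebra K S]
    [CommRing T] [Algebra K T] (φ : R →ₐ[K] S) (ψ : S →ₐ[K] T) (P : A.Pt R) :
    A.map ψ (A.map φ P) = A.map (ψ.comp φ) P :=
  (A.map_comp φ ψ P).symm

/-- The constant point with values in `R` attached to a `K`-point. -/
def const (R : Type u) [CommRing R] [Algebra K R] : A.Pt K →+ A.Pt R :=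
  A.map (Algebra.ofId K R)

theorem map_const {R S : Type u} [CommRing R] [Algebra K R] [CommRing S] [Algebra K S]
    (φ : R →ₐ[K] S) (c : A.Pt K) : A.map φ (A.const R c) = A.const S c := by
  rw [const, const, map_map, Subsingleton.elim (φ.comp (Algebra.ofId K R)) (Algebra.ofId K S)]

@[simp]
theorem const_self (c : A.Pt K) : A.const K c = c := by
  rw [const, Subsingleton.elim (Algebra.ofId K K) (AlgHom.id K K), A.map_id]

end PointFunctor

variable (A : PointFunctor K)

/-- A line bundle given by charts and transition units, natural in the point. -/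
structure LineData where
  /-- the index set of the charts -/
  ι : Type u
  /-- `In i P`: the point `P` lies in the chart `i` -/
  In : ∀ {R : Type u} [CommRing R] [Algebra K R], ι → A.Pt R → Prop
  in_map : ∀ {R S : Type u} [CommRing R] [Algebra K R] [CommRing S] [Algebra K S]
    (φ : R →ₐ[K] S) (i : ι) (P : A.Pt R), In i P → In i (A.map φ P)
  exists_in : ∀ {R : Type u} [CommRing R] [Algebra K R] [IsLocalRing R] (P : A.Pt R),
    ∃ i, In i P
  in_reflect : ∀ {R S : Type u} [CommRing R] [Algebra K R] [CommRing S] [Algebra K S]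
    [IsLocalRing R] [IsLocalRing S] (φ : R →ₐ[K] S), IsLocalHom (φ : R →+* S) →
    ∀ (i : ι) (P : A.Pt R), In i (A.map φ P) → In i P
  /-- a chart containing a point over a field contains almost all of its specialisations -/
  in_spread : ∀ {E : Type u} [Field E] [Algebra K E] (P : A.Pt E) (i : ι), In i P →
    ∃ s : Finset E, ∀ (V : ValuationSubring E) (hV : ∀ a : K, algebraMap K E a ∈ V),
      (∀ x ∈ s, x ∈ V) →
      letI := valuationAlgebra V hV
      ∀ Q : A.Pt V, A.map (valuationIncl V hV) Q = P → In i Q
  /-- the transition units -/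
  g : ∀ {R : Type u} [CommRing R] [Algebra K R] {i j : ι} {P : A.Pt R},
    In i P → In j P → Rˣ
  g_map : ∀ {R S : Type u} [CommRing R] [Algebra K R] [CommRing S] [Algebra K S]
    (φ : R →ₐ[K] S) {i j : ι} {P : A.Pt R} (hi : In i P) (hj : In j P),
    φ (g hi hj) = g (in_map φ i P hi) (in_map φ j P hj)
  g_cocycle : ∀ {R : Type u} [CommRing R] [Algebra K R] {i j l : ι} {P : A.Pt R}
    (hi : In i P) (hj : In j P) (hl : In l P), g hi hj * g hj hl = g hi hl

namespace LineData

variable {A}
variable (D : LineData A)

theorem g_self {R : Type u} [CommRing R] [Algebra K R] {i : D.ι} {P : A.Pt R} (hi : D.In i P) :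
    D.g hi hi = 1 := by
  simpa using D.g_cocycle hi hi hi

theorem g_symm {R : Type u} [CommRing R] [Algebra K R] {i j : D.ι} {P : A.Pt R}
    (hi : D.In i P) (hj : D.In j P) : D.g hj hi = (D.g hi hj)⁻¹ := by
  rw [eq_inv_iff_mul_eq_one, D.g_cocycle hj hi hj, D.g_self]

/-- A global section: its value in every chart, natural in the point. -/
structure Section where
  /-- the value in the chart `i` -/
  val : ∀ {R : Type u} [CommRing R] [Algebra K R] {i : D.ι} {P : A.Pt R}, D.In i P → R
  val_map : ∀ {R S : Type u} [CommRing R] [Algebra K R] [CommRing S] [Algebra K S]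
    (φ : R →ₐ[K] S) {i : D.ι} {P : A.Pt R} (hi : D.In i P),
    φ (val hi) = val (D.in_map φ i P hi)
  val_eq : ∀ {R : Type u} [CommRing R] [Algebra K R] {i j : D.ι} {P : A.Pt R}
    (hi : D.In i P) (hj : D.In j P), val hi = (D.g hi hj : R) * val hj

/-- The section `σ` vanishes at the point `P`. -/
def Section.VanishesAt (σ : D.Section) {R : Type u} [CommRing R] [Algebra K R]
    (P : A.Pt R) : Prop :=
  ∀ (i : D.ι) (hi : D.In i P), σ.val hi = 0

/-- The section `σ` does not vanish at the `K`-point `P`. -/
def Section.IsUnitAt (σ : D.Section) {R : Type u} [CommRing R] [Algebra K R]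
    (P : A.Pt R) : Prop :=
  ∃ (i : D.ι) (hi : D.In i P), IsUnit (σ.val hi)

theorem Section.IsUnitAt.isUnit {σ : D.Section} {R : Type u} [CommRing R] [Algebra K R]
    {P : A.Pt R} (h : σ.IsUnitAt D P) {j : D.ι} (hj : D.In j P) : IsUnit (σ.val hj) := by
  obtain ⟨i, hi, hu⟩ := h
  rw [σ.val_eq hj hi]
  exact (D.g hj hi).isUnit.mul hu

/-- `r` is the ratio `σ/τ` at `P`, computed in every chart. -/
def Section.IsRatioAt (σ τ : D.Section) {R : Type u} [CommRing R] [Algebra K R]
    (P : A.Pt R) (r : R) : Prop :=
  ∀ (i : D.ι) (hi : D.In i P), σ.val hi = r * τ.val hi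

end LineData

end Fermat.Agent.AbelianVariety
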