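/-
What the torsion count of S26 needs to know about an abelian variety of dimension `g` over an
algebraically closed field `K`, in the language of functors of points.

The scheme-theoretic construction of this data is in `Fermat/Agent/AbelianVariety/Second*`; the
consequence `#A[n](K) = n ^ (2 g)` is drawn from the data alone.
-/
import Fermat.Agent.AbelianVariety.Functor
import Mathlib.RingTheory.Valuation.ValuationSubring
import Mathlib.RingTheory.MvPowerSeries.Basic
import Mathlib.RingTheory.EssentialFiniteness
import Mathlib.RingTheory.LocalRing.ResidueField.Basic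
import Mathlib.RingTheory.Localization.FractionRing
import Mathlib.FieldTheory.IsAlgClosed.Basic
import Mathlib.FieldTheory.IntermediateField.Adjoin.Basic

set_option autoImplicit false

noncomputable section

namespace Fermat.Agent.AbelianVariety

open IsLocalRing

universe u

variable {K : Type u} [Field K]

/-- Generic point: `η` is a point with values in `Λ` specialising to every point of `L`. -/
def SpecializesToAll (A : PointFunctor K) (L : Type u) [Field L] [Algebra K L]
    (Λ : Type u) [Field Λ] [Algebra K Λ] [Algebra L Λ] [IsScalarTower K L Λ]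
    (η : A.Pt Λ) : Prop :=
  ∀ y : A.Pt L, ∃ (V : ValuationSubring Λ) (hV : ∀ a : L, algebraMap L Λ a ∈ V),
    letI hVK : ∀ a : K, algebraMap K Λ a ∈ V := fun a => by
      rw [IsScalarTower.algebraMap_apply K L Λ]; exact hV _
    letI := valuationAlgebra V hVK
    ∃ P : A.Pt V, A.map (valuationIncl V hVK) P = η ∧
      ∀ (κ : Type u) [Field κ] [Algebra K κ] (r : V →ₐ[K] κ) (s : L →ₐ[K] κ),
        IsLocalHom (r : V →+* κ) → (∀ a : L, r ⟨algebraMap L Λ a, hV a⟩ = s a) →
          A.map r P = A.map s y

/-- The facts about an abelian variety of dimension `g` used in the torsion count. -/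
structure AVData (K : Type u) [Field K] (g : ℕ) extends PointFunctor K where
  /-- valuative criterion of properness -/
  valuative : ∀ (L : Type u) [Field L] [Algebra K L] (V : ValuationSubring L)
    (hV : ∀ a : K, algebraMap K L a ∈ V),
    letI := valuationAlgebra V hV
    Function.Bijective (map (valuationIncl V hV))
  /-- points over fields do not collapse in field extensions -/
  map_injective : ∀ {L L' : Type u} [Field L] [Algebra K L] [Field L'] [Algebra K L']
    (φ : L →ₐ[K] L'), Function.Injective (map φ)
  /-- every point is defined over a finitely generated field -/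
  exists_fg : ∀ (L : Type u) [Field L] [Algebra K L] (P : Pt L),
    ∃ s : Finset L, P ∈ Set.range (map (IntermediateField.adjoin K (s : Set L)).val)
  /-- the local ring at the origin -/
  R₀ : Type u
  [commRing₀ : CommRing R₀]
  [algebra₀ : Algebra K R₀]
  [isLocalRing₀ : IsLocalRing R₀]
  [isDomain₀ : IsDomain R₀]
  [essFiniteType₀ : Algebra.EssFiniteType K R₀]
  /-- evaluation at the origin -/
  e₀ : R₀ →ₐ[K] K
  /-- the tautological point -/
  univ : Pt R₀
  map_e₀_univ : map e₀ univ = 0
  /-- universal property: points reducing to the origin -/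
  lift : ∀ {R : Type u} [CommRing R] [Algebra K R] [IsLocalRing R] (P : Pt R),
    map (IsScalarTower.toAlgHom K R (ResidueField R)) P = 0 →
      ∃! φ : R₀ →ₐ[K] R, IsLocalHom (φ : R₀ →+* R) ∧ map φ univ = P
  /-- parameters at the origin -/
  t : Fin g → R₀
  span_t : Ideal.span (Set.range t) = maximalIdeal R₀
  algebraic_t : ∀ x : R₀, IsAlgebraic (Algebra.adjoin K (Set.range t)) x
  /-- expansion in power series -/
  expand : R₀ →ₐ[K] MvPowerSeries (Fin g) K
  expand_injective : Function.Injective expand
  expand_t : ∀ i, expand (t i) = MvPowerSeries.X i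
  /-- translations act on the function field -/
  translate : ∀ c : Pt K, ∃ φ : FractionRing R₀ →ₐ[K] FractionRing R₀,
    map φ (map (IsScalarTower.toAlgHom K R₀ (FractionRing R₀)) univ) =
      map (Algebra.ofId K (FractionRing R₀)) c +
        map (IsScalarTower.toAlgHom K R₀ (FractionRing R₀)) univ
  /-- multiplication by `n` is surjective on geometric points -/
  nsmul_surjective : ∀ (n : ℕ), (n : K) ≠ 0 → ∀ (Λ : Type u) [Field Λ] [Algebra K Λ]
    [IsAlgClosed Λ], Function.Surjective (fun P : Pt Λ => n • P)
  /-- torsion points are defined over `K` -/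
  torsion_const : ∀ (n : ℕ), (n : K) ≠ 0 → ∀ (Λ : Type u) [Field Λ] [Algebra K Λ] (P : Pt Λ),
    n • P = 0 → ∃ c : Pt K, n • c = 0 ∧ map (Algebra.ofId K Λ) c = P
  /-- there are finitely many torsion points -/
  finite_torsion : ∀ (n : ℕ), (n : K) ≠ 0 → {c : Pt K | n • c = 0}.Finite
  /-- a generic point over every algebraically closed field -/
  exists_generic : ∀ (L : Type u) [Field L] [Algebra K L] [IsAlgClosed L],
    ∃ (Λ : Type u) (_ : Field Λ) (_ : Algebra K Λ) (_ : Algebra L Λ)
      (_ : IsScalarTower K L Λ) (_ : IsAlgClosed Λ) (η : Pt Λ),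
      SpecializesToAll toPointFunctor L Λ η
  /-- an effective divisor -/
  D : LineData toPointFunctor
  /-- the number of sections used besides `sec 0` -/
  M : ℕ
  /-- sections of the divisor -/
  sec : Fin (M + 1) → D.Section
  /-- finitely many conditions `m • u + c ∈ W`, `W` the locus where `sec 0` is a unit, can be
  met at the same time -/
  exists_point : ∀ s : Finset (ℤ × Pt K), (∀ p ∈ s, (p.1 : K) ≠ 0) →
    ∃ u : Pt K, ∀ p ∈ s, (sec 0).IsUnitAt D (p.1 • u + p.2)
  /-- the ratios `sec i / sec 0` separate the points where `sec 0` is a unit -/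
  separates : ∀ c c' : Pt K, (sec 0).IsUnitAt D c → (sec 0).IsUnitAt D c' → c ≠ c' →
    ∃ (i : Fin (M + 1)) (r r' : K),
      (sec i).IsRatioAt D (sec 0) c r ∧ (sec i).IsRatioAt D (sec 0) c' r' ∧ r ≠ r'
  /-- the ratios `sec i / sec 0` span the cotangent space at each such point -/
  tangent : ∀ c : Pt K, (sec 0).IsUnitAt D c →
    maximalIdeal R₀ ≤ Ideal.span {x : R₀ | ∃ (i : Fin (M + 1)) (r : R₀),
        (sec i).IsRatioAt D (sec 0) (map (Algebra.ofId K R₀) c + univ) r ∧
        x = r - algebraMap K R₀ (e₀ r)} ⊔ maximalIdeal R₀ ^ 2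

attribute [instance] AVData.commRing₀ AVData.algebra₀ AVData.isLocalRing₀ AVData.isDomain₀
  AVData.essFiniteType₀

end Fermat.Agent.AbelianVariety
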