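/-
Operations on line data: pullback along natural maps, tensor products, powers and their sections;
the local facts about charts used throughout.
-/
import Fermat.Agent.AbelianVariety.Functor
import Mathlib.Algebra.BigOperators.Group.Finset.Basic
import Mathlib.Data.Finset.Card

set_option autoImplicit false

noncomputable section

namespace Fermat.Agent.AbelianVariety

universe u

variable {K : Type u} [Field K] {A : PointFunctor K}

/-- A natural self map of the functor of points. -/
structure NatMap (A : PointFunctor K) where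
  /-- the map -/
  app : ∀ {R : Type u} [CommRing R] [Algebra K R], A.Pt R → A.Pt R
  app_map : ∀ {R S : Type u} [CommRing R] [Algebra K R] [CommRing S] [Algebra K S]
    (φ : R →ₐ[K] S) (P : A.Pt R), A.map φ (app P) = app (A.map φ P)

namespace NatMap

/-- `P ↦ m • P + c`. -/
def affine (m : ℤ) (c : A.Pt K) : NatMap A where
  app {R} _ _ P := m • P + A.const R c
  app_map φ P := by simp [map_add, map_zsmul, A.map_const]

theorem affine_app (m : ℤ) (c : A.Pt K) {R : Type u} [CommRing R] [Algebra K R] (P : A.Pt R) :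
    (affine m c).app P = m • P + A.const R c := rfl

end NatMap

namespace LineData

/-- The trivial line. -/
def trivial (A : PointFunctor K) : LineData A where
  ι := PUnit
  In _ _ := True
  in_map _ _ _ _ := ⟨⟩
  exists_in _ := ⟨⟨⟩, ⟨⟩⟩
  in_reflect _ _ _ _ _ := ⟨⟩
  in_spread _ _ _ := ⟨∅, fun _ _ _ _ _ => ⟨⟩⟩
  g _ _ := 1
  g_map _ _ _ _ := by simp
  g_cocycle _ _ _ := mul_one 1

/-- Pullback along a natural map. -/
def pullback (D : LineData A) (h : NatMap A) : LineData A where
  ι := D.ι
  In i P := D.In i (h.app P)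
  in_map φ i P hi := by rw [← h.app_map]; exact D.in_map φ i _ hi
  exists_in P := D.exists_in (h.app P)
  in_reflect φ hφ i P hi := by
    rw [← h.app_map] at hi
    exact D.in_reflect φ hφ i _ hi
  in_spread P i hi := by
    obtain ⟨s, hs⟩ := D.in_spread (h.app P) i hi
    refine ⟨s, fun V hV hsV => ?_⟩
    let _ := valuationAlgebra V hV
    intro Q hQ
    exact hs V hV hsV (h.app Q) (by rw [h.app_map, hQ])
  g hi hj := D.g hi hj
  g_map φ _ _ _ hi hj := by
    refine (D.g_map φ hi hj).trans ?_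
    congr! 2
    exact h.app_map φ _
  g_cocycle hi hj hl := D.g_cocycle hi hj hl

/-- Tensor product. -/
def tensor (D E : LineData A) : LineData A where
  ι := D.ι × E.ι
  In i P := D.In i.1 P ∧ E.In i.2 P
  in_map φ i P hi := ⟨D.in_map φ i.1 P hi.1, E.in_map φ i.2 P hi.2⟩
  exists_in P := by
    obtain ⟨i, hi⟩ := D.exists_in P
    obtain ⟨j, hj⟩ := E.exists_in P
    exact ⟨(i, j), hi, hj⟩
  in_reflect φ hφ i P hi := ⟨D.in_reflect φ hφ i.1 P hi.1, E.in_reflect φ hφ i.2 P hi.2⟩
  in_spread P i hi := by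
    classical
    obtain ⟨s, hs⟩ := D.in_spread P i.1 hi.1
    obtain ⟨t, ht⟩ := E.in_spread P i.2 hi.2
    refine ⟨s ∪ t, fun V hV hsV => ?_⟩
    let _ := valuationAlgebra V hV
    intro Q hQ
    exact ⟨hs V hV (fun x hx => hsV x (Finset.mem_union_left _ hx)) Q hQ,
      ht V hV (fun x hx => hsV x (Finset.mem_union_right _ hx)) Q hQ⟩
  g hi hj := D.g hi.1 hj.1 * E.g hi.2 hj.2
  g_map φ _ _ _ hi hj := by
    simp only [Units.val_mul, map_mul]
    rw [D.g_map φ hi.1 hj.1, E.g_map φ hi.2 hj.2]
  g_cocycle hi hj hl := by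
    rw [mul_mul_mul_comm, D.g_cocycle, E.g_cocycle]

/-- Tensor powers. -/
def pow (D : LineData A) : ℕ → LineData A
  | 0 => trivial A
  | n + 1 => (D.pow n).tensor D

variable {D E : LineData A}

namespace Section

/-- The product of two sections. -/
def mul (σ : D.Section) (τ : E.Section) : (D.tensor E).Section where
  val hi := σ.val hi.1 * τ.val hi.2
  val_map φ _ _ hi := by
    rw [map_mul, σ.val_map φ hi.1, τ.val_map φ hi.2]
  val_eq hi hj := by
    rw [σ.val_eq hi.1 hj.1, τ.val_eq hi.2 hj.2]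
    simp only [LineData.tensor, Units.val_mul]
    ring

/-- The section `1` of the trivial line. -/
def one : (LineData.trivial A).Section where
  val _ := 1
  val_map φ _ _ _ := map_one φ
  val_eq _ _ := by simp [LineData.trivial]

/-- The pullback of a section. -/
def pullback (σ : D.Section) (h : NatMap A) : (D.pullback h).Section where
  val hi := σ.val hi
  val_map φ _ _ hi := by
    refine (σ.val_map φ hi).trans ?_
    congr! 1
    exact h.app_map φ _
  val_eq hi hj := σ.val_eq hi hj

instance : Zero D.Section :=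
  ⟨{ val := fun _ => 0, val_map := fun φ _ _ _ => map_zero φ, val_eq := fun _ _ => by simp }⟩

instance : Add D.Section :=
  ⟨fun σ τ =>
    { val := fun hi => σ.val hi + τ.val hi
      val_map := fun φ _ _ hi => by simp [map_add, σ.val_map φ hi, τ.val_map φ hi]
      val_eq := fun hi hj => by rw [σ.val_eq hi hj, τ.val_eq hi hj, mul_add] }⟩

instance : SMul K D.Section :=
  ⟨fun a σ =>
    { val := fun hi => a • σ.val hi
      val_map := fun φ _ _ hi => by rw [map_smul, σ.val_map φ hi]
      val_eq := fun hi hj => by rw [σ.val_eq hi hj, mul_smul_comm] }⟩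

@[simp] theorem zero_val {R : Type u} [CommRing R] [Algebra K R] {i : D.ι} {P : A.Pt R}
    (hi : D.In i P) : (0 : D.Section).val hi = 0 := rfl

@[simp] theorem add_val (σ τ : D.Section) {R : Type u} [CommRing R] [Algebra K R] {i : D.ι}
    {P : A.Pt R} (hi : D.In i P) : (σ + τ).val hi = σ.val hi + τ.val hi := rfl

@[simp] theorem smul_val (a : K) (σ : D.Section) {R : Type u} [CommRing R] [Algebra K R]
    {i : D.ι} {P : A.Pt R} (hi : D.In i P) : (a • σ).val hi = a • σ.val hi := rfl

@[simp] theorem mul_val (σ : D.Section) (τ : E.Section) {R : Type u} [CommRing R] [Algebra K R]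
    {i : (D.tensor E).ι} {P : A.Pt R} (hi : (D.tensor E).In i P) :
    (σ.mul τ).val hi = σ.val hi.1 * τ.val hi.2 := rfl

theorem VanishesAt.of_in {σ : D.Section} {R : Type u} [CommRing R] [Algebra K R] {P : A.Pt R}
    {i : D.ι} (hi : D.In i P) (h : σ.val hi = 0) : σ.VanishesAt D P := fun j hj => by
  rw [σ.val_eq hj hi, h, mul_zero]

theorem IsUnitAt.map {σ : D.Section} {R S : Type u} [CommRing R] [Algebra K R] [CommRing S]
    [Algebra K S] (φ : R →ₐ[K] S) {P : A.Pt R} (h : σ.IsUnitAt D P) :
    σ.IsUnitAt D (A.map φ P) := by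
  obtain ⟨i, hi, hu⟩ := h
  exact ⟨i, D.in_map φ i P hi, by rw [← σ.val_map φ hi]; exact hu.map φ⟩

theorem IsUnitAt.of_map {σ : D.Section} {R S : Type u} [CommRing R] [Algebra K R] [CommRing S]
    [Algebra K S] [IsLocalRing R] [IsLocalRing S] (φ : R →ₐ[K] S)
    (hφ : IsLocalHom (φ : R →+* S)) {P : A.Pt R} (h : σ.IsUnitAt D (A.map φ P)) :
    σ.IsUnitAt D P := by
  obtain ⟨i, hi, hu⟩ := h
  refine ⟨i, D.in_reflect φ hφ i P hi, ?_⟩
  rw [← σ.val_map φ (D.in_reflect φ hφ i P hi)] at hu
  exact hφ.map_nonunit _ hu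

theorem IsRatioAt.map {σ τ : D.Section} {R S : Type u} [CommRing R] [Algebra K R] [CommRing S]
    [Algebra K S] [IsLocalRing R] (φ : R →ₐ[K] S) {P : A.Pt R} {r : R}
    (h : σ.IsRatioAt D τ P r) : σ.IsRatioAt D τ (A.map φ P) (φ r) := by
  intro i hi
  obtain ⟨j, hj⟩ := D.exists_in P
  rw [σ.val_eq hi (D.in_map φ j P hj), τ.val_eq hi (D.in_map φ j P hj), ← σ.val_map φ hj,
    ← τ.val_map φ hj, h j hj, map_mul]
  ring

theorem exists_isRatioAt (σ : D.Section) {τ : D.Section} {R : Type u} [CommRing R]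
    [Algebra K R] {P : A.Pt R} (h : τ.IsUnitAt D P) : ∃ r, σ.IsRatioAt D τ P r := by
  obtain ⟨i, hi, u, hu⟩ := h
  refine ⟨σ.val hi * ↑u⁻¹, fun j hj => ?_⟩
  rw [σ.val_eq hj hi, τ.val_eq hj hi, ← hu]
  calc (D.g hj hi : R) * σ.val hi = (D.g hj hi : R) * σ.val hi * (↑u⁻¹ * ↑u) := by
        rw [Units.inv_mul, mul_one]
    _ = _ := by ring

theorem IsRatioAt.eq {σ τ : D.Section} {R : Type u} [CommRing R] [Algebra K R] {P : A.Pt R}
    (h : τ.IsUnitAt D P) {r r' : R} (hr : σ.IsRatioAt D τ P r) (hr' : σ.IsRatioAt D τ P r') :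
    r = r' := by
  obtain ⟨i, hi, hu⟩ := h
  exact hu.mul_right_cancel ((hr i hi).symm.trans (hr' i hi))

end Section

/-- Transport of the transition unit along an equality of points. -/
theorem g_congr (D : LineData A) {R : Type u} [CommRing R] [Algebra K R] {i j : D.ι}
    {P Q : A.Pt R} (h : P = Q) (hi : D.In i P) (hj : D.In j P) :
    D.g hi hj = D.g (h ▸ hi : D.In i Q) (h ▸ hj : D.In j Q) := by
  subst h; rfl

end LineData

end Fermat.Agent.AbelianVariety
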