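/-
The divisor class and the degree of the pullback of a line along a point with values in a function
field of one variable.
-/
import Fermat.Agent.AbelianVariety.Data
import Fermat.Agent.AbelianVariety.LineOps
import Fermat.Agent.Curve.BasicFunctionField
import Fermat.Agent.Curve.BasicInstances

set_option autoImplicit false

noncomputable section

namespace Fermat.Agent.AbelianVariety

open AlgebraicCurve Fermat.Agent.Curve IsLocalRing

universe u

variable {K : Type u} [Field K] {g : ℕ} (A : AVData K g)

namespace AVData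

/-! ### lifting points to valuation rings -/

section Lift

variable {E : Type u} [Field E] [Algebra K E]

/-- The point with values in a valuation ring containing `K` which extends `P`. -/
def liftTo (V : ValuationSubring E) (hV : ∀ a : K, algebraMap K E a ∈ V) (P : A.Pt E) :
    letI := valuationAlgebra V hV
    A.Pt V :=
  letI := valuationAlgebra V hV
  ((A.valuative E V hV).2 P).choose

theorem map_liftTo (V : ValuationSubring E) (hV : ∀ a : K, algebraMap K E a ∈ V) (P : A.Pt E) :
    letI := valuationAlgebra V hV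
    A.map (valuationIncl V hV) (A.liftTo V hV P) = P :=
  letI := valuationAlgebra V hV
  ((A.valuative E V hV).2 P).choose_spec

theorem eq_liftTo (V : ValuationSubring E) (hV : ∀ a : K, algebraMap K E a ∈ V) (P : A.Pt E) :
    letI := valuationAlgebra V hV
    ∀ Q : A.Pt V, A.map (valuationIncl V hV) Q = P → Q = A.liftTo V hV P := by
  letI := valuationAlgebra V hV
  intro Q hQ
  exact (A.valuative E V hV).1 (hQ.trans (A.map_liftTo V hV P).symm)

theorem liftTo_add (V : ValuationSubring E) (hV : ∀ a : K, algebraMap K E a ∈ V)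
    (P Q : A.Pt E) :
    letI := valuationAlgebra V hV
    A.liftTo V hV (P + Q) = A.liftTo V hV P + A.liftTo V hV Q := by
  letI := valuationAlgebra V hV
  exact (A.eq_liftTo V hV _ _ (by rw [map_add, A.map_liftTo, A.map_liftTo])).symm

end Lift

/-! ### charts at a valuation ring -/

variable (D : LineData A.toPointFunctor)

/-- The lift of `P` to `V` lies in the chart `i`. -/
def InAt {E : Type u} [Field E] [Algebra K E] (i : D.ι) (V : ValuationSubring E)
    (hV : ∀ a : K, algebraMap K E a ∈ V) (P : A.Pt E) : Prop :=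
  letI := valuationAlgebra V hV
  D.In i (A.liftTo V hV P)

variable {A D}

theorem exists_inAt {E : Type u} [Field E] [Algebra K E] (V : ValuationSubring E)
    (hV : ∀ a : K, algebraMap K E a ∈ V) (P : A.Pt E) : ∃ i, A.InAt D i V hV P :=
  letI := valuationAlgebra V hV
  D.exists_in (A.liftTo V hV P)

theorem InAt.in_point {E : Type u} [Field E] [Algebra K E] {i : D.ι} {V : ValuationSubring E}
    {hV : ∀ a : K, algebraMap K E a ∈ V} {P : A.Pt E} (h : A.InAt D i V hV P) : D.In i P := by
  letI := valuationAlgebra V hV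
  have := D.in_map (valuationIncl V hV) i _ h
  rwa [A.map_liftTo] at this

/-- A transition unit between two charts at `V` is a unit of `V`. -/
theorem InAt.exists_unit {E : Type u} [Field E] [Algebra K E] {i j : D.ι}
    {V : ValuationSubring E} {hV : ∀ a : K, algebraMap K E a ∈ V} {P : A.Pt E}
    (hi : A.InAt D i V hV P) (hj : A.InAt D j V hV P) :
    ∃ w : Vˣ, ((w : V) : E) = (D.g hi.in_point hj.in_point : Eˣ) := by
  letI := valuationAlgebra V hV
  refine ⟨D.g hi hj, ?_⟩
  refine (D.g_map (valuationIncl V hV) hi hj).trans ?_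
  congr! 2
  exact A.map_liftTo V hV P

theorem InAt.map {E E' : Type u} [Field E] [Algebra K E] [Field E'] [Algebra K E']
    (φ : E →ₐ[K] E') {i : D.ι} {V : ValuationSubring E} {hV : ∀ a : K, algebraMap K E a ∈ V}
    {W : ValuationSubring E'} (hW : ∀ a : K, algebraMap K E' a ∈ W)
    (hφ : ∀ x ∈ V, φ x ∈ W) {P : A.Pt E} (h : A.InAt D i V hV P) :
    A.InAt D i W hW (A.map φ P) := by
  letI := valuationAlgebra V hV
  letI := valuationAlgebra W hW
  let ψ : V →ₐ[K] W :=
    { toFun := fun x => ⟨φ x, hφ x x.2⟩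
      map_one' := Subtype.ext (map_one φ)
      map_mul' := fun x y => Subtype.ext (map_mul φ _ _)
      map_zero' := Subtype.ext (map_zero φ)
      map_add' := fun x y => Subtype.ext (map_add φ _ _)
      commutes' := fun a => Subtype.ext (φ.commutes a) }
  have h1 : A.map (valuationIncl W hW) (A.map ψ (A.liftTo V hV P)) = A.map φ P := by
    rw [A.toPointFunctor.map_map]
    conv_rhs => rw [← A.map_liftTo V hV P, A.toPointFunctor.map_map]
    rfl
  have h2 := D.in_map ψ i _ h
  rw [A.eq_liftTo W hW _ _ h1] at h2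
  exact h2

end AVData

/-! ### the divisor -/

variable {k : Type u} [Field k] [Algebra K k] {E : Type u} [Field E] [Algebra K E] [Algebra k E]
  [IsScalarTower K k E]

theorem base_mem_place (v : Place k E) (a : K) : algebraMap K E a ∈ v.toValuationSubring := by
  rw [IsScalarTower.algebraMap_apply K k E]
  exact v.algebraMap_mem' _

namespace AVData

variable {A} (D : LineData A.toPointFunctor)

/-- The point `P` extended to the place `v` lies in the chart `i`. -/
def InPlace (i : D.ι) (v : Place k E) (P : A.Pt E) : Prop :=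
  A.InAt D i v.toValuationSubring (base_mem_place v) P

variable (A) in
/-- The order at `v` of the pullback of `D` along `P`, in the frame `i₀`. -/
def lineOrd {i₀ : D.ι} {P : A.Pt E} (h₀ : D.In i₀ P) (v : Place k E) : ℤ :=
  v.ord (D.g h₀ (exists_inAt v.toValuationSubring (base_mem_place v) P).choose_spec.in_point : Eˣ)

variable {D}

theorem InPlace.in_point {i : D.ι} {v : Place k E} {P : A.Pt E} (h : InPlace D i v P) :
    D.In i P :=
  InAt.in_point h

theorem InPlace.ord_g {i j : D.ι} {v : Place k E} {P : A.Pt E} (hi : InPlace D i v P)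
    (hj : InPlace D j v P) : v.ord (D.g hi.in_point hj.in_point : Eˣ) = 0 := by
  obtain ⟨w, hw⟩ := InAt.exists_unit hi hj
  rw [← hw]
  exact v.ord_coe_unit w

theorem lineOrd_eq {i₀ i : D.ι} {P : A.Pt E} (h₀ : D.In i₀ P) {v : Place k E}
    (hi : InPlace D i v P) : A.lineOrd D h₀ v = v.ord (D.g h₀ hi.in_point : Eˣ) := by
  have hj : InPlace D _ v P :=
    (exists_inAt v.toValuationSubring (base_mem_place v) P).choose_spec
  rw [lineOrd, ← D.g_cocycle h₀ hi.in_point hj.in_point, Units.val_mul,
    v.ord_mul (Units.ne_zero _) (Units.ne_zero _), hi.ord_g hj, add_zero]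

theorem lineOrd_change {i₀ i₁ : D.ι} {P : A.Pt E} (h₀ : D.In i₀ P) (h₁ : D.In i₁ P)
    (v : Place k E) :
    A.lineOrd D h₀ v = v.ord (D.g h₀ h₁ : Eˣ) + A.lineOrd D h₁ v := by
  obtain ⟨i, hi⟩ := exists_inAt (A := A) (D := D) v.toValuationSubring (base_mem_place v) P
  rw [lineOrd_eq h₀ (i := i) hi, lineOrd_eq h₁ (i := i) hi,
    ← v.ord_mul (Units.ne_zero _) (Units.ne_zero _), ← Units.val_mul, D.g_cocycle]

variable [IsFunctionFieldOne k E]

theorem finite_not_inPlace {i : D.ι} {P : A.Pt E} (h : D.In i P) :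
    {v : Place k E | ¬ InPlace D i v P}.Finite := by
  obtain ⟨s, hs⟩ := D.in_spread P i h
  have hfin : (⋃ x ∈ s, {v : Place k E | v.ord x ≠ 0}).Finite :=
    s.finite_toSet.biUnion fun x _ => finite_setOf_ord_ne_zero (K := k) x
  refine hfin.subset fun v hv => ?_
  by_contra hc
  simp only [Set.mem_iUnion, not_exists] at hc
  apply hv
  refine hs v.toValuationSubring (base_mem_place v) (fun x hx => ?_) _ (A.map_liftTo _ _ _)
  exact mem_of_ord_nonneg v (by
    have := hc x hx
    simp only [Set.mem_setOf_eq, not_not] at this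
    omega)

theorem finite_lineOrd_ne_zero {i₀ : D.ι} {P : A.Pt E} (h₀ : D.In i₀ P) :
    {v : Place k E | A.lineOrd D h₀ v ≠ 0}.Finite := by
  refine (finite_not_inPlace (k := k) h₀).subset fun v hv hin => hv ?_
  rw [lineOrd_eq h₀ hin, D.g_self, Units.val_one, v.ord_one]

variable (A D k) in
/-- The divisor of the pullback of `D` along `P`, in the frame `i₀`. -/
def lineDiv {i₀ : D.ι} {P : A.Pt E} (h₀ : D.In i₀ P) : Divisor k E :=
  Finsupp.ofSupportFinite (A.lineOrd D h₀) (finite_lineOrd_ne_zero h₀)

@[simp]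
theorem lineDiv_apply {i₀ : D.ι} {P : A.Pt E} (h₀ : D.In i₀ P) (v : Place k E) :
    A.lineDiv k D h₀ v = A.lineOrd D h₀ v := rfl

theorem lineDiv_sub_mem_principal {i₀ i₁ : D.ι} {P : A.Pt E} (h₀ : D.In i₀ P)
    (h₁ : D.In i₁ P) :
    A.lineDiv k D h₀ - A.lineDiv k D h₁ ∈ Divisor.principal (K := k) (F := E) :=
  ⟨(D.g h₀ h₁ : Eˣ), Units.ne_zero _, fun v => by
    rw [Finsupp.sub_apply, lineDiv_apply, lineDiv_apply, lineOrd_change h₀ h₁]; ring⟩

variable (A D k) in
/-- The class of the pullback of `D` along `P`. -/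
def lineClass (P : A.Pt E) : Pic k E :=
  QuotientAddGroup.mk (A.lineDiv k D (D.exists_in P).choose_spec)

theorem lineClass_eq {i₀ : D.ι} {P : A.Pt E} (h₀ : D.In i₀ P) :
    A.lineClass k D P = QuotientAddGroup.mk (A.lineDiv k D h₀) :=
  (QuotientAddGroup.eq_iff_sub_mem).mpr (lineDiv_sub_mem_principal _ h₀)

theorem degree_eq_zero_of_mem_principal {X : Divisor k E}
    (hX : X ∈ Divisor.principal (K := k) (F := E)) : Divisor.degree X = 0 := by
  obtain ⟨f, -, hf⟩ := hX
  rw [show X = divisorOf k f from Finsupp.ext fun v => by rw [hf v, divisorOf_apply]]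
  exact degree_divisorOf f

variable (k E) in
/-- The degree of a divisor class. -/
def picDegree : Pic k E →+ ℤ :=
  QuotientAddGroup.lift _ Divisor.degree fun _ hX => degree_eq_zero_of_mem_principal hX

@[simp]
theorem picDegree_mk (X : Divisor k E) :
    picDegree k E (QuotientAddGroup.mk X) = Divisor.degree X := rfl

variable (A D k) in
/-- The degree of the pullback of `D` along `P`. -/
def lineDeg (P : A.Pt E) : ℤ := picDegree k E (A.lineClass k D P)

theorem lineDeg_eq {i₀ : D.ι} {P : A.Pt E} (h₀ : D.In i₀ P) :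
    A.lineDeg k D P = Divisor.degree (A.lineDiv k D h₀) := by
  rw [lineDeg, lineClass_eq h₀, picDegree_mk]

theorem lineClass_tensor (D₁ D₂ : LineData A.toPointFunctor) (P : A.Pt E) :
    A.lineClass k (D₁.tensor D₂) P = A.lineClass k D₁ P + A.lineClass k D₂ P := by
  obtain ⟨i, hi⟩ := D₁.exists_in P
  obtain ⟨j, hj⟩ := D₂.exists_in P
  rw [lineClass_eq (D := D₁.tensor D₂) (i₀ := (i, j)) ⟨hi, hj⟩, lineClass_eq hi, lineClass_eq hj,
    ← QuotientAddGroup.mk_add]
  congr 1
  refine Finsupp.ext fun v => ?_
  obtain ⟨i', hi'⟩ := exists_inAt (A := A) (D := D₁) v.toValuationSubring (base_mem_place v) P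
  obtain ⟨j', hj'⟩ := exists_inAt (A := A) (D := D₂) v.toValuationSubring (base_mem_place v) P
  rw [Finsupp.add_apply, lineDiv_apply, lineDiv_apply, lineDiv_apply,
    lineOrd_eq (D := D₁.tensor D₂) (i := (i', j')) _ ⟨hi', hj'⟩,
    lineOrd_eq hi (i := i') hi', lineOrd_eq hj (i := j') hj',
    ← v.ord_mul (Units.ne_zero _) (Units.ne_zero _), ← Units.val_mul]
  rfl

theorem lineDeg_tensor (D₁ D₂ : LineData A.toPointFunctor) (P : A.Pt E) :
    A.lineDeg k (D₁.tensor D₂) P = A.lineDeg k D₁ P + A.lineDeg k D₂ P := by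
  simp only [lineDeg, lineClass_tensor, map_add]

theorem lineClass_trivial (P : A.Pt E) :
    A.lineClass k (LineData.trivial A.toPointFunctor) P = 0 := by
  rw [lineClass_eq (D := LineData.trivial A.toPointFunctor) (i₀ := PUnit.unit) trivial]
  refine (QuotientAddGroup.eq_zero_iff _).mpr ?_
  convert (Divisor.principal (K := k) (F := E)).zero_mem
  refine Finsupp.ext fun v => ?_
  rw [lineDiv_apply, Finsupp.zero_apply,
    lineOrd_eq (D := LineData.trivial A.toPointFunctor) (i := PUnit.unit) _ ⟨⟩]
  exact v.ord_one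

theorem lineDeg_pow (P : A.Pt E) (m : ℕ) :
    A.lineDeg k (D.pow m) P = m * A.lineDeg k D P := by
  induction m with
  | zero => simp [LineData.pow, lineDeg, lineClass_trivial]
  | succ m ih => rw [LineData.pow, lineDeg_tensor, ih]; push_cast; ring

theorem lineDeg_pullback (h : NatMap A.toPointFunctor) (P : A.Pt E) :
    A.lineDeg k (D.pullback h) P = A.lineDeg k D (h.app P) := by
  obtain ⟨i, hi⟩ := D.exists_in (h.app P)
  rw [lineDeg_eq (D := D.pullback h) (i₀ := i) hi, lineDeg_eq hi]
  congr 1
  refine Finsupp.ext fun v => ?_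
  obtain ⟨j, hj⟩ := exists_inAt (A := A) (D := D.pullback h) v.toValuationSubring
    (base_mem_place v) P
  have hj' : InPlace D j v (h.app P) := by
    letI := valuationAlgebra v.toValuationSubring (base_mem_place (K := K) v)
    show D.In j _
    rw [← A.eq_liftTo _ (base_mem_place v) (h.app P)
      (h.app (A.liftTo v.toValuationSubring (base_mem_place v) P))
      (by rw [h.app_map, A.map_liftTo])]
    exact hj
  rw [lineDiv_apply, lineDiv_apply, lineOrd_eq (D := D.pullback h) (i := j) _ hj,
    lineOrd_eq hi hj']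
  rfl

/-! ### sections -/

/-- A section non-vanishing at `P` has at most as many zeros as the degree of the line. -/
theorem lineOrd_le_ord_val (σ : D.Section) {i₀ i : D.ι} {P : A.Pt E} (h₀ : D.In i₀ P)
    {v : Place k E} (hi : InPlace D i v P) (hσ : σ.val h₀ ≠ 0) :
    A.lineOrd D h₀ v ≤ v.ord (σ.val h₀) := by
  letI := valuationAlgebra v.toValuationSubring (base_mem_place (K := K) v)
  have h1 : σ.val hi.in_point ≠ 0 := fun h => hσ (by rw [σ.val_eq h₀ hi.in_point, h, mul_zero])
  have h2 : 0 ≤ v.ord (σ.val hi.in_point) := by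
    have h3 : (valuationIncl v.toValuationSubring (base_mem_place (K := K) v))
        (σ.val (i := i) (show D.In i _ from hi)) = σ.val hi.in_point := by
      refine (σ.val_map _ _).trans ?_
      congr! 1
      exact A.map_liftTo _ _ P
    rw [← h3]
    exact ord_nonneg_of_mem v (Subtype.mem _)
  rw [lineOrd_eq h₀ hi, σ.val_eq h₀ hi.in_point, v.ord_mul (Units.ne_zero _) h1]
  omega

end AVData

end Fermat.Agent.AbelianVariety
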