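/-
The value of a field-valued point at a rational place.
-/
import Fermat.Agent.AbelianVariety.CurveDivisor
import Fermat.Agent.Curve.ConstExtBasic

set_option autoImplicit false

noncomputable section

namespace Fermat.Agent.AbelianVariety

open AlgebraicCurve Fermat.Agent.Curve IsLocalRing

universe u

variable {K : Type u} [Field K] {g : ℕ} (A : AVData K g)
variable {k : Type u} [Field k] [Algebra K k] {E : Type u} [Field E] [Algebra K E] [Algebra k E]
  [IsScalarTower K k E] [IsAlgClosed k] [IsFunctionFieldOne k E]

/-- Evaluation at a place, as a `K`-algebra map. -/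
def placeEval (v : Place k E) :
    letI := valuationAlgebra v.toValuationSubring (base_mem_place (K := K) v)
    v.toValuationSubring →ₐ[K] k :=
  letI := valuationAlgebra v.toValuationSubring (base_mem_place (K := K) v)
  { (constResidue v).toRingHom with
    commutes' := fun a => by
      have h : (algebraMap K v.toValuationSubring a) =
          algebraMap k v.toValuationSubring (algebraMap K k a) :=
        Subtype.ext (IsScalarTower.algebraMap_apply K k E a)
      show constResidue v _ = _
      rw [h, constResidue_algebraMap] }

theorem placeEval_apply (v : Place k E) (x : v.toValuationSubring) :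
    letI := valuationAlgebra v.toValuationSubring (base_mem_place (K := K) v)
    placeEval (K := K) v x = constResidue v x := rfl

theorem isLocalHom_placeEval (v : Place k E) :
    letI := valuationAlgebra v.toValuationSubring (base_mem_place (K := K) v)
    IsLocalHom ((placeEval (K := K) v : v.toValuationSubring →ₐ[K] k) :
      v.toValuationSubring →+* k) := by
  letI := valuationAlgebra v.toValuationSubring (base_mem_place (K := K) v)
  exact ⟨fun x hx => (constResidue_ne_zero_iff v x).mp hx.ne_zero⟩

namespace AVData

/-- The value of the point `Q` at the place `v`. -/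
def valueAt (v : Place k E) (Q : A.Pt E) : A.Pt k :=
  letI := valuationAlgebra v.toValuationSubring (base_mem_place (K := K) v)
  A.map (placeEval v) (A.liftTo v.toValuationSubring (base_mem_place v) Q)

theorem valueAt_add (v : Place k E) (Q Q' : A.Pt E) :
    A.valueAt v (Q + Q') = A.valueAt v Q + A.valueAt v Q' := by
  letI := valuationAlgebra v.toValuationSubring (base_mem_place (K := K) v)
  rw [valueAt, valueAt, valueAt, A.liftTo_add, map_add]

variable {A}

theorem inPlace_of_in_valueAt {D : LineData A.toPointFunctor} {i : D.ι} {v : Place k E}
    {Q : A.Pt E} (h : D.In i (A.valueAt v Q)) : InPlace D i v Q := by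
  letI := valuationAlgebra v.toValuationSubring (base_mem_place (K := K) v)
  exact D.in_reflect (placeEval v) (isLocalHom_placeEval v) i _ h

theorem InPlace.in_valueAt {D : LineData A.toPointFunctor} {i : D.ι} {v : Place k E}
    {Q : A.Pt E} (h : InPlace D i v Q) : D.In i (A.valueAt v Q) := by
  letI := valuationAlgebra v.toValuationSubring (base_mem_place (K := K) v)
  exact D.in_map (placeEval v) i _ h

/-- Transition units evaluate to the transition units at the value. -/
theorem constResidue_g {D : LineData A.toPointFunctor} {i j : D.ι} {v : Place k E} {Q : A.Pt E}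
    (hi : InPlace D i v Q) (hj : InPlace D j v Q) :
    ∃ h : ((D.g hi.in_point hj.in_point : Eˣ) : E) ∈ v.toValuationSubring,
      constResidue v ⟨_, h⟩ = ((D.g hi.in_valueAt hj.in_valueAt : kˣ) : k) := by
  letI := valuationAlgebra v.toValuationSubring (base_mem_place (K := K) v)
  have h1 : valuationIncl v.toValuationSubring (base_mem_place (K := K) v)
      (D.g (i := i) (j := j) (show D.In i _ from hi) hj : (v.toValuationSubring)ˣ) =
        ((D.g hi.in_point hj.in_point : Eˣ) : E) := by
    refine (D.g_map _ _ _).trans ?_
    congr! 2
    exact A.map_liftTo _ _ Q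
  refine ⟨by rw [← h1]; exact Subtype.mem _, ?_⟩
  have h2 := D.g_map (placeEval (K := K) v) (show D.In i _ from hi)
    (show D.In j (A.liftTo _ _ Q) from hj)
  refine Eq.trans ?_ h2
  rw [placeEval_apply]
  exact congrArg _ (Subtype.ext h1.symm)

/-- The value at a place of a point which extends to a subring mapping to the place. -/
theorem valueAt_of_hom {R : Type u} [CommRing R] [Algebra K R] (v : Place k E) (P : A.Pt R)
    (φ : R →ₐ[K] E) (hφ : ∀ x, φ x ∈ v.toValuationSubring) (ψ : R →ₐ[K] k)
    (hψ : ∀ x, constResidue v ⟨φ x, hφ x⟩ = ψ x) :
    A.valueAt v (A.map φ P) = A.map ψ P := by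
  letI := valuationAlgebra v.toValuationSubring (base_mem_place (K := K) v)
  let φ' : R →ₐ[K] v.toValuationSubring :=
    { toFun := fun x => ⟨φ x, hφ x⟩
      map_one' := Subtype.ext (map_one φ)
      map_mul' := fun x y => Subtype.ext (map_mul φ x y)
      map_zero' := Subtype.ext (map_zero φ)
      map_add' := fun x y => Subtype.ext (map_add φ x y)
      commutes' := fun a => Subtype.ext (φ.commutes a) }
  have h1 : A.map (valuationIncl v.toValuationSubring (base_mem_place v)) (A.map φ' P) =
      A.map φ P := by
    rw [A.toPointFunctor.map_map]
    rfl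
  rw [valueAt, ← A.eq_liftTo _ _ _ _ h1, A.toPointFunctor.map_map]
  exact congrArg (fun χ : R →ₐ[K] k => A.map χ P) (AlgHom.ext hψ)

/-- A constant point has its own value at every place. -/
theorem valueAt_map_const (v : Place k E) (y : A.Pt k) :
    A.valueAt v (A.map (IsScalarTower.toAlgHom K k E) y) = y := by
  refine (A.valueAt_of_hom v y _ (fun x => v.algebraMap_mem' x) (AlgHom.id K k)
    (fun x => constResidue_algebraMap v x)).trans (A.map_id k y)

end AVData

end Fermat.Agent.AbelianVariety
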