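/-
Specialisation of the constants of a curve: the reduction map on places fixes the places of the
curve, commutes with evaluation of points, and carries the class of a pullback of a line to the
class of the pullback along the specialised point.
-/
import Fermat.Agent.AbelianVariety.PlaceValue
import Fermat.Agent.AbelianVariety.GaussConst
import Fermat.Agent.AbelianVariety.CurveRiemann
import Fermat.Agent.Curve.ReductionMap
import Fermat.Agent.Curve.ConstExtPlace

set_option autoImplicit false

noncomputable section

namespace Fermat.Agent.AbelianVariety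

open AlgebraicCurve Fermat.Agent.Curve IsLocalRing

universe u

/-- A specialisation of constants: a valuation ring of `L` containing `k`, with residue map to
`κ`. -/
structure ConstRed (k L κ : Type u) [Field k] [Field L] [Field κ] [Algebra k L] [Algebra k κ] where
  /-- the valuation ring -/
  ring : ValuationSubring L
  mem : ∀ a : k, algebraMap k L a ∈ ring
  /-- the residue map -/
  π : ring →+* κ
  surj : Function.Surjective π
  comm : ∀ a : k, π ⟨algebraMap k L a, mem a⟩ = algebraMap k κ a

/-- Equality of the residue with a constant, in terms of the valuation. -/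
theorem constResidue_eq_iff {k F : Type*} [Field k] [Field F] [Algebra k F] [IsAlgClosed k]
    [IsCurveOver k F] (v : Place k F) (x : v.toValuationSubring) (c : k) :
    constResidue v x = c ↔ v.adicValuation ((x : F) - algebraMap k F c) < 1 := by
  have h : ∀ z : v.toValuationSubring, z ∈ maximalIdeal v.toValuationSubring ↔
      v.adicValuation (z : F) < 1 := by
    intro z
    rw [mem_maximalIdeal, mem_nonunits_iff, ← v.adicValuation_coe_eq_one_iff]
    refine ⟨fun hne => lt_of_le_of_ne ?_ hne, fun hlt => hlt.ne⟩
    rw [v.adicValuation_coe]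
    exact v.heightOneSpectrum.intValuation_le_one _
  have h2 : constResidue v x = c ↔ constResidue v (x - algebraMap k v.toValuationSubring c) = 0 := by
    rw [map_sub, constResidue_algebraMap, sub_eq_zero]
  rw [h2, constResidue_eq_zero_iff, h]
  rfl

variable {K : Type u} [Field K] {g : ℕ} (A : AVData K g)
variable {k F L E κ Eb : Type u} [Field k] [Field F] [Field L] [Field E] [Field κ] [Field Eb]
  [Algebra k F] [Algebra k L] [Algebra k E] [Algebra F E] [Algebra L E]
  [IsScalarTower k F E] [IsScalarTower k L E]
  [Algebra k κ] [Algebra k Eb] [Algebra F Eb] [Algebra κ Eb]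
  [IsScalarTower k F Eb] [IsScalarTower k κ Eb]

namespace AVData

variable [Algebra K F] [Algebra K L] [Algebra K E] [IsScalarTower K F E] [IsScalarTower K L E]

variable (E) in
/-- The point of the curve extended to `L`, translated by the constant point `y`. -/
def curvePoint (P₀ : A.Pt F) (y : A.Pt L) : A.Pt E :=
  A.map (IsScalarTower.toAlgHom K F E) P₀ + A.map (IsScalarTower.toAlgHom K L E) y

theorem valueAt_curvePoint [IsAlgClosed L] [IsFunctionFieldOne L E] (P₀ : A.Pt F) (y : A.Pt L)
    (v : Place L E) :
    A.valueAt v (A.curvePoint E P₀ y) =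
      A.valueAt v (A.map (IsScalarTower.toAlgHom K F E) P₀) + y := by
  rw [curvePoint, A.valueAt_add, A.valueAt_map_const]

end AVData

namespace ConstRed

section Constants

variable [Algebra K k] [Algebra K L] [Algebra K κ] [IsScalarTower K k L] [IsScalarTower K k κ]
  (R : ConstRed k L κ)

theorem memK (a : K) : algebraMap K L a ∈ R.ring := by
  rw [IsScalarTower.algebraMap_apply K k L]; exact R.mem _

variable (K) in
/-- The residue map over `K`. -/
def πK :
    letI := valuationAlgebra R.ring (R.memK (K := K))
    R.ring →ₐ[K] κ :=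
  letI := valuationAlgebra R.ring (R.memK (K := K))
  { R.π with
    commutes' := fun a => by
      show R.π _ = _
      rw [IsScalarTower.algebraMap_apply K k κ, ← R.comm]
      exact congrArg R.π (Subtype.ext (IsScalarTower.algebraMap_apply K k L a)) }

/-- The specialisation of a point of `L`. -/
def redPoint (y : A.Pt L) : A.Pt κ :=
  letI := valuationAlgebra R.ring (R.memK (K := K))
  A.map (R.πK K) (A.liftTo R.ring (R.memK (K := K)) y)

theorem redPoint_add (y y' : A.Pt L) :
    R.redPoint A (y + y') = R.redPoint A y + R.redPoint A y' := by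
  letI := valuationAlgebra R.ring (R.memK (K := K))
  rw [redPoint, redPoint, redPoint, A.liftTo_add, map_add]

end Constants

variable [IsConstExt k F L E] [IsConstExt k F κ Eb] [IsAlgClosed k] [IsAlgClosed L]
  [IsAlgClosed κ] [IsFunctionFieldOne k F] [IsFunctionFieldOne L E] [IsFunctionFieldOne κ Eb]
variable (R : ConstRed k L κ)

theorem π_eq_zero {a : R.ring} (ha : ¬ IsUnit a) : R.π a = 0 := by
  haveI := RingHom.ker_isMaximal_of_surjective R.π R.surj
  rw [← RingHom.mem_ker, IsLocalRing.eq_maximalIdeal (I := RingHom.ker R.π) inferInstance]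
  exact ha

theorem isLocalHom_π : IsLocalHom R.π :=
  ⟨fun a ha => by_contra fun h => ha.ne_zero (R.π_eq_zero h)⟩

variable (F E Eb) in
/-- The good reduction attached to a specialisation of constants. -/
def good : GoodReduction R.ring E κ Eb :=
  letI := valuationAlgebra (K := k) R.ring R.mem
  haveI : IsScalarTower k R.ring L := IsScalarTower.of_algebraMap_eq fun _ => rfl
  GaussConst.goodReduction F E Eb R.ring { R.π with commutes' := R.comm } R.surj
    (fun _ ha => R.π_eq_zero ha)

theorem base_mem_V (f : F) : algebraMap F E f ∈ (R.good F E Eb).V := by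
  letI := valuationAlgebra (K := k) R.ring R.mem
  haveI : IsScalarTower k R.ring L := IsScalarTower.of_algebraMap_eq fun _ => rfl
  exact GaussConst.algebraMap_base_mem R.ring _ f

theorem φ_base (f : F) :
    (R.good F E Eb).φ ⟨algebraMap F E f, R.base_mem_V f⟩ = algebraMap F Eb f := by
  letI := valuationAlgebra (K := k) R.ring R.mem
  haveI : IsScalarTower k R.ring L := IsScalarTower.of_algebraMap_eq fun _ => rfl
  exact GaussConst.gaussHom_base R.ring _ f

theorem const_mem_V (a : R.ring) : algebraMap L E (a : L) ∈ (R.good F E Eb).V :=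
  ((R.good F E Eb).mem_V_iff a).2 a.2

theorem φ_const (a : R.ring) :
    (R.good F E Eb).φ ⟨algebraMap L E (a : L), R.const_mem_V a⟩ = algebraMap κ Eb (R.π a) :=
  (R.good F E Eb).φ_algebraMap a

variable (F E Eb) in
/-- The reduction of places. -/
def placeMap : Place L E → Place κ Eb := (R.good F E Eb).placeMap

/-- The places of the curve are fixed. -/
theorem placeMap_placeExt (v : Place k F) :
    R.placeMap F E Eb (placeExt L E v) = placeExt κ Eb v := by
  classical
  obtain ⟨f, hf, hneg, hpos⟩ := Riemann.exists_single_pole v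
  have hfE : algebraMap F E f ≠ 0 := (map_ne_zero _).mpr hf
  let D : Divisor L E := divisorOf L (algebraMap F E f)
  have hφ : (R.good F E Eb).φ ⟨_, R.base_mem_V f⟩ ≠ 0 := by
    rw [R.φ_base]; exact (map_ne_zero _).mpr hf
  have h := (R.good F E Eb).divMap_apply_eq_ord ⟨_, R.base_mem_V f⟩ hφ
    (D := D) (fun P => divisorOf_apply _ _) (placeExt κ Eb v)
  rw [R.φ_base, ord_placeExt] at h
  by_contra hne
  have hge : 0 ≤ (R.good F E Eb).divMap D (placeExt κ Eb v) := by
    rw [GoodReduction.divMap_apply, Finsupp.mapDomain, Finsupp.sum_apply]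
    refine Finset.sum_nonneg fun P _ => ?_
    simp only [Finsupp.single_apply]
    split_ifs with hP
    · rw [show D P = P.ord (algebraMap F E f) from rfl]
      rcases exists_eq_placeExt_or (K := k) (F := F) P with ⟨w, rfl⟩ | hw
      · rw [ord_placeExt]
        exact hpos w fun hwv => hne (hwv ▸ hP)
      · rw [ord_algebraMap_eq_zero_of_forall_mem hw]
    · exact le_rfl
  rw [h] at hge
  omega

/-- Functions of the base curve: values specialise. -/
theorem value_base (P : Place L E) (f : F)
    (h : algebraMap F Eb f ∈ (R.placeMap F E Eb P).toValuationSubring) :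
    ∃ (h₁ : algebraMap F E f ∈ P.toValuationSubring)
      (h₂ : constResidue P ⟨_, h₁⟩ ∈ R.ring),
      R.π ⟨_, h₂⟩ = constResidue (R.placeMap F E Eb P) ⟨_, h⟩ := by
  have hall : ∀ P' : Place L E, R.placeMap F E Eb P' = R.placeMap F E Eb P →
      0 ≤ P'.ord (algebraMap F E f) := by
    intro P' hP'
    rcases exists_eq_placeExt_or (K := k) (F := F) P' with ⟨w, rfl⟩ | hw
    · rw [R.placeMap_placeExt] at hP'
      have := ord_nonneg_of_mem _ h
      rw [← hP', ord_placeExt] at this
      rw [ord_placeExt]
      exact this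
    · rw [ord_algebraMap_eq_zero_of_forall_mem hw]
  have h₁ : algebraMap F E f ∈ P.toValuationSubring := mem_of_ord_nonneg P (hall P rfl)
  refine ⟨h₁, ?_⟩
  obtain ⟨h₂, h₃⟩ := (R.good F E Eb).residue_compat P ⟨_, R.base_mem_V f⟩ hall
    (c := constResidue P ⟨_, h₁⟩) ((constResidue_eq_iff P ⟨_, h₁⟩ _).mp rfl)
  refine ⟨h₂, ((constResidue_eq_iff _ _ _).mpr ?_).symm⟩
  rw [R.φ_base] at h₃
  exact h₃

section Classes

variable (F E Eb) in
/-- Reduction on divisor classes. -/
def redPic : Pic L E →+ Pic κ Eb :=
  QuotientAddGroup.map _ _ (R.good F E Eb).divMap fun _ hX =>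
    (R.good F E Eb).divMap_mem_principal hX

theorem redPic_mk (X : Divisor L E) :
    R.redPic F E Eb (QuotientAddGroup.mk X) = QuotientAddGroup.mk ((R.good F E Eb).divMap X) :=
  rfl

theorem picDegree_redPic (c : Pic L E) :
    AVData.picDegree κ Eb (R.redPic F E Eb c) = AVData.picDegree L E c := by
  induction c using QuotientAddGroup.induction_on with
  | H X => rw [redPic_mk, AVData.picDegree_mk, AVData.picDegree_mk, GoodReduction.degree_divMap]

theorem divMap_divExt (X : Divisor k F) :
    (R.good F E Eb).divMap (divExt L E X) = divExt κ Eb X := by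
  induction X using Finsupp.induction with
  | zero => simp
  | single_add v n X _ _ ih =>
    rw [map_add, map_add, map_add, ih, divExt_single, divExt_single,
      GoodReduction.divMap_single]
    exact congrArg (· + _) (congrArg (Finsupp.single · n) (R.placeMap_placeExt v))

end Classes

/-! ### points -/

variable [Algebra K k] [Algebra K F] [Algebra K L] [Algebra K E] [Algebra K κ] [Algebra K Eb]
  [IsScalarTower K k L] [IsScalarTower K k κ] [IsScalarTower K F E] [IsScalarTower K L E]
  [IsScalarTower K F Eb] [IsScalarTower K κ Eb]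

/-- Values of points of the curve specialise. -/
theorem redPoint_valueAt (P₀ : A.Pt F) (y : A.Pt L) (P : Place L E) :
    R.redPoint A (A.valueAt P (A.curvePoint E P₀ y)) =
      A.valueAt (R.placeMap F E Eb P) (A.curvePoint Eb P₀ (R.redPoint A y)) := by
  rw [A.valueAt_curvePoint, A.valueAt_curvePoint, R.redPoint_add]
  congr 1
  letI := valuationAlgebra R.ring (R.memK (K := K))
  let B : ValuationSubring F :=
    (R.placeMap F E Eb P).toValuationSubring.comap (algebraMap F Eb)
  have hB : ∀ a : K, algebraMap K F a ∈ B := fun a => by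
    rw [ValuationSubring.mem_comap, ← IsScalarTower.algebraMap_apply K F Eb]
    exact base_mem_place _ a
  letI := valuationAlgebra B hB
  have hb : ∀ x : B, algebraMap F Eb (x : F) ∈ (R.placeMap F E Eb P).toValuationSubring :=
    fun x => ValuationSubring.mem_comap.mp x.2
  choose h₁ h₂ h₃ using fun x : B => R.value_base P (x : F) (hb x)
  let χ : B →ₐ[K] E :=
    (IsScalarTower.toAlgHom K F E).comp (valuationIncl B hB)
  let χb : B →ₐ[K] Eb :=
    (IsScalarTower.toAlgHom K F Eb).comp (valuationIncl B hB)
  letI := valuationAlgebra P.toValuationSubring (base_mem_place (K := K) P)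
  letI := valuationAlgebra (R.placeMap F E Eb P).toValuationSubring
    (base_mem_place (K := K) (R.placeMap F E Eb P))
  let χP : B →ₐ[K] P.toValuationSubring :=
    { toFun := fun x => ⟨χ x, h₁ x⟩
      map_one' := Subtype.ext (map_one χ)
      map_mul' := fun x y => Subtype.ext (map_mul χ x y)
      map_zero' := Subtype.ext (map_zero χ)
      map_add' := fun x y => Subtype.ext (map_add χ x y)
      commutes' := fun a => Subtype.ext (χ.commutes a) }
  let ψ : B →ₐ[K] L := (placeEval (K := K) P).comp χP
  let β : B →ₐ[K] R.ring :=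
    { toFun := fun x => ⟨ψ x, h₂ x⟩
      map_one' := Subtype.ext (map_one ψ)
      map_mul' := fun x y => Subtype.ext (map_mul ψ x y)
      map_zero' := Subtype.ext (map_zero ψ)
      map_add' := fun x y => Subtype.ext (map_add ψ x y)
      commutes' := fun a => Subtype.ext (ψ.commutes a) }
  have e0 : ∀ (E' : Type u) [Field E'] [Algebra K E'] [Algebra F E'] [IsScalarTower K F E'],
      A.map (IsScalarTower.toAlgHom K F E') P₀ =
        A.map ((IsScalarTower.toAlgHom K F E').comp (valuationIncl B hB))
          (A.liftTo B hB P₀) := fun E' _ _ _ _ => by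
    conv_lhs => rw [← A.map_liftTo B hB P₀]
    rw [A.toPointFunctor.map_map]
  rw [e0 E, e0 Eb, A.valueAt_of_hom P _ χ (fun x => h₁ x) ψ (fun x => rfl),
    A.valueAt_of_hom (R.placeMap F E Eb P) _ χb hb ((R.πK K).comp β)
      (fun x => (h₃ x).symm)]
  rw [redPoint, ← A.eq_liftTo R.ring (R.memK (K := K)) (A.map ψ (A.liftTo B hB P₀))
    (A.map β (A.liftTo B hB P₀)) (by rw [A.toPointFunctor.map_map]; rfl),
    A.toPointFunctor.map_map]

variable {D : LineData A.toPointFunctor}

/-- A chart at the specialised value is a chart at the place. -/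
theorem inPlace_of_placeMap {P₀ : A.Pt F} {y : A.Pt L} {P : Place L E} {i : D.ι}
    (h : AVData.InPlace D i (R.placeMap F E Eb P) (A.curvePoint Eb P₀ (R.redPoint A y))) :
    AVData.InPlace D i P (A.curvePoint E P₀ y) := by
  apply AVData.inPlace_of_in_valueAt
  have h1 := h.in_valueAt
  rw [← R.redPoint_valueAt] at h1
  letI := valuationAlgebra R.ring (R.memK (K := K))
  have h2 := D.in_reflect (R.πK K) R.isLocalHom_π i _ h1
  have h3 := D.in_map (valuationIncl R.ring (R.memK (K := K))) i _ h2
  rwa [A.map_liftTo] at h3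

theorem memK_V (a : K) : algebraMap K E a ∈ (R.good F E Eb).V := by
  rw [IsScalarTower.algebraMap_apply K L E]
  exact R.const_mem_V ⟨_, R.memK (K := K) a⟩

/-- The point over the Gauss ring reduces to the specialised point. -/
theorem gauss_point (P₀ : A.Pt F) (y : A.Pt L) :
    letI := valuationAlgebra (R.good F E Eb).V (R.memK_V (K := K))
    ∃ φ : (R.good F E Eb).V →ₐ[K] Eb, (∀ x, φ x = (R.good F E Eb).φ x) ∧
      A.map φ (A.liftTo (R.good F E Eb).V (R.memK_V (K := K)) (A.curvePoint E P₀ y)) =
        A.curvePoint Eb P₀ (R.redPoint A y) := by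
  letI := valuationAlgebra (R.good F E Eb).V (R.memK_V (K := K))
  letI := valuationAlgebra R.ring (R.memK (K := K))
  let φ : (R.good F E Eb).V →ₐ[K] Eb :=
    { (R.good F E Eb).φ with
      commutes' := fun a => by
        show (R.good F E Eb).φ _ = _
        rw [IsScalarTower.algebraMap_apply K κ Eb,
          show algebraMap K κ a = R.π ⟨_, R.memK (K := K) a⟩ from ((R.πK K).commutes a).symm,
          ← R.φ_const (F := F) (E := E) (Eb := Eb)]
        exact congrArg _ (Subtype.ext (IsScalarTower.algebraMap_apply K L E a)) }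
  let ιF : F →ₐ[K] (R.good F E Eb).V :=
    { toFun := fun f => ⟨_, R.base_mem_V f⟩
      map_one' := Subtype.ext (map_one _)
      map_mul' := fun x y => Subtype.ext (map_mul _ x y)
      map_zero' := Subtype.ext (map_zero _)
      map_add' := fun x y => Subtype.ext (map_add _ x y)
      commutes' := fun a => Subtype.ext ((IsScalarTower.toAlgHom K F E).commutes a) }
  let ιL : R.ring →ₐ[K] (R.good F E Eb).V :=
    { toFun := fun a => ⟨_, R.const_mem_V a⟩
      map_one' := Subtype.ext (map_one _)
      map_mul' := fun x y => Subtype.ext (map_mul (algebraMap L E) (x : L) y)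
      map_zero' := Subtype.ext (map_zero _)
      map_add' := fun x y => Subtype.ext (map_add (algebraMap L E) (x : L) y)
      commutes' := fun a => Subtype.ext ((IsScalarTower.toAlgHom K L E).commutes a) }
  refine ⟨φ, fun x => rfl, ?_⟩
  rw [← A.eq_liftTo (R.good F E Eb).V (R.memK_V (K := K)) (A.curvePoint E P₀ y)
    (A.map ιF P₀ + A.map ιL (A.liftTo R.ring (R.memK (K := K)) y)) ?_]
  · rw [map_add, A.toPointFunctor.map_map, A.toPointFunctor.map_map, AVData.curvePoint, redPoint,
      A.toPointFunctor.map_map]
    congr 1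
    · exact congrArg (fun χ : F →ₐ[K] Eb => A.map χ P₀) (AlgHom.ext fun f => R.φ_base f)
    · exact congrArg (fun χ : R.ring →ₐ[K] Eb => A.map χ (A.liftTo R.ring (R.memK (K := K)) y))
        (AlgHom.ext fun a => R.φ_const a)
  · rw [map_add, A.toPointFunctor.map_map, A.toPointFunctor.map_map, AVData.curvePoint]
    congr 1
    conv_rhs => rw [← A.map_liftTo R.ring (R.memK (K := K)) y, A.toPointFunctor.map_map]
    rfl

/-- A chart of the specialised generic point is a chart at the Gauss ring. -/
theorem in_of_gauss {P₀ : A.Pt F} {y : A.Pt L} {i : D.ι}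
    (h : D.In i (A.curvePoint Eb P₀ (R.redPoint A y))) :
    A.InAt D i (R.good F E Eb).V (R.memK_V (K := K)) (A.curvePoint E P₀ y) := by
  letI := valuationAlgebra (R.good F E Eb).V (R.memK_V (K := K))
  obtain ⟨φ, hφ, he⟩ := R.gauss_point A (E := E) (Eb := Eb) P₀ y
  rw [← he] at h
  refine D.in_reflect φ ⟨fun x hx => ?_⟩ i _ h
  by_contra hu
  exact hx.ne_zero ((hφ x).trans (((R.good F E Eb).φ_eq_zero_iff x).mpr hu))

/-- Transition units specialise. -/
theorem φ_g {P₀ : A.Pt F} {y : A.Pt L} {i j : D.ι}
    (hi : D.In i (A.curvePoint Eb P₀ (R.redPoint A y)))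
    (hj : D.In j (A.curvePoint Eb P₀ (R.redPoint A y))) :
    ∃ x : (R.good F E Eb).V, (x : E) =
        ((D.g (R.in_of_gauss A (E := E) hi).in_point (R.in_of_gauss A (E := E) hj).in_point : Eˣ) : E) ∧
      (R.good F E Eb).φ x = ((D.g hi hj : Ebˣ) : Eb) := by
  letI := valuationAlgebra (R.good F E Eb).V (R.memK_V (K := K))
  obtain ⟨φ, hφ, he⟩ := R.gauss_point A (E := E) (Eb := Eb) P₀ y
  refine ⟨(D.g (i := i) (j := j) (R.in_of_gauss A (E := E) hi) (R.in_of_gauss A (E := E) hj) :
    ((R.good F E Eb).V)ˣ), ?_, ?_⟩
  · refine (D.g_map (valuationIncl (R.good F E Eb).V (R.memK_V (K := K))) _ _).trans ?_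
    congr! 2
    exact A.map_liftTo _ _ _
  · rw [← hφ]
    refine (D.g_map φ _ _).trans ?_
    congr! 2

/-- The class of the pullback along the specialised point is the reduction of the class. -/
theorem redPic_lineClass (P₀ : A.Pt F) (y : A.Pt L) :
    R.redPic F E Eb (A.lineClass L D (A.curvePoint E P₀ y)) =
      A.lineClass κ D (A.curvePoint Eb P₀ (R.redPoint A y)) := by
  classical
  obtain ⟨i, hi⟩ := D.exists_in (A.curvePoint Eb P₀ (R.redPoint A y))
  have hiE := (R.in_of_gauss A (E := E) hi).in_point
  rw [AVData.lineClass_eq hiE, AVData.lineClass_eq hi, redPic_mk]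
  congr 1
  refine Finsupp.ext fun Q => ?_
  obtain ⟨c, hc⟩ := AVData.exists_inAt (A := A) (D := D) Q.toValuationSubring (base_mem_place Q)
    (A.curvePoint Eb P₀ (R.redPoint A y))
  obtain ⟨x, hx, hφx⟩ := R.φ_g A (E := E) hi hc.in_point
  have hφ0 : (R.good F E Eb).φ x ≠ 0 := by rw [hφx]; exact Units.ne_zero _
  have h := (R.good F E Eb).divMap_apply_eq_ord x hφ0
    (D := divisorOf L (x : E)) (fun P => divisorOf_apply _ _) Q
  rw [AVData.lineDiv_apply, AVData.lineOrd_eq hi (i := c) hc, ← hφx, ← h,
    GoodReduction.divMap_apply, GoodReduction.divMap_apply]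
  simp only [Finsupp.mapDomain, Finsupp.sum_apply]
  let S := (A.lineDiv L D hiE).support ∪ (divisorOf L (x : E)).support
  rw [Finsupp.sum_of_support_subset _ (Finset.subset_union_left : _ ⊆ S) _ (fun P _ => by simp),
    Finsupp.sum_of_support_subset _ (Finset.subset_union_right : _ ⊆ S) _ (fun P _ => by simp)]
  refine Finset.sum_congr rfl fun P _ => ?_
  simp only [Finsupp.single_apply]
  split_ifs with hP
  · rw [AVData.lineDiv_apply, divisorOf_apply, hx,
      AVData.lineOrd_eq hiE (i := c) (R.inPlace_of_placeMap A (by rwa [show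
        R.placeMap F E Eb P = Q from hP]))]
  · rfl

end ConstRed

end Fermat.Agent.AbelianVariety
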