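/-
The local ring at the origin of an abelian variety: jets, and multiplication by `n` to first
order.
-/
import Fermat.Agent.AbelianVariety.Data
import Mathlib.Algebra.TrivSqZeroExt.Basic
import Mathlib.Data.Sym.Card
import Mathlib.LinearAlgebra.Dimension.Finite
import Mathlib.LinearAlgebra.FiniteDimensional.Lemmas

set_option autoImplicit false

noncomputable section

namespace Fermat.Agent.AbelianVariety

open IsLocalRing TrivSqZeroExt

universe u

/-- The total degree of an exponent. -/
def expDeg {g : ℕ} (α : Fin g →₀ ℕ) : ℕ := ∑ l, α l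

theorem expDeg_add {g : ℕ} (α β : Fin g →₀ ℕ) : expDeg (α + β) = expDeg α + expDeg β := by
  simp [expDeg, Finset.sum_add_distrib]

theorem expDeg_single {g : ℕ} (l : Fin g) (n : ℕ) : expDeg (Finsupp.single l n) = n := by
  simp [expDeg, Finsupp.single_apply]

/-- Exponents of total degree at most `k`. -/
abbrev JetIndex (g k : ℕ) : Type := Sym (Option (Fin g)) k

/-- The exponent of an index. -/
def JetIndex.expo {g k : ℕ} (s : JetIndex g k) : Fin g →₀ ℕ :=
  Finsupp.equivFunOnFinite.symm fun l => (s : Multiset (Option (Fin g))).count (some l)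

theorem JetIndex.expo_apply {g k : ℕ} (s : JetIndex g k) (l : Fin g) :
    s.expo l = (s : Multiset (Option (Fin g))).count (some l) := rfl

theorem JetIndex.count_none_add {g k : ℕ} (s : JetIndex g k) :
    (s : Multiset (Option (Fin g))).count none + expDeg s.expo = k := by
  have h := Multiset.sum_count_eq_card (s := Finset.univ) (m := (s : Multiset (Option (Fin g))))
    (fun a _ => Finset.mem_univ a)
  rw [Fintype.sum_option, Sym.card_coe] at h
  exact h

theorem JetIndex.expDeg_expo_le {g k : ℕ} (s : JetIndex g k) : expDeg s.expo ≤ k := by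
  have := s.count_none_add
  omega

theorem JetIndex.expo_injective (g k : ℕ) :
    Function.Injective (JetIndex.expo : JetIndex g k → (Fin g →₀ ℕ)) := by
  intro s t h
  apply Sym.coe_injective
  refine Multiset.ext.mpr fun a => ?_
  rcases a with _ | l
  · have hs := s.count_none_add
    have ht := t.count_none_add
    rw [h] at hs
    omega
  · exact DFunLike.congr_fun h l

theorem JetIndex.exists_expo {g k : ℕ} {α : Fin g →₀ ℕ} (h : expDeg α ≤ k) :
    ∃ s : JetIndex g k, s.expo = α := by
  refine ⟨⟨Multiset.replicate (k - expDeg α) none + (Finsupp.toMultiset α).map some, ?_⟩,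
    Finsupp.ext fun l => ?_⟩
  · rw [Multiset.card_add, Multiset.card_replicate, Multiset.card_map, Finsupp.card_toMultiset,
      Finsupp.sum_fintype _ _ (fun _ => rfl)]
    change k - expDeg α + expDeg α = k
    omega
  · rw [JetIndex.expo_apply]
    change Multiset.count (some l) (_ + _) = _
    rw [Multiset.count_add, Multiset.count_replicate, if_neg (by simp),
      Multiset.count_map_eq_count' _ _ (Option.some_injective _), Finsupp.count_toMultiset, zero_add]

theorem JetIndex.card (g k : ℕ) : Fintype.card (JetIndex g k) = (k + g).choose g := by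
  rw [Sym.card_sym_eq_choose, Fintype.card_option, Fintype.card_fin,
    show g + 1 + k - 1 = k + g by omega, Nat.choose_symm_add]

variable {K : Type u} [Field K] {g : ℕ} (A : AVData K g)

namespace AVData

theorem e₀_surjective : Function.Surjective A.e₀ := fun a => ⟨algebraMap K A.R₀ a, A.e₀.commutes a⟩

variable {A}

theorem mem_maximalIdeal_iff {x : A.R₀} : x ∈ maximalIdeal A.R₀ ↔ A.e₀ x = 0 := by
  rw [← eq_maximalIdeal (RingHom.ker_isMaximal_of_surjective (A.e₀ : A.R₀ →+* K) A.e₀_surjective)]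
  exact RingHom.mem_ker

theorem sub_e₀_mem (x : A.R₀) : x - algebraMap K A.R₀ (A.e₀ x) ∈ maximalIdeal A.R₀ := by
  rw [mem_maximalIdeal_iff, map_sub, AlgHom.commutes, Algebra.algebraMap_self_apply, sub_self]

theorem isUnit_iff_e₀ {x : A.R₀} : IsUnit x ↔ A.e₀ x ≠ 0 := by
  rw [ne_eq, ← mem_maximalIdeal_iff, notMem_maximalIdeal]

theorem isLocalHom_e₀ : IsLocalHom (A.e₀ : A.R₀ →+* K) :=
  ⟨fun _ hx => isUnit_iff_e₀.mpr hx.ne_zero⟩

/-! ### expansions -/

theorem constantCoeff_expand (x : A.R₀) :
    MvPowerSeries.constantCoeff (A.expand x) = A.e₀ x := by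
  have h : maximalIdeal A.R₀ ≤
      RingHom.ker (MvPowerSeries.constantCoeff.comp (A.expand : A.R₀ →+* MvPowerSeries (Fin g) K)) := by
    rw [← A.span_t, Ideal.span_le]
    rintro _ ⟨l, rfl⟩
    simp [A.expand_t]
  have h2 := h (sub_e₀_mem x)
  rw [RingHom.mem_ker, map_sub, sub_eq_zero] at h2
  simpa [MvPowerSeries.algebraMap_apply] using h2

theorem coeff_expand_of_mem_pow {k : ℕ} {x : A.R₀} (hx : x ∈ maximalIdeal A.R₀ ^ k)
    (d : Fin g →₀ ℕ) (hd : expDeg d < k) : MvPowerSeries.coeff d (A.expand x) = 0 := by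
  classical
  induction k generalizing x d with
  | zero => omega
  | succ k ih =>
    rw [pow_succ] at hx
    induction hx using Submodule.mul_induction_on' with
    | mem_mul_mem a ha b hb =>
      rw [map_mul, MvPowerSeries.coeff_mul]
      refine Finset.sum_eq_zero fun p hp => ?_
      rw [Finset.HasAntidiagonal.mem_antidiagonal] at hp
      rcases eq_or_ne p.2 0 with h2 | h2
      · rw [h2, MvPowerSeries.coeff_zero_eq_constantCoeff_apply, constantCoeff_expand,
          mem_maximalIdeal_iff.mp hb, mul_zero]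
      · have h3 : 0 < expDeg p.2 := by
          obtain ⟨l, hl⟩ := Finsupp.ne_iff.mp h2
          exact lt_of_lt_of_le (Nat.pos_of_ne_zero hl)
            (Finset.single_le_sum (f := fun l => p.2 l) (fun _ _ => Nat.zero_le _) (Finset.mem_univ l))
        rw [← hp, expDeg_add] at hd
        rw [ih ha p.1 (by omega), zero_mul]
    | add a _ b _ iha ihb => rw [map_add, map_add, iha, ihb, add_zero]

variable (A) in
/-- A monomial in the parameters. -/
def tpow (α : Fin g →₀ ℕ) : A.R₀ := ∏ l, A.t l ^ α l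

theorem tpow_add (α β : Fin g →₀ ℕ) : A.tpow (α + β) = A.tpow α * A.tpow β := by
  simp [tpow, pow_add, Finset.prod_mul_distrib]

theorem tpow_single (l : Fin g) : A.tpow (Finsupp.single l 1) = A.t l := by
  classical
  rw [tpow, Finset.prod_eq_single l (fun b _ hb => by simp [Finsupp.single_apply, Ne.symm hb])
    (fun h => absurd (Finset.mem_univ l) h)]
  simp

theorem t_mem (l : Fin g) : A.t l ∈ maximalIdeal A.R₀ := by
  rw [← A.span_t]
  exact Ideal.subset_span ⟨l, rfl⟩

theorem tpow_mem (α : Fin g →₀ ℕ) : A.tpow α ∈ maximalIdeal A.R₀ ^ expDeg α := by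
  rw [tpow, expDeg, ← Finset.prod_pow_eq_pow_sum]
  exact Ideal.prod_mem_prod fun l _ => Ideal.pow_mem_pow (t_mem l) _

theorem expand_tpow (α : Fin g →₀ ℕ) : A.expand (A.tpow α) = MvPowerSeries.monomial α 1 := by
  classical
  simp only [tpow, map_prod, map_pow, A.expand_t, MvPowerSeries.X_pow_eq,
    MvPowerSeries.prod_monomial, Finset.prod_const_one]
  rw [Finsupp.univ_sum_single]

/-- Monomials of degree `k` are independent modulo `m ^ (k + 1)`. -/
theorem eq_zero_of_sum_tpow_mem {I : Type*} (s : Finset I) (α : I → (Fin g →₀ ℕ)) (k : ℕ)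
    (hinj : Set.InjOn α s) (hdeg : ∀ i ∈ s, expDeg (α i) = k) (c : I → K)
    (h : ∑ i ∈ s, c i • A.tpow (α i) ∈ maximalIdeal A.R₀ ^ (k + 1)) : ∀ i ∈ s, c i = 0 := by
  classical
  intro i hi
  have h1 := coeff_expand_of_mem_pow h (α i) (by rw [hdeg i hi]; omega)
  simp only [map_sum, map_smul, expand_tpow, MvPowerSeries.coeff_monomial] at h1
  rw [Finset.sum_eq_single i (fun j hj hji => by
    rw [if_neg (fun h' => hji (hinj hj hi h'.symm)), smul_zero]) (fun h' => absurd hi h')] at h1
  simpa using h1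

theorem pow_le_span_sup (k : ℕ) :
    (maximalIdeal A.R₀ ^ k).restrictScalars K ≤
      Submodule.span K (A.tpow '' {α | expDeg α = k}) ⊔
        (maximalIdeal A.R₀ ^ (k + 1)).restrictScalars K := by
  induction k with
  | zero =>
    intro x _
    refine Submodule.mem_sup.mpr ⟨algebraMap K A.R₀ (A.e₀ x), ?_, x - algebraMap K A.R₀ (A.e₀ x),
      ?_, by abel⟩
    · rw [Algebra.algebraMap_eq_smul_one]
      exact Submodule.smul_mem _ _ (Submodule.subset_span ⟨0, by simp [expDeg], by simp [tpow]⟩)
    · rw [zero_add, pow_one]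
      exact sub_e₀_mem x
  | succ k ih =>
    intro x hx
    rw [Submodule.restrictScalars_mem, pow_succ] at hx
    induction hx using Submodule.mul_induction_on' with
    | mem_mul_mem a ha b hb =>
      obtain ⟨y, hy, z, hz, rfl⟩ := Submodule.mem_sup.mp (ih ha)
      rw [add_mul]
      refine add_mem ?_ (Submodule.mem_sup_right ?_)
      swap
      · rw [Submodule.restrictScalars_mem, pow_succ (maximalIdeal A.R₀) (k + 1)]
        exact Ideal.mul_mem_mul hz hb
      clear ha hz
      induction hy using Submodule.span_induction with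
      | mem y hy =>
        obtain ⟨α, hα, rfl⟩ := hy
        obtain ⟨r, rfl⟩ := Ideal.mem_span_range_iff_exists_fun.mp (A.span_t ▸ hb)
        rw [Finset.mul_sum]
        refine Submodule.sum_mem _ fun l _ => ?_
        rw [show A.tpow α * (r l * A.t l) = A.e₀ (r l) • A.tpow (α + Finsupp.single l 1) +
          (r l - algebraMap K A.R₀ (A.e₀ (r l))) * A.tpow (α + Finsupp.single l 1) by
            rw [Algebra.smul_def, tpow_add, tpow_single]; ring]
        refine add_mem (Submodule.mem_sup_left (Submodule.smul_mem _ _ (Submodule.subset_span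
          ⟨_, ?_, rfl⟩))) (Submodule.mem_sup_right ?_)
        · show expDeg _ = k + 1
          rw [expDeg_add, expDeg_single, hα]
        · rw [Submodule.restrictScalars_mem, pow_succ']
          refine Ideal.mul_mem_mul (sub_e₀_mem _) ?_
          have := tpow_mem (A := A) (α + Finsupp.single l 1)
          rwa [expDeg_add, expDeg_single, hα] at this
      | zero => rw [zero_mul]; exact zero_mem _
      | add p q _ _ hp hq => rw [add_mul]; exact add_mem hp hq
      | smul c p _ hp => rw [smul_mul_assoc]; exact Submodule.smul_mem _ _ hp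
    | add a _ b _ iha ihb => exact add_mem iha ihb

theorem span_jetIndex_sup (k : ℕ) :
    Submodule.span K (Set.range fun s : JetIndex g k => A.tpow s.expo) ⊔
      (maximalIdeal A.R₀ ^ (k + 1)).restrictScalars K = ⊤ := by
  have h : ∀ j ≤ k + 1, (⊤ : Submodule K A.R₀) ≤
      Submodule.span K (Set.range fun s : JetIndex g k => A.tpow s.expo) ⊔
        (maximalIdeal A.R₀ ^ j).restrictScalars K := by
    intro j hj
    induction j with
    | zero => exact le_sup_of_le_right (by simp)
    | succ j ih =>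
      refine (ih (by omega)).trans (sup_le le_sup_left ((pow_le_span_sup j).trans
        (sup_le_sup_right (Submodule.span_mono ?_) _)))
      rintro _ ⟨α, hα, rfl⟩
      obtain ⟨s, hs⟩ := JetIndex.exists_expo (k := k) (α := α) (by
        rw [Set.mem_ofPred_eq] at hα; omega)
      exact ⟨s, by rw [← hs]⟩
  exact top_le_iff.mp (h (k + 1) le_rfl)

/-- Too many combinations have a member with high order at all the given points. -/
theorem exists_ne_zero_forall_mem_pow {ι J : Type*} [Fintype ι] [Fintype J] (k : ℕ)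
    (f : J → ι → A.R₀) (h : Fintype.card J * (k + g).choose g < Fintype.card ι) :
    ∃ c : ι → K, c ≠ 0 ∧ ∀ j, ∑ i, c i • f j i ∈ maximalIdeal A.R₀ ^ (k + 1) := by
  classical
  set N : Submodule K A.R₀ := (maximalIdeal A.R₀ ^ (k + 1)).restrictScalars K with hN
  set q := N.mkQ with hq
  have hsurj : (⊤ : Submodule K (A.R₀ ⧸ N)) ≤
      Submodule.span K (Set.range fun s : JetIndex g k => q (A.tpow s.expo)) := by
    rw [← Submodule.range_mkQ N, LinearMap.range_eq_map, ← span_jetIndex_sup (A := A) k,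
      Submodule.map_sup, Submodule.map_span, ← Set.range_comp]
    refine sup_le le_rfl ?_
    rintro _ ⟨x, hx, rfl⟩
    rw [(Submodule.Quotient.mk_eq_zero N).mpr hx |> (fun h => show N.mkQ x = 0 from h)]
    exact zero_mem _
  haveI : Module.Finite K (A.R₀ ⧸ N) :=
    ⟨⟨Finset.univ.image fun s : JetIndex g k => q (A.tpow s.expo), by
      rw [Finset.coe_image, Finset.coe_univ, Set.image_univ]; exact top_le_iff.mp hsurj⟩⟩
  have hrank : Module.finrank K (A.R₀ ⧸ N) ≤ (k + g).choose g := by
    rw [← JetIndex.card, ← finrank_top K (A.R₀ ⧸ N), ← top_le_iff.mp hsurj]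
    exact finrank_range_le_card _
  let Φ : (ι → K) →ₗ[K] (J → A.R₀ ⧸ N) :=
    LinearMap.pi fun j => q.comp (∑ i, (LinearMap.proj i : (ι → K) →ₗ[K] K).smulRight (f j i))
  have hker : LinearMap.ker Φ ≠ ⊥ := by
    refine LinearMap.ker_ne_bot_of_finrank_lt ?_
    rw [Module.finrank_pi_fintype, Module.finrank_pi, Finset.sum_const, Finset.card_univ,
      smul_eq_mul]
    exact lt_of_le_of_lt (Nat.mul_le_mul_left _ hrank) h
  obtain ⟨c, hc, hc0⟩ := Submodule.exists_mem_ne_zero_of_ne_bot hker
  refine ⟨c, hc0, fun j => ?_⟩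
  have := congrFun (LinearMap.mem_ker.mp hc) j
  simpa [Φ, hq, hN, Submodule.Quotient.mk_eq_zero, -map_sum] using this

/-! ### local homomorphisms out of the local ring -/

theorem residue_comp {R : Type u} [CommRing R] [Algebra K R] [IsLocalRing R] (φ : A.R₀ →ₐ[K] R)
    (hφ : IsLocalHom (φ : A.R₀ →+* R)) :
    (IsScalarTower.toAlgHom K R (ResidueField R)).comp φ =
      (Algebra.ofId K (ResidueField R)).comp A.e₀ := by
  refine AlgHom.ext fun x => ?_
  have h1 : φ (x - algebraMap K A.R₀ (A.e₀ x)) ∈ maximalIdeal R :=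
    fun hu => sub_e₀_mem x (hφ.map_nonunit _ hu)
  rw [← residue_eq_zero_iff, map_sub, map_sub, sub_eq_zero, AlgHom.commutes] at h1
  exact h1

theorem map_univ_reduces {R : Type u} [CommRing R] [Algebra K R] [IsLocalRing R]
    (φ : A.R₀ →ₐ[K] R) (hφ : IsLocalHom (φ : A.R₀ →+* R)) :
    A.map (IsScalarTower.toAlgHom K R (ResidueField R)) (A.map φ A.univ) = 0 := by
  rw [A.toPointFunctor.map_map, residue_comp φ hφ, A.map_comp, A.map_e₀_univ, map_zero]

/-- Local homomorphisms out of the local ring are determined by the point. -/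
theorem hom_eq {R : Type u} [CommRing R] [Algebra K R] [IsLocalRing R] {φ φ' : A.R₀ →ₐ[K] R}
    (hφ : IsLocalHom (φ : A.R₀ →+* R)) (hφ' : IsLocalHom (φ' : A.R₀ →+* R))
    (h : A.map φ A.univ = A.map φ' A.univ) : φ = φ' :=
  (A.lift (A.map φ A.univ) (map_univ_reduces φ hφ)).unique ⟨hφ, rfl⟩ ⟨hφ', h.symm⟩

variable (A) in
theorem exists_mulHom (n : ℕ) : ∃ φ : A.R₀ →ₐ[K] A.R₀,
    IsLocalHom (φ : A.R₀ →+* A.R₀) ∧ A.map φ A.univ = n • A.univ := by
  refine (A.lift (n • A.univ) ?_).exists
  rw [map_nsmul]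
  have h := map_univ_reduces (AlgHom.id K A.R₀) ⟨fun a ha => ha⟩
  rw [A.map_id] at h
  rw [h, nsmul_zero]

variable (A) in
/-- Multiplication by `n` on the local ring at the origin. -/
def mulHom (n : ℕ) : A.R₀ →ₐ[K] A.R₀ := (A.exists_mulHom n).choose

theorem isLocalHom_mulHom (n : ℕ) : IsLocalHom (A.mulHom n : A.R₀ →+* A.R₀) :=
  (A.exists_mulHom n).choose_spec.1

theorem map_mulHom (n : ℕ) : A.map (A.mulHom n) A.univ = n • A.univ :=
  (A.exists_mulHom n).choose_spec.2

theorem map_comp_mulHom {R : Type u} [CommRing R] [Algebra K R] (φ : A.R₀ →ₐ[K] R) (n : ℕ) :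
    A.map (φ.comp (A.mulHom n)) A.univ = n • A.map φ A.univ := by
  rw [A.map_comp, map_mulHom, map_nsmul]

theorem e₀_mulHom (n : ℕ) (x : A.R₀) : A.e₀ (A.mulHom n x) = A.e₀ x := by
  have h : A.e₀.comp (A.mulHom n) = A.e₀ := by
    refine hom_eq ?_ isLocalHom_e₀ ?_
    · exact ⟨fun a ha => (isLocalHom_mulHom n).map_nonunit _ (isLocalHom_e₀.map_nonunit _ ha)⟩
    · rw [map_comp_mulHom, A.map_e₀_univ, nsmul_zero]
  exact DFunLike.congr_fun h x

/-! ### first order -/

theorem isLocalRing_sqZero (V : Type u) [AddCommGroup V] [Module K V] [Module Kᵐᵒᵖ V]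
    [IsCentralScalar K V] : IsLocalRing (TrivSqZeroExt K V) :=
  IsLocalRing.of_nonunits_add fun a b ha hb => by
    simp only [mem_nonunits_iff, isUnit_iff_isUnit_fst, isUnit_iff_ne_zero, ne_eq, not_not,
      fst_add] at ha hb ⊢
    rw [ha, hb, add_zero]

section SqZero

variable {V : Type u} [AddCommGroup V] [Module K V] [Module Kᵐᵒᵖ V] [IsCentralScalar K V]

theorem isLocalHom_of_fst (a : A.R₀ →ₐ[K] TrivSqZeroExt K V) (ha : ∀ x, (a x).fst = A.e₀ x) :
    IsLocalHom (a : A.R₀ →+* TrivSqZeroExt K V) :=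
  ⟨fun x hx => isUnit_iff_e₀.mpr (by
    rw [← ha]; exact (isUnit_iff_isUnit_fst.mp hx).ne_zero)⟩

/-- The group law on points with values in a square-zero extension is addition. -/
theorem map_add_map_sqZero (a b c : A.R₀ →ₐ[K] TrivSqZeroExt K V)
    (ha : ∀ x, (a x).fst = A.e₀ x) (hb : ∀ x, (b x).fst = A.e₀ x)
    (hc : ∀ x, (c x).fst = A.e₀ x) (h : ∀ x, (c x).snd = (a x).snd + (b x).snd) :
    A.map a A.univ + A.map b A.univ = A.map c A.univ := by
  haveI := isLocalRing_sqZero (K := K) V
  haveI := isLocalRing_sqZero (K := K) (V × V)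
  let pair : A.R₀ →ₐ[K] TrivSqZeroExt K (V × V) :=
    { toFun := fun x => inl (A.e₀ x) + inr ((a x).snd, (b x).snd)
      map_one' := by
        refine TrivSqZeroExt.ext ?_ ?_ <;> simp
      map_mul' := fun x y => by
        refine TrivSqZeroExt.ext ?_ ?_
        · simp
        · simp [snd_mul, ha, hb, Prod.ext_iff]
      map_zero' := by
        refine TrivSqZeroExt.ext ?_ ?_ <;> simp
      map_add' := fun x y => by
        refine TrivSqZeroExt.ext ?_ ?_ <;> simp
      commutes' := fun r => by
        refine TrivSqZeroExt.ext ?_ ?_ <;> simp [TrivSqZeroExt.algebraMap_eq_inl] }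
  set i₁ := TrivSqZeroExt.map (R' := K) (LinearMap.inl K V V) with hi₁
  set i₂ := TrivSqZeroExt.map (R' := K) (LinearMap.inr K V V) with hi₂
  set Z := A.map i₁ (A.map a A.univ) + A.map i₂ (A.map b A.univ) with hZ
  have hpair : ∀ x, (pair x).fst = A.e₀ x := fun x => by simp [pair]
  have hconst : ∀ (d : A.R₀ →ₐ[K] TrivSqZeroExt K V) (f : TrivSqZeroExt K V →ₐ[K] TrivSqZeroExt K V),
      (∀ x, (d x).fst = A.e₀ x) → (∀ z, f z = inl z.fst) →
      A.map f (A.map d A.univ) = 0 := by
    intro d f hd hf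
    rw [A.toPointFunctor.map_map,
      show f.comp d = (Algebra.ofId K (TrivSqZeroExt K V)).comp A.e₀ from AlgHom.ext fun x => by
        rw [AlgHom.comp_apply, hf, hd]; rfl,
      A.map_comp, A.map_e₀_univ, map_zero]
  obtain ⟨h', ⟨hloc', hh'⟩, -⟩ := A.lift Z (by
    rw [hZ, map_add, A.toPointFunctor.map_map a i₁, A.toPointFunctor.map_map b i₂,
      map_univ_reduces (i₁.comp a) (isLocalHom_of_fst _ fun x => by simp [i₁, ha]),
      map_univ_reduces (i₂.comp b) (isLocalHom_of_fst _ fun x => by simp [i₂, hb]), add_zero])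
  have hfst' : ∀ x, (h' x).fst = A.e₀ x := by
    intro x
    have h1 : IsUnit (h' (x - algebraMap K A.R₀ (A.e₀ x))) → False :=
      fun hu => sub_e₀_mem x (hloc'.map_nonunit _ hu)
    rw [isUnit_iff_isUnit_fst, map_sub, AlgHom.commutes, TrivSqZeroExt.algebraMap_eq_inl, fst_sub,
      fst_inl, isUnit_iff_ne_zero, imp_false, not_not, sub_eq_zero] at h1
    exact h1
  have hp₁ : A.map (TrivSqZeroExt.map (LinearMap.fst K V V)) Z = A.map a A.univ := by
    rw [hZ, map_add, A.toPointFunctor.map_map i₁, A.toPointFunctor.map_map i₂,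
      hconst b _ hb (fun z => by
        refine TrivSqZeroExt.ext ?_ ?_ <;> simp [i₂]), add_zero]
    rw [show (TrivSqZeroExt.map (LinearMap.fst K V V)).comp i₁ = AlgHom.id K _ from AlgHom.ext fun z => by
      refine TrivSqZeroExt.ext ?_ ?_ <;> simp [i₁], A.map_id]
  have hp₂ : A.map (TrivSqZeroExt.map (LinearMap.snd K V V)) Z = A.map b A.univ := by
    rw [hZ, map_add, A.toPointFunctor.map_map i₁, A.toPointFunctor.map_map i₂,
      hconst a _ ha (fun z => by
        refine TrivSqZeroExt.ext ?_ ?_ <;> simp [i₁]), zero_add]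
    rw [show (TrivSqZeroExt.map (LinearMap.snd K V V)).comp i₂ = AlgHom.id K _ from AlgHom.ext fun z => by
      refine TrivSqZeroExt.ext ?_ ?_ <;> simp [i₂], A.map_id]
  rw [← hh', A.toPointFunctor.map_map] at hp₁ hp₂
  have e₁ := hom_eq (isLocalHom_of_fst _ fun x => by simp [hfst']) (isLocalHom_of_fst _ ha) hp₁
  have e₂ := hom_eq (isLocalHom_of_fst _ fun x => by simp [hfst']) (isLocalHom_of_fst _ hb) hp₂
  have hh : h' = pair := AlgHom.ext fun x => by
    refine TrivSqZeroExt.ext ?_ ?_
    · rw [hfst', hpair]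
    · have h1 := congrArg TrivSqZeroExt.snd (DFunLike.congr_fun e₁ x)
      have h2 := congrArg TrivSqZeroExt.snd (DFunLike.congr_fun e₂ x)
      simp at h1 h2
      simp [pair, Prod.ext_iff, h1, h2]
  set s := TrivSqZeroExt.map (R' := K) (LinearMap.fst K V V + LinearMap.snd K V V) with hs
  have hs₁ : s.comp i₁ = AlgHom.id K _ := AlgHom.ext fun z => by
    refine TrivSqZeroExt.ext ?_ ?_ <;> simp [i₁, s]
  have hs₂ : s.comp i₂ = AlgHom.id K _ := AlgHom.ext fun z => by
    refine TrivSqZeroExt.ext ?_ ?_ <;> simp [i₂, s]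
  have hfin : A.map s Z = A.map a A.univ + A.map b A.univ := by
    rw [hZ, map_add, A.toPointFunctor.map_map i₁, A.toPointFunctor.map_map i₂, hs₁, hs₂, A.map_id,
      A.map_id]
  rw [← hfin, ← hh', A.toPointFunctor.map_map, hh]
  exact congrArg (fun χ => A.map χ A.univ) (AlgHom.ext fun x => by
    refine TrivSqZeroExt.ext ?_ ?_ <;> simp [s, pair, hc, h])

end SqZero

variable (A) in
/-- The linear part in the parameters. -/
def linPart : A.R₀ →ₗ[K] (Fin g → K) :=
  LinearMap.pi fun l => (MvPowerSeries.coeff (Finsupp.single l 1)).comp A.expand.toLinearMap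

theorem linPart_apply (x : A.R₀) (l : Fin g) :
    A.linPart x l = MvPowerSeries.coeff (Finsupp.single l 1) (A.expand x) := rfl

theorem linPart_mul (x y : A.R₀) :
    A.linPart (x * y) = A.e₀ x • A.linPart y + A.e₀ y • A.linPart x := by
  classical
  funext l
  rw [linPart_apply, map_mul, MvPowerSeries.coeff_mul, Finsupp.antidiagonal_single,
    Finset.sum_map, show Finset.HasAntidiagonal.antidiagonal 1 = {((0 : ℕ), 1), (1, 0)} from rfl,
    Finset.sum_pair (by simp)]
  simp [linPart_apply, constantCoeff_expand, mul_comm]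

theorem linPart_algebraMap (a : K) : A.linPart (algebraMap K A.R₀ a) = 0 := by
  funext l
  classical
  simp [linPart_apply, MvPowerSeries.algebraMap_apply, MvPowerSeries.coeff_C]

theorem linPart_t (l : Fin g) : A.linPart (A.t l) = Pi.single l 1 := by
  classical
  funext j
  rw [linPart_apply, A.expand_t, MvPowerSeries.coeff_X, Pi.single_apply]
  refine if_congr ⟨fun h => ?_, fun h => by rw [h]⟩ rfl rfl
  exact (Finsupp.single_left_injective one_ne_zero h)

variable (A) in
/-- The linear map to first order, with the linear part multiplied by `n`. -/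
def sqHom (n : ℕ) : A.R₀ →ₐ[K] TrivSqZeroExt K (Fin g → K) where
  toFun x := inl (A.e₀ x) + inr (n • A.linPart x)
  map_one' := by
    refine TrivSqZeroExt.ext ?_ ?_
    · simp
    · have := linPart_algebraMap (A := A) 1
      rw [map_one] at this
      simp [this]
  map_mul' x y := by
    refine TrivSqZeroExt.ext ?_ ?_
    · simp
    · simp [snd_mul, linPart_mul, smul_comm n, nsmul_add]
  map_zero' := by refine TrivSqZeroExt.ext ?_ ?_ <;> simp
  map_add' x y := by refine TrivSqZeroExt.ext ?_ ?_ <;> simp [add_add_add_comm]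
  commutes' r := by
    refine TrivSqZeroExt.ext ?_ ?_ <;> simp [TrivSqZeroExt.algebraMap_eq_inl, linPart_algebraMap]

theorem sqHom_fst (n : ℕ) (x : A.R₀) : (A.sqHom n x).fst = A.e₀ x := by simp [sqHom]

theorem sqHom_snd (n : ℕ) (x : A.R₀) : (A.sqHom n x).snd = n • A.linPart x := by simp [sqHom]

theorem map_sqHom (n : ℕ) : A.map (A.sqHom n) A.univ = n • A.map (A.sqHom 1) A.univ := by
  induction n with
  | zero =>
    rw [zero_smul, show A.sqHom 0 = (Algebra.ofId K _).comp A.e₀ from AlgHom.ext fun x => by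
      refine TrivSqZeroExt.ext ?_ ?_ <;> simp [sqHom, TrivSqZeroExt.algebraMap_eq_inl, Algebra.ofId_apply],
      A.map_comp, A.map_e₀_univ, map_zero]
  | succ n ih =>
    rw [add_smul, one_smul, ← ih]
    exact (map_add_map_sqZero _ _ _ (sqHom_fst n) (sqHom_fst 1) (sqHom_fst (n + 1))
      (fun x => by simp [sqHom_snd, add_smul])).symm

theorem linPart_mulHom (n : ℕ) (x : A.R₀) : A.linPart (A.mulHom n x) = n • A.linPart x := by
  haveI := isLocalRing_sqZero (K := K) (Fin g → K)
  have h : (A.sqHom 1).comp (A.mulHom n) = A.sqHom n := by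
    refine hom_eq (isLocalHom_of_fst _ fun y => ?_) (isLocalHom_of_fst _ (sqHom_fst n)) ?_
    · rw [AlgHom.comp_apply, sqHom_fst, e₀_mulHom]
    · rw [map_comp_mulHom, map_sqHom n]
  have h1 := congrArg TrivSqZeroExt.snd (DFunLike.congr_fun h x)
  simpa [sqHom_snd] using h1

theorem mem_sq_of_linPart {x : A.R₀} (hx : x ∈ maximalIdeal A.R₀) (hl : A.linPart x = 0) :
    x ∈ maximalIdeal A.R₀ ^ 2 := by
  obtain ⟨r, rfl⟩ := Ideal.mem_span_range_iff_exists_fun.mp (A.span_t ▸ hx)
  refine Ideal.sum_mem _ fun l _ => ?_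
  rw [pow_two]
  refine Ideal.mul_mem_mul ?_ (t_mem l)
  rw [mem_maximalIdeal_iff]
  have h := congrFun hl l
  simpa [linPart_mul, linPart_t, mem_maximalIdeal_iff.mp (t_mem (A := A) _), Finset.sum_apply,
    Pi.single_apply] using h

/-- Multiplication by `n` is multiplication by `n` to first order. -/
theorem mulHom_sub_mem (n : ℕ) {x : A.R₀} (hx : x ∈ maximalIdeal A.R₀) :
    A.mulHom n x - (n : K) • x ∈ maximalIdeal A.R₀ ^ 2 := by
  refine mem_sq_of_linPart ?_ ?_
  · rw [mem_maximalIdeal_iff, map_sub, map_smul, e₀_mulHom, mem_maximalIdeal_iff.mp hx, smul_zero,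
      sub_self]
  · rw [map_sub, linPart_mulHom, map_smul, Nat.cast_smul_eq_nsmul, sub_self]

theorem mul_sub_mul_mem {i j : ℕ} {a a' b b' : A.R₀}
    (ha : a - a' ∈ maximalIdeal A.R₀ ^ (i + 1)) (ha' : a' ∈ maximalIdeal A.R₀ ^ i)
    (hb : b - b' ∈ maximalIdeal A.R₀ ^ (j + 1)) (hb' : b' ∈ maximalIdeal A.R₀ ^ j) :
    a * b - a' * b' ∈ maximalIdeal A.R₀ ^ (i + j + 1) := by
  rw [show a * b - a' * b' = (a - a') * b' + a' * (b - b') + (a - a') * (b - b') by ring]
  refine add_mem (add_mem ?_ ?_) ?_
  · rw [show i + j + 1 = i + 1 + j by omega, pow_add]; exact Ideal.mul_mem_mul ha hb'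
  · rw [show i + j + 1 = i + (j + 1) by omega, pow_add _ i]; exact Ideal.mul_mem_mul ha' hb
  · refine Ideal.pow_le_pow_right (by omega : i + j + 1 ≤ (i + 1) + (j + 1)) ?_
    rw [pow_add]; exact Ideal.mul_mem_mul ha hb

theorem mulHom_tpow_sub_mem (n : ℕ) (α : Fin g →₀ ℕ) :
    A.mulHom n (A.tpow α) - (n : K) ^ expDeg α • A.tpow α ∈
      maximalIdeal A.R₀ ^ (expDeg α + 1) := by
  induction α using Finsupp.induction_linear with
  | zero => simp [tpow, expDeg]
  | add α β hα hβ =>
    rw [tpow_add, map_mul, expDeg_add, pow_add (n : K)]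
    rw [show ((n : K) ^ expDeg α * (n : K) ^ expDeg β) • (A.tpow α * A.tpow β) =
      ((n : K) ^ expDeg α • A.tpow α) * ((n : K) ^ expDeg β • A.tpow β) from
        (smul_mul_smul_comm _ _ _ _).symm]
    exact mul_sub_mul_mem hα (Submodule.smul_of_tower_mem _ _ (tpow_mem α)) hβ
      (Submodule.smul_of_tower_mem _ _ (tpow_mem β))
  | single l m =>
    induction m with
    | zero => simp [tpow, expDeg]
    | succ m ih =>
      rw [Finsupp.single_add, tpow_add, map_mul, expDeg_add, pow_add (n : K), expDeg_single l 1,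
        show ((n : K) ^ expDeg (Finsupp.single l m) * (n : K) ^ 1) •
          (A.tpow (Finsupp.single l m) * A.tpow (Finsupp.single l 1)) =
            ((n : K) ^ expDeg (Finsupp.single l m) • A.tpow (Finsupp.single l m)) *
              ((n : K) ^ 1 • A.tpow (Finsupp.single l 1)) from (smul_mul_smul_comm _ _ _ _).symm]
      refine mul_sub_mul_mem ih (Submodule.smul_of_tower_mem _ _ (tpow_mem _)) ?_
        (Submodule.smul_of_tower_mem _ _ ?_)
      · rw [tpow_single, pow_one]
        exact mulHom_sub_mem n (t_mem l)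
      · rw [pow_one, tpow_single]
        exact t_mem l

end AVData

end Fermat.Agent.AbelianVariety
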