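/-
Behaviour of divisor classes of pullbacks under extension of the constant field.
-/
import Fermat.Agent.AbelianVariety.ConstReduction
import Fermat.Agent.Curve.ConstExtRigid

set_option autoImplicit false

noncomputable section

namespace Fermat.Agent.AbelianVariety

open AlgebraicCurve Fermat.Agent.Curve IsLocalRing

universe u

variable {k F L E : Type u} [Field k] [Field F] [Field L] [Field E]
  [Algebra k F] [Algebra k L] [Algebra k E] [Algebra F E] [Algebra L E]
  [IsScalarTower k F E] [IsScalarTower k L E] [IsConstExt k F L E]
  [IsAlgClosed k] [IsAlgClosed L] [IsFunctionFieldOne k F] [IsFunctionFieldOne L E]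

variable (L E) in
/-- Extension of divisor classes. -/
def extPic : Pic k F →+ Pic L E :=
  QuotientAddGroup.map _ _ (divExt L E) fun _ hX => divExt_mem_principal hX

theorem extPic_mk (X : Divisor k F) :
    extPic L E (QuotientAddGroup.mk X) = QuotientAddGroup.mk (divExt L E X) := rfl

theorem picDegree_extPic (c : Pic k F) :
    AVData.picDegree L E (extPic L E c) = AVData.picDegree k F c := by
  induction c using QuotientAddGroup.induction_on with
  | H X => rw [extPic_mk, AVData.picDegree_mk, AVData.picDegree_mk, degree_divExt]

theorem extPic_injective : Function.Injective (extPic L E : Pic k F → Pic L E) := by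
  haveI : Nonempty (Place k F) := RedAux.nonempty_place
  refine (injective_iff_map_eq_zero _).mpr fun c hc => ?_
  induction c using QuotientAddGroup.induction_on with
  | H X =>
    rw [extPic_mk, QuotientAddGroup.eq_zero_iff] at hc
    exact (QuotientAddGroup.eq_zero_iff _).mpr (mem_principal_of_divExt_mem_principal hc)

theorem ConstRed.redPic_extPic {κ Eb : Type u} [Field κ] [Field Eb] [Algebra k κ] [Algebra k Eb]
    [Algebra F Eb] [Algebra κ Eb] [IsScalarTower k F Eb] [IsScalarTower k κ Eb]
    [IsConstExt k F κ Eb] [IsAlgClosed κ] [IsFunctionFieldOne κ Eb] (R : ConstRed k L κ)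
    (c : Pic k F) : R.redPic F E Eb (extPic L E c) = extPic κ Eb c := by
  induction c using QuotientAddGroup.induction_on with
  | H X => rw [extPic_mk, ConstRed.redPic_mk, ConstRed.divMap_divExt, extPic_mk]

variable {K : Type u} [Field K] {g : ℕ} {A : AVData K g} {D : LineData A.toPointFunctor}
  [Algebra K k] [Algebra K F] [Algebra K L] [Algebra K E] [IsScalarTower K k F]
  [IsScalarTower K L E] [IsScalarTower K F E]

theorem extPic_lineClass (P : A.Pt F) :
    extPic L E (A.lineClass k D P) =
      A.lineClass L D (A.map (IsScalarTower.toAlgHom K F E) P) := by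
  obtain ⟨i, hi⟩ := D.exists_in P
  have hiE := D.in_map (IsScalarTower.toAlgHom K F E) i P hi
  rw [AVData.lineClass_eq hi, AVData.lineClass_eq hiE, extPic_mk]
  congr 1
  refine Finsupp.ext fun w => ?_
  rcases exists_eq_placeExt_or (K := k) (F := F) w with ⟨v, rfl⟩ | hw
  · obtain ⟨c, hc⟩ := AVData.exists_inAt (A := A) (D := D) v.toValuationSubring
      (base_mem_place v) P
    have hcE : AVData.InPlace D c (placeExt L E v) (A.map (IsScalarTower.toAlgHom K F E) P) :=
      hc.map _ _ (fun x hx => (algebraMap_mem_placeExt v).mpr hx)
    rw [divExt_apply_placeExt, AVData.lineDiv_apply, AVData.lineDiv_apply,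
      AVData.lineOrd_eq hi (i := c) hc, AVData.lineOrd_eq hiE hcE, ← ord_placeExt (Ω := L) (E := E)]
    congr 1
    exact D.g_map (IsScalarTower.toAlgHom K F E) hi hc.in_point
  · rw [divExt_apply_of_forall_mem _ hw, AVData.lineDiv_apply]
    letI := valuationAlgebra w.toValuationSubring (base_mem_place (K := K) w)
    let φ : F →ₐ[K] w.toValuationSubring :=
      { toFun := fun f => ⟨algebraMap F E f, hw f⟩
        map_one' := Subtype.ext (map_one _)
        map_mul' := fun x y => Subtype.ext (map_mul _ x y)
        map_zero' := Subtype.ext (map_zero _)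
        map_add' := fun x y => Subtype.ext (map_add _ x y)
        commutes' := fun a => Subtype.ext ((IsScalarTower.toAlgHom K F E).commutes a) }
    have hin : AVData.InPlace D i w (A.map (IsScalarTower.toAlgHom K F E) P) := by
      show D.In i _
      rw [← A.eq_liftTo w.toValuationSubring (base_mem_place w) _ (A.map φ P)
        (by rw [A.toPointFunctor.map_map]; rfl)]
      exact D.in_map φ i P hi
    rw [AVData.lineOrd_eq hiE hin, D.g_self, Units.val_one, w.ord_one]

theorem lineDeg_map (P : A.Pt F) :
    A.lineDeg L D (A.map (IsScalarTower.toAlgHom K F E) P) = A.lineDeg k D P := by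
  rw [AVData.lineDeg, AVData.lineDeg, ← extPic_lineClass (k := k), picDegree_extPic]

end Fermat.Agent.AbelianVariety
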