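/-
The classes of translates of a point of a curve: specialisation, extension of constants, and
invariance of the degree under translation.
-/
import Fermat.Agent.AbelianVariety.CurveExtend
import Fermat.Agent.Curve.ConstExtExists

set_option autoImplicit false

noncomputable section

namespace Fermat.Agent.AbelianVariety

open AlgebraicCurve Fermat.Agent.Curve IsLocalRing

universe u

/-- The residue field of a valuation ring of an algebraically closed field is algebraically
closed. -/
theorem isAlgClosed_residueField {L : Type u} [Field L] [IsAlgClosed L] (V : ValuationSubring L) :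
    IsAlgClosed (ResidueField V) := by
  refine IsAlgClosed.of_exists_root _ fun p hp hirr => ?_
  have hlift : p ∈ Polynomial.lifts (residue V) := by
    rw [Polynomial.lifts_iff_coeff_lifts]
    exact fun n => residue_surjective _
  obtain ⟨q, hq, hdeg, hmon⟩ := Polynomial.lifts_and_degree_eq_and_monic hlift hp
  have hd : (q.map (algebraMap V L)).degree ≠ 0 := by
    rw [hmon.degree_map, hdeg]
    exact (Polynomial.degree_pos_of_irreducible hirr).ne'
  obtain ⟨z, hz⟩ := IsAlgClosed.exists_root _ hd
  rw [Polynomial.IsRoot.def, Polynomial.eval_map] at hz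
  obtain ⟨a, ha⟩ := IsIntegrallyClosed.isIntegral_iff.1 (show IsIntegral V z from ⟨q, hmon, hz⟩)
  refine ⟨residue V a, ?_⟩
  rw [← hq, Polynomial.eval_map]
  have hqa : Polynomial.eval₂ (RingHom.id V) a q = 0 := by
    apply IsFractionRing.injective V L
    rw [map_zero, ← hz, ← ha, Polynomial.eval₂_at_apply]
    rfl
  have h := congrArg (residue V) hqa
  rw [map_zero, Polynomial.hom_eval₂, RingHom.comp_id] at h
  exact h

variable {K : Type u} [Field K] {g : ℕ} {A : AVData K g}

section

variable {k F L E : Type u} [Field k] [Field F] [Field L] [Field E]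
  [Algebra k F] [Algebra k L] [Algebra k E] [Algebra F E] [Algebra L E]
  [IsScalarTower k F E] [IsScalarTower k L E]
  [Algebra K k] [Algebra K F] [Algebra K L] [Algebra K E] [IsScalarTower K k F]
  [IsScalarTower K k L] [IsScalarTower K F E] [IsScalarTower K L E]

namespace AVData

theorem map_curvePoint (P₀ : A.Pt F) (y : A.Pt k) :
    A.map (IsScalarTower.toAlgHom K F E) (A.curvePoint F P₀ y) =
      A.curvePoint E P₀ (A.map (IsScalarTower.toAlgHom K k L) y) := by
  simp only [AVData.curvePoint, map_add, A.toPointFunctor.map_map]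
  congr 1
  refine congrArg (fun χ : k →ₐ[K] E => A.map χ y) (AlgHom.ext fun a => ?_)
  show algebraMap F E (algebraMap k F a) = algebraMap L E (algebraMap k L a)
  rw [← IsScalarTower.algebraMap_apply k F E, ← IsScalarTower.algebraMap_apply k L E]

end AVData

namespace ConstRed

variable {κ : Type u} [Field κ] [Algebra k κ] [Algebra K κ] [IsScalarTower K k κ]
  (R : ConstRed k L κ)

theorem redPoint_map (y : A.Pt k) :
    R.redPoint A (A.map (IsScalarTower.toAlgHom K k L) y) =
      A.map (IsScalarTower.toAlgHom K k κ) y := by
  letI := valuationAlgebra R.ring (R.memK (K := K))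
  let ι : k →ₐ[K] R.ring :=
    { toFun := fun a => ⟨algebraMap k L a, R.mem a⟩
      map_one' := Subtype.ext (map_one _)
      map_mul' := fun x y => Subtype.ext (map_mul _ x y)
      map_zero' := Subtype.ext (map_zero _)
      map_add' := fun x y => Subtype.ext (map_add _ x y)
      commutes' := fun a => Subtype.ext ((IsScalarTower.toAlgHom K k L).commutes a) }
  rw [redPoint, ← A.eq_liftTo R.ring (R.memK (K := K)) _ (A.map ι y)
    (by rw [A.toPointFunctor.map_map]; rfl), A.toPointFunctor.map_map]
  exact congrArg (fun χ : k →ₐ[K] κ => A.map χ y) (AlgHom.ext R.comm)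

theorem redPoint_zero : R.redPoint A (0 : A.Pt L) = 0 := by
  simpa using R.redPoint_map (A := A) (0 : A.Pt k)

end ConstRed

end

/-- For every point of `k`, a specialisation of a generic point to it. -/
theorem exists_constRed_generic {k Λ : Type u} [Field k] [Field Λ] [Algebra K k] [Algebra K Λ]
    [Algebra k Λ] [IsScalarTower K k Λ] [IsAlgClosed Λ] {η : A.Pt Λ}
    (hη : SpecializesToAll A.toPointFunctor k Λ η) (y : A.Pt k) :
    ∃ (κ : Type u) (_ : Field κ) (_ : Algebra k κ) (_ : Algebra K κ) (_ : IsScalarTower K k κ)
      (_ : IsAlgClosed κ) (R : ConstRed k Λ κ),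
      R.redPoint A η = A.map (IsScalarTower.toAlgHom K k κ) y := by
  obtain ⟨V, hV, P, hP, hr⟩ := hη y
  letI := valuationAlgebra (K := k) V hV
  have hVK : ∀ a : K, algebraMap K Λ a ∈ V := fun a => by
    rw [IsScalarTower.algebraMap_apply K k Λ]; exact hV _
  letI := valuationAlgebra V hVK
  letI algk : Algebra k (ResidueField V) :=
    ((residue V).comp (algebraMap k V)).toAlgebra
  letI algK : Algebra K (ResidueField V) :=
    ((algebraMap k (ResidueField V)).comp (algebraMap K k)).toAlgebra
  haveI : IsScalarTower K k (ResidueField V) := IsScalarTower.of_algebraMap_eq fun _ => rfl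
  let R : ConstRed k Λ (ResidueField V) :=
    { ring := V, mem := hV, π := residue V, surj := residue_surjective, comm := fun _ => rfl }
  refine ⟨ResidueField V, inferInstance, algk, algK, inferInstance, isAlgClosed_residueField V, R,
    ?_⟩
  have h1 := hr (ResidueField V) (R.πK K) (IsScalarTower.toAlgHom K k (ResidueField V))
    (inferInstanceAs (IsLocalHom (residue V))) (fun _ => rfl)
  show A.map (R.πK K) (A.liftTo V hVK η) = _
  rw [← A.eq_liftTo V hVK η P hP]
  exact h1

variable {k F : Type u} [Field k] [Field F] [Algebra k F] [Algebra K k] [Algebra K F]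
  [IsScalarTower K k F] [IsAlgClosed k] [IsFunctionFieldOne k F]

/-- The `K`-algebra structure on the extended field. -/
@[reducible]
def constExtAlgebra (k F L : Type u) [Field k] [Field F] [Field L] [Algebra k F] [Algebra k L]
    [IsAlgClosed k] [Algebra K L] : Algebra K (ConstExtField k F L) :=
  ((algebraMap L (ConstExtField k F L)).comp (algebraMap K L)).toAlgebra

theorem constExt_tower (L : Type u) [Field L] [Algebra k L] [Algebra K L]
    [IsScalarTower K k L] :
    letI := constExtAlgebra (K := K) k F L
    IsScalarTower K F (ConstExtField k F L) := by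
  letI := constExtAlgebra (K := K) k F L
  refine IsScalarTower.of_algebraMap_eq fun a => ?_
  show algebraMap L (ConstExtField k F L) (algebraMap K L a) = _
  rw [IsScalarTower.algebraMap_apply K k L, IsScalarTower.algebraMap_apply K k F,
    ← IsScalarTower.algebraMap_apply k L (ConstExtField k F L),
    ← IsScalarTower.algebraMap_apply k F (ConstExtField k F L)]

/-- The degree of the pullback along a translate does not depend on the translation. -/
theorem AVData.lineDeg_translate (D : LineData A.toPointFunctor) (P₀ : A.Pt F) (y : A.Pt k) :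
    A.lineDeg k D (A.curvePoint F P₀ y) = A.lineDeg k D (A.curvePoint F P₀ (0 : A.Pt k)) := by
  obtain ⟨Λ, _, _, _, _, _, η, hη⟩ := A.exists_generic k
  letI := constExtAlgebra (K := K) k F Λ
  haveI : IsScalarTower K Λ (ConstExtField k F Λ) := IsScalarTower.of_algebraMap_eq fun _ => rfl
  haveI := constExt_tower (K := K) (k := k) (F := F) Λ
  haveI : IsFunctionFieldOne Λ (ConstExtField k F Λ) :=
    IsConstExt.isFunctionFieldOne (K := k) (F := F) ‹IsFunctionFieldOne k F›
  suffices h : ∀ z : A.Pt k,
      A.lineDeg Λ D (A.curvePoint (ConstExtField k F Λ) P₀ η) =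
        A.lineDeg k D (A.curvePoint F P₀ z) from (h y).symm.trans (h 0)
  intro z
  obtain ⟨κ, _, _, _, _, _, R, hR⟩ := exists_constRed_generic hη z
  letI := constExtAlgebra (K := K) k F κ
  haveI : IsScalarTower K κ (ConstExtField k F κ) := IsScalarTower.of_algebraMap_eq fun _ => rfl
  haveI := constExt_tower (K := K) (k := k) (F := F) κ
  haveI : IsFunctionFieldOne κ (ConstExtField k F κ) :=
    IsConstExt.isFunctionFieldOne (K := k) (F := F) ‹IsFunctionFieldOne k F›
  have h1 := R.redPic_lineClass (F := F) (E := ConstExtField k F Λ) (Eb := ConstExtField k F κ) A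
    (D := D) P₀ η
  rw [hR] at h1
  rw [AVData.lineDeg, ← ConstRed.picDegree_redPic (F := F) (Eb := ConstExtField k F κ) R, h1,
    ← AVData.map_curvePoint]
  exact lineDeg_map _

/-! ### the square class -/

section Square

variable (D : LineData A.toPointFunctor) {L : Type u} [Field L] [Algebra K L]
  (E : Type u) [Field E] [Algebra K E] [Algebra L E] [IsScalarTower K L E] [Algebra F E]
  [IsScalarTower K F E] [IsFunctionFieldOne L E]

/-- The class whose vanishing is the theorem of the square on the curve. -/
def AVData.sqClass (P₀ : A.Pt F) (y b : A.Pt L) : Pic L E :=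
  A.lineClass L D (A.curvePoint E P₀ (y + b)) - A.lineClass L D (A.curvePoint E P₀ y)
    - A.lineClass L D (A.curvePoint E P₀ b) + A.lineClass L D (A.curvePoint E P₀ (0 : A.Pt L))

theorem AVData.sqClass_zero_right (P₀ : A.Pt F) (y : A.Pt L) :
    A.sqClass D E P₀ y 0 = 0 := by
  rw [AVData.sqClass, add_zero, sub_self, zero_sub, neg_add_cancel]

theorem AVData.sqClass_zero_left (P₀ : A.Pt F) (b : A.Pt L) :
    A.sqClass D E P₀ 0 b = 0 := by
  rw [AVData.sqClass, zero_add]
  abel

end Square

section SquareMaps

variable {D : LineData A.toPointFunctor} {L E : Type u} [Field L] [Field E]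
  [Algebra k L] [Algebra k E] [Algebra F E] [Algebra L E]
  [IsScalarTower k F E] [IsScalarTower k L E] [IsConstExt k F L E]
  [IsAlgClosed L] [IsFunctionFieldOne L E]
  [Algebra K L] [Algebra K E] [IsScalarTower K k L] [IsScalarTower K F E] [IsScalarTower K L E]

theorem extPic_sqClass (P₀ : A.Pt F) (y b : A.Pt k) :
    extPic L E (A.sqClass D F P₀ y b) =
      A.sqClass D E P₀ (A.map (IsScalarTower.toAlgHom K k L) y)
        (A.map (IsScalarTower.toAlgHom K k L) b) := by
  simp only [AVData.sqClass, map_add, map_sub, extPic_lineClass,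
    AVData.map_curvePoint (L := L), map_zero]

variable {κ Eb : Type u} [Field κ] [Field Eb] [Algebra k κ] [Algebra k Eb]
  [Algebra F Eb] [Algebra κ Eb] [IsScalarTower k F Eb] [IsScalarTower k κ Eb]
  [IsConstExt k F κ Eb] [IsAlgClosed κ] [IsFunctionFieldOne κ Eb]
  [Algebra K κ] [Algebra K Eb] [IsScalarTower K k κ] [IsScalarTower K F Eb]
  [IsScalarTower K κ Eb]

theorem ConstRed.redPic_sqClass (R : ConstRed k L κ) (P₀ : A.Pt F) (y b : A.Pt L) :
    R.redPic F E Eb (A.sqClass D E P₀ y b) =
      A.sqClass D Eb P₀ (R.redPoint A y) (R.redPoint A b) := by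
  simp only [AVData.sqClass, map_add, map_sub, ConstRed.redPic_lineClass, ConstRed.redPoint_add,
    ConstRed.redPoint_zero]

end SquareMaps

end Fermat.Agent.AbelianVariety
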