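/-
The theorem of the square on a curve: for a point of the abelian variety with values in a function
field of one variable, the class of the pullback of a line is an affine function of the translation.

The proof is Weil's: an effective divisor of degree `g` in the class is unique, and its points are
integral over every specialisation which kills the translation, hence constant.
-/
import Fermat.Agent.AbelianVariety.CurveClasses
import Fermat.Agent.AbelianVariety.CurveRiemann

set_option autoImplicit false

noncomputable section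

namespace Fermat.Agent.AbelianVariety

open AlgebraicCurve Fermat.Agent.Curve IsLocalRing

universe u

/-- Constant field extensions compose. -/
theorem isConstExt_trans {k F L₁ E₁ L₂ E₂ : Type u} [Field k] [Field F] [Field L₁] [Field E₁]
    [Field L₂] [Field E₂] [Algebra k F] [Algebra k L₁] [Algebra k E₁] [Algebra F E₁] [Algebra L₁ E₁]
    [IsScalarTower k F E₁] [IsScalarTower k L₁ E₁] [Algebra L₁ L₂] [Algebra L₁ E₂] [Algebra E₁ E₂]
    [Algebra L₂ E₂] [IsScalarTower L₁ E₁ E₂] [IsScalarTower L₁ L₂ E₂] [Algebra k L₂] [Algebra k E₂]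
    [Algebra F E₂] [IsScalarTower k F E₂] [IsScalarTower k L₂ E₂] [IsScalarTower F E₁ E₂]
    [IsConstExt k F L₁ E₁] [IsConstExt L₁ E₁ L₂ E₂] [IsAlgClosed k] [IsFunctionFieldOne k F] :
    IsConstExt k F L₂ E₂ := by
  obtain ⟨x, hx, hfin⟩ := IsFunctionFieldOne.exists_transcendental_finite (K := k) (F := F)
  haveI : Algebra.IsAlgebraic (IntermediateField.adjoin k ({x} : Set F)) F :=
    Algebra.IsAlgebraic.of_finite _ _
  have hx₂ : Transcendental L₂ (algebraMap F E₂ x) := by
    rw [IsScalarTower.algebraMap_apply F E₁ E₂]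
    exact IsConstExt.transcendental (K := L₁) (IsConstExt.transcendental (K := k) hx)
  refine IsConstExt.of_transcendental x hx₂ ?_
  rw [eq_top_iff]
  intro e _
  have hF : ∀ f : F, algebraMap F E₂ f ∈
      IntermediateField.adjoin L₂ (Set.range (algebraMap F E₂)) :=
    fun f => IntermediateField.subset_adjoin _ _ ⟨f, rfl⟩
  have hL : ∀ c : L₁, algebraMap L₁ E₂ c ∈
      IntermediateField.adjoin L₂ (Set.range (algebraMap F E₂)) := fun c => by
    rw [IsScalarTower.algebraMap_apply L₁ L₂ E₂]
    exact IntermediateField.algebraMap_mem _ _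
  have h1 : ∀ z : TensorProduct k L₁ F, algebraMap E₁ E₂ (extConstMap k F L₁ E₁ z) ∈
      IntermediateField.adjoin L₂ (Set.range (algebraMap F E₂)) := by
    intro z
    induction z using TensorProduct.induction_on with
    | zero => simp
    | tmul c f =>
      rw [extConstMap_tmul, map_mul, ← IsScalarTower.algebraMap_apply L₁ E₁ E₂,
        ← IsScalarTower.algebraMap_apply F E₁ E₂]
      exact mul_mem (hL c) (hF f)
    | add a b ha hb => rw [map_add, map_add]; exact add_mem ha hb
  have h2 : ∀ e₁ : E₁, algebraMap E₁ E₂ e₁ ∈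
      IntermediateField.adjoin L₂ (Set.range (algebraMap F E₂)) := by
    intro e₁
    obtain ⟨a, b, hb, he⟩ := IsConstExt.exists_eq_div (K := k) (F := F) (Ω := L₁) e₁
    rw [(eq_div_iff hb).mpr he, map_div₀]
    exact div_mem (h1 a) (h1 b)
  have h3 : ∀ z : TensorProduct L₁ L₂ E₁, extConstMap L₁ E₁ L₂ E₂ z ∈
      IntermediateField.adjoin L₂ (Set.range (algebraMap F E₂)) := by
    intro z
    induction z using TensorProduct.induction_on with
    | zero => simp
    | tmul c f =>
      rw [extConstMap_tmul]
      exact mul_mem (IntermediateField.algebraMap_mem _ _) (h2 f)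
    | add a b ha hb => rw [map_add]; exact add_mem ha hb
  obtain ⟨a, b, hb, he⟩ := IsConstExt.exists_eq_div (K := L₁) (F := E₁) (Ω := L₂) e
  rw [(eq_div_iff hb).mpr he]
  exact div_mem (h3 a) (h3 b)

variable {K : Type u} [Field K] {g : ℕ} {A : AVData K g}

/-- The point `B` specialises to the origin along a valuation over `k`. -/
def VanishesSomewhere (A : AVData K g) (k : Type u) [Field k] {Ω : Type u} [Field Ω]
    [Algebra K Ω] [Algebra k Ω] (B : A.Pt Ω) : Prop :=
  ∃ (V : ValuationSubring Ω) (_ : ∀ a : k, algebraMap k Ω a ∈ V)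
    (hVK : ∀ a : K, algebraMap K Ω a ∈ V),
    letI := valuationAlgebra V hVK
    ∀ (κ : Type u) [Field κ] [Algebra K κ] (r : V →ₐ[K] κ), IsLocalHom (r : V →+* κ) →
      A.map r (A.liftTo V hVK B) = 0

variable {k F : Type u} [Field k] [Field F] [Algebra k F] [Algebra K k] [Algebra K F]
  [IsScalarTower K k F] [IsAlgClosed k] [IsFunctionFieldOne k F]
variable {Ω E : Type u} [Field Ω] [Field E] [Algebra k Ω] [Algebra k E] [Algebra F E] [Algebra Ω E]
  [IsScalarTower k F E] [IsScalarTower k Ω E] [IsConstExt k F Ω E] [IsAlgClosed Ω]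
  [IsFunctionFieldOne Ω E] [Algebra K Ω] [Algebra K E] [IsScalarTower K k Ω]
  [IsScalarTower K F E] [IsScalarTower K Ω E]
variable {D : LineData A.toPointFunctor}

theorem sqClass_eq_zero_of_vanishes (P₀ : A.Pt F) (B : A.Pt Ω)
    (hB : VanishesSomewhere A k B) (y : A.Pt Ω) :
    A.sqClass D E P₀ y B = 0 := by
  classical
  obtain ⟨Λ, _, _, _, _, _, η, hη⟩ := A.exists_generic Ω
  letI algkΛ : Algebra k Λ := ((algebraMap Ω Λ).comp (algebraMap k Ω)).toAlgebra
  haveI : IsScalarTower k Ω Λ := IsScalarTower.of_algebraMap_eq fun _ => rfl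
  haveI : IsScalarTower K k Λ := IsScalarTower.of_algebraMap_eq fun a => by
    rw [IsScalarTower.algebraMap_apply K Ω Λ, IsScalarTower.algebraMap_apply K k Ω]
    rfl
  let E₂ := ConstExtField Ω E Λ
  letI : Algebra K E₂ := constExtAlgebra Ω E Λ
  haveI : IsScalarTower K Λ E₂ := IsScalarTower.of_algebraMap_eq fun _ => rfl
  haveI : IsScalarTower K E E₂ := constExt_tower (K := K) (k := Ω) (F := E) Λ
  haveI : IsFunctionFieldOne Λ E₂ :=
    IsConstExt.isFunctionFieldOne (K := Ω) (F := E) ‹IsFunctionFieldOne Ω E›
  letI algFE₂ : Algebra F E₂ := ((algebraMap E E₂).comp (algebraMap F E)).toAlgebra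
  haveI : IsScalarTower F E E₂ := IsScalarTower.of_algebraMap_eq fun _ => rfl
  letI algkE₂ : Algebra k E₂ := ((algebraMap Λ E₂).comp (algebraMap k Λ)).toAlgebra
  haveI : IsScalarTower k Λ E₂ := IsScalarTower.of_algebraMap_eq fun _ => rfl
  haveI : IsScalarTower k F E₂ := IsScalarTower.of_algebraMap_eq fun a => by
    show algebraMap Λ E₂ (algebraMap Ω Λ (algebraMap k Ω a)) =
      algebraMap E E₂ (algebraMap F E (algebraMap k F a))
    rw [← IsScalarTower.algebraMap_apply Ω Λ E₂, ← IsScalarTower.algebraMap_apply k F E,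
      IsScalarTower.algebraMap_apply k Ω E, ← IsScalarTower.algebraMap_apply Ω E E₂]
  haveI : IsScalarTower K F E₂ := IsScalarTower.of_algebraMap_eq fun a => by
    show _ = algebraMap E E₂ (algebraMap F E (algebraMap K F a))
    rw [← IsScalarTower.algebraMap_apply K F E, ← IsScalarTower.algebraMap_apply K E E₂]
  haveI : IsConstExt k F Λ E₂ := isConstExt_trans (L₁ := Ω) (E₁ := E)
  haveI : Nonempty (Place k F) := RedAux.nonempty_place
  set P₁ : A.Pt E := A.map (IsScalarTower.toAlgHom K F E) P₀ with hP₁
  set B₂ : A.Pt Λ := A.map (IsScalarTower.toAlgHom K Ω Λ) B with hB₂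
  -- points of the curve over `E` and over `F`
  have hcurve : ∀ (E' : Type u) [Field E'] [Algebra K E'] [Algebra F E'] [Algebra E E']
      [IsScalarTower K F E'] [IsScalarTower K E E'] [IsScalarTower F E E'],
      A.map (IsScalarTower.toAlgHom K E E') P₁ = A.map (IsScalarTower.toAlgHom K F E') P₀ := by
    intro E' _ _ _ _ _ _ _
    rw [hP₁, A.toPointFunctor.map_map]
    exact congrArg (fun χ : F →ₐ[K] E' => A.map χ P₀)
      (AlgHom.ext fun f => (IsScalarTower.algebraMap_apply F E E' f).symm)
  -- `c` is the common class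
  have hdeg : ∀ z : A.Pt Λ, A.lineDeg Λ D (A.curvePoint E₂ P₀ z) =
      A.lineDeg Λ D (A.curvePoint E₂ P₀ (0 : A.Pt Λ)) := by
    intro z
    have h := AVData.lineDeg_translate (A := A) (k := Λ) (F := E₂) D
      (A.map (IsScalarTower.toAlgHom K F E₂) P₀) z
    have e : ∀ w : A.Pt Λ, A.curvePoint E₂ (A.map (IsScalarTower.toAlgHom K F E₂) P₀) w =
        A.curvePoint E₂ P₀ w := by
      intro w
      rw [AVData.curvePoint, AVData.curvePoint, A.toPointFunctor.map_map]
      rfl
    rwa [e, e] at h
  have hdeg0 : AVData.picDegree Λ E₂ (A.sqClass D E₂ P₀ η B₂) = 0 := by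
    simp only [AVData.sqClass, map_add, map_sub]
    change A.lineDeg Λ D _ - A.lineDeg Λ D _ - A.lineDeg Λ D _ + A.lineDeg Λ D _ = 0
    rw [hdeg (η + B₂), hdeg η, hdeg B₂]
    ring
  obtain ⟨D₀, hD₀, hD₀deg, hD₀rank⟩ := Riemann.exists_nonspecial k F
  obtain ⟨X, hX⟩ := QuotientAddGroup.mk_surjective (A.sqClass D E₂ P₀ η B₂)
  have hXdeg : Divisor.degree X = 0 := by rw [← hdeg0, ← hX, AVData.picDegree_mk]
  obtain ⟨X', hX', hX'eq⟩ := Riemann.exists_effective_equiv (k := Λ) (F := E₂)
    (X := X + divExt Λ E₂ D₀) (by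
      rw [map_add, hXdeg, degree_divExt, hD₀deg, genusFF_eq (K := k) (F := F), zero_add])
  -- every point of `X'` has constant coordinates
  have hconst : ∀ P ∈ X'.support, ∃ v : Place Ω E, P = placeExt Λ E₂ v := by
    obtain ⟨f, hft, hfreg⟩ := Riemann.exists_transcendental_regular D₀.support
    intro P hP
    rcases exists_eq_placeExt_or (K := Ω) (F := E) P with h | hgen
    · exact h
    exfalso
    have hfP : algebraMap F E₂ f ∈ P.toValuationSubring := by
      rw [IsScalarTower.algebraMap_apply F E E₂]; exact hgen _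
    set c : Λ := constResidue P ⟨_, hfP⟩ with hc
    obtain ⟨V₀, hV₀, hV₀K, hvan⟩ := hB
    suffices hcΩ : ∃ a : Ω, algebraMap Ω Λ a = c by
      obtain ⟨a, ha⟩ := hcΩ
      have hne : algebraMap F E f - algebraMap Ω E a ≠ 0 := by
        intro h0
        apply IsConstExt.transcendental (K := k) (Ω := Ω) (E := E) hft
        rw [sub_eq_zero.mp h0]
        exact isAlgebraic_algebraMap a
      have h0 := ord_algebraMap_eq_zero_of_forall_mem (F := E) hgen
        (algebraMap F E f - algebraMap Ω E a)
      have h1 := (constResidue_eq_iff P ⟨_, hfP⟩ c).mp rfl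
      have h2 : algebraMap E E₂ (algebraMap F E f - algebraMap Ω E a) =
          algebraMap F E₂ f - algebraMap Λ E₂ c := by
        rw [map_sub, ← IsScalarTower.algebraMap_apply F E E₂, ← ha,
          ← IsScalarTower.algebraMap_apply Ω E E₂, ← IsScalarTower.algebraMap_apply Ω Λ E₂]
      rw [h2] at h0
      have hne2 : algebraMap F E₂ f - algebraMap Λ E₂ c ≠ 0 := h2 ▸ (map_ne_zero _).mpr hne
      obtain ⟨π, hπ⟩ := IsDiscreteValuationRing.exists_irreducible P.toValuationSubring
      obtain ⟨w, hw⟩ := P.exists_unit_mul_zpow hne2 hπ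
      change P.adicValuation (algebraMap F E₂ f - algebraMap Λ E₂ c) < 1 at h1
      rw [h0, zpow_zero, mul_one] at hw
      rw [hw, (P.adicValuation_coe_eq_one_iff _).mpr w.isUnit] at h1
      exact lt_irrefl _ h1
    let ι₀ : V₀ →+* Λ := (algebraMap Ω Λ).comp V₀.subtype
    let R₀ : LocalSubring Λ := LocalSubring.range ι₀
    have hR₀mem : ∀ x : Λ, x ∈ R₀.toSubring ↔ ∃ a : V₀, algebraMap Ω Λ (a : Ω) = x := by
      intro x
      rw [LocalSubring.range_toSubring]
      exact RingHom.mem_range
    haveI : IsIntegrallyClosedIn R₀.toSubring Λ := by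
      rw [Subring.isIntegrallyClosedIn_iff]
      intro x hx
      obtain ⟨p, hp, hpx⟩ := hx
      have hlift : p.map R₀.toSubring.subtype ∈ Polynomial.lifts ι₀ := by
        rw [Polynomial.lifts_iff_coeff_lifts]
        intro n
        rw [Polynomial.coeff_map]
        obtain ⟨a, ha⟩ := (hR₀mem _).mp (p.coeff n).2
        exact ⟨a, ha⟩
      obtain ⟨q, hq, -, hqm⟩ := Polynomial.lifts_and_degree_eq_and_monic hlift (hp.map _)
      have hxΛ : Polynomial.eval₂ ι₀ x q = 0 := by
        rw [← Polynomial.eval_map, hq, Polynomial.eval_map]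
        exact hpx
      have halg : IsIntegral Ω x := ⟨q.map V₀.subtype, hqm.map _, by
        rw [Polynomial.eval₂_map]; exact hxΛ⟩
      obtain ⟨a, rfl⟩ := minpoly.mem_range_of_degree_eq_one Ω x
        (IsAlgClosed.degree_eq_one_of_irreducible Ω (minpoly.irreducible halg))
      have hint : IsIntegral V₀ a := ⟨q, hqm, by
        apply (algebraMap Ω Λ).injective
        rw [Polynomial.hom_eval₂, map_zero]
        exact hxΛ⟩
      obtain ⟨b, hb⟩ := IsIntegrallyClosed.isIntegral_iff.1 hint
      exact (hR₀mem _).mpr ⟨b, congrArg (algebraMap Ω Λ) hb⟩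
    have hcmem : c ∈ R₀.toSubring := by
      by_contra hcon
      obtain ⟨V, hV, hcV⟩ :=
        LocalSubring.exists_le_valuationSubring_of_isIntegrallyClosedIn (R := R₀) hcon
      obtain ⟨hle, hloc⟩ := hV
      have hsub : ∀ a : V₀, algebraMap Ω Λ (a : Ω) ∈ V := fun a =>
        hle ((hR₀mem _).mpr ⟨a, rfl⟩)
      have hVk : ∀ a : k, algebraMap k Λ a ∈ V := fun a => by
        rw [IsScalarTower.algebraMap_apply k Ω Λ]
        exact hsub ⟨_, hV₀ a⟩
      letI algkκ : Algebra k (ResidueField V) :=
        letI := valuationAlgebra (K := k) V hVk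
        ((residue V).comp (algebraMap k V)).toAlgebra
      letI algKκ : Algebra K (ResidueField V) :=
        ((algebraMap k (ResidueField V)).comp (algebraMap K k)).toAlgebra
      haveI : IsScalarTower K k (ResidueField V) := IsScalarTower.of_algebraMap_eq fun _ => rfl
      haveI := isAlgClosed_residueField V
      let R : ConstRed k Λ (ResidueField V) :=
        { ring := V, mem := hVk, π := residue V, surj := residue_surjective, comm := fun _ => rfl }
      let Eb := ConstExtField k F (ResidueField V)
      letI : Algebra K Eb := constExtAlgebra k F (ResidueField V)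
      haveI : IsScalarTower K (ResidueField V) Eb :=
        IsScalarTower.of_algebraMap_eq fun _ => rfl
      haveI : IsScalarTower K F Eb := constExt_tower (K := K) (k := k) (F := F) (ResidueField V)
      haveI : IsFunctionFieldOne (ResidueField V) Eb :=
        IsConstExt.isFunctionFieldOne (K := k) (F := F) ‹IsFunctionFieldOne k F›
      have hB0 : R.redPoint A B₂ = 0 := by
        letI := valuationAlgebra V₀ hV₀K
        letI := valuationAlgebra R.ring (R.memK (K := K))
        let χ : V₀ →ₐ[K] R.ring :=
          { toFun := fun a => ⟨_, hsub a⟩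
            map_one' := Subtype.ext (map_one _)
            map_mul' := fun x y => Subtype.ext (map_mul (algebraMap Ω Λ) (x : Ω) y)
            map_zero' := Subtype.ext (map_zero _)
            map_add' := fun x y => Subtype.ext (map_add (algebraMap Ω Λ) (x : Ω) y)
            commutes' := fun a => Subtype.ext ((IsScalarTower.toAlgHom K Ω Λ).commutes a) }
        rw [ConstRed.redPoint, ← A.eq_liftTo R.ring (R.memK (K := K)) B₂
          (A.map χ (A.liftTo V₀ hV₀K B)) (by
            rw [A.toPointFunctor.map_map, hB₂]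
            conv_rhs => rw [← A.map_liftTo V₀ hV₀K B, A.toPointFunctor.map_map]
            rfl), A.toPointFunctor.map_map]
        refine hvan _ _ ⟨fun a ha => ?_⟩
        by_contra hna
        apply ha.ne_zero
        show residue V ⟨_, hsub a⟩ = 0
        rw [IsLocalRing.residue_eq_zero_iff]
        intro hu
        apply hna
        have hu₀ : IsUnit (⟨algebraMap Ω Λ (a : Ω), (hR₀mem _).mpr ⟨a, rfl⟩⟩ : R₀.toSubring) :=
          hloc.map_nonunit _ hu
        obtain ⟨⟨b, hb⟩, hab⟩ := isUnit_iff_exists_inv.mp hu₀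
        obtain ⟨b', rfl⟩ := (hR₀mem _).mp hb
        refine isUnit_iff_exists_inv.mpr ⟨b', Subtype.ext ?_⟩
        apply (algebraMap Ω Λ).injective
        rw [MulMemClass.coe_mul, map_mul, OneMemClass.coe_one, map_one]
        exact congrArg Subtype.val hab
      have hred : (R.good F E₂ Eb).divMap X' = divExt (ResidueField V) Eb D₀ := by
        refine Riemann.eq_of_equiv ?_ ?_ ?_ ?_
        · refine Finsupp.le_def.2 fun v => ?_
          rcases exists_eq_placeExt_or (K := k) (F := F) v with ⟨w, rfl⟩ | hw
          · rw [divExt_apply_placeExt]; exact Finsupp.le_def.1 hD₀ w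
          · rw [divExt_apply_of_forall_mem _ hw]; rfl
        · have := (R.good F E₂ Eb).divMap_mono hX'
          rwa [map_zero] at this
        · rw [finrank_riemannRochSpace_divExt, hD₀rank]
        · have h1 := congrArg (R.redPic F E₂ Eb) (congrArg (· + extPic Λ E₂
            (QuotientAddGroup.mk D₀)) hX)
          simp only [map_add, ConstRed.redPic_sqClass, hB0, AVData.sqClass_zero_right,
            ConstRed.redPic_extPic, zero_add] at h1
          simp only [extPic_mk, ConstRed.redPic_mk] at h1
          have h2 := (R.good F E₂ Eb).divMap_mem_principal hX'eq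
          rw [map_sub, map_add, ConstRed.divMap_divExt] at h2
          rw [← QuotientAddGroup.mk_add, QuotientAddGroup.eq_iff_sub_mem] at h1
          have h3 := add_mem h2 h1
          rwa [sub_add_sub_cancel] at h3
      have hQ : R.placeMap F E₂ Eb P ∈ (divExt (ResidueField V) Eb D₀).support := by
        rw [← hred, Finsupp.mem_support_iff]
        have hpos : 0 < X' P := lt_of_le_of_ne (by simpa using Finsupp.le_def.1 hX' P)
          (Ne.symm (Finsupp.mem_support_iff.mp hP))
        have hle : Finsupp.single P (X' P) ≤ X' := Finsupp.le_def.2 fun w => by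
          rw [Finsupp.single_apply]
          split_ifs with hw
          · rw [hw]
          · simpa using Finsupp.le_def.1 hX' w
        have h4 := Finsupp.le_def.1 ((R.good F E₂ Eb).divMap_mono hle) (R.placeMap F E₂ Eb P)
        rw [GoodReduction.divMap_single] at h4
        change Finsupp.single (R.placeMap F E₂ Eb P) (X' P) (R.placeMap F E₂ Eb P) ≤ _ at h4
        rw [Finsupp.single_eq_same] at h4
        omega
      obtain ⟨v, hv, hvP⟩ : ∃ v ∈ D₀.support,
          placeExt (ResidueField V) Eb v = R.placeMap F E₂ Eb P := by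
        have h5 := Finsupp.mapDomain_support hQ
        rw [Finset.mem_image] at h5
        exact h5
      have hfQ : algebraMap F Eb f ∈ (R.placeMap F E₂ Eb P).toValuationSubring := by
        rw [← hvP, algebraMap_mem_placeExt]
        exact mem_of_ord_nonneg v (hfreg v hv)
      obtain ⟨h₁, h₂, -⟩ := R.value_base P f hfQ
      exact hcV h₂
    obtain ⟨a, ha⟩ := (hR₀mem c).mp hcmem
    exact ⟨a, ha⟩
  -- so the class is defined over `Ω`
  choose w hw using hconst
  let Y : Divisor Ω E := ∑ P ∈ X'.support.attach, Finsupp.single (w P P.2) (X' P)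
  have hY : divExt Λ E₂ Y = X' := by
    rw [map_sum]
    conv_rhs => rw [← Finsupp.sum_single X', Finsupp.sum,
      ← Finset.sum_attach X'.support fun P => Finsupp.single P (X' P)]
    exact Finset.sum_congr rfl fun P _ => by rw [divExt_single, ← hw P P.2]
  set cl : Pic Ω E := QuotientAddGroup.mk Y - extPic Ω E (QuotientAddGroup.mk D₀) with hcl
  have hcomp : ∀ Z₀ : Divisor k F, divExt Λ E₂ (divExt Ω E Z₀) = divExt Λ E₂ Z₀ := by
    intro Z₀
    induction Z₀ using Finsupp.induction with
    | zero => simp
    | single_add v n Z _ _ ih =>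
      rw [map_add, map_add, map_add, ih, divExt_single, divExt_single, divExt_single]
      refine congrArg (· + _) (congrArg (Finsupp.single · n) ?_)
      refine eq_placeExt v (fun x hx => ?_) ?_
      · rw [IsScalarTower.algebraMap_apply F E E₂, algebraMap_mem_placeExt, algebraMap_mem_placeExt]
        exact hx
      · by_contra hall
        push Not at hall
        refine v.ne_top' (SetLike.ext fun x => ⟨fun _ => ValuationSubring.mem_top x, fun _ => ?_⟩)
        have := hall x
        rwa [IsScalarTower.algebraMap_apply F E E₂, algebraMap_mem_placeExt,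
          algebraMap_mem_placeExt] at this
  have hη2 : A.sqClass D E₂ P₀ η B₂ = extPic Λ E₂ cl := by
    rw [hcl, map_sub, extPic_mk, hY, extPic_mk, extPic_mk, hcomp, ← hX, eq_sub_iff_add_eq,
      ← QuotientAddGroup.mk_add, QuotientAddGroup.eq_iff_sub_mem]
    have := neg_mem hX'eq
    rwa [neg_sub] at this
  -- specialise the generic translation
  suffices key : ∀ z : A.Pt Ω, A.sqClass D E P₀ z B = cl by
    rw [key y, ← key 0, AVData.sqClass_zero_left]
  intro z
  obtain ⟨κ, _, _, _, _, _, R, hR⟩ := exists_constRed_generic hη z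
  let Eb := ConstExtField Ω E κ
  letI : Algebra K Eb := constExtAlgebra Ω E κ
  haveI : IsScalarTower K κ Eb := IsScalarTower.of_algebraMap_eq fun _ => rfl
  haveI : IsScalarTower K E Eb := constExt_tower (K := K) (k := Ω) (F := E) κ
  haveI : IsFunctionFieldOne κ Eb :=
    IsConstExt.isFunctionFieldOne (K := Ω) (F := E) ‹IsFunctionFieldOne Ω E›
  have hsame : ∀ (L' E' : Type u) [Field L'] [Field E'] [Algebra K L'] [Algebra K E'] [Algebra L' E']
      [IsScalarTower K L' E'] [IsFunctionFieldOne L' E'] [Algebra F E'] [Algebra E E']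
      [IsScalarTower K F E'] [IsScalarTower K E E'] [IsScalarTower F E E'] (a b : A.Pt L'),
      A.sqClass D E' P₁ a b = A.sqClass D E' P₀ a b := by
    intro L' E' _ _ _ _ _ _ _ _ _ _ _ _ a b
    simp only [AVData.sqClass, AVData.curvePoint, hcurve]
  apply extPic_injective (L := κ) (E := Eb)
  symm
  rw [← R.redPic_extPic (E := E₂), ← hη2, ← hsame Λ E₂, ConstRed.redPic_sqClass, hR, hB₂,
    ConstRed.redPoint_map, ← extPic_sqClass]
  congr 1
  simp only [AVData.sqClass, AVData.curvePoint, hP₁, A.toPointFunctor.map_map]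
  rfl

/-- The theorem of the square on a curve. -/
theorem sqClass_eq_zero (P₀ : A.Pt F) (y b : A.Pt k) : A.sqClass D F P₀ y b = 0 := by
  obtain ⟨Λ, _, _, _, _, _, η, hη⟩ := A.exists_generic k
  let E' := ConstExtField k F Λ
  letI : Algebra K E' := constExtAlgebra k F Λ
  haveI : IsScalarTower K Λ E' := IsScalarTower.of_algebraMap_eq fun _ => rfl
  haveI : IsScalarTower K F E' := constExt_tower (K := K) (k := k) (F := F) Λ
  haveI : IsFunctionFieldOne Λ E' :=
    IsConstExt.isFunctionFieldOne (K := k) (F := F) ‹IsFunctionFieldOne k F›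
  set y' := A.map (IsScalarTower.toAlgHom K k Λ) y with hy'
  set b' := A.map (IsScalarTower.toAlgHom K k Λ) b with hb'
  have hspec : ∀ z : A.Pt k, VanishesSomewhere A k
      (η - A.map (IsScalarTower.toAlgHom K k Λ) z) := by
    intro z
    obtain ⟨V, hV, P, hP, hr⟩ := hη z
    have hVK : ∀ a : K, algebraMap K Λ a ∈ V := fun a => by
      rw [IsScalarTower.algebraMap_apply K k Λ]; exact hV _
    refine ⟨V, hV, hVK, ?_⟩
    letI := valuationAlgebra V hVK
    let ι : k →ₐ[K] V :=
      { toFun := fun a => ⟨_, hV a⟩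
        map_one' := Subtype.ext (map_one _)
        map_mul' := fun x y => Subtype.ext (map_mul _ x y)
        map_zero' := Subtype.ext (map_zero _)
        map_add' := fun x y => Subtype.ext (map_add _ x y)
        commutes' := fun a => Subtype.ext ((IsScalarTower.toAlgHom K k Λ).commutes a) }
    intro κ _ _ r hloc
    rw [← A.eq_liftTo V hVK _ (P - A.map ι z)
      (by rw [map_sub, hP, A.toPointFunctor.map_map]; rfl), map_sub, hr κ r (r.comp ι) hloc
      (fun _ => rfl), A.toPointFunctor.map_map, sub_self]
  have hneg : VanishesSomewhere A k (b' - η) := by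
    obtain ⟨V, hV, hVK, h⟩ := hspec b
    refine ⟨V, hV, hVK, ?_⟩
    letI := valuationAlgebra V hVK
    intro κ _ _ r hloc
    rw [← A.eq_liftTo V hVK (b' - η)
      (-(A.liftTo V hVK (η - b'))) (by rw [map_neg, A.map_liftTo, neg_sub]), map_neg,
      h κ r hloc, neg_zero]
  have hη0 : VanishesSomewhere A k η := by simpa using hspec 0
  apply extPic_injective (L := Λ) (E := E')
  rw [extPic_sqClass, map_zero, ← hy', ← hb']
  have h1 := sqClass_eq_zero_of_vanishes (D := D) (E := E') P₀ η hη0 y'
  have h2 := sqClass_eq_zero_of_vanishes (D := D) (E := E') P₀ (b' - η) hneg (y' + η)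
  have h3 := sqClass_eq_zero_of_vanishes (D := D) (E := E') P₀ (b' - η) hneg η
  simp only [AVData.sqClass] at h1 h2 h3 ⊢
  rw [show y' + η + (b' - η) = y' + b' by abel] at h2
  rw [show η + (b' - η) = b' by abel] at h3
  calc _ = (A.lineClass Λ D (A.curvePoint E' P₀ (y' + η)) -
          A.lineClass Λ D (A.curvePoint E' P₀ y') - A.lineClass Λ D (A.curvePoint E' P₀ η) +
          A.lineClass Λ D (A.curvePoint E' P₀ (0 : A.Pt Λ))) +
        (A.lineClass Λ D (A.curvePoint E' P₀ (y' + b')) -
          A.lineClass Λ D (A.curvePoint E' P₀ (y' + η)) -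
          A.lineClass Λ D (A.curvePoint E' P₀ (b' - η)) +
          A.lineClass Λ D (A.curvePoint E' P₀ (0 : A.Pt Λ))) -
        (A.lineClass Λ D (A.curvePoint E' P₀ b') - A.lineClass Λ D (A.curvePoint E' P₀ η) -
          A.lineClass Λ D (A.curvePoint E' P₀ (b' - η)) +
          A.lineClass Λ D (A.curvePoint E' P₀ (0 : A.Pt Λ))) := by abel
    _ = 0 := by rw [h1, h2, h3]; simp

end Fermat.Agent.AbelianVariety
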