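/-
The degree of the pullback of a line: behaviour in finite extensions, and the comparison of two
evaluations of a principal combination of pullbacks, which turns the theorem of the square into
the parallelogram law for degrees.
-/
import Fermat.Agent.AbelianVariety.CurveRigidity
import Fermat.Agent.Curve.BasicExtension
import Mathlib.FieldTheory.IsAlgClosed.AlgebraicClosure

set_option autoImplicit false

noncomputable section

namespace Fermat.Agent.AbelianVariety

open AlgebraicCurve Fermat.Agent.Curve IsLocalRing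

universe u

variable {K : Type u} [Field K] {g : ℕ} {A : AVData K g}

section Finite

variable {k F F' : Type u} [Field k] [Field F] [Field F'] [Algebra k F] [Algebra k F']
  [Algebra F F'] [IsScalarTower k F F'] [IsFunctionFieldOne k F] [IsFunctionFieldOne k F']
  [Algebra K k] [Algebra K F] [Algebra K F'] [IsScalarTower K k F] [IsScalarTower K k F']
  [IsScalarTower K F F']

theorem lineDeg_finite_extension (D : LineData A.toPointFunctor) (P : A.Pt F) :
    A.lineDeg k D (A.map (IsScalarTower.toAlgHom K F F') P) =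
      (Module.finrank F F' : ℤ) * A.lineDeg k D P := by
  haveI : Module.Finite F F' := finite_of_isFunctionFieldOne (K := k)
  haveI : Algebra.IsIntegral F F' := Algebra.IsIntegral.of_finite F F'
  obtain ⟨i, hi⟩ := D.exists_in P
  have hi' := D.in_map (IsScalarTower.toAlgHom K F F') i P hi
  rw [AVData.lineDeg_eq hi, AVData.lineDeg_eq hi', ← Divisor.degree_pullback (F' := F')]
  congr 1
  refine Finsupp.ext fun w => ?_
  obtain ⟨c, hc⟩ := AVData.exists_inAt (A := A) (D := D) (w.restrict F).toValuationSubring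
    (base_mem_place (w.restrict F)) P
  have hc' : AVData.InPlace D c w (A.map (IsScalarTower.toAlgHom K F F') P) :=
    hc.map _ _ (fun x hx => (w.mem_restrict_iff).mp hx)
  rw [Divisor.pullback_apply, AVData.lineDiv_apply, AVData.lineDiv_apply,
    AVData.lineOrd_eq hi' hc', AVData.lineOrd_eq hi (i := c) hc, ← w.ord_restrict]
  congr 1
  exact (D.g_map (IsScalarTower.toAlgHom K F F') hi hc.in_point).symm

end Finite

/-! ### residues -/

section Residue

variable {k E : Type u} [Field k] [Field E] [Algebra k E] [IsAlgClosed k] [IsFunctionFieldOne k E]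

open Classical in
/-- The residue of a function at a place, extended by zero. -/
def resAt (v : Place k E) (x : E) : k :=
  if h : x ∈ v.toValuationSubring then constResidue v ⟨x, h⟩ else 0

theorem resAt_of_mem {v : Place k E} {x : E} (h : x ∈ v.toValuationSubring) :
    resAt v x = constResidue v ⟨x, h⟩ := dif_pos h

theorem resAt_mul {v : Place k E} {x y : E} (hx : x ∈ v.toValuationSubring)
    (hy : y ∈ v.toValuationSubring) : resAt v (x * y) = resAt v x * resAt v y := by
  rw [resAt_of_mem (mul_mem hx hy), resAt_of_mem hx, resAt_of_mem hy, ← map_mul]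
  rfl

theorem resAt_ne_zero {v : Place k E} {x : E} (hx : x ≠ 0) (h : v.ord x = 0) :
    resAt v x ≠ 0 := by
  rw [resAt_of_mem (mem_of_ord_nonneg v h.ge), constResidue_ne_zero_iff]
  refine isUnit_iff_exists_inv.mpr ⟨⟨x⁻¹, mem_of_ord_nonneg v (by rw [v.ord_inv]; omega)⟩,
    Subtype.ext (mul_inv_cancel₀ hx)⟩

theorem ord_eq_zero_of_isUnit {v : Place k E} {x : E} (hx : x ∈ v.toValuationSubring)
    (hu : IsUnit (⟨x, hx⟩ : v.toValuationSubring)) : v.ord x = 0 := by
  obtain ⟨w, hw⟩ := hu
  have := v.ord_coe_unit w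
  rw [hw] at this
  exact this

theorem resAt_prod_zpow {J : Type} (s : Finset J) (v : Place k E) (x : J → Eˣ) (n : J → ℤ)
    (h : ∀ j ∈ s, v.ord (x j : E) = 0) :
    resAt v ((∏ j ∈ s, x j ^ n j : Eˣ) : E) = ∏ j ∈ s, resAt v (x j : E) ^ n j := by
  classical
  have hord : ∀ (z : Eˣ) (m : ℤ), v.ord (z : E) = 0 → v.ord ((z ^ m : Eˣ) : E) = 0 :=
    fun z m hz => by rw [Units.val_zpow_eq_zpow_val, v.ord_zpow, hz, mul_zero]
  have hpow : ∀ (z : Eˣ) (m : ℤ), v.ord (z : E) = 0 →
      resAt v ((z ^ m : Eˣ) : E) = resAt v (z : E) ^ m := by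
    intro z m hz
    have hmem := fun m : ℤ => mem_of_ord_nonneg v (hord z m hz).ge
    induction m using Int.induction_on with
    | zero => rw [zpow_zero, Units.val_one, zpow_zero, resAt_of_mem v.toValuationSubring.one_mem]
              exact map_one (constResidue v)
    | succ m ih =>
      rw [zpow_add_one, Units.val_mul, resAt_mul (hmem m) (mem_of_ord_nonneg v hz.ge), ih,
        zpow_add_one₀ (resAt_ne_zero (Units.ne_zero z) hz)]
    | pred m ih =>
      have h1 : resAt v ((z ^ (-(m : ℤ) - 1) : Eˣ) : E) * resAt v (z : E) =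
          resAt v ((z ^ (-(m : ℤ)) : Eˣ) : E) := by
        rw [← resAt_mul (hmem _) (mem_of_ord_nonneg v hz.ge), ← Units.val_mul, ← zpow_add_one,
          sub_add_cancel]
      rw [ih] at h1
      rw [zpow_sub_one₀ (resAt_ne_zero (Units.ne_zero z) hz), ← h1,
        mul_inv_cancel_right₀ (resAt_ne_zero (Units.ne_zero z) hz)]
  induction s using Finset.induction_on with
  | empty => rw [Finset.prod_empty, Finset.prod_empty, Units.val_one,
               resAt_of_mem v.toValuationSubring.one_mem]
             exact map_one (constResidue v)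
  | insert a t hat ih =>
    have hmem : ((∏ j ∈ t, x j ^ n j : Eˣ) : E) ∈ v.toValuationSubring := by
      rw [Units.coe_prod]
      exact prod_mem fun j hj =>
        mem_of_ord_nonneg v (hord _ _ (h j (Finset.mem_insert_of_mem hj))).ge
    rw [Finset.prod_insert hat, Finset.prod_insert hat, Units.val_mul,
      resAt_mul (mem_of_ord_nonneg v (hord _ _ (h a (Finset.mem_insert_self a t))).ge) hmem,
      hpow _ _ (h a (Finset.mem_insert_self a t)),
      ih fun j hj => h j (Finset.mem_insert_of_mem hj)]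

theorem ord_prod_zpow {J : Type} (s : Finset J) (v : Place k E) (x : J → Eˣ) (n : J → ℤ) :
    v.ord ((∏ j ∈ s, x j ^ n j : Eˣ) : E) = ∑ j ∈ s, n j * v.ord (x j : E) := by
  rw [Units.coe_prod, ord_prod v s (fun j _ => Units.ne_zero _)]
  exact Finset.sum_congr rfl fun j _ => by rw [Units.val_zpow_eq_zpow_val, v.ord_zpow]

end Residue

/-! ### comparing two evaluations -/

section Compare

variable {k F L E κ Eb : Type u} [Field k] [Field F] [Field L] [Field E] [Field κ] [Field Eb]
  [Algebra k F] [Algebra k L] [Algebra k E] [Algebra F E] [Algebra L E]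
  [IsScalarTower k F E] [IsScalarTower k L E]
  [Algebra k κ] [Algebra k Eb] [Algebra F Eb] [Algebra κ Eb]
  [IsScalarTower k F Eb] [IsScalarTower k κ Eb]
  [IsConstExt k F L E] [IsConstExt k F κ Eb] [IsAlgClosed k] [IsAlgClosed L] [IsAlgClosed κ]
  [IsFunctionFieldOne k F] [IsFunctionFieldOne L E] [IsFunctionFieldOne κ Eb]
  [Algebra K k] [Algebra K F] [Algebra K L] [Algebra K E] [Algebra K κ] [Algebra K Eb]
  [IsScalarTower K k L] [IsScalarTower K k κ] [IsScalarTower K F E] [IsScalarTower K L E]
  [IsScalarTower K F Eb] [IsScalarTower K κ Eb]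
variable {D : LineData A.toPointFunctor} {J : Type} [Fintype J]

/-- A function whose divisor is a combination of pullbacks, divided by the local equations at a
chart: after one scaling its values at all places are units of the valuation ring. -/
theorem ConstRed.exists_scale_residue (R : ConstRed k L κ) (P₀ : A.Pt F) (z : J → A.Pt L)
    (n : J → ℤ) (i : J → D.ι) (hi : ∀ j, D.In (i j) (A.curvePoint E P₀ (z j))) (f : Eˣ)
    (hf : ∀ P : Place L E, P.ord (f : E) = ∑ j, n j * A.lineOrd D (hi j) P) :
    ∃ l : Lˣ, ∀ (P : Place L E) (c : J → D.ι)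
      (hc : ∀ j, AVData.InPlace D (c j) (R.placeMap F E Eb P)
        (A.curvePoint Eb P₀ (R.redPoint A (z j)))),
      ∃ u : R.ringˣ, ((u : R.ring) : L) = (l : L) * resAt P
        ((f * (∏ j, D.g (hi j) (R.inPlace_of_placeMap A (E := E) (hc j)).in_point ^ n j)⁻¹ : Eˣ) : E) := by
  classical
  choose e he using fun j => D.exists_in (A.curvePoint Eb P₀ (R.redPoint A (z j)))
  have heE := fun j => (R.in_of_gauss A (E := E) (he j)).in_point
  let h₀ : Eˣ := f * (∏ j, D.g (hi j) (heE j) ^ n j)⁻¹
  obtain ⟨a, ha, hφa⟩ := (R.good F E Eb).exists_scale (h₀ : E) (Units.ne_zero _)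
  have ha0 : a ≠ 0 := fun h => hφa <| by
    rw [show (⟨a • (h₀ : E), ha⟩ : (R.good F E Eb).V) = 0 from
      Subtype.ext (show a • (h₀ : E) = 0 by rw [h, zero_smul]), map_zero]
  refine ⟨Units.mk0 a ha0, fun P c hc => ?_⟩
  set Q := R.placeMap F E Eb P with hQdef
  have hcE := fun j => R.inPlace_of_placeMap A (E := E) (hc j)
  set h₁ : Eˣ := f * (∏ j, D.g (hi j) (hcE j).in_point ^ n j)⁻¹ with hh₁
  -- change of charts by units of the Gauss ring
  choose x hx hφx using fun j => R.φ_g A (E := E) (he j) (hc j).in_point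
  have hunit : ∀ j, ∃ w : ((R.good F E Eb).V)ˣ, ((w : (R.good F E Eb).V) : E) =
      ((D.g (heE j) (hcE j).in_point : Eˣ) : E) := by
    intro j
    have hu : IsUnit (x j) := by
      rw [← not_not (a := IsUnit (x j)), ← GoodReduction.φ_eq_zero_iff, hφx]
      exact Units.ne_zero _
    exact ⟨hu.unit, hx j⟩
  choose w hw using hunit
  let W : ((R.good F E Eb).V)ˣ := (∏ j, w j ^ n j)⁻¹
  let incl : ((R.good F E Eb).V)ˣ →* Eˣ := Units.map ((R.good F E Eb).V.subtype : _ →* E)
  have hW : incl W = (∏ j, D.g (heE j) (hcE j).in_point ^ n j)⁻¹ := by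
    simp only [W, map_inv, map_prod, map_zpow]
    exact congrArg _ (Finset.prod_congr rfl fun j _ => congrArg (· ^ n j) (Units.ext (hw j)))
  have hrel : h₁ = h₀ * incl W := by
    rw [hW, hh₁, mul_assoc, ← mul_inv, ← Finset.prod_mul_distrib]
    refine congrArg (fun p : Eˣ => f * p⁻¹) (Finset.prod_congr rfl fun j _ => ?_)
    rw [← mul_zpow, D.g_cocycle]
  have hmem : a • (h₁ : E) ∈ (R.good F E Eb).V := by
    rw [hrel, Units.val_mul, ← smul_mul_assoc]
    exact mul_mem ha (Subtype.mem _)
  have hφ₁ : (R.good F E Eb).φ ⟨_, hmem⟩ ≠ 0 := by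
    rw [show (⟨_, hmem⟩ : (R.good F E Eb).V) = ⟨_, ha⟩ * (W : (R.good F E Eb).V) from
      Subtype.ext (show a • (h₁ : E) = a • (h₀ : E) * ((W : (R.good F E Eb).V) : E) by
        rw [hrel, Units.val_mul, ← smul_mul_assoc]; rfl), map_mul]
    exact mul_ne_zero hφa fun h => ((R.good F E Eb).φ_eq_zero_iff _).mp h W.isUnit
  -- no zeros or poles over `Q`
  have hzero : ∀ P' : Place L E, R.placeMap F E Eb P' = Q → P'.ord (a • (h₁ : E)) = 0 := by
    intro P' hP'
    have hc' := fun j => R.inPlace_of_placeMap A (E := E) (P := P') (hP'.symm ▸ hc j)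
    rw [RedAux.ord_const_smul P' ha0, hh₁, Units.val_mul, P'.ord_mul (Units.ne_zero _)
      (Units.ne_zero _), Units.val_inv_eq_inv_val, P'.ord_inv, ord_prod_zpow, hf,
      ← sub_eq_add_neg, ← Finset.sum_sub_distrib]
    refine Finset.sum_eq_zero fun j _ => ?_
    rw [AVData.lineOrd_eq (hi j) (hc' j), sub_self]
  have hordQ : Q.ord ((R.good F E Eb).φ ⟨_, hmem⟩) = 0 := by
    rw [← (R.good F E Eb).divMap_apply_eq_ord ⟨_, hmem⟩ hφ₁
      (D := divisorOf L (a • (h₁ : E))) (fun P' => divisorOf_apply _ _) Q,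
      GoodReduction.divMap_apply, Finsupp.mapDomain, Finsupp.sum_apply]
    refine Finset.sum_eq_zero fun P' _ => ?_
    simp only [Finsupp.single_apply]
    split_ifs with hP'
    · rw [divisorOf_apply]; exact hzero P' hP'
    · rfl
  have hP : P.ord (a • (h₁ : E)) = 0 := hzero P rfl
  obtain ⟨hA, hlt⟩ := (R.good F E Eb).residue_compat P ⟨_, hmem⟩
    (fun P' hP' => (hzero P' hP').ge) (c := resAt P (a • (h₁ : E)))
    (by
      rw [resAt_of_mem (mem_of_ord_nonneg P hP.ge)]
      exact (constResidue_eq_iff P ⟨_, _⟩ _).mp rfl)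
  have hπ : R.π ⟨_, hA⟩ ≠ 0 := by
    intro h0
    have h' : resAt Q ((R.good F E Eb).φ ⟨_, hmem⟩) = R.π ⟨_, hA⟩ := by
      rw [resAt_of_mem (mem_of_ord_nonneg Q hordQ.ge), constResidue_eq_iff]
      exact hlt
    exact resAt_ne_zero hφ₁ hordQ (h'.trans h0)
  obtain ⟨uu, huu⟩ : IsUnit (⟨_, hA⟩ : R.ring) := not_not.mp (mt R.π_eq_zero hπ)
  refine ⟨uu, ?_⟩
  rw [huu]
  show resAt P (a • (h₁ : E)) = a * resAt P (h₁ : E)
  rw [Algebra.smul_def, resAt_mul (P.algebraMap_mem' a)
    (mem_of_ord_nonneg P (by rw [← RedAux.ord_const_smul P ha0]; exact hP.ge)),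
    resAt_of_mem (P.algebraMap_mem' a)]
  exact congrArg (· * _) (constResidue_algebraMap P a)

end Compare

end Fermat.Agent.AbelianVariety
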