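/-
The parallelogram law for the degree of the pullback of a line along points with values in a
function field of one variable.
-/
import Fermat.Agent.AbelianVariety.CurveDegree
import Mathlib.FieldTheory.IntermediateField.Adjoin.Basic

set_option autoImplicit false

noncomputable section

namespace Fermat.Agent.AbelianVariety

open AlgebraicCurve Fermat.Agent.Curve IsLocalRing

universe u

variable {K : Type u} [Field K] {g : ℕ} {A : AVData K g}

theorem adicValuation_lt_one_iff {k F : Type*} [Field k] [Field F] [Algebra k F] (v : Place k F)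
    {x : F} (hx : x ≠ 0) : v.adicValuation x < 1 ↔ 0 < v.ord x := by
  rw [← WithZero.log_lt_log (Place.adicValuation_ne_zero _ hx) one_ne_zero, WithZero.log_one,
    Place.ord]
  omega

/-! ### algebraic extensions of the function field -/

section Residual

variable {k F L E : Type u} [Field k] [Field F] [Field L] [Field E]
  [Algebra k F] [Algebra k L] [Algebra k E] [Algebra F E] [Algebra L E]
  [IsScalarTower k F E] [IsScalarTower k L E] [IsConstExt k F L E]
  [IsAlgClosed k] [IsAlgClosed L] [IsFunctionFieldOne k F] [IsFunctionFieldOne L E]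
  [Algebra F L] [IsScalarTower k F L]
  [Algebra K k] [Algebra K F] [Algebra K L] [Algebra K E]
  [IsScalarTower K k F] [IsScalarTower K k L] [IsScalarTower K F E] [IsScalarTower K L E]
  [IsScalarTower K F L]
variable {D : LineData A.toPointFunctor} {J : Type} [Fintype J]

/-- A combination of translates of a point whose class vanishes gives the same combination of
degrees at any two places with rational values. -/
theorem sum_lineDeg_eq_of_principal [Algebra.IsAlgebraic F L] (P₀ : A.Pt F) (z : J → A.Pt L)
    (n : J → ℤ) (hz : ∑ j, n j • A.lineClass L D (A.curvePoint E P₀ (z j)) = 0)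
    (Δ c₀ : Place L E) (X Y : J → A.Pt F)
    (hX : ∀ j, A.valueAt Δ (A.curvePoint E P₀ (z j)) = A.map (IsScalarTower.toAlgHom K F L) (X j))
    (hY : ∀ j, A.valueAt c₀ (A.curvePoint E P₀ (z j)) = A.map (IsScalarTower.toAlgHom K F L) (Y j)) :
    ∑ j, n j * A.lineDeg k D (X j) = ∑ j, n j * A.lineDeg k D (Y j) := by
  classical
  choose i hi using fun j => D.exists_in (A.curvePoint E P₀ (z j))
  obtain ⟨f, hf0, hf⟩ : ∑ j, n j • A.lineDiv L D (hi j) ∈ Divisor.principal (K := L) (F := E) := by
    rw [← QuotientAddGroup.eq_zero_iff]
    refine Eq.trans ?_ hz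
    rw [QuotientAddGroup.mk_sum]
    exact Finset.sum_congr rfl fun j _ => by
      rw [AVData.lineClass_eq (hi j), QuotientAddGroup.mk_zsmul]
  have hford : ∀ P : Place L E, P.ord f = ∑ j, n j * A.lineOrd D (hi j) P := fun P => by
    rw [← hf P, Finsupp.finsetSum_apply]
    exact Finset.sum_congr rfl fun j _ => by rw [Finsupp.smul_apply, smul_eq_mul, AVData.lineDiv_apply]
  set fu : Eˣ := Units.mk0 f hf0 with hfu
  -- charts at the two places
  choose a ha using fun j => D.exists_in (X j)
  choose b hb using fun j => D.exists_in (Y j)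
  have haΔ : ∀ j, AVData.InPlace D (a j) Δ (A.curvePoint E P₀ (z j)) := fun j => by
    apply AVData.inPlace_of_in_valueAt
    rw [hX]
    exact D.in_map _ _ _ (ha j)
  have hbc : ∀ j, AVData.InPlace D (b j) c₀ (A.curvePoint E P₀ (z j)) := fun j => by
    apply AVData.inPlace_of_in_valueAt
    rw [hY]
    exact D.in_map _ _ _ (hb j)
  set vX : L := resAt Δ ((fu * (∏ j, D.g (hi j) (haΔ j).in_point ^ n j)⁻¹ : Eˣ) : E) with hvX
  set vY : L := resAt c₀ ((fu * (∏ j, D.g (hi j) (hbc j).in_point ^ n j)⁻¹ : Eˣ) : E) with hvY
  -- a finite extension of `F` containing both residues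
  let F' : IntermediateField F L := IntermediateField.adjoin F {vX, vY}
  haveI : Module.Finite F F' := IntermediateField.finiteDimensional_adjoin
    fun x _ => Algebra.IsIntegral.isIntegral x
  letI algkF' : Algebra k F' := ((algebraMap F F').comp (algebraMap k F)).toAlgebra
  haveI : IsScalarTower k F F' := IsScalarTower.of_algebraMap_eq fun _ => rfl
  haveI : IsFunctionFieldOne k F' := IsFunctionFieldOne.of_finite_extension (F := F)
  letI algKF' : Algebra K F' := ((algebraMap F F').comp (algebraMap K F)).toAlgebra
  haveI : IsScalarTower K F F' := IsScalarTower.of_algebraMap_eq fun _ => rfl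
  haveI : IsScalarTower K k F' := IsScalarTower.of_algebraMap_eq fun a => by
    show algebraMap F F' (algebraMap K F a) = algebraMap F F' (algebraMap k F (algebraMap K k a))
    rw [← IsScalarTower.algebraMap_apply K k F]
  let ι' : F' →ₐ[K] L :=
    { (algebraMap F' L) with
      commutes' := fun a => by
        show algebraMap F' L (algebraMap F F' (algebraMap K F a)) = _
        rw [← IsScalarTower.algebraMap_apply F F' L, ← IsScalarTower.algebraMap_apply K F L] }
  set X' := fun j => A.map (IsScalarTower.toAlgHom K F F') (X j) with hX'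
  set Y' := fun j => A.map (IsScalarTower.toAlgHom K F F') (Y j) with hY'
  have hιX : ∀ P : A.Pt F, A.map ι' (A.map (IsScalarTower.toAlgHom K F F') P) =
      A.map (IsScalarTower.toAlgHom K F L) P := by
    intro P
    rw [A.toPointFunctor.map_map]
    exact congrArg (fun χ : F →ₐ[K] L => A.map χ P) (AlgHom.ext fun x =>
      (IsScalarTower.algebraMap_apply F F' L x).symm)
  have haX : ∀ j, D.In (a j) (X' j) := fun j => D.in_map _ _ _ (ha j)
  have hbY : ∀ j, D.In (b j) (Y' j) := fun j => D.in_map _ _ _ (hb j)
  let wX : F' := ⟨vX, IntermediateField.subset_adjoin _ _ (Set.mem_insert _ _)⟩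
  let wY : F' := ⟨vY, IntermediateField.subset_adjoin _ _ (Set.mem_insert_of_mem _ rfl)⟩
  -- the comparison at one place of `F'`
  have key : ∀ w : Place k F',
      w.ord wX - ∑ j, n j * A.lineOrd D (haX j) w = w.ord wY - ∑ j, n j * A.lineOrd D (hbY j) w := by
    intro w
    let ιw : w.toValuationSubring →+* L := (algebraMap F' L).comp w.toValuationSubring.subtype
    obtain ⟨V, hle, hloc⟩ := LocalSubring.exists_le_valuationSubring (LocalSubring.range ιw)
    have hrange : ∀ x : w.toValuationSubring, ιw x ∈ (LocalSubring.range ιw).toSubring := fun x => by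
      rw [LocalSubring.range_toSubring]; exact ⟨x, rfl⟩
    have hwV : ∀ x : F', x ∈ w.toValuationSubring → algebraMap F' L x ∈ V :=
      fun x hx => hle (hrange ⟨x, hx⟩)
    have hVw : ∀ x : F', algebraMap F' L x ∈ V → x ∈ w.toValuationSubring := by
      intro x hx
      by_contra hne
      have hx0 : x ≠ 0 := fun h => hne (h ▸ zero_mem _)
      have hxi : x⁻¹ ∈ w.toValuationSubring :=
        (w.toValuationSubring.mem_or_inv_mem x).resolve_left hne
      have hu : IsUnit (Subring.inclusion hle ⟨_, hrange ⟨x⁻¹, hxi⟩⟩) := by
        refine isUnit_iff_exists_inv.mpr ⟨⟨_, hx⟩, Subtype.ext ?_⟩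
        show algebraMap F' L x⁻¹ * algebraMap F' L x = 1
        rw [← map_mul, inv_mul_cancel₀ hx0, map_one]
      obtain ⟨⟨y, hy⟩, hxy⟩ := isUnit_iff_exists_inv.mp (hloc.map_nonunit _ hu)
      rw [LocalSubring.range_toSubring] at hy
      obtain ⟨y', rfl⟩ := hy
      have h1 : algebraMap F' L x⁻¹ * algebraMap F' L (y' : F') = 1 := congrArg Subtype.val hxy
      rw [← map_mul, ← map_one (algebraMap F' L)] at h1
      have h2 := (algebraMap F' L).injective h1
      rw [inv_mul_eq_one₀ hx0] at h2
      exact hne (h2 ▸ y'.2)
    have hVk : ∀ c : k, algebraMap k L c ∈ V := fun c => by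
      rw [IsScalarTower.algebraMap_apply k F L, IsScalarTower.algebraMap_apply F F' L]
      exact hwV _ (w.algebraMap_mem' c)
    letI algkκ : Algebra k (ResidueField V) :=
      letI := valuationAlgebra (K := k) V hVk
      ((residue V).comp (algebraMap k V)).toAlgebra
    letI algKκ : Algebra K (ResidueField V) :=
      ((algebraMap k (ResidueField V)).comp (algebraMap K k)).toAlgebra
    haveI : IsScalarTower K k (ResidueField V) := IsScalarTower.of_algebraMap_eq fun _ => rfl
    haveI := isAlgClosed_residueField V
    let R : ConstRed k L (ResidueField V) :=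
      { ring := V, mem := hVk, π := residue V, surj := residue_surjective, comm := fun _ => rfl }
    let Eb := ConstExtField k F (ResidueField V)
    letI : Algebra K Eb := constExtAlgebra k F (ResidueField V)
    haveI : IsScalarTower K (ResidueField V) Eb := IsScalarTower.of_algebraMap_eq fun _ => rfl
    haveI : IsScalarTower K F Eb := constExt_tower (K := K) (k := k) (F := F) (ResidueField V)
    haveI : IsFunctionFieldOne (ResidueField V) Eb :=
      IsConstExt.isFunctionFieldOne (K := k) (F := F) ‹IsFunctionFieldOne k F›
    obtain ⟨l, hl⟩ := R.exists_scale_residue (E := E) (Eb := Eb) (D := D) P₀ z n i hi fu hford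
    -- the value at one of the two places
    have side : ∀ (P : Place L E) (p : J → A.Pt F) (e : J → D.ι) (he : ∀ j, D.In (e j) (p j))
        (hval : ∀ j, A.valueAt P (A.curvePoint E P₀ (z j)) =
          A.map (IsScalarTower.toAlgHom K F L) (p j))
        (heP : ∀ j, AVData.InPlace D (e j) P (A.curvePoint E P₀ (z j))) (wv : F'),
        algebraMap F' L wv =
          resAt P ((fu * (∏ j, D.g (hi j) (heP j).in_point ^ n j)⁻¹ : Eˣ) : E) →
        ∃ (u : R.ringˣ) (x : F'), x ≠ 0 ∧
          w.ord x = w.ord wv - ∑ j, n j * A.lineOrd D (D.in_map (IsScalarTower.toAlgHom K F F') _ _ (he j)) w ∧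
          ((u : R.ring) : L) = (l : L) * algebraMap F' L x := by
      intro P p e he hval heP wv hwv
      choose c hc using fun j => AVData.exists_inAt (A := A) (D := D)
        (R.placeMap F E Eb P).toValuationSubring (base_mem_place (R.placeMap F E Eb P))
        (A.curvePoint Eb P₀ (R.redPoint A (z j)))
      have hcP := fun j => R.inPlace_of_placeMap A (E := E) (P := P) (hc j)
      have hcw : ∀ j, AVData.InPlace D (c j) w (A.map (IsScalarTower.toAlgHom K F F') (p j)) := by
        intro j
        letI := valuationAlgebra R.ring (R.memK (K := K))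
        letI := valuationAlgebra w.toValuationSubring (base_mem_place (K := K) w)
        let χ : w.toValuationSubring →ₐ[K] R.ring :=
          { toFun := fun x => ⟨_, hwV x x.2⟩
            map_one' := Subtype.ext (map_one _)
            map_mul' := fun x y => Subtype.ext (map_mul (algebraMap F' L) (x : F') y)
            map_zero' := Subtype.ext (map_zero _)
            map_add' := fun x y => Subtype.ext (map_add (algebraMap F' L) (x : F') y)
            commutes' := fun a => Subtype.ext (ι'.commutes a) }
        have h1 : D.In (c j) (R.redPoint A (A.valueAt P (A.curvePoint E P₀ (z j)))) := by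
          rw [R.redPoint_valueAt (Eb := Eb)]
          exact (show AVData.InPlace D (c j) _ _ from hc j).in_valueAt
        have h2 := D.in_reflect (R.πK K) R.isLocalHom_π _ _ h1
        rw [hval j, ← hιX, ← A.eq_liftTo R.ring (R.memK (K := K))
          (A.map ι' (A.map (IsScalarTower.toAlgHom K F F') (p j)))
          (A.map χ (A.liftTo w.toValuationSubring (base_mem_place w)
            (A.map (IsScalarTower.toAlgHom K F F') (p j)))) (by
            rw [A.toPointFunctor.map_map]
            conv_rhs => rw [← A.map_liftTo w.toValuationSubring (base_mem_place w)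
              (A.map (IsScalarTower.toAlgHom K F F') (p j)), A.toPointFunctor.map_map]
            rfl)] at h2
        refine D.in_reflect χ ⟨fun x hx => ?_⟩ _ _ h2
        obtain ⟨⟨y, hy⟩, hxy⟩ := isUnit_iff_exists_inv.mp hx
        have h3 : algebraMap F' L (x : F') * y = 1 := congrArg Subtype.val hxy
        have hx0 : (x : F') ≠ 0 := fun h => by rw [h, map_zero, zero_mul] at h3; exact zero_ne_one h3
        have hyx : y = algebraMap F' L (x : F')⁻¹ := by
          rw [map_inv₀]; exact eq_inv_of_mul_eq_one_right h3
        exact isUnit_iff_exists_inv.mpr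
          ⟨⟨_, hVw _ (hyx ▸ hy)⟩, Subtype.ext (mul_inv_cancel₀ hx0)⟩
      obtain ⟨u, hu⟩ := hl P c hc
      set pF := fun j => D.g (D.in_map (IsScalarTower.toAlgHom K F F') _ _ (he j))
        (hcw j).in_point with hpF
      refine ⟨u, wv * ((∏ j, pF j ^ n j)⁻¹ : F'ˣ), ?_, ?_, ?_⟩
      · refine mul_ne_zero (fun h => ?_) (Units.ne_zero _)
        rw [h, map_zero] at hwv
        exact resAt_ne_zero (Units.ne_zero _) (by
          rw [Units.val_mul, P.ord_mul (Units.ne_zero _) (Units.ne_zero _), Units.val_inv_eq_inv_val,
            P.ord_inv, ord_prod_zpow]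
          show P.ord f + -_ = 0
          rw [hford, ← sub_eq_add_neg, ← Finset.sum_sub_distrib]
          exact Finset.sum_eq_zero fun j _ => by rw [AVData.lineOrd_eq (hi j) (heP j), sub_self])
          hwv.symm
      · rw [w.ord_mul (fun h => ?_) (Units.ne_zero _), Units.val_inv_eq_inv_val, w.ord_inv,
          ord_prod_zpow, ← sub_eq_add_neg]
        · refine congrArg₂ (· - ·) rfl (Finset.sum_congr rfl fun j _ => ?_)
          rw [AVData.lineOrd_eq _ (hcw j)]
        · rw [h, map_zero] at hwv
          exact resAt_ne_zero (Units.ne_zero _) (by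
            rw [Units.val_mul, P.ord_mul (Units.ne_zero _) (Units.ne_zero _), Units.val_inv_eq_inv_val,
              P.ord_inv, ord_prod_zpow]
            show P.ord f + -_ = 0
            rw [hford, ← sub_eq_add_neg, ← Finset.sum_sub_distrib]
            exact Finset.sum_eq_zero fun j _ => by rw [AVData.lineOrd_eq (hi j) (heP j), sub_self])
            hwv.symm
      · rw [hu]
        congr 1
        rw [map_mul, hwv]
        set pE := fun j => D.g (heP j).in_point (hcP j).in_point with hpE
        have hprod : (fu * (∏ j, D.g (hi j) (hcP j).in_point ^ n j)⁻¹ : Eˣ) =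
            fu * (∏ j, D.g (hi j) (heP j).in_point ^ n j)⁻¹ * (∏ j, pE j ^ (-n j)) := by
          rw [mul_assoc, ← Finset.prod_inv_distrib, ← Finset.prod_inv_distrib,
            ← Finset.prod_mul_distrib]
          refine congrArg (fu * ·) (Finset.prod_congr rfl fun j _ => ?_)
          rw [hpE, zpow_neg, ← mul_inv, ← mul_zpow, D.g_cocycle]
        have hord0 : ∀ j, P.ord (pE j : E) = 0 := fun j => (heP j).ord_g (hcP j)
        rw [show (fu * (∏ j, D.g (hi j) (R.inPlace_of_placeMap A (E := E) (hc j)).in_point ^ n j)⁻¹ : Eˣ) =
          fu * (∏ j, D.g (hi j) (hcP j).in_point ^ n j)⁻¹ from rfl, hprod, Units.val_mul,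
          resAt_mul (mem_of_ord_nonneg P (le_of_eq (Eq.symm (by
            rw [Units.val_mul, P.ord_mul (Units.ne_zero _) (Units.ne_zero _), Units.val_inv_eq_inv_val,
              P.ord_inv, ord_prod_zpow]
            show P.ord f + -_ = 0
            rw [hford, ← sub_eq_add_neg, ← Finset.sum_sub_distrib]
            exact Finset.sum_eq_zero fun j _ => by rw [AVData.lineOrd_eq (hi j) (heP j), sub_self]))))
          (mem_of_ord_nonneg P (le_of_eq (Eq.symm (by
            rw [ord_prod_zpow]
            exact Finset.sum_eq_zero fun j _ => by rw [hord0, mul_zero])))),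
          resAt_prod_zpow _ _ _ _ fun j _ => hord0 j]
        congr 1
        rw [← Finset.prod_inv_distrib, Units.coe_prod, map_prod]
        refine Finset.prod_congr rfl fun j _ => ?_
        rw [← zpow_neg, Units.val_zpow_eq_zpow_val, map_zpow₀]
        congr 1
        obtain ⟨hm, he'⟩ := AVData.constResidue_g (heP j) (hcP j)
        rw [resAt_of_mem hm, he']
        refine Eq.trans ?_ (D.g_map ι' (D.in_map (IsScalarTower.toAlgHom K F F') _ _ (he j))
          (hcw j).in_point).symm
        congr! 2
        exact (hval j).trans (hιX (p j)).symm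
    obtain ⟨uX, xX, hxX, hordX, heX⟩ := side Δ X a ha hX haΔ wX hvX
    obtain ⟨uY, xY, hxY, hordY, heY⟩ := side c₀ Y b hb hY hbc wY hvY
    have hX0 : algebraMap F' L xX ≠ 0 := (map_ne_zero _).mpr hxX
    have hY0 : algebraMap F' L xY ≠ 0 := (map_ne_zero _).mpr hxY
    have h1 : algebraMap F' L (xX / xY) = ((uX * uY⁻¹ : R.ringˣ) : R.ring) := by
      rw [Units.val_mul, MulMemClass.coe_mul,
        show (((uY⁻¹ : R.ringˣ) : R.ring) : L) = (((uY : R.ring) : L))⁻¹ from
          eq_inv_of_mul_eq_one_right (by rw [← MulMemClass.coe_mul, ← Units.val_mul, mul_inv_cancel]; rfl),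
        heX, heY, map_div₀]
      field_simp [l.ne_zero, hX0, hY0]
    have h2 : algebraMap F' L (xY / xX) = ((uY * uX⁻¹ : R.ringˣ) : R.ring) := by
      rw [Units.val_mul, MulMemClass.coe_mul,
        show (((uX⁻¹ : R.ringˣ) : R.ring) : L) = (((uX : R.ring) : L))⁻¹ from
          eq_inv_of_mul_eq_one_right (by rw [← MulMemClass.coe_mul, ← Units.val_mul, mul_inv_cancel]; rfl),
        heX, heY, map_div₀]
      field_simp [l.ne_zero, hX0, hY0]
    have h3 := ord_nonneg_of_mem w (hVw (xX / xY) (by rw [h1]; exact Subtype.mem _))
    have h4 := ord_nonneg_of_mem w (hVw (xY / xX) (by rw [h2]; exact Subtype.mem _))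
    rw [ord_div w hxX hxY] at h3
    rw [ord_div w hxY hxX] at h4
    change 0 ≤ _ at h3
    rw [hordX, hordY] at h3 h4
    omega
  -- sum over the places of `F'`
  have hsum : ∀ (p : J → A.Pt F) (e : J → D.ι) (he : ∀ j, D.In (e j) (p j)),
      ∑ j, n j * ((Module.finrank F F' : ℤ) * A.lineDeg k D (p j)) =
        Divisor.degree (∑ j, n j • A.lineDiv k D
          (D.in_map (IsScalarTower.toAlgHom K F F') _ _ (he j))) := by
    intro p e he
    rw [map_sum]
    exact Finset.sum_congr rfl fun j _ => by
      rw [map_zsmul, smul_eq_mul, ← AVData.lineDeg_eq, lineDeg_finite_extension]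
  have heq : (∑ j, n j • A.lineDiv k D (haX j)) =
      divisorOf k wX - divisorOf k wY + ∑ j, n j • A.lineDiv k D (hbY j) := by
    refine Finsupp.ext fun w => ?_
    rw [Finsupp.add_apply, Finsupp.sub_apply, divisorOf_apply, divisorOf_apply,
      Finsupp.finsetSum_apply, Finsupp.finsetSum_apply]
    simp only [Finsupp.smul_apply, smul_eq_mul, AVData.lineDiv_apply]
    have := key w
    omega
  have h5 := congrArg Divisor.degree heq
  rw [map_add, map_sub, degree_divisorOf, degree_divisorOf, sub_self, zero_add,
    ← hsum X a ha, ← hsum Y b hb] at h5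
  simp only [mul_left_comm (n _), ← Finset.mul_sum] at h5
  exact mul_left_cancel₀ (by exact_mod_cast (Module.finrank_pos (R := F) (M := F')).ne') h5

end Residual

/-! ### the parallelogram law -/

variable {k F : Type u} [Field k] [Field F] [Algebra k F] [Algebra K k] [Algebra K F]
  [IsScalarTower K k F] [IsAlgClosed k] [IsFunctionFieldOne k F]
variable (D : LineData A.toPointFunctor)

theorem curvePoint_self (P : A.Pt F) (y : A.Pt k) :
    A.curvePoint F P y = P + A.map (IsScalarTower.toAlgHom K k F) y := by
  rw [AVData.curvePoint, show IsScalarTower.toAlgHom K F F = AlgHom.id K F from AlgHom.ext fun _ => rfl,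
    A.map_id]

theorem lineDeg_zero : A.lineDeg k D (0 : A.Pt F) = 0 := by
  obtain ⟨i, hi⟩ := D.exists_in (0 : A.Pt K)
  have hall : ∀ (R : Type u) [CommRing R] [Algebra K R], D.In i (0 : A.Pt R) := fun R _ _ => by
    have := D.in_map (Algebra.ofId K R) i _ hi
    rwa [map_zero] at this
  rw [AVData.lineDeg_eq (hall F)]
  convert map_zero Divisor.degree
  refine Finsupp.ext fun v => ?_
  letI := valuationAlgebra v.toValuationSubring (base_mem_place (K := K) v)
  have hin : AVData.InPlace D i v (0 : A.Pt F) := by
    show D.In i _
    rw [← A.eq_liftTo v.toValuationSubring (base_mem_place v) 0 0 (map_zero _)]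
    exact hall _
  rw [AVData.lineDiv_apply, AVData.lineOrd_eq _ hin, D.g_self, Units.val_one, v.ord_one]
  rfl

/-- Translations by constants do not change the degree. -/
theorem lineDeg_add_const (P : A.Pt F) (y : A.Pt k) :
    A.lineDeg k D (P + A.map (IsScalarTower.toAlgHom K k F) y) = A.lineDeg k D P := by
  have h := AVData.lineDeg_translate D P y
  rw [curvePoint_self, curvePoint_self, map_zero, add_zero] at h
  exact h

theorem lineDeg_parallelogram (P Q : A.Pt F) :
    A.lineDeg k D (P + Q) + A.lineDeg k D (P - Q) =
      2 * A.lineDeg k D P + A.lineDeg k D Q + A.lineDeg k D (-Q) := by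
  classical
  obtain ⟨t, ht, -⟩ := IsFunctionFieldOne.exists_transcendental_finite (K := k) (F := F)
  obtain ⟨L, _, _, _, _, _, tL, htL, halgL⟩ : ∃ (L : Type u) (_ : Field L) (_ : Algebra k L)
      (_ : Algebra K L) (_ : IsScalarTower K k L) (_ : IsAlgClosed L) (tL : L),
      Transcendental k tL ∧ Algebra.IsAlgebraic (IntermediateField.adjoin k ({tL} : Set L)) L := by
    haveI := finite_adjoin_of_transcendental (K := k) ht
    refine ⟨AlgebraicClosure (IntermediateField.adjoin k ({t} : Set F)), inferInstance,
      inferInstance, inferInstance, inferInstance, inferInstance,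
      algebraMap (IntermediateField.adjoin k ({t} : Set F)) _ ⟨t, IntermediateField.mem_adjoin_simple_self k t⟩,
      (transcendental_algebraMap_iff (FaithfulSMul.algebraMap_injective
        (IntermediateField.adjoin k ({t} : Set F))
        (AlgebraicClosure (IntermediateField.adjoin k ({t} : Set F))))).mpr
        ((transcendental_algebraMap_iff (FaithfulSMul.algebraMap_injective
          (IntermediateField.adjoin k ({t} : Set F)) F)).mp
          (show Transcendental k (algebraMap (IntermediateField.adjoin k ({t} : Set F)) F
            ⟨t, IntermediateField.mem_adjoin_simple_self k t⟩) from ht)), ?_⟩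
    refine ⟨fun x => ?_⟩
    obtain ⟨p, hp0, hp⟩ := Algebra.IsAlgebraic.isAlgebraic
      (R := IntermediateField.adjoin k ({t} : Set F)) x
    let ψ : IntermediateField.adjoin k ({t} : Set F) →+*
        IntermediateField.adjoin k ({algebraMap (IntermediateField.adjoin k ({t} : Set F))
          (AlgebraicClosure (IntermediateField.adjoin k ({t} : Set F)))
          ⟨t, IntermediateField.mem_adjoin_simple_self k t⟩} : Set _) :=
      (algebraMap (IntermediateField.adjoin k ({t} : Set F))
        (AlgebraicClosure (IntermediateField.adjoin k ({t} : Set F)))).codRestrict _ (by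
          rintro ⟨c, hc⟩
          induction hc using IntermediateField.adjoin_induction with
          | mem y hy =>
            obtain rfl : y = t := hy
            exact IntermediateField.mem_adjoin_simple_self _ _
          | algebraMap a =>
            have h1 : (⟨algebraMap k F a, IntermediateField.algebraMap_mem _ a⟩ :
                IntermediateField.adjoin k ({t} : Set F)) = algebraMap k _ a := rfl
            rw [h1, ← IsScalarTower.algebraMap_apply]
            exact IntermediateField.algebraMap_mem _ _
          | add y z hy hz ihy ihz =>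
            rw [show (⟨y + z, add_mem hy hz⟩ : IntermediateField.adjoin k ({t} : Set F)) =
              ⟨y, hy⟩ + ⟨z, hz⟩ from rfl, map_add]
            exact add_mem ihy ihz
          | inv y hy ihy =>
            rw [show (⟨y⁻¹, inv_mem hy⟩ : IntermediateField.adjoin k ({t} : Set F)) =
              (⟨y, hy⟩ : IntermediateField.adjoin k ({t} : Set F))⁻¹ from rfl, map_inv₀]
            exact inv_mem ihy
          | mul y z hy hz ihy ihz =>
            rw [show (⟨y * z, mul_mem hy hz⟩ : IntermediateField.adjoin k ({t} : Set F)) =
              ⟨y, hy⟩ * ⟨z, hz⟩ from rfl, map_mul]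
            exact mul_mem ihy ihz)
    refine ⟨p.map ψ, (Polynomial.map_ne_zero_iff ψ.injective).mpr hp0, ?_⟩
    rw [Polynomial.aeval_def, Polynomial.eval₂_map]
    exact hp
  let E := ConstExtField k F L
  letI : Algebra K E := constExtAlgebra k F L
  haveI : IsScalarTower K L E := IsScalarTower.of_algebraMap_eq fun _ => rfl
  haveI : IsScalarTower K F E := constExt_tower (K := K) (k := k) (F := F) L
  haveI : IsFunctionFieldOne L E :=
    IsConstExt.isFunctionFieldOne (K := k) (F := F) ‹IsFunctionFieldOne k F›
  have htE : Transcendental L (algebraMap F E t - algebraMap L E tL) := by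
    intro h
    apply IsConstExt.transcendental (K := k) (Ω := L) (E := E) ht
    simpa using h.add (isAlgebraic_algebraMap (R := L) tL)
  have htne : algebraMap F E t - algebraMap L E tL ≠ 0 := fun h => htE (h ▸ isAlgebraic_zero)
  obtain ⟨Δ, hΔ⟩ := exists_place_ord_pos (K := L) htE
  have hgen : ∀ f : F, algebraMap F E f ∈ Δ.toValuationSubring := by
    rcases exists_eq_placeExt_or (K := k) (F := F) Δ with ⟨v, rfl⟩ | h
    · exfalso
      have hmem : algebraMap F E t ∈ (placeExt L E v).toValuationSubring := by
        have h1 := add_mem (mem_of_ord_nonneg (placeExt L E v) hΔ.le)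
          ((placeExt L E v).algebraMap_mem' tL)
        rwa [sub_add_cancel] at h1
      have htv : t ∈ v.toValuationSubring := (algebraMap_mem_placeExt v).mp hmem
      set a : k := constResidue v ⟨t, htv⟩ with ha
      have h2 : constResidue (placeExt L E v) ⟨_, hmem⟩ = algebraMap k L a := by
        rw [constResidue_eq_iff]
        show (placeExt L E v).adicValuation (algebraMap F E t - algebraMap L E (algebraMap k L a)) < 1
        rw [← IsScalarTower.algebraMap_apply k L E, IsScalarTower.algebraMap_apply k F E, ← map_sub]
        have h3 := (constResidue_eq_iff v ⟨t, htv⟩ a).mp rfl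
        rcases eq_or_ne (t - algebraMap k F a) 0 with h0 | h0
        · rw [h0, map_zero, map_zero]; exact zero_lt_one
        · rw [adicValuation_lt_one_iff _ ((map_ne_zero _).mpr h0), ord_placeExt]
          exact (adicValuation_lt_one_iff _ h0).mp h3
      have h5 : constResidue (placeExt L E v) ⟨_, hmem⟩ = tL := by
        rw [constResidue_eq_iff, adicValuation_lt_one_iff _ htne]
        exact hΔ
      apply htL
      rw [← h5, h2]
      exact isAlgebraic_algebraMap a
    · exact h
  -- the algebra structure of `L` given by evaluation at `Δ`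
  let θ : F →ₐ[k] L :=
    { toFun := fun f => constResidue Δ ⟨_, hgen f⟩
      map_one' := by
        refine Eq.trans (congrArg _ (Subtype.ext ?_)) (map_one (constResidue Δ))
        exact map_one _
      map_mul' := fun x y => by
        rw [← map_mul]
        exact congrArg _ (Subtype.ext (map_mul _ x y))
      map_zero' := by
        refine Eq.trans (congrArg _ (Subtype.ext ?_)) (map_zero (constResidue Δ))
        exact map_zero _
      map_add' := fun x y => by
        rw [← map_add]
        exact congrArg _ (Subtype.ext (map_add _ x y))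
      commutes' := fun a => by
        refine Eq.trans (congrArg _ (Subtype.ext ?_)) (constResidue_algebraMap Δ (algebraMap k L a))
        show algebraMap F E (algebraMap k F a) = algebraMap L E (algebraMap k L a)
        rw [← IsScalarTower.algebraMap_apply, ← IsScalarTower.algebraMap_apply] }
  have hθt : θ t = tL := by
    show constResidue Δ ⟨_, hgen t⟩ = _
    rw [constResidue_eq_iff, adicValuation_lt_one_iff _ htne]
    exact hΔ
  letI algθ : Algebra F L := θ.toRingHom.toAlgebra
  haveI : IsScalarTower k F L := IsScalarTower.of_algebraMap_eq fun a => (θ.commutes a).symm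
  haveI : IsScalarTower K F L := IsScalarTower.of_algebraMap_eq fun a => by
    show _ = θ (algebraMap K F a)
    rw [IsScalarTower.algebraMap_apply K k F, θ.commutes, ← IsScalarTower.algebraMap_apply K k L]
  haveI : Algebra.IsAlgebraic F L := by
    refine ⟨fun x => ?_⟩
    obtain ⟨p, hp0, hp⟩ := halgL.isAlgebraic x
    have hle : IntermediateField.adjoin k ({tL} : Set L) ≤ θ.fieldRange := by
      rw [IntermediateField.adjoin_le_iff]
      intro y hy
      obtain rfl : y = tL := hy
      exact ⟨t, hθt⟩
    have hlift : (p.map (algebraMap (IntermediateField.adjoin k ({tL} : Set L)) L)) ∈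
        Polynomial.lifts (algebraMap F L) := by
      rw [Polynomial.lifts_iff_coeff_lifts]
      intro n
      rw [Polynomial.coeff_map]
      exact hle (p.coeff n).2
    obtain ⟨q, hq⟩ := Polynomial.mem_lifts _ |>.mp hlift
    refine ⟨q, fun h => hp0 ?_, ?_⟩
    · rw [h, Polynomial.map_zero] at hq
      exact (Polynomial.map_eq_zero_iff (FaithfulSMul.algebraMap_injective (IntermediateField.adjoin k ({tL} : Set L)) L)).mp hq.symm
    · rw [Polynomial.aeval_def, ← Polynomial.eval_map, hq, Polynomial.eval_map,
        ← Polynomial.aeval_def]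
      exact hp
  obtain ⟨v₀⟩ : Nonempty (Place k F) := RedAux.nonempty_place
  set y : A.Pt L := A.map (IsScalarTower.toAlgHom K F L) Q with hy
  let z : Fin 3 → A.Pt L := ![0, y, -y]
  let n : Fin 3 → ℤ := ![2, -1, -1]
  let P₁ : A.Pt E := A.map (IsScalarTower.toAlgHom K F E) P
  have hP₁ : ∀ w : A.Pt L, A.curvePoint E P₁ w = A.curvePoint E P w := fun w => by
    rw [curvePoint_self, AVData.curvePoint]
  have hz : ∑ j, n j • A.lineClass L D (A.curvePoint E P (z j)) = 0 := by
    have h := sqClass_eq_zero (D := D) (k := L) (F := E) P₁ y (-y)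
    simp only [AVData.sqClass, hP₁, add_neg_cancel] at h
    rw [← h]
    simp [Fin.sum_univ_three, z, n]
    abel
  set u : A.Pt F := A.map (IsScalarTower.toAlgHom K k F) (A.valueAt v₀ P) with hu
  have hPΔ : A.valueAt Δ (A.map (IsScalarTower.toAlgHom K F E) P) =
      A.map (IsScalarTower.toAlgHom K F L) P :=
    A.valueAt_of_hom Δ P _ hgen _ (fun _ => rfl)
  have hPc : A.valueAt (placeExt L E v₀) (A.map (IsScalarTower.toAlgHom K F E) P) =
      A.map (IsScalarTower.toAlgHom K F L) u := by
    rw [hu, A.toPointFunctor.map_map, AVData.valueAt]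
    letI := valuationAlgebra v₀.toValuationSubring (base_mem_place (K := K) v₀)
    letI := valuationAlgebra (placeExt L E v₀).toValuationSubring
      (base_mem_place (K := K) (placeExt L E v₀))
    have h1 : A.valueAt (placeExt L E v₀) (A.map (IsScalarTower.toAlgHom K F E) P) =
        A.map ((IsScalarTower.toAlgHom K k L).comp (placeEval v₀))
          (A.liftTo v₀.toValuationSubring (base_mem_place v₀) P) := by
      conv_lhs => rw [← A.map_liftTo v₀.toValuationSubring (base_mem_place v₀) P,
        A.toPointFunctor.map_map]
      refine A.valueAt_of_hom _ _ _ (fun x => (algebraMap_mem_placeExt v₀).mpr x.2) _ (fun x => ?_)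
      rw [constResidue_eq_iff]
      show (placeExt L E v₀).adicValuation
        (algebraMap F E (x : F) - algebraMap L E (algebraMap k L (constResidue v₀ x))) < 1
      rw [← IsScalarTower.algebraMap_apply k L E, IsScalarTower.algebraMap_apply k F E, ← map_sub]
      have h3 := (constResidue_eq_iff v₀ x _).mp rfl
      rcases eq_or_ne ((x : F) - algebraMap k F (constResidue v₀ x)) 0 with h0 | h0
      · rw [h0, map_zero, map_zero]; exact zero_lt_one
      · rw [adicValuation_lt_one_iff _ ((map_ne_zero _).mpr h0), ord_placeExt]
        exact (adicValuation_lt_one_iff _ h0).mp h3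
    refine h1.trans ?_
    rw [← A.toPointFunctor.map_map]
    refine congrArg (fun χ : k →ₐ[K] L => A.map χ _) (AlgHom.ext fun a => ?_)
    exact IsScalarTower.algebraMap_apply k F L a
  have hXv : ∀ j, A.valueAt Δ (A.curvePoint E P (z j)) =
      A.map (IsScalarTower.toAlgHom K F L) (![P, P + Q, P - Q] j) := by
    intro j
    rw [A.valueAt_curvePoint, hPΔ]
    fin_cases j <;> simp [z, hy, sub_eq_add_neg]
  have hYv : ∀ j, A.valueAt (placeExt L E v₀) (A.curvePoint E P (z j)) =
      A.map (IsScalarTower.toAlgHom K F L) (![u, u + Q, u - Q] j) := by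
    intro j
    rw [A.valueAt_curvePoint, hPc]
    fin_cases j <;> simp [z, hy, sub_eq_add_neg]
  have main := sum_lineDeg_eq_of_principal (k := k) (F := F) (D := D) P z n hz Δ (placeExt L E v₀) _ _ hXv hYv
  simp [Fin.sum_univ_three, n] at main
  have hu1 : A.lineDeg k D u = 0 := by
    rw [hu, ← zero_add (A.map _ _), lineDeg_add_const, lineDeg_zero]
  have hu2 : A.lineDeg k D (u + Q) = A.lineDeg k D Q := by
    rw [add_comm, hu, lineDeg_add_const]
  have hu3 : A.lineDeg k D (u - Q) = A.lineDeg k D (-Q) := by
    rw [sub_eq_add_neg, add_comm, hu, lineDeg_add_const]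
  rw [hu1, hu2, hu3] at main
  omega

end Fermat.Agent.AbelianVariety
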