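/-
The symmetrised divisor of an abelian variety, its sections and the quadratic behaviour of the
degree of its pullback to a function field of one variable.
-/
import Fermat.Agent.AbelianVariety.CurveParallelogram
import Fermat.Agent.Curve.ReductionAux

set_option autoImplicit false

noncomputable section

namespace Fermat.Agent.AbelianVariety

open AlgebraicCurve Fermat.Agent.Curve

universe u

/-- Negation of points. -/
def NatMap.neg {K : Type u} [Field K] {A : PointFunctor K} : NatMap A where
  app {R} _ _ P := -P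
  app_map φ P := map_neg _ P

/-- A linear combination of sections. -/
def LineData.Section.linComb {K : Type u} [Field K] {A : PointFunctor K} {D : LineData A}
    {I : Type*} [Fintype I] (c : I → K) (σ : I → D.Section) : D.Section where
  val hi := ∑ j, c j • (σ j).val hi
  val_map φ _ _ hi := by
    rw [map_sum]
    exact Finset.sum_congr rfl fun j _ => by rw [map_smul, (σ j).val_map φ hi]
  val_eq hi hj := by
    rw [Finset.mul_sum]
    exact Finset.sum_congr rfl fun j _ => by rw [(σ j).val_eq hi hj, mul_smul_comm]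

@[simp]
theorem LineData.Section.linComb_val {K : Type u} [Field K] {A : PointFunctor K} {D : LineData A}
    {I : Type*} [Fintype I] (c : I → K) (σ : I → D.Section) {R : Type u} [CommRing R] [Algebra K R]
    {i : D.ι} {P : A.Pt R} (hi : D.In i P) :
    (LineData.Section.linComb c σ).val hi = ∑ j, c j • (σ j).val hi := rfl

variable {K : Type u} [Field K] {g : ℕ} (A : AVData K g)

namespace AVData

/-- The symmetrised divisor. -/
def symD : LineData A.toPointFunctor := A.D.tensor (A.D.pullback NatMap.neg)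

/-- Its sections. -/
def symSec (i : Fin (A.M + 1)) : A.symD.Section := (A.sec i).mul ((A.sec 0).pullback NatMap.neg)

variable {A}

theorem symSec_isUnitAt_iff {R : Type u} [CommRing R] [Algebra K R] [IsLocalRing R] {P : A.Pt R} :
    (A.symSec 0).IsUnitAt A.symD P ↔ (A.sec 0).IsUnitAt A.D P ∧ (A.sec 0).IsUnitAt A.D (-P) := by
  constructor
  · rintro ⟨i, hi, hu⟩
    have h := IsUnit.mul_iff.mp hu
    exact ⟨⟨i.1, hi.1, h.1⟩, ⟨i.2, hi.2, h.2⟩⟩
  · rintro ⟨⟨i, hi, hu⟩, ⟨j, hj, hv⟩⟩
    exact ⟨(i, j), ⟨hi, hj⟩, hu.mul hv⟩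

theorem symSec_isRatioAt (i : Fin (A.M + 1)) {R : Type u} [CommRing R] [Algebra K R] {P : A.Pt R}
    {r : R} (h : (A.sec i).IsRatioAt A.D (A.sec 0) P r) :
    (A.symSec i).IsRatioAt A.symD (A.symSec 0) P r := by
  intro j hj
  have h1 := h j.1 hj.1
  show (A.sec i).val hj.1 * _ = r * ((A.sec 0).val hj.1 * _)
  rw [h1, mul_assoc]

theorem exists_point_sym (s : Finset (ℤ × A.Pt K)) (hs : ∀ p ∈ s, (p.1 : K) ≠ 0) :
    ∃ u : A.Pt K, ∀ p ∈ s, (A.symSec 0).IsUnitAt A.symD (p.1 • u + p.2) := by
  classical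
  obtain ⟨u, hu⟩ := A.exists_point (s ∪ s.image fun p => (-p.1, -p.2)) (by
    intro p hp
    rcases Finset.mem_union.mp hp with h | h
    · exact hs p h
    · obtain ⟨q, hq, rfl⟩ := Finset.mem_image.mp h
      simpa using hs q hq)
  refine ⟨u, fun p hp => symSec_isUnitAt_iff.mpr ⟨hu p (Finset.mem_union_left _ hp), ?_⟩⟩
  have := hu (-p.1, -p.2) (Finset.mem_union_right _ (Finset.mem_image_of_mem _ hp))
  simpa [neg_add_rev, neg_zsmul, add_comm] using this

variable {k F : Type u} [Field k] [Field F] [Algebra k F] [Algebra K k] [Algebra K F]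
  [IsScalarTower K k F] [IsAlgClosed k] [IsFunctionFieldOne k F]

variable (A k) in
/-- The degree of the symmetrised divisor along a curve. -/
def deg (P : A.Pt F) : ℤ := -A.lineDeg k A.symD P

theorem deg_neg (P : A.Pt F) : A.deg k (-P) = A.deg k P := by
  simp only [deg, symD, lineDeg_tensor, lineDeg_pullback, NatMap.neg, neg_neg]
  omega

theorem deg_parallelogram (P Q : A.Pt F) :
    A.deg k (P + Q) + A.deg k (P - Q) = 2 * A.deg k P + 2 * A.deg k Q := by
  have h1 := lineDeg_parallelogram (k := k) A.symD P Q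
  have h2 := deg_neg (k := k) Q
  simp only [deg] at h2 ⊢
  omega

theorem deg_zero : A.deg k (0 : A.Pt F) = 0 := by
  rw [deg, lineDeg_zero, neg_zero]

theorem deg_add_const (P : A.Pt F) (y : A.Pt k) :
    A.deg k (P + A.map (IsScalarTower.toAlgHom K k F) y) = A.deg k P := by
  rw [deg, deg, lineDeg_add_const]

theorem deg_add_constK (P : A.Pt F) (y : A.Pt K) :
    A.deg k (P + A.toPointFunctor.const F y) = A.deg k P := by
  rw [show A.toPointFunctor.const F y =
      A.map (IsScalarTower.toAlgHom K k F) (A.toPointFunctor.const k y) from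
    (A.toPointFunctor.map_const _ y).symm, deg_add_const]

theorem deg_nsmul (n : ℕ) (P : A.Pt F) : A.deg k (n • P) = (n : ℤ) ^ 2 * A.deg k P := by
  induction n using Nat.twoStepInduction with
  | zero => simp [deg_zero]
  | one => simp
  | more n ih1 ih2 =>
    have h := deg_parallelogram (k := k) ((n + 1) • P) P
    rw [show (n + 1) • P + P = (n + 2) • P by rw [← succ_nsmul],
      show (n + 1) • P - P = n • P by rw [succ_nsmul, add_sub_cancel_right], ih1, ih2] at h
    have h2 : A.deg k ((n + 2) • P) =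
        2 * ((n + 1 : ℕ) : ℤ) ^ 2 * A.deg k P + 2 * A.deg k P - (n : ℤ) ^ 2 * A.deg k P := by
      linarith
    rw [h2]
    push_cast
    ring

/-- A section with more zeros along a curve than the degree allows vanishes on it. -/
theorem vanishesAt_of_sum_lt {D : LineData A.toPointFunctor} (σ : D.Section) (P : A.Pt F)
    (S : Finset (Place k F)) (e : Place k F → ℤ)
    (h : ∀ v ∈ S, ∃ (i : D.ι) (hi : InPlace D i v P),
      σ.val hi.in_point = 0 ∨ e v ≤ v.ord (σ.val hi.in_point))
    (hlt : -A.lineDeg k D P < ∑ v ∈ S, e v) : σ.VanishesAt D P := by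
  classical
  obtain ⟨i₀, h₀⟩ := D.exists_in P
  by_contra hne
  have hσ : σ.val h₀ ≠ 0 := fun h0 => hne (LineData.Section.VanishesAt.of_in h₀ h0)
  set X : Divisor k F := divisorOf k (σ.val h₀) - A.lineDiv k D h₀ with hX
  have hXv : ∀ v, X v = v.ord (σ.val h₀) - A.lineOrd D h₀ v := fun v => by
    rw [hX, Finsupp.sub_apply, divisorOf_apply, lineDiv_apply]
  have hX0 : ∀ v, 0 ≤ X v := fun v => by
    obtain ⟨i, hi⟩ := exists_inAt (A := A) (D := D) v.toValuationSubring (base_mem_place v) P
    rw [hXv]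
    exact sub_nonneg.mpr (lineOrd_le_ord_val σ h₀ hi hσ)
  have hdeg : Divisor.degree X = -A.lineDeg k D P := by
    rw [hX, map_sub, degree_divisorOf, ← lineDeg_eq, zero_sub]
  have hsum : ∑ v ∈ S, X v ≤ Divisor.degree X := by
    rw [RedAux.degree_eq_sum, Finsupp.sum]
    calc ∑ v ∈ S, X v = ∑ v ∈ S ∩ X.support, X v :=
          (Finset.sum_subset Finset.inter_subset_left fun v hv hv' =>
            Finsupp.notMem_support_iff.mp fun hv'' => hv' (Finset.mem_inter.mpr ⟨hv, hv''⟩)).symm
      _ ≤ ∑ v ∈ X.support, X v :=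
          Finset.sum_le_sum_of_subset_of_nonneg Finset.inter_subset_right fun v _ _ => hX0 v
  have hle : ∑ v ∈ S, e v ≤ ∑ v ∈ S, X v := by
    refine Finset.sum_le_sum fun v hv => ?_
    obtain ⟨i, hi, h0 | hle⟩ := h v hv
    · exact absurd (by rw [σ.val_eq h₀ hi.in_point, h0, mul_zero]) hσ
    · rw [hXv, lineOrd_eq h₀ hi, σ.val_eq h₀ hi.in_point,
        v.ord_mul (Units.ne_zero _) (fun h0 => hσ (by rw [σ.val_eq h₀ hi.in_point, h0, mul_zero]))]
      omega
  omega

theorem deg_nonneg_of_not_vanishesAt (σ : A.symD.Section) (P : A.Pt F)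
    (h : ¬ σ.VanishesAt A.symD P) : 0 ≤ A.deg k P := by
  by_contra hneg
  refine h (vanishesAt_of_sum_lt (k := k) σ P ∅ (fun _ => 0) (by simp) ?_)
  simp only [Finset.sum_empty]
  rw [deg] at hneg
  omega

end AVData

end Fermat.Agent.AbelianVariety
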