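/-
Jets of sections at the points of an abelian variety: lines whose sections give all jets up to a
given order.
-/
import Fermat.Agent.AbelianVariety.Origin
import Fermat.Agent.AbelianVariety.Symmetric

set_option autoImplicit false

noncomputable section

namespace Fermat.Agent.AbelianVariety

open IsLocalRing

universe u

variable {K : Type u} [Field K]

theorem LineData.Section.val_congr {A : PointFunctor K} {L : LineData A} (σ : L.Section)
    {R : Type u} [CommRing R] [Algebra K R] {i : L.ι} {P Q : A.Pt R} (h : P = Q)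
    (hi : L.In i P) : σ.val hi = σ.val (h ▸ hi : L.In i Q) := by
  subst h; rfl

theorem LineData.Section.vanishesAt_map {A : PointFunctor K} {L : LineData A} {σ : L.Section}
    {R S : Type u} [CommRing R] [Algebra K R] [CommRing S] [Algebra K S] [IsLocalRing R]
    (φ : R →ₐ[K] S) {P : A.Pt R} (h : σ.VanishesAt L P) : σ.VanishesAt L (A.map φ P) := by
  obtain ⟨i, hi⟩ := L.exists_in P
  refine LineData.Section.VanishesAt.of_in (L.in_map φ i P hi) ?_
  rw [← σ.val_map φ hi, h i hi, map_zero]

theorem LineData.Section.vanishesAt_of_map {A : PointFunctor K} {L : LineData A} {σ : L.Section}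
    {R S : Type u} [CommRing R] [Algebra K R] [CommRing S] [Algebra K S] [IsLocalRing R]
    (φ : R →ₐ[K] S) (hφ : Function.Injective φ) {P : A.Pt R}
    (h : σ.VanishesAt L (A.map φ P)) : σ.VanishesAt L P := by
  obtain ⟨i, hi⟩ := L.exists_in P
  refine LineData.Section.VanishesAt.of_in hi (hφ ?_)
  rw [σ.val_map φ hi, h i _, map_zero]

variable {g : ℕ} {A : AVData K g}

namespace AVData

variable (A) in
/-- The tautological point translated to `u`. -/
def point (u : A.Pt K) : A.Pt A.R₀ := A.toPointFunctor.const A.R₀ u + A.univ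

theorem map_point {R : Type u} [CommRing R] [Algebra K R] (φ : A.R₀ →ₐ[K] R) (u : A.Pt K) :
    A.map φ (A.point u) = A.toPointFunctor.const R u + A.map φ A.univ := by
  rw [point, map_add, A.toPointFunctor.map_const]

theorem map_e₀_point (u : A.Pt K) : A.map A.e₀ (A.point u) = u := by
  rw [map_point, A.map_e₀_univ, add_zero, PointFunctor.const_self]

theorem point_in {L : LineData A.toPointFunctor} {i : L.ι} {u : A.Pt K} (h : L.In i u) :
    L.In i (A.point u) :=
  L.in_reflect A.e₀ isLocalHom_e₀ i _ (by rwa [map_e₀_point])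

theorem e₀_val {L : LineData A.toPointFunctor} (σ : L.Section) {i : L.ι} {u : A.Pt K}
    (hi : L.In i (A.point u)) :
    A.e₀ (σ.val hi) = σ.val (map_e₀_point u ▸ L.in_map A.e₀ i _ hi : L.In i u) := by
  rw [σ.val_map]
  exact σ.val_congr (map_e₀_point u) _

theorem affine_app_point (n : ℕ) (c u : A.Pt K) :
    (NatMap.affine (A := A.toPointFunctor) (n : ℤ) c).app (A.point u) =
      A.map (A.mulHom n) (A.point (n • u + c)) := by
  rw [NatMap.affine_app, map_point, map_mulHom, point, natCast_zsmul, smul_add, map_add,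
    map_nsmul]
  abel

theorem mulHom_mem_pow {n k : ℕ} {x : A.R₀} (hx : x ∈ maximalIdeal A.R₀ ^ k) :
    A.mulHom n x ∈ maximalIdeal A.R₀ ^ k := by
  have h : (maximalIdeal A.R₀).map (A.mulHom n : A.R₀ →+* A.R₀) ≤ maximalIdeal A.R₀ :=
    Ideal.map_le_iff_le_comap.mpr fun y hy hu => hy ((isLocalHom_mulHom n).map_nonunit _ hu)
  have h2 := Ideal.mem_map_of_mem (A.mulHom n : A.R₀ →+* A.R₀) hx
  rw [Ideal.map_pow] at h2
  exact Ideal.pow_right_mono h k h2

variable (A) in
/-- The sections of `L` give every jet of order at most `m` at `u`. -/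
def HasJets (L : LineData A.toPointFunctor) (u : A.Pt K) (m : ℕ) : Prop :=
  ∃ (i : L.ι) (hi : L.In i (A.point u)), ∀ α : Fin g →₀ ℕ, expDeg α ≤ m →
    ∃ (σ : L.Section) (c : K), c ≠ 0 ∧
      σ.val hi - c • A.tpow α ∈ maximalIdeal A.R₀ ^ (expDeg α + 1)

theorem hasJets_trivial (u : A.Pt K) : A.HasJets (LineData.trivial A.toPointFunctor) u 0 := by
  refine ⟨PUnit.unit, trivial, fun α hα => ⟨LineData.Section.one, 1, one_ne_zero, ?_⟩⟩
  have : α = 0 := Finsupp.ext fun l => by
    have := (Finset.single_le_sum (f := fun l => α l) (fun _ _ => Nat.zero_le _)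
      (Finset.mem_univ l)).trans hα
    simpa using this
  subst this
  simp [tpow, LineData.Section.one]

theorem hasJets_symD {u : A.Pt K} (h : (A.symSec 0).IsUnitAt A.symD u) :
    A.HasJets A.symD u 1 := by
  classical
  have hu := symSec_isUnitAt_iff.mp h
  have hP : (A.symSec 0).IsUnitAt A.symD (A.point u) :=
    LineData.Section.IsUnitAt.of_map A.e₀ isLocalHom_e₀ (by rwa [map_e₀_point])
  obtain ⟨i, hi, hs0⟩ := hP
  refine ⟨i, hi, fun α hα => ?_⟩
  set s0 := (A.symSec 0).val hi with hs0def
  have he : A.e₀ s0 ≠ 0 := isUnit_iff_e₀.mp hs0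
  rcases Nat.le_one_iff_eq_zero_or_eq_one.mp hα with h0 | h1
  · have : α = 0 := Finsupp.ext fun l => by
      have := (Finset.single_le_sum (f := fun l => α l) (fun _ _ => Nat.zero_le _)
        (Finset.mem_univ l)).trans h0.le
      simpa using this
    subst this
    refine ⟨A.symSec 0, A.e₀ s0, he, ?_⟩
    simp only [tpow, Finsupp.coe_zero, Pi.zero_apply, pow_zero, Finset.prod_const_one,
      ← Algebra.algebraMap_eq_smul_one, show expDeg (0 : Fin g →₀ ℕ) = 0 by simp [expDeg], zero_add,
      pow_one]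
    exact sub_e₀_mem s0
  · obtain ⟨l, rfl⟩ : ∃ l, α = Finsupp.single l 1 := by
      obtain ⟨l, -, hl⟩ := Finset.exists_ne_zero_of_sum_ne_zero (s := Finset.univ)
        (f := fun l => α l) (by rw [← expDeg, h1]; exact one_ne_zero)
      refine ⟨l, Finsupp.ext fun j => ?_⟩
      have hle := Finset.single_le_sum (f := fun l => α l) (fun _ _ => Nat.zero_le _)
        (Finset.mem_univ l)
      rw [← expDeg, h1] at hle
      rcases eq_or_ne l j with rfl | hlj
      · simp only [Finsupp.single_eq_same]; omega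
      · have h2 := Finset.sum_le_sum_of_subset (f := fun l => α l) (Finset.subset_univ {l, j})
        rw [Finset.sum_pair hlj, ← expDeg, h1] at h2
        rw [Finsupp.single_apply, if_neg hlj]
        omega
    have key : ∀ x ∈ Ideal.span {x : A.R₀ | ∃ (i : Fin (A.M + 1)) (r : A.R₀),
        (A.sec i).IsRatioAt A.D (A.sec 0) (A.map (Algebra.ofId K A.R₀) u + A.univ) r ∧
        x = r - algebraMap K A.R₀ (A.e₀ r)},
        x ∈ maximalIdeal A.R₀ ∧
          ∃ σ : A.symD.Section, σ.val hi - x * s0 ∈ maximalIdeal A.R₀ ^ 2 := by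
      intro x hx
      induction hx using Submodule.span_induction with
      | mem x hx =>
        obtain ⟨j, r, hr, rfl⟩ := hx
        refine ⟨sub_e₀_mem r, LineData.Section.linComb ![1, -A.e₀ r] ![A.symSec j, A.symSec 0], ?_⟩
        have hj := symSec_isRatioAt j hr i hi
        simp only [LineData.Section.linComb_val, Fin.sum_univ_two, Matrix.cons_val_zero,
          Matrix.cons_val_one, hj, ← hs0def, Algebra.smul_def, map_one, one_mul, map_neg]
        convert Submodule.zero_mem (maximalIdeal A.R₀ ^ 2)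
        erw [hj, ← hs0def]
        ring
      | zero => exact ⟨zero_mem _, 0, by simp⟩
      | add x y _ _ hx hy =>
        obtain ⟨hxm, σ, hσ⟩ := hx
        obtain ⟨hym, τ, hτ⟩ := hy
        refine ⟨add_mem hxm hym, σ + τ, ?_⟩
        rw [LineData.Section.add_val, add_mul, add_sub_add_comm]
        exact add_mem hσ hτ
      | smul a x _ hx =>
        obtain ⟨hxm, σ, hσ⟩ := hx
        refine ⟨Ideal.mul_mem_left _ a hxm, A.e₀ a • σ, ?_⟩
        rw [LineData.Section.smul_val, Algebra.smul_def, smul_eq_mul,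
          show algebraMap K A.R₀ (A.e₀ a) * σ.val hi - a * x * s0 =
            algebraMap K A.R₀ (A.e₀ a) * (σ.val hi - x * s0) -
              (a - algebraMap K A.R₀ (A.e₀ a)) * x * s0 by ring]
        refine sub_mem (Ideal.mul_mem_left _ _ hσ) (Ideal.mul_mem_right _ _ ?_)
        rw [pow_two]
        exact Ideal.mul_mem_mul (sub_e₀_mem a) hxm
    obtain ⟨x, hx, z, hz, hxz⟩ := Submodule.mem_sup.mp (A.tangent u hu.1 (t_mem l))
    obtain ⟨hxm, σ, hσ⟩ := key x hx
    refine ⟨σ, A.e₀ s0, he, ?_⟩
    rw [tpow_single, expDeg_single, Algebra.smul_def,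
      show σ.val hi - algebraMap K A.R₀ (A.e₀ s0) * A.t l = (σ.val hi - x * s0) +
        x * (s0 - algebraMap K A.R₀ (A.e₀ s0)) - algebraMap K A.R₀ (A.e₀ s0) * z by
          rw [← hxz]; ring]
    refine sub_mem (add_mem hσ ?_) (Ideal.mul_mem_left _ _ hz)
    rw [pow_two]
    exact Ideal.mul_mem_mul hxm (sub_e₀_mem s0)

theorem exists_add_eq_of_le (α : Fin g →₀ ℕ) : ∀ j ≤ expDeg α,
    ∃ β γ : Fin g →₀ ℕ, β + γ = α ∧ expDeg β = j := by
  intro j
  induction j with
  | zero => exact fun _ => ⟨0, α, zero_add _, by simp [expDeg]⟩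
  | succ j ih =>
    intro hj
    obtain ⟨β, γ, hbg, hβ⟩ := ih (by omega)
    have hγ : expDeg γ ≠ 0 := fun h => by
      rw [← hbg, expDeg_add, hβ, h] at hj; omega
    obtain ⟨l, -, hl⟩ := Finset.exists_ne_zero_of_sum_ne_zero hγ
    refine ⟨β + Finsupp.single l 1, γ - Finsupp.single l 1, ?_, by
      rw [expDeg_add, expDeg_single, hβ]⟩
    rw [add_assoc, add_tsub_cancel_of_le (Finsupp.single_le_iff.mpr (Nat.pos_of_ne_zero hl)), hbg]

theorem HasJets.tensor {L L' : LineData A.toPointFunctor} {u : A.Pt K} {a b : ℕ}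
    (h : A.HasJets L u a) (h' : A.HasJets L' u b) : A.HasJets (L.tensor L') u (a + b) := by
  obtain ⟨i, hi, hσ⟩ := h
  obtain ⟨j, hj, hτ⟩ := h'
  refine ⟨(i, j), ⟨hi, hj⟩, fun α hα => ?_⟩
  obtain ⟨β, γ, rfl, hβ⟩ := exists_add_eq_of_le α (min (expDeg α) a) (min_le_left _ _)
  rw [expDeg_add] at hα hβ
  obtain ⟨σ, c, hc, hs⟩ := hσ β (by omega)
  obtain ⟨τ, c', hc', ht⟩ := hτ γ (by omega)
  refine ⟨σ.mul τ, c * c', mul_ne_zero hc hc', ?_⟩
  rw [LineData.Section.mul_val, tpow_add, expDeg_add,
    show (c * c') • (A.tpow β * A.tpow γ) = (c • A.tpow β) * (c' • A.tpow γ) from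
      (smul_mul_smul_comm _ _ _ _).symm]
  exact mul_sub_mul_mem hs (Submodule.smul_of_tower_mem _ _ (tpow_mem β)) ht
    (Submodule.smul_of_tower_mem _ _ (tpow_mem γ))

theorem HasJets.pow {L : LineData A.toPointFunctor} {u : A.Pt K} {a : ℕ}
    (h : A.HasJets L u a) (m : ℕ) : A.HasJets (L.pow m) u (m * a) := by
  induction m with
  | zero => rw [zero_mul]; exact hasJets_trivial u
  | succ m ih => rw [add_mul, one_mul]; exact ih.tensor h

theorem HasJets.pullback {L : LineData A.toPointFunctor} {u c : A.Pt K} {m n : ℕ}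
    (hn : (n : K) ≠ 0) (h : A.HasJets L (n • u + c) m) :
    A.HasJets (L.pullback (NatMap.affine (n : ℤ) c)) u m := by
  obtain ⟨i, hi, hσ⟩ := h
  have hi' : L.In i ((NatMap.affine (A := A.toPointFunctor) (n : ℤ) c).app (A.point u)) := by
    rw [affine_app_point]
    exact L.in_map _ _ _ hi
  refine ⟨i, hi', fun α hα => ?_⟩
  obtain ⟨σ, a, ha, hs⟩ := hσ α hα
  refine ⟨σ.pullback _, a * (n : K) ^ expDeg α, mul_ne_zero ha (pow_ne_zero _ hn), ?_⟩
  rw [show (σ.pullback (NatMap.affine (n : ℤ) c)).val (P := A.point u) (i := i) hi' =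
      A.mulHom n (σ.val hi) by
    rw [σ.val_map]
    exact σ.val_congr (affine_app_point n c u) hi']
  rw [show A.mulHom n (σ.val hi) - (a * (n : K) ^ expDeg α) • A.tpow α =
    A.mulHom n (σ.val hi - a • A.tpow α) +
      a • (A.mulHom n (A.tpow α) - (n : K) ^ expDeg α • A.tpow α) by
    rw [map_sub, map_smul, smul_sub, ← mul_smul]; abel]
  exact add_mem (mulHom_mem_pow hs) (Submodule.smul_of_tower_mem _ _ (mulHom_tpow_sub_mem n α))

variable (A) in
/-- The tensor product of the translates of a line by a list of points. -/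
def translatesLine (L : LineData A.toPointFunctor) : List (A.Pt K) → LineData A.toPointFunctor
  | [] => LineData.trivial A.toPointFunctor
  | c :: l => (L.pullback (NatMap.affine 1 c)).tensor (translatesLine L l)

theorem hasJets_translatesLine {L : LineData A.toPointFunctor} {u : A.Pt K} {m : ℕ}
    (l : List (A.Pt K)) (h : ∀ c ∈ l, A.HasJets L (u + c) m) :
    A.HasJets (A.translatesLine L l) u (l.length * m) := by
  induction l with
  | nil => rw [List.length_nil, zero_mul]; exact hasJets_trivial u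
  | cons c l ih =>
    rw [List.length_cons, add_mul, one_mul, add_comm]
    refine HasJets.tensor ?_ (ih fun c' hc' => h c' (List.mem_cons_of_mem _ hc'))
    have h1 := HasJets.pullback (n := 1) (c := c) (u := u) (L := L) (m := m) (by simp)
      (by rw [one_smul]; exact h c List.mem_cons_self)
    rwa [Nat.cast_one] at h1

/-- Monomial jets with triangular coefficients are independent. -/
theorem eq_zero_of_triangular {J : Type*} [Fintype J] {m : ℕ} (b : J → J → A.R₀)
    (hb : ∀ j l, j ≠ l → b j l ∈ maximalIdeal A.R₀) (hb' : ∀ l, A.e₀ (b l l) ≠ 0)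
    (f : JetIndex g m → A.R₀) (a : JetIndex g m → K) (ha : ∀ s, a s ≠ 0)
    (hf : ∀ s, f s - a s • A.tpow s.expo ∈ maximalIdeal A.R₀ ^ (expDeg s.expo + 1))
    (c : J × JetIndex g m → K) (h : ∀ l, ∑ p, c p • (b p.1 l * f p.2) = 0) : c = 0 := by
  classical
  have hfm : ∀ s, f s ∈ maximalIdeal A.R₀ ^ expDeg s.expo := fun s => by
    have := add_mem (Ideal.pow_le_pow_right (Nat.le_succ _) (hf s))
      (Submodule.smul_of_tower_mem _ (a s) (tpow_mem (A := A) s.expo))
    rwa [sub_add_cancel] at this
  suffices H : ∀ k, ∀ p : J × JetIndex g m, expDeg p.2.expo = k → c p = 0 from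
    funext fun p => H _ p rfl
  intro k
  induction k using Nat.strong_induction_on with
  | _ k ih =>
    rintro ⟨l, s⟩ hs
    set T := Finset.univ.filter fun s : JetIndex g m => expDeg s.expo = k with hT
    have hmem : ∑ s ∈ T, (c (l, s) * A.e₀ (b l l) * a s) • A.tpow s.expo ∈
        maximalIdeal A.R₀ ^ (k + 1) := by
      have hsplit : ∑ s ∈ T, (c (l, s) * A.e₀ (b l l) * a s) • A.tpow s.expo =
          ∑ s ∈ T, (c (l, s) * A.e₀ (b l l) * a s) • A.tpow s.expo - ∑ p, c p • (b p.1 l * f p.2) := by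
        rw [h l, sub_zero]
      rw [hsplit, Fintype.sum_prod_type, Finset.sum_comm, hT, Finset.sum_filter,
        ← Finset.sum_sub_distrib]
      refine Ideal.sum_mem _ fun s _ => ?_
      rw [← Finset.sum_erase_add _ _ (Finset.mem_univ l)]
      rcases lt_trichotomy (expDeg s.expo) k with hlt | heq | hgt
      · rw [if_neg hlt.ne, Finset.sum_eq_zero (fun j _ => by rw [ih _ hlt (j, s) rfl, zero_smul]),
          ih _ hlt (l, s) rfl, zero_smul, add_zero, sub_zero]
        exact zero_mem _
      · rw [if_pos heq, show (c (l, s) * A.e₀ (b l l) * a s) • A.tpow s.expo -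
            (∑ j ∈ Finset.univ.erase l, c (j, s) • (b j l * f s) + c (l, s) • (b l l * f s)) =
          -(c (l, s) • ((b l l - algebraMap K A.R₀ (A.e₀ (b l l))) * f s +
              A.e₀ (b l l) • (f s - a s • A.tpow s.expo))) -
            ∑ j ∈ Finset.univ.erase l, c (j, s) • (b j l * f s) by
            simp only [smul_add, smul_sub, Algebra.smul_def, map_mul]
            ring]
        refine sub_mem (neg_mem (Submodule.smul_of_tower_mem _ _ (add_mem ?_ ?_)))
          (Ideal.sum_mem _ fun j hj => Submodule.smul_of_tower_mem _ _ ?_)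
        · rw [pow_succ']; exact Ideal.mul_mem_mul (sub_e₀_mem _) (heq ▸ hfm s)
        · exact Submodule.smul_of_tower_mem _ _ (heq ▸ hf s)
        · rw [pow_succ']
          exact Ideal.mul_mem_mul (hb j l (Finset.ne_of_mem_erase hj)) (heq ▸ hfm s)
      · rw [if_neg hgt.ne', zero_sub]
        have hf' : f s ∈ maximalIdeal A.R₀ ^ (k + 1) := Ideal.pow_le_pow_right hgt (hfm s)
        exact neg_mem (add_mem (Ideal.sum_mem _ fun j _ => Submodule.smul_of_tower_mem _ _
          (Ideal.mul_mem_left _ _ hf')) (Submodule.smul_of_tower_mem _ _ (Ideal.mul_mem_left _ _ hf')))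
    have hzero := eq_zero_of_sum_tpow_mem T (fun s => s.expo) k
      (fun x _ y _ hxy => JetIndex.expo_injective g m hxy)
      (fun s hs => (Finset.mem_filter.mp hs).2) _ hmem s (Finset.mem_filter.mpr ⟨Finset.mem_univ _, hs⟩)
    simpa [hb' l, ha s] using hzero

/-- A section of a power of the symmetrised divisor vanishing at finitely many given points, but
not at one more. -/
theorem exists_interpolation (c : A.Pt K) (hc : (A.symSec 0).IsUnitAt A.symD c)
    (l : List (A.Pt K)) (hl : ∀ c' ∈ l, (A.symSec 0).IsUnitAt A.symD c' ∧ c' ≠ c) :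
    ∃ σ : (A.symD.pow l.length).Section,
      (∀ (i) (hi : (A.symD.pow l.length).In i c), σ.val hi ≠ 0) ∧
        ∀ c' ∈ l, σ.VanishesAt (A.symD.pow l.length) c' := by
  induction l with
  | nil => exact ⟨LineData.Section.one, fun i hi => one_ne_zero, fun _ h => absurd h List.not_mem_nil⟩
  | cons c' l ih =>
    obtain ⟨σ, hσ, hσ'⟩ := ih fun x hx => hl x (List.mem_cons_of_mem _ hx)
    obtain ⟨hu', hne⟩ := hl c' List.mem_cons_self
    obtain ⟨i, r, r', hr, hr', hrr⟩ :=
      A.separates c' c (symSec_isUnitAt_iff.mp hu').1 (symSec_isUnitAt_iff.mp hc).1 hne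
    set τ := LineData.Section.linComb ![1, -r] ![A.symSec i, A.symSec 0] with hτ
    have hτv : ∀ {x : A.Pt K} {s : K} {j : A.symD.ι} (hj : A.symD.In j x),
        (A.sec i).IsRatioAt A.D (A.sec 0) x s → τ.val hj = (s - r) * (A.symSec 0).val hj := by
      intro x s j hj hs
      have := symSec_isRatioAt i hs j hj
      simp only [hτ, LineData.Section.linComb_val, Fin.sum_univ_two, Matrix.cons_val_zero,
        Matrix.cons_val_one, this, smul_eq_mul]
      ring
    refine ⟨σ.mul τ, fun j hj => ?_, fun x hx j hj => ?_⟩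
    · show σ.val hj.1 * τ.val hj.2 ≠ 0
      rw [hτv hj.2 hr']
      exact mul_ne_zero (hσ _ hj.1)
        (mul_ne_zero (sub_ne_zero.mpr hrr.symm) (LineData.Section.IsUnitAt.isUnit A.symD hc hj.2).ne_zero)
    · show σ.val hj.1 * τ.val hj.2 = 0
      rcases List.mem_cons.mp hx with rfl | hx'
      · rw [hτv hj.2 hr, sub_self, zero_mul, mul_zero]
      · rw [hσ' x hx' _ hj.1, zero_mul]

/-- Vanishing at the tautological point translated by `u` spreads to all translates. -/
theorem vanishesAt_point_of_vanishesAt {L : LineData A.toPointFunctor} {σ : L.Section}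
    {u : A.Pt K} (h : σ.VanishesAt L (A.point u)) (c : A.Pt K) :
    σ.VanishesAt L (A.point (u + c)) := by
  obtain ⟨φ, hφ⟩ := A.translate c
  refine LineData.Section.vanishesAt_of_map (IsScalarTower.toAlgHom K A.R₀ (FractionRing A.R₀))
    (IsFractionRing.injective A.R₀ (FractionRing A.R₀)) ?_
  have h1 := LineData.Section.vanishesAt_map φ
    (LineData.Section.vanishesAt_map (IsScalarTower.toAlgHom K A.R₀ (FractionRing A.R₀)) h)
  rw [map_point, map_add, A.toPointFunctor.map_const, hφ] at h1
  rw [map_point, map_add, add_assoc]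
  exact h1

end AVData

end Fermat.Agent.AbelianVariety
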