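/-
The generic line through the origin of an abelian variety, as a function field of one variable
receiving the local ring injectively.
-/
import Fermat.Agent.AbelianVariety.Jets
import Mathlib.RingTheory.MvPowerSeries.Substitution
import Mathlib.RingTheory.PowerSeries.Inverse
import Mathlib.FieldTheory.IsAlgClosed.AlgebraicClosure

set_option autoImplicit false

noncomputable section

namespace Fermat.Agent.AbelianVariety

open AlgebraicCurve Fermat.Agent.Curve IsLocalRing IntermediateField

universe u

variable {K : Type u} [Field K] {g : ℕ}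

/-- A function field receiving the local ring at the origin injectively, centred at a place. -/
structure GenericLine (A : AVData K g) where
  /-- the constants -/
  Ω : Type u
  /-- the function field -/
  F : Type u
  [fieldΩ : Field Ω]
  [fieldF : Field F]
  [algKΩ : Algebra K Ω]
  [algΩF : Algebra Ω F]
  [algKF : Algebra K F]
  [tower : IsScalarTower K Ω F]
  [algClosed : IsAlgClosed Ω]
  [functionField : IsFunctionFieldOne Ω F]
  /-- the homomorphism -/
  φ : A.R₀ →ₐ[K] F
  /-- the centre -/
  c₀ : Place Ω F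
  injective : Function.Injective φ
  mem : ∀ x, φ x ∈ c₀.toValuationSubring
  ordGE : ∀ x ∈ maximalIdeal A.R₀, OrdGE c₀ 1 (φ x)

attribute [instance] GenericLine.fieldΩ GenericLine.fieldF GenericLine.algKΩ GenericLine.algΩF
  GenericLine.algKF GenericLine.tower GenericLine.algClosed GenericLine.functionField

section Series

variable (Ω : Type u) [Field Ω]

/-- Power series inside their field of fractions. -/
def seriesRing : ValuationSubring (FractionRing (PowerSeries Ω)) where
  toSubring := (algebraMap (PowerSeries Ω) (FractionRing (PowerSeries Ω))).range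
  mem_or_inv_mem' x := ValuationRing.isInteger_or_isInteger (PowerSeries Ω) x

variable {Ω}

theorem inv_notMem_seriesRing {f : PowerSeries Ω} (hf : PowerSeries.constantCoeff f = 0)
    (hf0 : f ≠ 0) : (algebraMap (PowerSeries Ω) (FractionRing (PowerSeries Ω)) f)⁻¹ ∉ seriesRing Ω := by
  rintro ⟨w, hw⟩
  have hinj := IsFractionRing.injective (PowerSeries Ω) (FractionRing (PowerSeries Ω))
  have h1 : algebraMap (PowerSeries Ω) (FractionRing (PowerSeries Ω)) (f * w) =
      algebraMap (PowerSeries Ω) (FractionRing (PowerSeries Ω)) 1 := by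
    rw [map_mul, hw, map_one, mul_inv_cancel₀ ((map_ne_zero_iff _ hinj).mpr hf0)]
  have h2 := congrArg PowerSeries.constantCoeff (hinj h1)
  rw [map_mul, hf, zero_mul, map_one] at h2
  exact zero_ne_one h2

end Series

variable (A : AVData K g)

namespace AVData

theorem algebraicIndependent_t : AlgebraicIndependent K A.t := by
  refine AlgebraicIndependent.of_comp A.expand ?_
  rw [show (A.expand : A.R₀ → MvPowerSeries (Fin g) K) ∘ A.t = MvPowerSeries.X from
    funext A.expand_t, algebraicIndependent_iff]
  intro p hp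
  have h : MvPolynomial.aeval (MvPowerSeries.X : Fin g → MvPowerSeries (Fin g) K) =
      MvPolynomial.coeToMvPowerSeries.algHom (σ := Fin g) (R := K) K := by
    refine MvPolynomial.algHom_ext fun i => ?_
    simp
  rw [h] at hp
  exact MvPolynomial.coe_injective (Fin g) K (by simpa using hp)

theorem nonempty_genericLine : Nonempty (GenericLine A) := by
  classical
  let P := FractionRing (MvPolynomial (Fin g) K)
  let Ω := AlgebraicClosure P
  let a : Fin g → Ω := fun l => algebraMap P Ω (algebraMap (MvPolynomial (Fin g) K) P (MvPolynomial.X l))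
  have ha : AlgebraicIndependent K a := by
    have h := (MvPolynomial.algebraicIndependent_X (Fin g) K).map'
      (f := (IsScalarTower.toAlgHom K P Ω).comp (IsScalarTower.toAlgHom K (MvPolynomial (Fin g) K) P))
      ((algebraMap P Ω).injective.comp (IsFractionRing.injective (MvPolynomial (Fin g) K) P))
    exact h
  let T : PowerSeries Ω := PowerSeries.X
  let sub : Fin g → PowerSeries Ω := fun l => PowerSeries.C (a l) * T
  have hsub : MvPowerSeries.HasSubst sub := MvPowerSeries.hasSubst_of_constantCoeff_zero fun l => by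
    show PowerSeries.constantCoeff (sub l) = 0
    simp [sub, T]
  let θ : A.R₀ →ₐ[K] PowerSeries Ω := (MvPowerSeries.substAlgHom hsub).comp A.expand
  have hprod : ∀ d : Fin g →₀ ℕ, (d.prod fun s e => sub s ^ e) =
      PowerSeries.C (∏ l, a l ^ d l) * T ^ expDeg d := by
    intro d
    rw [Finsupp.prod_fintype _ _ (fun _ => pow_zero _), map_prod, expDeg,
      ← Finset.prod_pow_eq_pow_sum, ← Finset.prod_mul_distrib]
    exact Finset.prod_congr rfl fun l _ => by rw [mul_pow, map_pow]
  have hθ : Function.Injective θ := by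
    refine (injective_iff_map_eq_zero θ).mpr fun x hx => A.expand_injective ?_
    rw [map_zero]
    ext d
    rw [map_zero]
    set k := expDeg d with hk
    set S : Finset (Fin g →₀ ℕ) :=
      (Finset.univ.image (JetIndex.expo (g := g) (k := k))).filter fun e => expDeg e = k with hS
    have hmemS : ∀ e : Fin g →₀ ℕ, expDeg e = k → e ∈ S := fun e he => by
      obtain ⟨s, hs⟩ := JetIndex.exists_expo (k := k) he.le
      exact Finset.mem_filter.mpr ⟨Finset.mem_image.mpr ⟨s, Finset.mem_univ _, hs⟩, he⟩
    set f := A.expand x with hf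
    have hk0 : PowerSeries.coeff k (MvPowerSeries.subst sub f) = 0 := by
      rw [show MvPowerSeries.subst sub f = θ x by simp [θ, hf]]
      rw [hx, map_zero]
    have h1 : MvPolynomial.aeval a (∑ e ∈ S, MvPolynomial.monomial e (MvPowerSeries.coeff e f)) = 0 := by
      rw [← hk0, PowerSeries.coeff, MvPowerSeries.coeff_subst hsub, map_sum,
        finsum_eq_sum_of_support_subset _ (s := S) (fun e he => ?_)]
      · refine Finset.sum_congr rfl fun e he => ?_
        rw [hprod, MvPolynomial.aeval_monomial, Algebra.smul_def,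
          Finsupp.prod_fintype _ _ (fun _ => pow_zero _)]
        congr 1
        show _ = PowerSeries.coeff k _
        rw [PowerSeries.coeff_C_mul, PowerSeries.coeff_X_pow, if_pos (Finset.mem_filter.mp he).2.symm,
          mul_one]
      · refine hmemS e ?_
        by_contra hne
        apply he
        show _ • PowerSeries.coeff k (e.prod fun s j => sub s ^ j) = 0
        rw [hprod, PowerSeries.coeff_C_mul, PowerSeries.coeff_X_pow, if_neg (Ne.symm hne), mul_zero,
          smul_zero]
    have h2 := congrArg (MvPolynomial.coeff d) (ha.eq_zero_of_aeval_eq_zero _ h1)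
    rw [MvPolynomial.coeff_sum, MvPolynomial.coeff_zero, Finset.sum_eq_single d
      (fun e _ hne => by rw [MvPolynomial.coeff_monomial, if_neg hne])
      (fun h => absurd (hmemS d rfl) h)] at h2
    rw [MvPolynomial.coeff_monomial, if_pos rfl] at h2
    exact h2
  have hθ0 : ∀ x ∈ maximalIdeal A.R₀, PowerSeries.constantCoeff (θ x) = 0 := by
    intro x hx
    have h := MvPowerSeries.constantCoeff_subst_eq_zero hsub
      (fun l => by show PowerSeries.constantCoeff (sub l) = 0; simp [sub, T])
      (f := A.expand x) (by rw [constantCoeff_expand, mem_maximalIdeal_iff.mp hx])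
    simpa [θ] using! h
  let Λ := FractionRing (PowerSeries Ω)
  let j : PowerSeries Ω →+* Λ := algebraMap (PowerSeries Ω) Λ
  have hjinj : Function.Injective j := IsFractionRing.injective (PowerSeries Ω) Λ
  have hjC : ∀ c : Ω, j (PowerSeries.C c) = algebraMap Ω Λ c := fun c => by
    show algebraMap (PowerSeries Ω) Λ (algebraMap Ω (PowerSeries Ω) c) = _
    rw [← IsScalarTower.algebraMap_apply]
  let TL : Λ := j T
  let Θ : A.R₀ →ₐ[K] Λ :=
    { j.comp (θ : A.R₀ →+* PowerSeries Ω) with
      commutes' := fun c => by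
        show j (θ (algebraMap K A.R₀ c)) = _
        rw [θ.commutes, ← IsScalarTower.algebraMap_apply] }
  have hTL : Transcendental Ω TL := by
    rw [transcendental_iff_injective]
    have h : ∀ p : Polynomial Ω, Polynomial.aeval TL p = j (p : PowerSeries Ω) := by
      intro p
      induction p using Polynomial.induction_on' with
      | add p q hp hq => rw [map_add, hp, hq, Polynomial.coe_add, map_add]
      | monomial n c =>
        rw [← Polynomial.C_mul_X_pow_eq_monomial, map_mul, map_pow, Polynomial.aeval_C,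
          Polynomial.aeval_X, Polynomial.coe_mul, Polynomial.coe_pow, Polynomial.coe_C,
          Polynomial.coe_X, ← hjC, map_mul, map_pow]
    intro p q hpq
    rw [h, h] at hpq
    exact Polynomial.coe_injective Ω (hjinj hpq)
  haveI hT₀ : IsFunctionFieldOne Ω Ω⟮TL⟯ := by
    have hgen : Transcendental Ω (AdjoinSimple.gen Ω TL) := fun h => hTL (by
      simpa using h.algebraMap (A := Λ))
    refine ⟨AdjoinSimple.gen Ω TL, hgen, ?_⟩
    have htop : Ω⟮AdjoinSimple.gen Ω TL⟯ = (⊤ : IntermediateField Ω Ω⟮TL⟯) := by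
      refine IntermediateField.map_injective (Ω⟮TL⟯).val ?_
      rw [IntermediateField.adjoin_map, ← AlgHom.fieldRange_eq_map, IntermediateField.fieldRange_val,
        Set.image_singleton]
      rfl
    rw [htop]
    exact Module.Finite.of_surjective
      (Algebra.linearMap (⊤ : IntermediateField Ω Ω⟮TL⟯) Ω⟮TL⟯)
      (fun y => ⟨⟨y, trivial⟩, rfl⟩)
  let s : Finset A.R₀ := Algebra.EssFiniteType.finset K A.R₀
  have hat : ∀ l, Θ (A.t l) ∈ Ω⟮TL⟯ := fun l => by
    show j (θ (A.t l)) ∈ _
    rw [show θ (A.t l) = sub l by simp [θ, A.expand_t, MvPowerSeries.subst_X hsub], map_mul, hjC]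
    exact mul_mem (IntermediateField.algebraMap_mem _ _) (mem_adjoin_simple_self Ω TL)
  have halg : ∀ x : A.R₀, IsAlgebraic Ω⟮TL⟯ (Θ x) := by
    intro x
    have hle : ∀ y ∈ Algebra.adjoin K (Set.range A.t), Θ y ∈ Ω⟮TL⟯ := by
      intro y hy
      induction hy using Algebra.adjoin_induction with
      | mem y hy => obtain ⟨l, rfl⟩ := hy; exact hat l
      | algebraMap c =>
        rw [Θ.commutes, IsScalarTower.algebraMap_apply K Ω Λ]
        exact IntermediateField.algebraMap_mem _ _
      | add y z _ _ hy hz => rw [map_add]; exact add_mem hy hz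
      | mul y z _ _ hy hz => rw [map_mul]; exact mul_mem hy hz
    let ψ : Algebra.adjoin K (Set.range A.t) →+* Ω⟮TL⟯ :=
      ((Θ : A.R₀ →+* Λ).comp (Algebra.adjoin K (Set.range A.t)).subtype).codRestrict _ fun y => hle y y.2
    obtain ⟨p, hp0, hp⟩ := A.algebraic_t x
    refine ⟨p.map ψ, (Polynomial.map_ne_zero_iff ?_).mpr hp0, ?_⟩
    · intro y z hyz
      exact Subtype.ext (hθ (hjinj (congrArg Subtype.val hyz)))
    · rw [Polynomial.aeval_def, Polynomial.eval₂_map]
      have h2 : (Θ : A.R₀ →+* Λ) (Polynomial.aeval x p) = 0 := by rw [hp, map_zero]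
      rw [Polynomial.aeval_def, Polynomial.hom_eval₂] at h2
      exact h2
  let F₁ : IntermediateField Ω⟮TL⟯ Λ := IntermediateField.adjoin Ω⟮TL⟯ (Θ '' (s : Set A.R₀))
  haveI : Finite (Θ '' (s : Set A.R₀)) := (s.finite_toSet.image Θ).to_subtype
  haveI : FiniteDimensional Ω⟮TL⟯ F₁ := IntermediateField.finiteDimensional_adjoin (fun y hy => by
    obtain ⟨x, -, rfl⟩ := hy
    exact (halg x).isIntegral)
  haveI : IsFunctionFieldOne Ω F₁ := IsFunctionFieldOne.of_finite_extension (F := Ω⟮TL⟯)
  letI algKF₁ : Algebra K F₁ := ((algebraMap Ω F₁).comp (algebraMap K Ω)).toAlgebra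
  haveI : IsScalarTower K Ω F₁ := IsScalarTower.of_algebraMap_eq fun _ => rfl
  haveI : IsScalarTower Ω F₁ Λ := IsScalarTower.of_algebraMap_eq fun _ => rfl
  have hmemF : ∀ x : A.R₀, Θ x ∈ F₁ := by
    have hsub' : ∀ y ∈ Algebra.EssFiniteType.subalgebra K A.R₀, Θ y ∈ F₁ := by
      intro y hy
      induction hy using Algebra.adjoin_induction with
      | mem y hy => exact IntermediateField.subset_adjoin _ _ ⟨y, hy, rfl⟩
      | algebraMap c =>
        rw [Θ.commutes, IsScalarTower.algebraMap_apply K Ω Λ,
          IsScalarTower.algebraMap_apply Ω Ω⟮TL⟯ Λ]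
        exact IntermediateField.algebraMap_mem _ _
      | add y z _ _ hy hz => rw [map_add]; exact add_mem hy hz
      | mul y z _ _ hy hz => rw [map_mul]; exact mul_mem hy hz
    intro x
    obtain ⟨⟨y, ⟨d, hd⟩⟩, hyd⟩ :=
      IsLocalization.surj (Algebra.EssFiniteType.submonoid K A.R₀) x
    have hd' : IsUnit (d : A.R₀) := hd
    have h : Θ x * Θ (d : A.R₀) = Θ (y : A.R₀) := by rw [← map_mul]; exact congrArg Θ hyd
    rw [eq_div_of_mul_eq (hd'.map Θ).ne_zero h]
    exact div_mem (hsub' _ y.2) (hsub' _ d.2)
  let φ : A.R₀ →ₐ[K] F₁ :=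
    { toFun := fun x => ⟨Θ x, hmemF x⟩
      map_one' := Subtype.ext (map_one Θ)
      map_mul' := fun x y => Subtype.ext (map_mul Θ x y)
      map_zero' := Subtype.ext (map_zero Θ)
      map_add' := fun x y => Subtype.ext (map_add Θ x y)
      commutes' := fun c => Subtype.ext ((Θ.commutes c).trans (IsScalarTower.algebraMap_apply K Ω Λ c)) }
  let V : ValuationSubring F₁ := (seriesRing Ω).comap (algebraMap F₁ Λ)
  have hVΩ : ∀ c : Ω, algebraMap Ω F₁ c ∈ V := fun c => by
    rw [ValuationSubring.mem_comap, ← IsScalarTower.algebraMap_apply, ← hjC]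
    exact ⟨_, rfl⟩
  let T₁ : F₁ := algebraMap Ω⟮TL⟯ F₁ (AdjoinSimple.gen Ω TL)
  have hT1 : T₁ ∈ V.nonunits := by
    refine V.mem_nonunits_iff_or.mpr (Or.inr fun h => ?_)
    exact inv_notMem_seriesRing (f := T) PowerSeries.constantCoeff_X PowerSeries.X_ne_zero h
  have hT1t : Transcendental Ω T₁ := fun h => hTL (h.algebraMap (A := Λ))
  have hT10 : T₁ ≠ 0 := fun h => hT1t (h ▸ isAlgebraic_zero)
  let c₀ : Place Ω F₁ :=
    { toValuationSubring := V
      algebraMap_mem' := hVΩ
      ne_top' := fun h => (V.mem_nonunits_iff_or.mp hT1).resolve_left hT10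
        (h ▸ ValuationSubring.mem_top _)
      isPrincipalIdealRing' := isPrincipalIdealRing_of_mem_nonunits hT1t V hVΩ hT1 }
  refine ⟨{ Ω := Ω, F := F₁, φ := φ, c₀ := c₀, injective := ?_, mem := ?_, ordGE := ?_ }⟩
  · intro x y hxy
    exact hθ (hjinj (congrArg Subtype.val hxy))
  · intro x
    exact ⟨θ x, rfl⟩
  · intro x hx
    rcases eq_or_ne x 0 with rfl | hx0
    · rw [map_zero]; exact ordGE_zero
    · refine OrdGE.of_le ?_
      by_contra hlt
      refine inv_notMem_seriesRing (hθ0 x hx) ((map_ne_zero_iff _ hθ).mpr hx0) ?_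
      have h := mem_of_ord_nonneg c₀ (f := (φ x)⁻¹) (by rw [c₀.ord_inv]; omega)
      exact h

end AVData

end Fermat.Agent.AbelianVariety
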