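/-
Points of an abelian variety on curves coming from its local ring at the origin.
-/
import Fermat.Agent.AbelianVariety.GenericLine
import Fermat.Agent.Curve.BasicExtension

set_option autoImplicit false

noncomputable section

namespace Fermat.Agent.AbelianVariety

open AlgebraicCurve Fermat.Agent.Curve IsLocalRing

universe u

variable {K : Type u} [Field K] {g : ℕ} {A : AVData K g}

namespace AVData

section Place

variable {k E : Type u} [Field k] [Field E] [Algebra k E] [Algebra K k] [Algebra K E]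
  [IsScalarTower K k E]

theorem inPlace_map {L : LineData A.toPointFunctor} (v : Place k E) (φ : A.R₀ →ₐ[K] E)
    (hφ : ∀ x, φ x ∈ v.toValuationSubring) {i : L.ι} {P : A.Pt A.R₀} (hi : L.In i P) :
    InPlace L i v (A.map φ P) := by
  letI := valuationAlgebra v.toValuationSubring (base_mem_place (K := K) v)
  let φ' : A.R₀ →ₐ[K] v.toValuationSubring :=
    { toFun := fun x => ⟨φ x, hφ x⟩
      map_one' := Subtype.ext (map_one φ)
      map_mul' := fun x y => Subtype.ext (map_mul φ x y)
      map_zero' := Subtype.ext (map_zero φ)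
      map_add' := fun x y => Subtype.ext (map_add φ x y)
      commutes' := fun a => Subtype.ext (φ.commutes a) }
  show L.In i _
  rw [← A.eq_liftTo v.toValuationSubring (base_mem_place v) (A.map φ P) (A.map φ' P)
    (by rw [A.toPointFunctor.map_map]; rfl)]
  exact L.in_map φ' i P hi

theorem ordGE_of_mem_pow (v : Place k E) (φ : A.R₀ →ₐ[K] E)
    (hmem : ∀ x, φ x ∈ v.toValuationSubring) {e : ℤ}
    (he : ∀ x ∈ maximalIdeal A.R₀, OrdGE v e (φ x)) {j : ℕ} {x : A.R₀}
    (hx : x ∈ maximalIdeal A.R₀ ^ j) : OrdGE v (j * e) (φ x) := by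
  induction j generalizing x with
  | zero => exact OrdGE.of_le (by simpa using ord_nonneg_of_mem v (hmem x))
  | succ j ih =>
    rw [pow_succ] at hx
    induction hx using Submodule.mul_induction_on' with
    | mem_mul_mem a ha b hb =>
      rw [map_mul, Nat.cast_succ, add_mul, one_mul]
      exact (ih ha).mul (he b hb)
    | add a _ b _ iha ihb => rw [map_add]; exact iha.add ihb

variable [IsAlgClosed k] [IsFunctionFieldOne k E]

/-- A section whose jets are small at the centres of enough places vanishes on the curve. -/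
theorem vanishesAt_of_jets {L : LineData A.toPointFunctor} (σ : L.Section) (P : A.Pt E)
    (S : Finset (Place k E)) (j : ℕ) (e : Place k E → ℤ)
    (hloc : ∀ v ∈ S, ∃ (φ : A.R₀ →ₐ[K] E) (u : A.Pt K) (i : L.ι) (hi : L.In i (A.point u)),
      A.map φ (A.point u) = P ∧ (∀ x, φ x ∈ v.toValuationSubring) ∧
        (∀ x ∈ maximalIdeal A.R₀, OrdGE v (e v) (φ x)) ∧ σ.val hi ∈ maximalIdeal A.R₀ ^ j)
    (hlt : -A.lineDeg k L P < ∑ v ∈ S, (j : ℤ) * e v) : σ.VanishesAt L P := by
  refine vanishesAt_of_sum_lt σ P S (fun v => (j : ℤ) * e v) (fun v hv => ?_) hlt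
  obtain ⟨φ, u, i, hi, rfl, hmem, he, hσ⟩ := hloc v hv
  refine ⟨i, inPlace_map v φ hmem hi, ?_⟩
  have h := ordGE_of_mem_pow v φ hmem he hσ
  rw [σ.val_map φ hi] at h
  exact h

theorem valueAt_nsmul (v : Place k E) (n : ℕ) (Q : A.Pt E) :
    A.valueAt v (n • Q) = n • A.valueAt v Q := by
  induction n with
  | zero =>
    rw [zero_smul, zero_smul]
    have h := A.valueAt_add v (0 : A.Pt E) 0
    rw [add_zero] at h
    exact left_eq_add.mp h
  | succ n ih => rw [succ_nsmul, succ_nsmul, A.valueAt_add, ih]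

end Place

theorem valueAt_map_point (ℓ : GenericLine A) {F' : Type u} [Field F']
    [Algebra ℓ.Ω F'] [Algebra K F'] [IsScalarTower K ℓ.Ω F'] [IsFunctionFieldOne ℓ.Ω F']
    (v : Place ℓ.Ω F') (φ : A.R₀ →ₐ[K] F') (hmem : ∀ x, φ x ∈ v.toValuationSubring)
    (hord : ∀ x ∈ maximalIdeal A.R₀, OrdGE v 1 (φ x)) (u : A.Pt K) :
    A.valueAt v (A.map φ (A.point u)) = A.toPointFunctor.const ℓ.Ω u := by
  rw [A.valueAt_of_hom v (A.point u) φ hmem ((Algebra.ofId K ℓ.Ω).comp A.e₀) fun x => ?_,
    A.map_comp, map_e₀_point]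
  · rfl
  · rw [constResidue_eq_iff]
    show v.adicValuation (φ x - algebraMap ℓ.Ω F' (algebraMap K ℓ.Ω (A.e₀ x))) < 1
    rw [← IsScalarTower.algebraMap_apply, ← φ.commutes, ← map_sub]
    rcases hord _ (sub_e₀_mem x) with h | h
    · rw [h, map_zero]; exact zero_lt_one
    · rcases eq_or_ne (φ (x - algebraMap K A.R₀ (A.e₀ x))) 0 with h0 | h0
      · rw [h0, map_zero]; exact zero_lt_one
      · rw [adicValuation_lt_one_iff _ h0]; omega

variable (A) in
/-- The degree of the symmetrised divisor on the generic line. -/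
def lineDegree (ℓ : GenericLine A) : ℤ := A.deg ℓ.Ω (A.map ℓ.φ A.univ)

theorem deg_map_point (ℓ : GenericLine A) (u : A.Pt K) :
    A.deg ℓ.Ω (A.map ℓ.φ (A.point u)) = A.lineDegree ℓ := by
  rw [map_point, add_comm, deg_add_constK, lineDegree]

theorem lineDegree_nonneg (ℓ : GenericLine A) : 0 ≤ A.lineDegree ℓ := by
  obtain ⟨u, hu⟩ := A.exists_point_sym {((1 : ℤ), 0)} (by simp)
  have hu' := hu (1, 0) (Finset.mem_singleton_self _)
  simp only [one_smul, add_zero] at hu'
  rw [← deg_map_point ℓ u]
  refine deg_nonneg_of_not_vanishesAt (A.symSec 0) _ fun h => ?_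
  have hP : (A.symSec 0).IsUnitAt A.symD (A.point u) :=
    LineData.Section.IsUnitAt.of_map A.e₀ isLocalHom_e₀ (by rwa [map_e₀_point])
  obtain ⟨i, hi, hunit⟩ := hP.map ℓ.φ
  exact hunit.ne_zero (h i hi)

/-- A homomorphism out of the local ring which is injective after multiplication by `n` is
injective. -/
theorem injective_of_comp_mulHom {E : Type u} [Field E] [Algebra K E] (φ : A.R₀ →ₐ[K] E)
    {n : ℕ} (h : Function.Injective (φ.comp (A.mulHom n))) : Function.Injective φ := by
  classical
  set y : Fin g → A.R₀ := fun l => A.mulHom n (A.t l) with hy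
  have hφy : AlgebraicIndependent K (φ ∘ y) :=
    (algebraicIndependent_t A).map' (f := φ.comp (A.mulHom n)) h
  have hy' : AlgebraicIndependent K y := hφy.of_comp φ
  have htb : IsTranscendenceBasis K A.t :=
    (algebraicIndependent_t A).isTranscendenceBasis_iff_isAlgebraic.mpr ⟨A.algebraic_t⟩
  have hyb : IsTranscendenceBasis K y := hy'.isTranscendenceBasis_of_lift_trdeg_le_of_finite
    (htb.lift_cardinalMk_eq_trdeg).ge
  refine (injective_iff_map_eq_zero φ).mpr fun x hx => ?_
  by_contra hx0
  obtain ⟨a, ha0, z, hz⟩ := (hyb.isAlgebraic.isAlgebraic x).exists_nonzero_dvd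
    (mem_nonZeroDivisors_of_ne_zero hx0)
  have hφa : φ (a : A.R₀) = 0 := by
    rw [show (a : A.R₀) = x * z from hz, map_mul, hx, zero_mul]
  obtain ⟨p, hp⟩ := (AlgHom.mem_range _).mp
    ((Algebra.adjoin_range_eq_range_aeval K y).le a.2)
  apply ha0
  refine Subtype.ext ?_
  rw [← hp]
  show MvPolynomial.aeval y p = 0
  rw [show p = 0 from hφy.eq_zero_of_aeval_eq_zero p (by
    rw [show (φ ∘ y : Fin g → E) = fun l => φ (y l) from rfl,
      ← MvPolynomial.comp_aeval_apply, hp, hφa]), map_zero]

section Centre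

variable [IsAlgClosed K] (ℓ : GenericLine A) {F' : Type u} [Field F'] [Algebra ℓ.F F']
  [Algebra ℓ.Ω F'] [Algebra K F'] [IsScalarTower K ℓ.Ω F'] [IsScalarTower ℓ.Ω ℓ.F F']
  [IsScalarTower K ℓ.F F'] [IsFunctionFieldOne ℓ.Ω F'] [Algebra.IsIntegral ℓ.F F']

/-- The centres of the places over the centre of the generic line. -/
theorem exists_centre (n : ℕ) (hn : (n : K) ≠ 0) (u : A.Pt K) (Q : A.Pt F')
    (hQ : n • Q = A.map (IsScalarTower.toAlgHom K ℓ.F F') (A.map ℓ.φ (A.point (n • u))))
    (w : Place ℓ.Ω F') (hw : w.restrict ℓ.F = ℓ.c₀) :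
    ∃ (c : A.Pt K) (φ : A.R₀ →ₐ[K] F'), n • c = 0 ∧ A.map φ (A.point (u + c)) = Q ∧
      (∀ x, φ x ∈ w.toValuationSubring) ∧
      (∀ x ∈ maximalIdeal A.R₀, OrdGE w (w.ramificationIndex ℓ.F : ℤ) (φ x)) ∧
      φ.comp (A.mulHom n) = (IsScalarTower.toAlgHom K ℓ.F F').comp ℓ.φ := by
  classical
  set ι := IsScalarTower.toAlgHom K ℓ.F F' with hι
  set e : ℕ := w.ramificationIndex ℓ.F with he
  have hmemι : ∀ x, ι (ℓ.φ x) ∈ w.toValuationSubring := fun x => by
    have h := ℓ.mem x
    rw [← hw, w.mem_restrict_iff] at h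
    exact h
  have hordι : ∀ x ∈ maximalIdeal A.R₀, OrdGE w (e : ℤ) (ι (ℓ.φ x)) := by
    intro x hx
    rcases ℓ.ordGE x hx with h | h
    · rw [h, map_zero]; exact ordGE_zero
    · refine OrdGE.of_le ?_
      show (e : ℤ) ≤ w.ord (algebraMap ℓ.F F' (ℓ.φ x))
      rw [w.ord_restrict (F := ℓ.F), hw]
      exact le_mul_of_one_le_right (Int.natCast_nonneg _) h
  have hepos : 1 ≤ e := w.ramificationIndex_pos (F := ℓ.F)
  have hval : n • A.valueAt w Q = A.toPointFunctor.const ℓ.Ω (n • u) := by
    rw [← valueAt_nsmul, hQ, A.toPointFunctor.map_map]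
    exact valueAt_map_point ℓ w (ι.comp ℓ.φ) hmemι
      (fun x hx => (hordι x hx).mono (by exact_mod_cast hepos)) (n • u)
  obtain ⟨c, hc, hc'⟩ := A.torsion_const n hn ℓ.Ω
    (A.valueAt w Q - A.toPointFunctor.const ℓ.Ω u) (by
      rw [nsmul_sub, hval, map_nsmul, sub_self])
  have hcu : A.valueAt w Q = A.toPointFunctor.const ℓ.Ω (u + c) := by
    rw [map_add, show A.toPointFunctor.const ℓ.Ω c = A.valueAt w Q - A.toPointFunctor.const ℓ.Ω u from hc']
    abel
  set Q' := Q - A.toPointFunctor.const F' (u + c) with hQ'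
  have hQ'0 : A.valueAt w Q' = 0 := by
    have h := A.valueAt_add w Q' (A.toPointFunctor.const F' (u + c))
    rw [hQ', sub_add_cancel, show A.toPointFunctor.const F' (u + c) =
        A.map (IsScalarTower.toAlgHom K ℓ.Ω F') (A.toPointFunctor.const ℓ.Ω (u + c)) from
      (A.toPointFunctor.map_const _ _).symm, A.valueAt_map_const, hcu] at h
    rw [hQ', show A.toPointFunctor.const F' (u + c) =
        A.map (IsScalarTower.toAlgHom K ℓ.Ω F') (A.toPointFunctor.const ℓ.Ω (u + c)) from
      (A.toPointFunctor.map_const _ _).symm]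
    exact right_eq_add.mp h
  letI := valuationAlgebra w.toValuationSubring (base_mem_place (K := K) w)
  letI algΩV : Algebra ℓ.Ω w.toValuationSubring :=
    ((algebraMap ℓ.Ω F').codRestrict w.toValuationSubring w.algebraMap_mem').toAlgebra
  set P' := A.liftTo w.toValuationSubring (base_mem_place w) Q' with hP'
  have hred : A.map (IsScalarTower.toAlgHom K w.toValuationSubring
      (ResidueField w.toValuationSubring)) P' = 0 := by
    let s : ℓ.Ω →ₐ[K] ResidueField w.toValuationSubring :=
      { (residue w.toValuationSubring).comp (algebraMap ℓ.Ω w.toValuationSubring) with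
        commutes' := fun a => by
          show residue _ ⟨algebraMap ℓ.Ω F' (algebraMap K ℓ.Ω a), _⟩ =
            residue w.toValuationSubring ⟨algebraMap K F' a, _⟩
          exact congrArg _ (Subtype.ext (IsScalarTower.algebraMap_apply K ℓ.Ω F' a).symm) }
    have hs : IsScalarTower.toAlgHom K w.toValuationSubring (ResidueField w.toValuationSubring) =
        s.comp (placeEval w) := by
      refine AlgHom.ext fun x => ?_
      show residue _ x = residue _ (algebraMap ℓ.Ω w.toValuationSubring (placeEval (K := K) w x))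
      rw [← sub_eq_zero, ← map_sub, IsLocalRing.residue_eq_zero_iff, ← constResidue_eq_zero_iff, map_sub,
        sub_eq_zero, placeEval_apply]
      exact (constResidue_algebraMap w (constResidue w x)).symm
    rw [hs, A.map_comp]
    have : A.map (placeEval w) P' = 0 := hQ'0
    rw [this, map_zero]
  obtain ⟨φ', ⟨hloc, hφ'⟩, -⟩ := A.lift P' hred
  set φ : A.R₀ →ₐ[K] F' := (valuationIncl w.toValuationSubring (base_mem_place w)).comp φ' with hφ
  have hcomp : φ.comp (A.mulHom n) = ι.comp ℓ.φ := by
    let ψ' : A.R₀ →ₐ[K] w.toValuationSubring :=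
      { toFun := fun x => ⟨ι (ℓ.φ x), hmemι x⟩
        map_one' := Subtype.ext (by simp)
        map_mul' := fun x y => Subtype.ext (by simp)
        map_zero' := Subtype.ext (by simp)
        map_add' := fun x y => Subtype.ext (by simp)
        commutes' := fun a => Subtype.ext (show ι (ℓ.φ (algebraMap K A.R₀ a)) = algebraMap K F' a by
          rw [AlgHom.commutes, AlgHom.commutes]) }
    have hloc' : IsLocalHom (ψ' : A.R₀ →+* w.toValuationSubring) := by
      refine ⟨fun x hx => ?_⟩
      by_contra hxu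
      have h1 := hordι x hxu
      have h2 : ι (ℓ.φ x) ≠ 0 := fun h0 => hx.ne_zero (Subtype.ext h0)
      have h3 : w.ord (ι (ℓ.φ x)) = 0 := by
        obtain ⟨v, hv⟩ := hx
        have := w.ord_coe_unit v
        rwa [hv] at this
      have h4 := h1.le_ord h2
      omega
    have heq : φ'.comp (A.mulHom n) = ψ' := by
      refine hom_eq ⟨fun x hx => (isLocalHom_mulHom n).map_nonunit _ (hloc.map_nonunit _ hx)⟩
        hloc' ?_
      rw [map_comp_mulHom, hφ', hP']
      have h1 : A.map (valuationIncl w.toValuationSubring (base_mem_place w))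
          (n • A.liftTo w.toValuationSubring (base_mem_place w) Q') =
          A.map (ι.comp ℓ.φ) A.univ := by
        rw [map_nsmul, A.map_liftTo, hQ', nsmul_sub, hQ, map_point, map_add,
          A.toPointFunctor.map_const, ← map_nsmul, nsmul_add, hc, add_zero,
          A.toPointFunctor.map_map, add_sub_cancel_left]
      have h2 : A.map (valuationIncl w.toValuationSubring (base_mem_place w)) (A.map ψ' A.univ) =
          A.map (ι.comp ℓ.φ) A.univ := by
        rw [A.toPointFunctor.map_map]; rfl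
      exact (A.valuative F' w.toValuationSubring (base_mem_place w)).1 (h1.trans h2.symm)
    rw [hφ, AlgHom.comp_assoc, heq]
    rfl
  refine ⟨c, φ, hc, ?_, fun x => (φ' x).2, ?_, hcomp⟩
  · rw [map_point, hφ, A.map_comp, hφ', hP', A.map_liftTo, hQ']
    abel
  · have hmem : ∀ x, φ x ∈ w.toValuationSubring := fun x => (φ' x).2
    suffices H : ∀ j : ℕ, 1 ≤ j → j ≤ e → ∀ x ∈ maximalIdeal A.R₀, OrdGE w (j : ℤ) (φ x) from
      H e hepos le_rfl
    intro j hj1
    induction j, hj1 using Nat.le_induction with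
    | base =>
      intro _ x hx
      rcases eq_or_ne (φ x) 0 with h0 | h0
      · rw [h0]; exact ordGE_zero
      refine OrdGE.of_le ?_
      by_contra hlt
      refine hx (hloc.map_nonunit x ?_)
      have h1 : (φ x)⁻¹ ∈ w.toValuationSubring :=
        mem_of_ord_nonneg w (by rw [w.ord_inv]; omega)
      exact isUnit_iff_exists_inv.mpr ⟨⟨_, h1⟩, Subtype.ext (mul_inv_cancel₀ h0)⟩
    | succ j hj ih =>
      intro hje x hx
      have h2 : OrdGE w ((2 : ℕ) * (j : ℤ)) (φ (A.mulHom n x - (n : K) • x)) :=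
        ordGE_of_mem_pow w φ hmem (ih (by omega)) (mulHom_sub_mem n hx)
      have h1 : OrdGE w (e : ℤ) (φ (A.mulHom n x)) := by
        have := hordι x hx
        rwa [show ι (ℓ.φ x) = φ (A.mulHom n x) from (DFunLike.congr_fun hcomp x).symm] at this
      have h3 : OrdGE w ((j : ℤ) + 1) ((n : K) • φ x) := by
        have h := (h1.mono (m := (j : ℤ) + 1) (by omega)).sub
          (h2.mono (m := (j : ℤ) + 1) (by omega))
        rwa [← map_sub, sub_sub_cancel, map_smul] at h
      rcases h3 with h3 | h3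
      · rw [smul_eq_zero] at h3
        rw [h3.resolve_left hn]; exact ordGE_zero
      · push_cast
        rcases eq_or_ne (φ x) 0 with h0 | h0
        · rw [h0]; exact ordGE_zero
        refine OrdGE.of_le ?_
        rwa [Algebra.smul_def, IsScalarTower.algebraMap_apply K ℓ.Ω F',
          w.ord_mul ((map_ne_zero _).mpr ((map_ne_zero _).mpr hn)) h0,
          Fermat.Agent.Curve.ord_algebraMap, zero_add] at h3

end Centre

end AVData

end Fermat.Agent.AbelianVariety
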