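/-
The two inequalities between the number of torsion points and the degree on the generic line.
-/
import Fermat.Agent.AbelianVariety.CurvePoints
import Mathlib.SetTheory.Cardinal.Finite

set_option autoImplicit false

noncomputable section

namespace Fermat.Agent.AbelianVariety

open AlgebraicCurve Fermat.Agent.Curve IsLocalRing

universe u

variable {K : Type u} [Field K] [IsAlgClosed K] {g : ℕ} {A : AVData K g}

namespace AVData

theorem hasJets_pow_symD {u : A.Pt K} (h : (A.symSec 0).IsUnitAt A.symD u) (m : ℕ) :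
    A.HasJets (A.symD.pow m) u m := by
  simpa using (hasJets_symD h).pow m

theorem lineDeg_translatesLine {k E : Type u} [Field k] [Field E] [Algebra k E] [Algebra K k]
    [Algebra K E] [IsScalarTower K k E] [IsAlgClosed k] [IsFunctionFieldOne k E] (m : ℕ)
    (l : List (A.Pt K)) (P : A.Pt E) :
    A.lineDeg k (A.translatesLine (A.symD.pow m) l) P =
      l.length * (m * A.lineDeg k A.symD P) := by
  induction l with
  | nil => simp [translatesLine, lineDeg, lineClass_trivial]
  | cons c l ih =>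
    rw [translatesLine, lineDeg_tensor, ih, lineDeg_pullback, lineDeg_pow, NatMap.affine_app,
      one_smul, ← A.toPointFunctor.map_const (IsScalarTower.toAlgHom K k E), lineDeg_add_const,
      List.length_cons]
    push_cast
    ring

/-- The upper bound for the number of torsion points. -/
theorem card_torsion_choose_le (ℓ : GenericLine A) (n : ℕ) (hn : (n : K) ≠ 0) (m : ℕ) :
    Nat.card {c : A.Pt K // n • c = 0} * (m + g).choose g ≤
      ((m * n ^ 2 + (Nat.card {c : A.Pt K // n • c = 0} - 1)) * (A.lineDegree ℓ).toNat + g).choose g := by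
  classical
  haveI : Fintype {c : A.Pt K // n • c = 0} := (A.finite_torsion n hn).fintype
  set G := {c : A.Pt K // n • c = 0} with hG
  rw [Nat.card_eq_fintype_card]
  set d := Fintype.card G with hd
  set δ := (A.lineDegree ℓ).toNat with hδ
  set k := (m * n ^ 2 + (d - 1)) * δ with hk
  by_contra hgt
  obtain ⟨u, hu⟩ := A.exists_point_sym
    (insert ((n : ℤ), (0 : A.Pt K)) (Finset.univ.image fun τ : G => ((1 : ℤ), τ.1))) (by
      intro p hp
      rcases Finset.mem_insert.mp hp with rfl | hp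
      · simpa using hn
      · obtain ⟨τ, -, rfl⟩ := Finset.mem_image.mp hp
        simp)
  have hNu : (A.symSec 0).IsUnitAt A.symD (n • u + 0) := by
    have := hu _ (Finset.mem_insert_self _ _)
    simpa using this
  have huτ : ∀ τ : G, (A.symSec 0).IsUnitAt A.symD (u + τ.1) := fun τ => by
    have := hu ((1 : ℤ), τ.1) (Finset.mem_insert_of_mem (Finset.mem_image_of_mem _ (Finset.mem_univ τ)))
    simpa using this
  obtain ⟨i₀, hi₀, hjets⟩ := hasJets_pow_symD hNu m
  choose σ a ha hσ using fun s : JetIndex g m => hjets s.expo s.expDeg_expo_le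
  have hinterp : ∀ τ : G, ∃ b : (A.symD.pow (d - 1)).Section,
      (∀ (i) (hi : (A.symD.pow (d - 1)).In i (u + τ.1)), b.val hi ≠ 0) ∧
        ∀ τ' : G, τ' ≠ τ → b.VanishesAt (A.symD.pow (d - 1)) (u + τ'.1) := by
    intro τ
    have hlen : ((Finset.univ.erase τ).toList.map fun τ' : G => u + τ'.1).length = d - 1 := by
      rw [List.length_map, Finset.length_toList, Finset.card_erase_of_mem (Finset.mem_univ τ),
        Finset.card_univ]
    have h := exists_interpolation (u + τ.1) (huτ τ)
      ((Finset.univ.erase τ).toList.map fun τ' : G => u + τ'.1) (fun c' hc' => by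
        obtain ⟨τ', hτ', rfl⟩ := List.mem_map.mp hc'
        refine ⟨huτ τ', fun h => ?_⟩
        exact Finset.ne_of_mem_erase (Finset.mem_toList.mp hτ') (Subtype.ext (add_left_cancel h)))
    rw [hlen] at h
    obtain ⟨b, hb, hb'⟩ := h
    exact ⟨b, hb, fun τ' hne => hb' _ (List.mem_map.mpr
      ⟨τ', Finset.mem_toList.mpr (Finset.mem_erase.mpr ⟨hne, Finset.mem_univ _⟩), rfl⟩)⟩
  choose b hb hb' using hinterp
  set L := ((A.symD.pow m).pullback (NatMap.affine (n : ℤ) 0)).tensor (A.symD.pow (d - 1)) with hL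
  have hpt : ∀ τ : G, A.map (A.mulHom n) (A.point (n • u + 0)) =
      (NatMap.affine (A := A.toPointFunctor) (n : ℤ) 0).app (A.point (u + τ.1)) := fun τ => by
    simp only [affine_app_point, nsmul_add, τ.2, add_zero]
  have hiN : ∀ τ : G, ((A.symD.pow m).pullback (NatMap.affine (n : ℤ) 0)).In i₀ (A.point (u + τ.1)) :=
    fun τ => by
      show (A.symD.pow m).In i₀ _
      rw [← hpt τ]
      exact (A.symD.pow m).in_map (A.mulHom n) i₀ _ hi₀
  choose j hj using fun τ : G => (A.symD.pow (d - 1)).exists_in (A.point (u + τ.1))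
  have hin : ∀ τ : G, L.In (i₀, j τ) (A.point (u + τ.1)) := fun τ => ⟨hiN τ, hj τ⟩
  let S : G × JetIndex g m → L.Section := fun p => ((σ p.2).pullback _).mul (b p.1)
  have hSval : ∀ (p : G × JetIndex g m) (τ : G),
      (S p).val (hin τ) = (b p.1).val (hj τ) * A.mulHom n ((σ p.2).val hi₀) := by
    intro p τ
    rw [mul_comm]
    show ((σ p.2).val (hiN τ)) * (b p.1).val (hj τ) = _
    congr 1
    rw [(σ p.2).val_map]
    exact ((σ p.2).val_congr (hpt τ) _).symm
  obtain ⟨τ₀⟩ : Nonempty G := ⟨⟨0, nsmul_zero n⟩⟩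
  obtain ⟨c, hc0, hc⟩ := exists_ne_zero_forall_mem_pow (A := A) (ι := G × JetIndex g m) (J := Unit) k
    (fun _ p => (S p).val (hin τ₀)) (by
      rw [Fintype.card_unit, one_mul, Fintype.card_prod, JetIndex.card]
      exact not_le.mp hgt)
  set σc := LineData.Section.linComb c S with hσc
  have hdeg : -A.lineDeg ℓ.Ω L (A.map ℓ.φ (A.point (u + τ₀.1))) = (k : ℤ) := by
    have h1 : (NatMap.affine (A := A.toPointFunctor) (n : ℤ) 0).app
        (A.map ℓ.φ (A.point (u + τ₀.1))) = n • A.map ℓ.φ (A.point (u + τ₀.1)) := by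
      rw [NatMap.affine_app, map_zero, add_zero, natCast_zsmul]
    have h2 := deg_nsmul (k := ℓ.Ω) n (A.map ℓ.φ (A.point (u + τ₀.1)))
    have h3 := deg_map_point ℓ (u + τ₀.1)
    simp only [deg] at h2 h3
    rw [hL, lineDeg_tensor, lineDeg_pullback, lineDeg_pow, lineDeg_pow, h1, hk]
    have hδ' : (δ : ℤ) = A.lineDegree ℓ := Int.toNat_of_nonneg (lineDegree_nonneg ℓ)
    push_cast
    rw [hδ']
    rw [show A.lineDeg ℓ.Ω A.symD (n • A.map ℓ.φ (A.point (u + τ₀.1))) =
      (n : ℤ) ^ 2 * A.lineDeg ℓ.Ω A.symD (A.map ℓ.φ (A.point (u + τ₀.1))) by linarith]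
    rw [← h3]
    ring
  have hvan : σc.VanishesAt L (A.map ℓ.φ (A.point (u + τ₀.1))) := by
    refine vanishesAt_of_jets σc _ {ℓ.c₀} (k + 1) (fun _ => 1) (fun v hv => ?_) ?_
    · obtain rfl := Finset.mem_singleton.mp hv
      refine ⟨ℓ.φ, u + τ₀.1, _, hin τ₀, rfl, ℓ.mem, ℓ.ordGE, ?_⟩
      rw [hσc, LineData.Section.linComb_val]
      exact hc ()
    · rw [hdeg, Finset.sum_singleton]
      push_cast
      omega
  have h0 := LineData.Section.vanishesAt_of_map ℓ.φ ℓ.injective hvan
  refine hc0 (eq_zero_of_triangular (fun τ τ' => (b τ).val (hj τ')) ?_ ?_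
    (fun s => A.mulHom n ((σ s).val hi₀)) (fun s => a s * (n : K) ^ expDeg s.expo)
    (fun s => mul_ne_zero (ha s) (pow_ne_zero _ hn)) ?_ c ?_)
  · intro τ τ' hne
    rw [mem_maximalIdeal_iff, e₀_val]
    exact hb' τ τ' hne.symm _ _
  · intro τ
    rw [e₀_val]
    exact hb τ _ _
  · intro s
    rw [show A.mulHom n ((σ s).val hi₀) - (a s * (n : K) ^ expDeg s.expo) • A.tpow s.expo =
      A.mulHom n ((σ s).val hi₀ - a s • A.tpow s.expo) +
        a s • (A.mulHom n (A.tpow s.expo) - (n : K) ^ expDeg s.expo • A.tpow s.expo) by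
      rw [map_sub, map_smul, smul_sub, ← mul_smul]; abel]
    exact add_mem (mulHom_mem_pow (hσ s)) (Submodule.smul_of_tower_mem _ _ (mulHom_tpow_sub_mem n _))
  · intro τ
    have h1 : σc.VanishesAt L (A.point (u + τ.1)) := by
      have := vanishesAt_point_of_vanishesAt h0 (τ.1 - τ₀.1)
      rwa [add_assoc, add_sub_cancel] at this
    have h2 := h1 _ (hin τ)
    rw [hσc, LineData.Section.linComb_val] at h2
    simpa only [hSval] using h2

/-- The lower bound for the number of torsion points. -/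
theorem choose_card_torsion_le (ℓ : GenericLine A) (n : ℕ) (hn : (n : K) ≠ 0) (m : ℕ) :
    (Nat.card {c : A.Pt K // n • c = 0} * m + g).choose g ≤
      Nat.card {c : A.Pt K // n • c = 0} *
        (Nat.card {c : A.Pt K // n • c = 0} * m * (A.lineDegree ℓ).toNat / n ^ 2 + g).choose g := by
  classical
  haveI : Fintype {c : A.Pt K // n • c = 0} := (A.finite_torsion n hn).fintype
  set G := {c : A.Pt K // n • c = 0} with hG
  rw [Nat.card_eq_fintype_card]
  set d := Fintype.card G with hd
  set δ := (A.lineDegree ℓ).toNat with hδ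
  set M := d * m * δ / n ^ 2 with hM
  by_contra hgt
  obtain ⟨u, hu⟩ := A.exists_point_sym (Finset.univ.image fun τ : G => ((1 : ℤ), τ.1)) (by
    intro p hp
    obtain ⟨τ, -, rfl⟩ := Finset.mem_image.mp hp
    simp)
  have huτ : ∀ τ : G, (A.symSec 0).IsUnitAt A.symD (u + τ.1) := fun τ => by
    have := hu ((1 : ℤ), τ.1) (Finset.mem_image_of_mem _ (Finset.mem_univ τ))
    simpa using this
  set l := (Finset.univ : Finset G).toList.map (fun τ : G => τ.1) with hl
  have hlen : l.length = d := by rw [hl, List.length_map, Finset.length_toList, Finset.card_univ]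
  set L := A.translatesLine (A.symD.pow m) l with hL
  have hj : A.HasJets L u (d * m) := by
    rw [← hlen]
    refine hasJets_translatesLine l fun c hc => ?_
    obtain ⟨τ, -, rfl⟩ := List.mem_map.mp hc
    exact hasJets_pow_symD (huτ τ) m
  obtain ⟨i₀, hi₀, hjets⟩ := hj
  choose σ a ha hσ using fun s : JetIndex g (d * m) => hjets s.expo s.expDeg_expo_le
  choose i hi using fun τ : G => L.exists_in (A.point (u + τ.1))
  obtain ⟨c, hc0, hc⟩ := exists_ne_zero_forall_mem_pow (A := A) (ι := JetIndex g (d * m)) (J := G) M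
    (fun τ s => (σ s).val (hi τ)) (by rw [JetIndex.card]; exact not_le.mp hgt)
  set σc := LineData.Section.linComb c σ with hσc
  -- a point whose multiple is on the generic line
  let Λ := AlgebraicClosure ℓ.F
  haveI : IsScalarTower K ℓ.F Λ := inferInstance
  obtain ⟨PΛ, hPΛ⟩ := A.nsmul_surjective n hn Λ
    (A.map (IsScalarTower.toAlgHom K ℓ.F Λ) (A.map ℓ.φ (A.point (n • u))))
  obtain ⟨s, Ps, hPs⟩ := A.exists_fg Λ PΛ
  let F' : IntermediateField ℓ.F Λ := IntermediateField.adjoin ℓ.F (s : Set Λ)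
  haveI : Module.Finite ℓ.F F' := IntermediateField.finiteDimensional_adjoin
    fun x _ => Algebra.IsIntegral.isIntegral x
  haveI : Algebra.IsIntegral ℓ.F F' := Algebra.IsIntegral.of_finite ℓ.F F'
  haveI : IsFunctionFieldOne ℓ.Ω F' := IsFunctionFieldOne.of_finite_extension (F := ℓ.F)
  haveI : IsScalarTower K F' Λ := IsScalarTower.of_algebraMap_eq fun _ => rfl
  haveI : IsScalarTower K ℓ.F F' := IsScalarTower.of_algebraMap_eq fun x => Subtype.ext
    (IsScalarTower.algebraMap_apply K ℓ.F Λ x)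
  haveI : IsScalarTower K ℓ.Ω F' := IsScalarTower.of_algebraMap_eq fun x => Subtype.ext (by
    show algebraMap K Λ x = algebraMap ℓ.Ω Λ (algebraMap K ℓ.Ω x)
    rw [IsScalarTower.algebraMap_apply ℓ.Ω ℓ.F Λ, ← IsScalarTower.algebraMap_apply K ℓ.Ω ℓ.F,
      ← IsScalarTower.algebraMap_apply])
  have hsF : ∀ x ∈ IntermediateField.adjoin K (s : Set Λ), x ∈ F' := by
    intro x hx
    have hle : IntermediateField.adjoin K (s : Set Λ) ≤ F'.restrictScalars K :=
      IntermediateField.adjoin_le_iff.mpr (IntermediateField.subset_adjoin ℓ.F (s : Set Λ))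
    exact hle hx
  let incl : IntermediateField.adjoin K (s : Set Λ) →ₐ[K] F' :=
    { toFun := fun x => ⟨x.1, hsF x.1 x.2⟩
      map_one' := rfl
      map_mul' := fun _ _ => rfl
      map_zero' := rfl
      map_add' := fun _ _ => rfl
      commutes' := fun a => Subtype.ext (by
        show (algebraMap K (IntermediateField.adjoin K (s : Set Λ)) a : Λ) = algebraMap K Λ a
        rfl) }
  let Q : A.Pt F' := A.map incl Ps
  have hQ : n • Q = A.map (IsScalarTower.toAlgHom K ℓ.F F') (A.map ℓ.φ (A.point (n • u))) := by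
    apply A.map_injective (IsScalarTower.toAlgHom K F' Λ)
    rw [map_nsmul, A.toPointFunctor.map_map (IsScalarTower.toAlgHom K ℓ.F F')]
    have h1 : A.map (IsScalarTower.toAlgHom K F' Λ) Q = PΛ := by
      rw [← hPs, A.toPointFunctor.map_map]; rfl
    rw [h1]
    exact hPΛ
  set r := Module.finrank ℓ.F F' with hr
  have hr0 : 0 < r := Module.finrank_pos
  have hdegQ : (n : ℤ) ^ 2 * A.deg ℓ.Ω Q = r * A.lineDegree ℓ := by
    rw [← deg_nsmul, hQ, deg, lineDeg_finite_extension, ← deg_map_point ℓ (n • u), deg]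
    ring
  have hdegL : -A.lineDeg ℓ.Ω L Q = d * (m * A.deg ℓ.Ω Q) := by
    rw [hL, lineDeg_translatesLine, hlen, deg]
    ring
  have hcentres := fun w (hw : w ∈ ℓ.c₀.fiber F') =>
    exists_centre ℓ n hn u Q hQ w (Place.mem_fiber.mp hw)
  have hvan : σc.VanishesAt L Q := by
    refine vanishesAt_of_jets σc Q (ℓ.c₀.fiber F') (M + 1)
      (fun w => (w.ramificationIndex ℓ.F : ℤ)) (fun w hw => ?_) ?_
    · obtain ⟨cτ, φ, hcτ, hQ', hmem, hord, -⟩ := hcentres w hw
      refine ⟨φ, u + cτ, _, hi ⟨cτ, hcτ⟩, hQ', hmem, hord, ?_⟩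
      rw [hσc, LineData.Section.linComb_val]
      exact hc ⟨cτ, hcτ⟩
    · have hsum : ∑ w ∈ ℓ.c₀.fiber F', (w.ramificationIndex ℓ.F : ℤ) = r := by
        rw [hr, ← sum_fiber_eq_finrank ℓ.c₀, Nat.cast_sum]
        refine Finset.sum_congr rfl fun w hw => ?_
        have h := w.deg_restrict_mul_inertiaDeg (F := ℓ.F)
        rw [Place.mem_fiber.mp hw, RedAux.deg_one, RedAux.deg_one, one_mul] at h
        rw [h, mul_one]
      rw [← Finset.mul_sum, hsum, hdegL]
      have hn0 : (0 : ℤ) < (n : ℤ) ^ 2 := by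
        have : n ≠ 0 := fun h => hn (by rw [h, Nat.cast_zero])
        positivity
      refine lt_of_mul_lt_mul_left ?_ hn0.le
      have hM' : d * m * δ < n ^ 2 * (M + 1) := by
        rw [hM]
        exact Nat.lt_mul_div_succ _ (pow_pos (Nat.pos_of_ne_zero fun h => hn (by rw [h, Nat.cast_zero])) 2)
      have hM'' : (d : ℤ) * m * A.lineDegree ℓ < (n : ℤ) ^ 2 * ((M : ℤ) + 1) := by
        rw [← Int.toNat_of_nonneg (lineDegree_nonneg ℓ)]
        exact_mod_cast hM'
      calc (n : ℤ) ^ 2 * (d * (m * A.deg ℓ.Ω Q)) = (d : ℤ) * m * ((n : ℤ) ^ 2 * A.deg ℓ.Ω Q) := by ring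
        _ = ((d : ℤ) * m * A.lineDegree ℓ) * r := by rw [hdegQ]; ring
        _ < ((n : ℤ) ^ 2 * ((M : ℤ) + 1)) * r :=
            mul_lt_mul_of_pos_right hM'' (by exact_mod_cast hr0)
        _ = (n : ℤ) ^ 2 * (((M + 1 : ℕ) : ℤ) * r) := by push_cast; ring
  obtain ⟨w, hw⟩ : (ℓ.c₀.fiber F').Nonempty := by
    rw [Finset.nonempty_iff_ne_empty]
    intro hne
    have h := sum_fiber_eq_finrank (F' := F') ℓ.c₀
    rw [hne, Finset.sum_empty] at h
    omega
  obtain ⟨cτ, φ, -, hQ', -, -, hcomp⟩ := hcentres w hw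
  have hφ : Function.Injective φ := injective_of_comp_mulHom φ (by
    rw [hcomp]
    exact (algebraMap ℓ.F F').injective.comp ℓ.injective)
  have h0 : σc.VanishesAt L (A.point (u + cτ)) :=
    LineData.Section.vanishesAt_of_map φ hφ (by rw [hQ']; exact hvan)
  have h1 : σc.VanishesAt L (A.point u) := by
    have := vanishesAt_point_of_vanishesAt h0 (-cτ)
    rwa [add_neg_cancel_right] at this
  have h2 := h1 _ hi₀
  rw [hσc, LineData.Section.linComb_val] at h2
  apply hc0
  have h3 := eq_zero_of_triangular (J := PUnit.{1}) (fun _ _ => (1 : A.R₀))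
    (fun x y h => absurd (Subsingleton.elim x y) h) (fun _ => by simp)
    (fun s => (σ s).val hi₀) a ha hσ (fun p => c p.2) (fun _ => by
      rw [Fintype.sum_prod_type]
      simpa using h2)
  funext s
  exact congrFun h3 (PUnit.unit, s)

end AVData

end Fermat.Agent.AbelianVariety
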