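/-
Power series rings over infinite fields are factorial, and colon ideals in a local ring with
a dense embedding into such a ring are principal.
-/
import Mathlib.RingTheory.MvPowerSeries.Substitution
import Mathlib.RingTheory.MvPowerSeries.Equiv
import Mathlib.RingTheory.MvPowerSeries.Inverse
import Mathlib.RingTheory.MvPowerSeries.NoZeroDivisors
import Mathlib.RingTheory.PowerSeries.WeierstrassPreparation
import Mathlib.RingTheory.AdicCompletion.Completeness
import Mathlib.RingTheory.UniqueFactorizationDomain.Kaplansky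
import Mathlib.RingTheory.Polynomial.UniqueFactorization
import Mathlib.RingTheory.Filtration
import Mathlib.Algebra.MvPolynomial.Funext
import Mathlib.RingTheory.MvPolynomial.Ideal

set_option autoImplicit false

noncomputable section

namespace Fermat.Agent.AbelianVariety

open MvPowerSeries Finsupp

universe u

variable {k : Type u} [Field k] {σ : Type*} [Finite σ]

omit [Finite σ] in
lemma exists_le_degree_eq (x : σ →₀ ℕ) (n : ℕ) (h : n ≤ x.degree) :
    ∃ d, d ≤ x ∧ d.degree = n := by
  induction n with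
  | zero => exact ⟨0, zero_le, by simp⟩
  | succ n ih =>
    obtain ⟨d, hd, hdn⟩ := ih (Nat.le_of_succ_le h)
    have hne : d ≠ x := by rintro rfl; omega
    obtain ⟨i, hi⟩ : ∃ i, d i < x i := by
      by_contra! hc
      exact hne (le_antisymm hd (fun i => hc i))
    classical
    refine ⟨d + single i 1, fun j => ?_, by simp [hdn]⟩
    by_cases hj : j = i
    · subst hj; simp; omega
    · simpa [Ne.symm hj] using hd j

/-- A power series lies in the `n`-th power of the ideal of the variables iff its coefficients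
in degree `< n` vanish. -/
lemma mem_pow_span_X_iff (n : ℕ) (p : MvPowerSeries σ k) :
    p ∈ (Ideal.span (Set.range (X : σ → MvPowerSeries σ k))) ^ n ↔
      ∀ x : σ →₀ ℕ, x.degree < n → coeff x p = 0 := by
  classical
  cases nonempty_fintype σ
  constructor
  · intro hp
    induction n generalizing p with
    | zero => simp
    | succ n ih =>
      rw [pow_succ] at hp
      refine Submodule.mul_induction_on hp (fun a ha b hb x hx => ?_)
        (fun a b ha hb x hx => by simp [ha x hx, hb x hx])
      rw [coeff_mul]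
      refine Finset.sum_eq_zero fun uv huv => ?_
      have hdeg : uv.1.degree + uv.2.degree = x.degree := by
        rw [← map_add, Finset.mem_antidiagonal.1 huv]
      rcases lt_or_ge uv.1.degree n with h | h
      · simp [ih a ha _ h]
      · have h0 : uv.2 = 0 := (Finsupp.degree_eq_zero_iff _).1 (by omega)
        have hcc : constantCoeff (σ := σ) b = 0 := by
          refine Submodule.span_induction ?_ (by simp) (fun _ _ _ _ h₁ h₂ => by simp [h₁, h₂])
            (fun r _ _ h₁ => by simp [h₁]) hb
          rintro _ ⟨i, rfl⟩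
          simp
        simp [h0, hcc]
  · intro hp
    let S : Finset (σ →₀ ℕ) := (Finsupp.finite_of_degree_le n).toFinset.filter (fun d => d.degree = n)
    have hS : ∀ d, d ∈ S ↔ d.degree = n := fun d => by simp (config := {contextual := true}) [S]
    let ch : (σ →₀ ℕ) → (σ →₀ ℕ) := fun x =>
      if h : n ≤ x.degree then (exists_le_degree_eq x n h).choose else 0
    have hch : ∀ x, n ≤ x.degree → ch x ≤ x ∧ (ch x).degree = n := fun x h => by
      simpa [ch, h] using (exists_le_degree_eq x n h).choose_spec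
    let q : (σ →₀ ℕ) → MvPowerSeries σ k :=
      fun d y => if ch (y + d) = d then coeff (y + d) p else 0
    have hq : ∀ d y, coeff y (q d) = if ch (y + d) = d then coeff (y + d) p else 0 :=
      fun d y => rfl
    have heq : p = ∑ d ∈ S, monomial d (1 : k) * q d := by
      ext x
      simp only [map_sum, coeff_monomial_mul, one_mul, hq]
      rcases lt_or_ge x.degree n with h | h
      · rw [hp x h, Finset.sum_eq_zero]
        intro d hd
        rw [if_neg]
        intro hdx
        have := Finsupp.degree_mono hdx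
        rw [(hS d).1 hd] at this
        omega
      · rw [Finset.sum_eq_single (ch x)]
        · simp [hch x h, tsub_add_cancel_of_le (hch x h).1]
        · intro d hd hne
          split_ifs with h₁ h₂
          · rw [tsub_add_cancel_of_le h₁] at h₂
            exact absurd h₂.symm hne
          · rfl
          · rfl
        · simp [hS, hch x h]
    rw [heq]
    refine Ideal.sum_mem _ fun d hd => Ideal.mul_mem_right _ _ ?_
    rw [← (hS d).1 hd, monomial_eq', map_one, one_mul, Finsupp.prod, Finsupp.degree_apply,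
      ← Finset.prod_pow_eq_pow_sum]
    exact Ideal.prod_mem_prod fun i _ => Ideal.pow_mem_pow (Ideal.subset_span (Set.mem_range_self i)) _

lemma maximalIdeal_mvPowerSeries :
    IsLocalRing.maximalIdeal (MvPowerSeries σ k) = Ideal.span (Set.range X) := by
  ext p
  rw [IsLocalRing.mem_maximalIdeal, mem_nonunits_iff, isUnit_iff_constantCoeff,
    isUnit_iff_ne_zero, not_not, ← pow_one (Ideal.span _), mem_pow_span_X_iff]
  simp [Finsupp.degree_eq_zero_iff]

lemma isAdicComplete_maximalIdeal_mvPowerSeries :
    IsAdicComplete (IsLocalRing.maximalIdeal (MvPowerSeries σ k)) (MvPowerSeries σ k) := by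
  rw [maximalIdeal_mvPowerSeries]; infer_instance

/-- A linear change of variables after which a nonzero series is regular in `X 0`. -/
lemma exists_algEquiv_regular [Infinite k] {n : ℕ} (p : MvPowerSeries (Fin (n + 1)) k)
    (hp : p ≠ 0) :
    ∃ e : MvPowerSeries (Fin (n + 1)) k ≃ₐ[k] MvPowerSeries (Fin (n + 1)) k,
      ∃ D : ℕ, coeff (single 0 D) (e p) ≠ 0 := by
  classical
  obtain ⟨d₀, hd₀⟩ := (MvPowerSeries.ne_zero_iff_exists_coeff_ne_zero p).1 hp
  let D := d₀.degree
  let S : Finset (Fin (n + 1) →₀ ℕ) :=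
    (Finsupp.finite_of_degree_le D).toFinset.filter (fun d => d.degree = D)
  have hS : ∀ d, d ∈ S ↔ d.degree = D := fun d => by simp (config := {contextual := true}) [S]
  let P : MvPolynomial (Fin (n + 1)) k := ∑ d ∈ S, MvPolynomial.monomial d (coeff d p)
  have hP : P ≠ 0 := fun h => by
    have := congrArg (MvPolynomial.coeff d₀) h
    simp [P, MvPolynomial.coeff_sum, MvPolynomial.coeff_monomial, hS, D, hd₀] at this
  obtain ⟨v, hv⟩ : ∃ v, MvPolynomial.eval v (P * MvPolynomial.X 0) ≠ 0 := by
    by_contra! hc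
    exact mul_ne_zero hP (MvPolynomial.X_ne_zero 0) (MvPolynomial.funext (by simpa using hc))
  simp only [map_mul, MvPolynomial.eval_X, mul_ne_zero_iff] at hv
  obtain ⟨hv, hv0⟩ := hv
  let X0 : MvPowerSeries (Fin (n + 1)) k := X 0
  let a : Fin (n + 1) → MvPowerSeries (Fin (n + 1)) k :=
    fun i => if i = 0 then C (v 0) * X0 else X i + C (v i) * X0
  let b : Fin (n + 1) → MvPowerSeries (Fin (n + 1)) k :=
    fun i => if i = 0 then C (v 0)⁻¹ * X0 else X i - C (v i * (v 0)⁻¹) * X0
  have ha0 : ∀ i, constantCoeff (a i) = 0 := fun i => by by_cases hi : i = 0 <;> simp [a, hi, X0]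
  have hb0 : ∀ i, constantCoeff (b i) = 0 := fun i => by by_cases hi : i = 0 <;> simp [b, hi, X0]
  have ha : HasSubst a := hasSubst_of_constantCoeff_zero ha0
  have hb : HasSubst b := hasSubst_of_constantCoeff_zero hb0
  have hvv : (C (v 0) : MvPowerSeries (Fin (n + 1)) k) * C (v 0)⁻¹ = 1 := by
    rw [← map_mul, mul_inv_cancel₀ hv0, map_one]
  have hab : ∀ i, subst b (a i) = X i := by
    intro i
    by_cases hi : i = 0
    · subst hi
      simp only [a, X0, if_pos, subst_mul hb, subst_X hb, subst_C, b]
      rw [← mul_assoc, hvv, one_mul]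
    · simp only [a, hi, X0, if_false, subst_add hb, subst_mul hb, subst_X hb, subst_C, b, if_pos]
      simp only [map_mul]
      ring
  have hba : ∀ i, subst a (b i) = X i := by
    intro i
    by_cases hi : i = 0
    · subst hi
      simp only [b, X0, if_pos, subst_mul ha, subst_X ha, subst_C, a]
      rw [← mul_assoc, mul_comm (C (v 0)⁻¹), hvv, one_mul]
    · simp only [b, hi, X0, if_false, subst_sub ha, subst_mul ha, subst_X ha, subst_C, a, if_pos]
      rw [← mul_assoc, ← map_mul, inv_mul_cancel_right₀ hv0]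
      ring
  let e : MvPowerSeries (Fin (n + 1)) k ≃ₐ[k] MvPowerSeries (Fin (n + 1)) k :=
    AlgEquiv.ofAlgHom (substAlgHom ha) (substAlgHom hb)
      (AlgHom.ext fun x => by
        simp [subst_comp_subst_apply hb ha, hba, subst_self])
      (AlgHom.ext fun x => by
        simp [subst_comp_subst_apply ha hb, hab, subst_self])
  refine ⟨e, D, ?_⟩
  let ρ : MvPowerSeries (Fin (n + 1)) k →+* PowerSeries k :=
    (PowerSeries.map constantCoeff).comp (finSuccEquiv k n).toRingEquiv.toRingHom
  have hρ : ∀ q m, PowerSeries.coeff m (ρ q) = coeff (single 0 m) q := fun q m => by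
    simp only [ρ, RingHom.comp_apply, PowerSeries.coeff_map, ← coeff_zero_eq_constantCoeff_apply]
    erw [coeff_coeff_finSuccEquiv]
    congr 2
    exact Finsupp.ext fun j => Fin.cases (by simp) (fun j => by simp) j
  have hρa : ∀ i, ρ (a i) = PowerSeries.C (v i) * PowerSeries.X := fun i => by
    refine Fin.cases ?_ (fun j => ?_) i
    · simp [a, X0, ρ]
    · simp [a, X0, ρ, Fin.succ_ne_zero]
  have key : ∀ d : Fin (n + 1) →₀ ℕ, coeff (single 0 D) (d.prod fun s e => a s ^ e) =
      if d.degree = D then d.prod (fun s e => v s ^ e) else 0 := fun d => by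
    rw [← hρ, map_finsuppProd]
    simp only [map_pow, hρa, mul_pow, Finsupp.prod, Finset.prod_mul_distrib]
    simp only [Finset.prod_pow_eq_pow_sum, ← map_pow, ← map_prod]
    rw [PowerSeries.coeff_C_mul, PowerSeries.coeff_X_pow, Finsupp.degree_apply]
    simp only [mul_ite, mul_one, mul_zero, eq_comm (a := D)]
  show coeff (single 0 D) (substAlgHom ha p) ≠ 0
  rw [substAlgHom_apply, coeff_subst ha]
  simp only [key, smul_eq_mul]
  rw [finsum_eq_sum_of_support_subset _ (s := S) (fun d hd => by
    by_contra h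
    simp only [Finset.mem_coe, hS] at h
    simp [h] at hd)]
  convert hv using 1
  simp only [P, map_sum, MvPolynomial.eval_monomial]
  exact Finset.sum_congr rfl fun d hd => by simp [(hS d).1 hd]

/-- The power series ring in finitely many variables over an infinite field is factorial. -/
theorem ufm_mvPowerSeries [Infinite k] :
    ∀ n : ℕ, UniqueFactorizationMonoid (MvPowerSeries (Fin n) k)
  | 0 => (isEmptyEquiv (σ := Fin 0) (R := k)).symm.toRingEquiv.toMulEquiv.uniqueFactorizationMonoid
      inferInstance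
  | n + 1 => by
    have := ufm_mvPowerSeries n
    have : IsDomain (MvPowerSeries (Fin n) k) := NoZeroDivisors.to_isDomain _
    have : IsAdicComplete (IsLocalRing.maximalIdeal (MvPowerSeries (Fin n) k))
      (MvPowerSeries (Fin n) k) := isAdicComplete_maximalIdeal_mvPowerSeries
    have : IsDomain (MvPowerSeries (Fin (n + 1)) k) := NoZeroDivisors.to_isDomain _
    refine UniqueFactorizationMonoid.iff_exists_prime_mem_of_isPrime.mpr fun P hP0 hP => ?_
    obtain ⟨p, hpP, hp⟩ := (Submodule.ne_bot_iff P).1 hP0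
    obtain ⟨e, D, hD⟩ := exists_algEquiv_regular p hp
    let Φ : MvPowerSeries (Fin (n + 1)) k ≃+* PowerSeries (MvPowerSeries (Fin n) k) :=
      e.toRingEquiv.trans (finSuccEquiv k n).toRingEquiv
    let Q : Ideal (PowerSeries (MvPowerSeries (Fin n) k)) := P.comap Φ.symm.toRingHom
    have hQ : Q.IsPrime := Ideal.comap_isPrime _ _
    have hpQ : Φ p ∈ Q := by simpa [Q] using hpP
    have hreg : (Φ p).map (IsLocalRing.residue _) ≠ 0 := by
      intro h
      have h1 := congrArg (PowerSeries.coeff D) h
      rw [PowerSeries.coeff_map, map_zero, IsLocalRing.residue_eq_zero_iff,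
        IsLocalRing.mem_maximalIdeal, mem_nonunits_iff, isUnit_iff_constantCoeff,
        isUnit_iff_ne_zero, not_not, ← coeff_zero_eq_constantCoeff_apply] at h1
      apply hD
      rw [show (single (0 : Fin (n + 1)) D) = Finsupp.cons D (0 : Fin n →₀ ℕ) from
        Finsupp.ext fun j => Fin.cases (by simp) (fun j => by simp) j]
      rw [← coeff_coeff_finSuccEquiv]
      exact h1
    obtain ⟨f, u, hf⟩ := PowerSeries.exists_isWeierstrassFactorization hreg
    let ι : Polynomial (MvPowerSeries (Fin n) k) →+* PowerSeries (MvPowerSeries (Fin n) k) :=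
      Polynomial.coeToPowerSeries.ringHom
    have hι : ∀ q, ι q = (q : PowerSeries (MvPowerSeries (Fin n) k)) := fun q => rfl
    have hfQ : f ∈ Q.comap ι := by
      have := hf.eq_mul ▸ hpQ
      exact (hQ.mem_or_mem this).resolve_right fun h =>
        hQ.ne_top (Ideal.eq_top_of_isUnit_mem _ h hf.isUnit)
    have hfm := hf.isDistinguishedAt.monic
    obtain ⟨q, hqQ, hq, r, hr⟩ : ∃ q, q ∈ Q.comap ι ∧ Prime q ∧ q ∣ f := by
      obtain ⟨l, hl, hlf⟩ := UniqueFactorizationMonoid.exists_prime_factors f hfm.ne_zero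
      have hmem : l.prod ∈ Q.comap ι := by
        obtain ⟨w, hw⟩ := hlf
        refine (Ideal.IsPrime.mem_or_mem inferInstance (hw.symm ▸ hfQ)).resolve_right fun h => ?_
        exact (Ideal.comap_ne_top _ hQ.ne_top) (Ideal.eq_top_of_isUnit_mem _ h w.isUnit)
      obtain ⟨q, hql, hq⟩ := ((inferInstance : (Q.comap ι).IsPrime).multiset_prod_mem_iff_exists_mem
        l).1 hmem
      exact ⟨q, hq, hl q hql, (Multiset.dvd_prod hql).trans hlf.dvd⟩
    have hlc : IsUnit q.leadingCoeff := by
      refine IsUnit.of_mul_eq_one r.leadingCoeff ?_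
      rw [← Polynomial.leadingCoeff_mul, ← hr, hfm.leadingCoeff]
    obtain ⟨w, hw⟩ := hlc
    let q' := q * Polynomial.C ((w⁻¹ : (MvPowerSeries (Fin n) k)ˣ) : MvPowerSeries (Fin n) k)
    have hq'ass : Associated q q' := ⟨(Units.map Polynomial.C.toMonoidHom w⁻¹), rfl⟩
    have hq'm : q'.Monic := Polynomial.monic_mul_C_of_leadingCoeff_mul_eq_one (by simp [← hw])
    have hq'd : q'.IsDistinguishedAt (IsLocalRing.maximalIdeal _) := by
      refine ⟨⟨fun {i} hi => ?_⟩, hq'm⟩
      obtain ⟨r', hr'⟩ : q' ∣ f := hq'ass.dvd_iff_dvd_left.1 ⟨r, hr⟩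
      have hmap := hf.isDistinguishedAt.map_eq_X_pow
      rw [hr', Polynomial.map_mul] at hmap
      obtain ⟨j, -, hj⟩ := (dvd_prime_pow Polynomial.prime_X _).1 (Dvd.intro _ hmap)
      rw [← Ideal.Quotient.eq_zero_iff_mem, ← Polynomial.coeff_map,
        Polynomial.eq_of_monic_of_associated (hq'm.map _) (Polynomial.monic_X_pow j) hj,
        Polynomial.coeff_X_pow, if_neg]
      have := congrArg Polynomial.natDegree
        (Polynomial.eq_of_monic_of_associated (hq'm.map _) (Polynomial.monic_X_pow j) hj)
      rw [hq'm.natDegree_map, Polynomial.natDegree_X_pow] at this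
      omega
    have hspan : (Ideal.span {q'}).IsPrime :=
      (Ideal.span_singleton_prime hq'm.ne_zero).2 (hq'ass.prime hq)
    have : IsDomain (PowerSeries (MvPowerSeries (Fin n) k) ⧸
        Ideal.span {(q' : PowerSeries (MvPowerSeries (Fin n) k))}) := by
      have : IsDomain (Polynomial (MvPowerSeries (Fin n) k) ⧸ Ideal.span {q'}) :=
        (Ideal.Quotient.isDomain_iff_prime _).2 hspan
      exact hq'd.algEquivQuotient.symm.toRingEquiv.toMulEquiv.isDomain _
    have hprime : Prime (ι q') := by
      rw [← Ideal.span_singleton_prime]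
      · exact (Ideal.Quotient.isDomain_iff_prime _).1 this
      · rw [hι, Ne, ← Polynomial.coe_zero, Polynomial.coe_inj]
        exact hq'm.ne_zero
    refine ⟨Φ.symm (ι q'), ?_, (MulEquiv.prime_iff Φ.symm.toMulEquiv).2 hprime⟩
    show ι q' ∈ Q
    rw [show ι q' = ι q * ι (Polynomial.C _) from map_mul ι _ _]
    exact Ideal.mul_mem_right _ _ hqQ

/-- In a local ring with a dense embedding into a factorial local ring, colon ideals of principal
ideals are principal. -/
theorem exists_colon_eq_span_of_dense {R S : Type*} [CommRing R] [IsLocalRing R]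
    [IsNoetherianRing R] [CommRing S] [IsLocalRing S] [IsNoetherianRing S] [IsDomain S]
    [UniqueFactorizationMonoid S] (ι : R →+* S) (hι : Function.Injective ι)
    (hcomap : ∀ N : ℕ, ((IsLocalRing.maximalIdeal S) ^ N).comap ι =
      (IsLocalRing.maximalIdeal R) ^ N)
    (hdense : ∀ (N : ℕ) (s : S), ∃ x, ι x - s ∈ (IsLocalRing.maximalIdeal S) ^ N)
    (a b : R) (ha : a ≠ 0) :
    ∃ j : R, ∀ x : R, a ∣ b * x ↔ j ∣ x := by
  set m := IsLocalRing.maximalIdeal R with hm
  set n := IsLocalRing.maximalIdeal S with hn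
  have hmem : ∀ {N : ℕ} {x : R}, x ∈ m ^ N ↔ ι x ∈ n ^ N := fun {N x} => by
    rw [← hcomap N]; rfl
  obtain ⟨b', a', c', hrel, hb, ha'⟩ :=
    UniqueFactorizationMonoid.exists_reduced_factors' (ι b) (ι a)
      ((map_ne_zero_iff ι hι).2 ha)
  have hc' : c' ≠ 0 := fun h => (map_ne_zero_iff ι hι).2 ha (by rw [← ha', h, zero_mul])
  have hcolon : ∀ s : S, ι a ∣ ι b * s ↔ a' ∣ s := fun s => by
    rw [← ha', ← hb, mul_assoc, mul_dvd_mul_iff_left hc']
    exact ⟨fun h => hrel.symm.dvd_of_dvd_mul_left h, fun h => h.mul_left _⟩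
  let J : Ideal R :=
    { carrier := {x | a ∣ b * x}
      zero_mem' := by simp
      add_mem' := fun {x y} hx hy => by simpa [mul_add] using dvd_add hx hy
      smul_mem' := fun r x hx => by
        simpa [mul_left_comm] using hx.mul_left r }
  -- `a'` is approximated by elements of `J`
  have hmap : a' ∈ J.map ι := by
    let M := R ⧸ Ideal.span {a}
    obtain ⟨c, hc⟩ := Ideal.exists_pow_inf_eq_pow_smul m (M := M)
      (Submodule.span R {(Ideal.Quotient.mk _ b : M)})
    obtain ⟨t, ht⟩ := (hcolon a').2 dvd_rfl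
    have key : ∀ N, a' ∈ J.map ι ⊔ n ^ N := by
      intro N
      obtain ⟨x, hx⟩ := hdense (N + c) a'
      obtain ⟨y, hy⟩ := hdense (N + c) t
      have h1 : b * x - a * y ∈ m ^ (N + c) := by
        rw [hmem, map_sub, map_mul, map_mul,
          show ι b * ι x - ι a * ι y = ι b * (ι x - a') - ι a * (ι y - t) by
            rw [mul_sub, mul_sub, ht]; ring]
        exact sub_mem (Ideal.mul_mem_left _ _ hx) (Ideal.mul_mem_left _ _ hy)
      have h2 : (Ideal.Quotient.mk _ (b * x) : M) ∈
          m ^ (N + c) • ⊤ ⊓ Submodule.span R {(Ideal.Quotient.mk _ b : M)} := by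
        refine ⟨?_, Submodule.mem_span_singleton.2 ⟨x, ?_⟩⟩
        · have : (Ideal.Quotient.mk _ (b * x) : M) = (b * x - a * y) • (1 : M) := by
            rw [Algebra.smul_def, mul_one, Ideal.Quotient.algebraMap_eq, Ideal.Quotient.eq,
              Ideal.mem_span_singleton]
            exact ⟨y, by ring⟩
          rw [this]
          exact Submodule.smul_mem_smul h1 trivial
        · rw [Algebra.smul_def, Ideal.Quotient.algebraMap_eq, ← map_mul, mul_comm]
      rw [hc _ (Nat.le_add_left c N), Nat.add_sub_cancel] at h2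
      obtain ⟨z, hz, hzb⟩ := Submodule.mem_smul_span_singleton.1
        (Submodule.smul_mono le_rfl inf_le_right h2)
      rw [Algebra.smul_def, Ideal.Quotient.algebraMap_eq, ← map_mul, Ideal.Quotient.eq,
        Ideal.mem_span_singleton] at hzb
      have h3 : x - z ∈ J := by
        show a ∣ b * (x - z)
        have h4 := dvd_neg.2 hzb
        rwa [show -(z * b - b * x) = b * (x - z) by ring] at h4
      rw [show a' = ι (x - z) + (ι z - (ι x - a')) by rw [map_sub]; ring]
      exact Submodule.add_mem_sup (Ideal.mem_map_of_mem ι h3)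
        (sub_mem (hmem.1 hz) (Ideal.pow_le_pow_right (Nat.le_add_right N c) hx))
    have := Ideal.iInf_pow_smul_eq_bot_of_isLocalRing (M := S ⧸ J.map ι) n
      (IsLocalRing.maximalIdeal.isMaximal S).ne_top
    rw [← Ideal.Quotient.eq_zero_iff_mem]
    refine (Submodule.mem_bot S).1 (this ▸ (Submodule.mem_iInf _).2 fun N => ?_)
    obtain ⟨u, hu, v, hv, huv⟩ := Submodule.mem_sup.1 (key N)
    rw [← huv, map_add, Ideal.Quotient.eq_zero_iff_mem.2 hu, zero_add, ← mul_one v, map_mul,
      map_one, ← Ideal.Quotient.algebraMap_eq, ← Algebra.smul_def]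
    exact Submodule.smul_mem_smul hv trivial
  -- some element of `J` generates `J S`
  obtain ⟨j, hjJ, hj⟩ : ∃ j ∈ J, Associated (ι j) a' := by
    by_contra! hc
    have h1 : J.map ι ≤ Ideal.span {a'} * n := by
      rw [Ideal.map_le_iff_le_comap]
      intro x hx
      obtain ⟨w, hw⟩ := (hcolon (ι x)).1 (by rw [← map_mul]; exact map_dvd ι hx)
      rw [Ideal.mem_comap, hw]
      refine Ideal.mul_mem_mul (Ideal.mem_span_singleton_self _) ?_
      rw [hn, IsLocalRing.mem_maximalIdeal, mem_nonunits_iff]
      intro hwu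
      exact hc x hx (hw ▸ (associated_mul_unit_left a' w hwu))
    obtain ⟨w, hw, hw'⟩ := Ideal.mem_span_singleton_mul.1 (h1 hmap)
    have ha0 : a' ≠ 0 := fun h => (map_ne_zero_iff ι hι).2 ha (by rw [← ha', h, mul_zero])
    have : w = 1 := mul_left_cancel₀ ha0 (by rw [hw', mul_one])
    exact (IsLocalRing.maximalIdeal.isMaximal S).ne_top
      (Ideal.eq_top_of_isUnit_mem _ hw (this ▸ isUnit_one))
  refine ⟨j, fun x => ⟨fun hx => ?_, fun ⟨w, hw⟩ => by
    rw [hw, ← mul_assoc]; exact Dvd.dvd.mul_right hjJ w⟩⟩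
  obtain ⟨w, hw⟩ := hj.dvd_iff_dvd_left.2 ((hcolon (ι x)).1 (by rw [← map_mul]; exact map_dvd ι hx))
  have := Ideal.iInf_pow_smul_eq_bot_of_isLocalRing (M := R ⧸ Ideal.span {j}) m
    (IsLocalRing.maximalIdeal.isMaximal R).ne_top
  rw [← Ideal.mem_span_singleton, ← Ideal.Quotient.eq_zero_iff_mem]
  refine (Submodule.mem_bot R).1 (this ▸ (Submodule.mem_iInf _).2 fun N => ?_)
  obtain ⟨w', hw'⟩ := hdense N w
  have hxw : x - j * w' ∈ m ^ N := by
    rw [hmem, map_sub, map_mul, hw, ← mul_sub, ← neg_sub, mul_neg, neg_mem_iff]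
    exact Ideal.mul_mem_left _ _ hw'
  have : (Ideal.Quotient.mk (Ideal.span {j}) x) = (x - j * w') • (1 : R ⧸ Ideal.span {j}) := by
    rw [Algebra.smul_def, mul_one, Ideal.Quotient.algebraMap_eq, Ideal.Quotient.eq,
      Ideal.mem_span_singleton]
    exact ⟨w', by ring⟩
  rw [this]
  exact Submodule.smul_mem_smul hxw trivial

end Fermat.Agent.AbelianVariety
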