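/-
Expansion in power series of a smooth algebra over a field at a rational point.
-/
import Fermat.Agent.AbelianVariety.SecondPowerSeries
import Mathlib.RingTheory.RingHom.StandardSmooth
import Mathlib.RingTheory.RingHom.Etale
import Mathlib.RingTheory.Smooth.AdicCompletion
import Mathlib.RingTheory.Unramified.Finite
import Mathlib.RingTheory.Algebraic.Integral
import Mathlib.RingTheory.TensorProduct.Maps

set_option autoImplicit false

noncomputable section

namespace Fermat.Agent.AbelianVariety

open MvPowerSeries Finsupp TensorProduct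

universe u

variable {K : Type u} [Field K]

/-- What a chart at a rational point provides. -/
structure PointChart (B : Type u) [CommRing B] [Algebra K B] (e : B →ₐ[K] K) (g : ℕ) where
  /-- the parameters, as a map from the polynomial ring -/
  param : MvPolynomial (Fin g) K →ₐ[K] B
  etale : param.Etale
  eval_param : ∀ i, e (param (.X i)) = 0
  /-- the expansion -/
  expand : B →ₐ[K] MvPowerSeries (Fin g) K
  expand_param : ∀ p : MvPolynomial (Fin g) K, expand (param p) = p
  constantCoeff_expand : ∀ b, constantCoeff (expand b) = e b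
  comap_pow : ∀ N : ℕ, ((IsLocalRing.maximalIdeal (MvPowerSeries (Fin g) K)) ^ N).comap
    (expand : B →+* MvPowerSeries (Fin g) K) = (RingHom.ker e) ^ N
  dense : ∀ (N : ℕ) (s : MvPowerSeries (Fin g) K), ∃ b : B,
    expand b - s ∈ (IsLocalRing.maximalIdeal (MvPowerSeries (Fin g) K)) ^ N

theorem nonempty_pointChart {B : Type u} [CommRing B] [Algebra K B] (g : ℕ)
    [Algebra.IsStandardSmoothOfRelativeDimension g K B] (e : B →ₐ[K] K) :
    Nonempty (PointChart B e g) := by
  classical
  obtain ⟨p₀, hp₀⟩ := Algebra.IsStandardSmoothOfRelativeDimension.exists_etale_mvPolynomial g K B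
  let c : Fin g → K := fun i => e (p₀ (.X i))
  let σ : MvPolynomial (Fin g) K ≃ₐ[K] MvPolynomial (Fin g) K :=
    AlgEquiv.ofAlgHom (MvPolynomial.aeval fun i => .X i - .C (c i))
      (MvPolynomial.aeval fun i => .X i + .C (c i))
      (MvPolynomial.algHom_ext fun i => by simp)
      (MvPolynomial.algHom_ext fun i => by simp)
  let p := p₀.comp σ.toAlgHom
  have hp : p.Etale :=
    RingHom.Etale.stableUnderComposition _ _ (RingHom.Etale.of_bijective σ.bijective) hp₀
  have hpX : ∀ i, e (p (.X i)) = 0 := fun i => by simp [p, σ, c]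
  let : Algebra (MvPolynomial (Fin g) K) B := p.toRingHom.toAlgebra
  have : IsScalarTower K (MvPolynomial (Fin g) K) B := .of_algHom p
  have : Algebra.Etale (MvPolynomial (Fin g) K) B := RingHom.etale_algebraMap.1 hp
  let I : Ideal (MvPowerSeries (Fin g) K) := Ideal.span (Set.range X)
  have hI1 : ∀ s : MvPowerSeries (Fin g) K, s - C (constantCoeff s) ∈ I := fun s => by
    rw [← pow_one I, mem_pow_span_X_iff]
    intro x hx
    obtain rfl : x = 0 := (Finsupp.degree_eq_zero_iff x).1 (by omega)
    simp
  let f₀ : B →ₐ[MvPolynomial (Fin g) K] MvPowerSeries (Fin g) K ⧸ I :=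
    { ((Ideal.Quotient.mk I).comp MvPowerSeries.C).comp e.toRingHom with
      commutes' := fun q => by
        change Ideal.Quotient.mk I (C (e (p q))) =
          Ideal.Quotient.mk I (algebraMap (MvPolynomial (Fin g) K) (MvPowerSeries (Fin g) K) q)
        rw [Ideal.Quotient.eq, ← neg_mem_iff, neg_sub]
        have hcc : constantCoeff (algebraMap (MvPolynomial (Fin g) K)
            (MvPowerSeries (Fin g) K) q) = e (p q) := by
          have hh : (constantCoeff.comp (algebraMap (MvPolynomial (Fin g) K)
              (MvPowerSeries (Fin g) K))) = (e.comp p).toRingHom := by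
            refine MvPolynomial.ringHom_ext (fun r => ?_) (fun i => ?_)
            · simp [MvPowerSeries.algebraMap_apply']
            · simp [MvPowerSeries.algebraMap_apply', hpX]
          exact RingHom.congr_fun hh q
        rw [← hcc]
        exact hI1 _ }
  obtain ⟨ι, hι⟩ := Algebra.FormallySmooth.exists_mkₐ_comp_eq_of_isAdicComplete f₀
  have hιp : ∀ q, ι (p q) = (q : MvPowerSeries (Fin g) K) := fun q => by
    rw [show p q = algebraMap (MvPolynomial (Fin g) K) B q from rfl, ι.commutes]
    simp [MvPowerSeries.algebraMap_apply']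
  have hcc : ∀ b, constantCoeff (ι b) = e b := fun b => by
    have h : Ideal.Quotient.mk I (ι b) = Ideal.Quotient.mk I (C (e b)) := AlgHom.congr_fun hι b
    rw [Ideal.Quotient.eq, ← pow_one I, mem_pow_span_X_iff] at h
    have h0 := h 0 (by simp)
    rw [map_sub, coeff_zero_eq_constantCoeff_apply, coeff_zero_eq_constantCoeff_apply,
      constantCoeff_C, sub_eq_zero] at h0
    exact h0
  let ιK : B →ₐ[K] MvPowerSeries (Fin g) K :=
    { ι.toRingHom with
      commutes' := fun r => by
        change ι (algebraMap K B r) = _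
        rw [← p.commutes, hιp, MvPolynomial.algebraMap_eq, MvPolynomial.coe_C]
        rfl }
  have hm := maximalIdeal_mvPowerSeries (σ := Fin g) (k := K)
  have hker : RingHom.ker e = I.comap ι.toRingHom := by
    ext b
    rw [RingHom.mem_ker, Ideal.mem_comap, ← hcc]
    change _ ↔ ι b ∈ I
    rw [← pow_one I, mem_pow_span_X_iff]
    constructor
    · intro h x hx
      obtain rfl : x = 0 := (Finsupp.degree_eq_zero_iff x).1 (by omega)
      simpa using h
    · intro h
      simpa using h 0 (by simp)
  refine ⟨{
    param := p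
    etale := hp
    eval_param := hpX
    expand := ιK
    expand_param := hιp
    constantCoeff_expand := hcc
    comap_pow := fun N => ?_
    dense := fun N s => ⟨p (truncTotal N s), ?_⟩ }⟩
  swap
  · rw [hm]
    change ι (p _) - s ∈ I ^ N
    rw [hιp, mem_pow_span_X_iff]
    intro x hx
    simp [coeff_truncTotal _ hx]
  rw [hm]
  change (I ^ N).comap ι.toRingHom = _
  refine le_antisymm ?_ ?_
  swap
  · rw [hker]
    exact Ideal.le_comap_pow _ N
  intro b hb
  rcases Nat.eq_zero_or_pos N with rfl | hN
  · simp
  let m := RingHom.ker e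
  let J : Ideal (B ⧸ m ^ N) := m.map (Ideal.Quotient.mk (m ^ N))
  have hmX : (MvPolynomial.idealOfVars (Fin g) K) ^ N ≤ (m ^ N).comap p.toRingHom := by
    refine le_trans (Ideal.pow_right_mono ?_ N) (Ideal.le_comap_pow _ N)
    rw [MvPolynomial.idealOfVars, Ideal.span_le]
    rintro _ ⟨i, rfl⟩
    exact hpX i
  let ψ₀ : (MvPolynomial (Fin g) K ⧸ MvPolynomial.idealOfVars (Fin g) K ^ N)
      →ₐ[MvPolynomial (Fin g) K] B ⧸ m ^ N :=
    Ideal.quotientMapₐ _ (Algebra.ofId (MvPolynomial (Fin g) K) B) hmX
  let ψ := ψ₀.comp (truncTotalAlgHom (Fin g) K N)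
  have hψI : ∀ s ∈ I, ψ s ∈ J := fun s hs => by
    have h1 : I ≤ J.comap ψ.toRingHom := by
      rw [Ideal.span_le]
      rintro _ ⟨i, rfl⟩
      change ψ (MvPowerSeries.X i) ∈ J
      rw [← MvPolynomial.coe_X, show ((MvPolynomial.X i : MvPolynomial (Fin g) K) :
        MvPowerSeries (Fin g) K) = algebraMap (MvPolynomial (Fin g) K) _ (MvPolynomial.X i) by
          simp [MvPowerSeries.algebraMap_apply'], AlgHom.commutes]
      exact Ideal.mem_map_of_mem _ (hpX i)
    exact h1 hs
  have heq : ψ.comp ι = Ideal.Quotient.mkₐ (MvPolynomial (Fin g) K) (m ^ N) := by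
    refine Algebra.FormallyUnramified.ext (R := MvPolynomial (Fin g) K) (I := J) ⟨N, ?_⟩ fun b => ?_
    · rw [← Ideal.map_pow, Ideal.zero_eq_bot, Ideal.map_quotient_self]
    rw [Ideal.Quotient.eq]
    have e1 : Ideal.Quotient.mk (m ^ N) (b - algebraMap K B (e b)) ∈ J :=
      Ideal.mem_map_of_mem _ (by simp [m, RingHom.mem_ker])
    have e2 : ψ (ι b - C (e b)) ∈ J := hψI _ (by rw [← hcc]; exact hI1 _)
    have e3 : ψ (C (e b)) = Ideal.Quotient.mk (m ^ N) (algebraMap K B (e b)) := by
      rw [← MvPolynomial.coe_C, show ((MvPolynomial.C (e b) : MvPolynomial (Fin g) K) :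
        MvPowerSeries (Fin g) K) = algebraMap (MvPolynomial (Fin g) K) _ (MvPolynomial.C (e b)) by
          simp [MvPowerSeries.algebraMap_apply'], AlgHom.commutes]
      exact congrArg (Ideal.Quotient.mk (m ^ N)) (p.commutes (e b))
    have := sub_mem e2 e1
    rw [map_sub, map_sub, e3, sub_sub_sub_cancel_right] at this
    exact this
  have hzero : ψ (ι b) = 0 := by
    have ht : truncTotal N (ι b) = 0 := by
      ext x
      rcases lt_or_ge x.degree N with hx | hx
      · rw [coeff_truncTotal _ hx, show coeff x (ι b) = 0 from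
          (mem_pow_span_X_iff N _).1 hb x hx]
        simp
      · rw [coeff_truncTotal_eq_zero _ hx]; simp
    change ψ₀ (Ideal.Quotient.mk _ (truncTotal N (ι b))) = 0
    rw [ht, map_zero, map_zero]
  rw [← Ideal.Quotient.eq_zero_iff_mem]
  rw [← hzero]
  exact (AlgHom.congr_fun heq b).symm

namespace PointChart

variable {B : Type u} [CommRing B] [Algebra K B] {e : B →ₐ[K] K} {g : ℕ} (c : PointChart B e g)

theorem expand_paramX (i : Fin g) : c.expand (c.param (.X i)) = X i := by
  rw [c.expand_param, MvPolynomial.coe_X]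

theorem mem_ker_pow_iff (N : ℕ) (b : B) :
    b ∈ (RingHom.ker e) ^ N ↔
      c.expand b ∈ (IsLocalRing.maximalIdeal (MvPowerSeries (Fin g) K)) ^ N := by
  rw [← c.comap_pow N]; rfl

include c in
theorem ker_le_span_sup : RingHom.ker e ≤
    Ideal.span (Set.range fun i => c.param (.X i)) ⊔ (RingHom.ker e) ^ 2 := by
  classical
  intro b hb
  have hb0 : constantCoeff (c.expand b) = 0 := by rw [c.constantCoeff_expand]; exact hb
  let l : B := ∑ i, algebraMap K B (coeff (single i 1) (c.expand b)) * c.param (.X i)
  have h2 : b - l ∈ (RingHom.ker e) ^ 2 := by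
    rw [c.mem_ker_pow_iff, maximalIdeal_mvPowerSeries, mem_pow_span_X_iff]
    intro x hx
    simp only [l, map_sub, map_sum, map_mul, AlgHom.commutes, expand_paramX,
      show ∀ r : K, algebraMap K (MvPowerSeries (Fin g) K) r = C r from fun r => rfl,
      coeff_C_mul, coeff_X]
    rcases Nat.lt_or_ge x.degree 1 with h0 | h1
    · obtain rfl : x = 0 := (Finsupp.degree_eq_zero_iff x).1 (by omega)
      rw [Finset.sum_eq_zero fun i _ => by simp [eq_comm (a := (0 : Fin g →₀ ℕ))]]
      simp [hb0]
    · obtain ⟨j, rfl⟩ : ∃ j, x = single j 1 := by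
        obtain ⟨d, hd, hdeg⟩ := exists_le_degree_eq x 1 h1
        obtain ⟨j, hj⟩ : ∃ j, d j ≠ 0 := by
          by_contra! hcon
          exact absurd hdeg (by simp [show d = 0 from Finsupp.ext hcon])
        have hle : single j 1 ≤ x := Finsupp.single_le_iff.2 (le_trans (by omega) (hd j))
        refine ⟨j, (add_tsub_cancel_of_le hle).symm.trans ?_⟩
        have : (x - single j 1).degree = 0 := by
          have h := congrArg Finsupp.degree (add_tsub_cancel_of_le hle)
          rw [map_add, Finsupp.degree_single] at h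
          omega
        rw [(Finsupp.degree_eq_zero_iff _).1 this, add_zero]
      rw [Finset.sum_eq_single j]
      · simp
      · intro i _ hi; simp [Finsupp.single_left_inj, Ne.symm hi]
      · simp
  have hl : l ∈ Ideal.span (Set.range fun i => c.param (.X i)) :=
    Ideal.sum_mem _ fun i _ => Ideal.mul_mem_left _ _ (Ideal.subset_span (Set.mem_range_self i))
  rw [← add_sub_cancel l b]
  exact Submodule.add_mem_sup hl h2

include c in
theorem isAlgebraic_of_field {L : Type u} [Field L] [Algebra K L] (h : B →ₐ[K] L)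
    (hinj : Function.Injective (h.comp c.param)) (b : B) :
    letI := (h.comp c.param).toRingHom.toAlgebra
    IsAlgebraic (MvPolynomial (Fin g) K) (h b) := by
  let : Algebra (MvPolynomial (Fin g) K) B := c.param.toRingHom.toAlgebra
  let : Algebra (MvPolynomial (Fin g) K) L := (h.comp c.param).toRingHom.toAlgebra
  have : Algebra.Etale (MvPolynomial (Fin g) K) B := RingHom.etale_algebraMap.1 c.etale
  let hP : B →ₐ[MvPolynomial (Fin g) K] L := { h.toRingHom with commutes' := fun q => rfl }
  let F := FractionRing (MvPolynomial (Fin g) K)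
  have : Module.IsTorsionFree (MvPolynomial (Fin g) K) L :=
    Module.isTorsionFree_iff_algebraMap_injective.2 hinj
  let : Algebra F L := FractionRing.liftAlgebra _ L
  have : Module.Finite F (F ⊗[MvPolynomial (Fin g) K] B) :=
    Algebra.FormallyUnramified.finite_of_free F _
  let Φ : F ⊗[MvPolynomial (Fin g) K] B →ₐ[F] L :=
    Algebra.TensorProduct.lift (Algebra.ofId F L) hP (fun _ _ => Commute.all _ _)
  have hint : IsIntegral F (h b) := by
    have := (IsIntegral.of_finite F ((1 : F) ⊗ₜ[MvPolynomial (Fin g) K] b)).map Φ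
    simpa [Φ, hP] using this
  exact (IsFractionRing.isAlgebraic_iff (MvPolynomial (Fin g) K) F L).2 hint.isAlgebraic

end PointChart

end Fermat.Agent.AbelianVariety
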