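/-
The points of an abelian scheme over a field as a group-valued functor, affine charts, and
integrality.
-/
import Fermat.Agent.AbelianVariety.Functor
import Fermat.Agent.AbelianVariety.SecondChart
import Fermat.Prelude.Def_GoodReductionJacobian_RelativeGroupLawKernel
import Mathlib.AlgebraicGeometry.AlgClosed.Basic
import Mathlib.AlgebraicGeometry.ValuativeCriterion
import Mathlib.AlgebraicGeometry.Morphisms.Smooth
import Mathlib.AlgebraicGeometry.Morphisms.Proper
import Mathlib.AlgebraicGeometry.Noetherian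
import Mathlib.RingTheory.LocalProperties.Reduced

set_option autoImplicit false

noncomputable section

open CategoryTheory CategoryTheory.Limits AlgebraicGeometry NeronModelInfra GoodReductionJacobian

namespace Fermat.Agent.AbelianVariety

universe u

variable {K : Type u} [Field K] {A : Scheme.{u}} (f : A ⟶ Spec (CommRingCat.of K))

/-- The structure morphism of `Spec R`, for a `K`-algebra `R`. -/
abbrev specStr (K R : Type u) [CommRing K] [CommRing R] [Algebra K R] :
    Spec (CommRingCat.of R) ⟶ Spec (CommRingCat.of K) :=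
  Spec.map (CommRingCat.ofHom (algebraMap K R))

theorem specStr_self (K : Type u) [CommRing K] :
    specStr K K = 𝟙 (Spec (CommRingCat.of K)) :=
  Spec.map_id _

theorem specMap_specStr {R S : Type u} [CommRing R] [Algebra K R] [CommRing S] [Algebra K S]
    (φ : R →ₐ[K] S) :
    Spec.map (CommRingCat.ofHom φ.toRingHom) ≫ specStr K R = specStr K S := by
  rw [specStr, specStr, ← Spec.map_comp, ← CommRingCat.ofHom_comp]
  exact congrArg (fun h => Spec.map (CommRingCat.ofHom h)) φ.comp_algebraMap

/-- The points of `A` with values in `R`. -/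
abbrev RPoint (R : Type u) [CommRing R] [Algebra K R] :=
  SchemeHomOver (specStr K R) f

/-- Functoriality of points. -/
def RPoint.map {R S : Type u} [CommRing R] [Algebra K R] [CommRing S] [Algebra K S]
    (φ : R →ₐ[K] S) (P : RPoint f R) : RPoint f S :=
  schemeHomOverComp (Spec.map (CommRingCat.ofHom φ.toRingHom)) (specMap_specStr φ) P

theorem RPoint.map_val {R S : Type u} [CommRing R] [Algebra K R] [CommRing S] [Algebra K S]
    (φ : R →ₐ[K] S) (P : RPoint f R) :
    (RPoint.map f φ P).1 = Spec.map (CommRingCat.ofHom φ.toRingHom) ≫ P.1 := rfl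

/-- The group structure on points given by a commutative group law. -/
@[reducible]
def pointAddCommGroup {f : A ⟶ Spec (CommRingCat.of K)} (L : RelativeGroupLaw K f)
    (hc : L.IsCommutative) {T : Scheme.{u}} (t : T ⟶ Spec (CommRingCat.of K)) :
    AddCommGroup (SchemeHomOver t f) where
  add x y := L.mul t x y
  zero := L.one t
  neg x := L.inv t x
  add_assoc := L.mul_assoc t
  zero_add := L.one_mul t
  add_zero := L.mul_one t
  neg_add_cancel := L.inv_mul_cancel t
  add_comm := hc t
  nsmul := @nsmulRec _ ⟨L.one t⟩ ⟨fun x y => L.mul t x y⟩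
  zsmul := @zsmulRec _ ⟨L.one t⟩ ⟨fun x y => L.mul t x y⟩ ⟨fun x => L.inv t x⟩
    (@nsmulRec _ ⟨L.one t⟩ ⟨fun x y => L.mul t x y⟩)

/-- The functor of points of a commutative relative group law. -/
def schemePoints (L : RelativeGroupLaw K f) (hc : L.IsCommutative) : PointFunctor K where
  Pt R _ _ := RPoint f R
  addCommGroup R _ _ := pointAddCommGroup L hc (specStr K R)
  map {R S} _ _ _ _ φ :=
    letI := pointAddCommGroup L hc (specStr K R)
    letI := pointAddCommGroup L hc (specStr K S)
    AddMonoidHom.mk' (RPoint.map f φ) (fun P Q => L.mul_natural _ _ _ _ P Q)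
  map_id R _ _ P := Subtype.ext (by
    change Spec.map (CommRingCat.ofHom (AlgHom.id K R).toRingHom) ≫ P.1 = P.1
    rw [show CommRingCat.ofHom (AlgHom.id K R).toRingHom = 𝟙 _ from rfl, Spec.map_id,
      Category.id_comp])
  map_comp {R S T} _ _ _ _ _ _ φ ψ P := Subtype.ext (by
    change Spec.map (CommRingCat.ofHom (ψ.comp φ).toRingHom) ≫ P.1 =
      Spec.map (CommRingCat.ofHom ψ.toRingHom) ≫
        (Spec.map (CommRingCat.ofHom φ.toRingHom) ≫ P.1)
    rw [← Category.assoc, ← Spec.map_comp, ← CommRingCat.ofHom_comp]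
    rfl)

theorem nsmul_eq_law (L : RelativeGroupLaw K f) (hc : L.IsCommutative) {T : Scheme.{u}}
    (t : T ⟶ Spec (CommRingCat.of K)) (n : ℕ) (x : SchemeHomOver t f) :
    letI := pointAddCommGroup L hc t
    n • x = L.nsmul t n x := by
  letI := pointAddCommGroup L hc t
  induction n with
  | zero => exact zero_nsmul x
  | succ n ih => rw [succ_nsmul, ih]; rfl

/-- An affine open of `A`. -/
structure Chart {A : Scheme.{u}} (f : A ⟶ Spec (CommRingCat.of K)) where
  /-- the underlying open -/
  V : A.Opens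
  isAffine : IsAffineOpen V

namespace Chart

variable {f} (c : Chart f)

/-- The ring of functions of an affine open. -/
abbrev Ring : Type u := Γ(A, c.V)

instance algebra : Algebra K c.Ring :=
  (Spec.preimage (c.isAffine.fromSpec ≫ f)).hom.toAlgebra

theorem fromSpec_comp : c.isAffine.fromSpec ≫ f = specStr K c.Ring :=
  (Spec.map_preimage (c.isAffine.fromSpec ≫ f)).symm

instance finiteType [LocallyOfFiniteType f] : Algebra.FiniteType K c.Ring := by
  have h : LocallyOfFiniteType (specStr K c.Ring) := by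
    rw [← c.fromSpec_comp]; infer_instance
  exact RingHom.finiteType_algebraMap.1
    ((HasRingHomProperty.Spec_iff (P := @LocallyOfFiniteType)).1 h)

/-- The point attached to an algebra homomorphism out of a chart. -/
def pointOfHom {R : Type u} [CommRing R] [Algebra K R] (φ : c.Ring →ₐ[K] R) : RPoint f R :=
  ⟨Spec.map (CommRingCat.ofHom φ.toRingHom) ≫ c.isAffine.fromSpec, by
    rw [Category.assoc, c.fromSpec_comp, specMap_specStr]⟩

theorem range_pointOfHom {R : Type u} [CommRing R] [Algebra K R] (φ : c.Ring →ₐ[K] R) :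
    Set.range (c.pointOfHom φ).1 ⊆ c.V := by
  rintro _ ⟨y, rfl⟩
  have : (c.pointOfHom φ).1 y = c.isAffine.fromSpec (Spec.map (CommRingCat.ofHom φ.toRingHom) y) :=
    rfl
  rw [this, ← c.isAffine.range_fromSpec]
  exact Set.mem_range_self _

theorem map_pointOfHom {R S : Type u} [CommRing R] [Algebra K R] [CommRing S] [Algebra K S]
    (φ : c.Ring →ₐ[K] R) (ψ : R →ₐ[K] S) :
    RPoint.map f ψ (c.pointOfHom φ) = c.pointOfHom (ψ.comp φ) := by
  apply Subtype.ext
  change Spec.map _ ≫ (Spec.map _ ≫ c.isAffine.fromSpec) = Spec.map _ ≫ c.isAffine.fromSpec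
  rw [← Category.assoc, ← Spec.map_comp, ← CommRingCat.ofHom_comp]
  rfl

theorem pointOfHom_injective {R : Type u} [CommRing R] [Algebra K R] :
    Function.Injective (c.pointOfHom (R := R)) := fun φ ψ h => by
  have h' := congrArg Subtype.val h
  change Spec.map _ ≫ c.isAffine.fromSpec = Spec.map _ ≫ c.isAffine.fromSpec at h'
  rw [cancel_mono, Spec.map_inj] at h'
  exact AlgHom.coe_ringHom_injective (congrArg CommRingCat.Hom.hom h')

theorem exists_pointOfHom_eq {R : Type u} [CommRing R] [Algebra K R] (P : RPoint f R)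
    (hP : Set.range P.1 ⊆ c.V) : ∃ φ : c.Ring →ₐ[K] R, c.pointOfHom φ = P := by
  have h : Set.range P.1 ⊆ Set.range c.isAffine.fromSpec := by rwa [c.isAffine.range_fromSpec]
  let ψ := Spec.preimage (IsOpenImmersion.lift c.isAffine.fromSpec P.1 h)
  have h1 : Spec.map ψ ≫ c.isAffine.fromSpec = P.1 := by
    rw [Spec.map_preimage, IsOpenImmersion.lift_fac]
  have h2 : Spec.map ψ ≫ specStr K c.Ring = specStr K R := by
    rw [← c.fromSpec_comp, ← Category.assoc, h1, P.2]
  rw [specStr, ← Spec.map_comp, Spec.map_inj] at h2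
  exact ⟨⟨ψ.hom, fun r => RingHom.congr_fun (congrArg CommRingCat.Hom.hom h2) r⟩, Subtype.ext h1⟩

theorem apply_mem_iff_range_subset {R : Type u} [CommRing R] [IsLocalRing R] [Algebra K R]
    (P : RPoint f R) (V : A.Opens) :
    P.1 (IsLocalRing.closedPoint R) ∈ V ↔ Set.range P.1 ⊆ V := by
  refine ⟨fun h => ?_, fun h => h (Set.mem_range_self _)⟩
  have h' : IsLocalRing.closedPoint R ∈ P.1 ⁻¹ᵁ V := h
  rintro _ ⟨y, rfl⟩
  exact ((IsLocalRing.specializes_closedPoint (R := R) y).mem_open (P.1 ⁻¹ᵁ V).isOpen h')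

theorem exists_pointOfHom_eq_of_local {R : Type u} [CommRing R] [IsLocalRing R] [Algebra K R]
    (P : RPoint f R) (hP : P.1 (IsLocalRing.closedPoint R) ∈ c.V) :
    ∃ φ : c.Ring →ₐ[K] R, c.pointOfHom φ = P :=
  c.exists_pointOfHom_eq P ((apply_mem_iff_range_subset P c.V).1 hP)

end Chart

theorem exists_chart_mem (x : A) : ∃ c : Chart f, x ∈ c.V := by
  obtain ⟨V, hV, hx, -⟩ := exists_isAffineOpen_mem_and_subset (U := ⊤) (Set.mem_univ x)
  exact ⟨⟨V, hV⟩, hx⟩

/-- A chart which is standard smooth over the field exists around every point. -/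
theorem exists_smooth_chart (g : ℕ) [SmoothOfRelativeDimension g f] (x : A) :
    ∃ c : Chart f, x ∈ c.V ∧ Algebra.IsStandardSmoothOfRelativeDimension g K c.Ring := by
  obtain ⟨U, hU, V, hV, hxV, e, hφ⟩ :=
    SmoothOfRelativeDimension.exists_isStandardSmoothOfRelativeDimension (n := g) (f := f) x
  obtain rfl : U = ⊤ := top_le_iff.1 fun y _ => by
    rw [Subsingleton.elim (α := PrimeSpectrum K) y (f x)]; exact e hxV
  obtain ⟨c, rfl⟩ : ∃ c : Chart f, c.V = V := ⟨⟨V, hV⟩, rfl⟩
  refine ⟨c, hxV, ?_⟩
  have hmap : Spec.preimage (c.isAffine.fromSpec ≫ f) =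
      (Scheme.ΓSpecIso (CommRingCat.of K)).inv ≫ f.appLE ⊤ c.V e := by
    apply Spec.map_injective
    rw [Spec.map_preimage, Spec.map_comp, ← IsAffineOpen.SpecMap_appLE_fromSpec f hU hV e]
    congr 1
    rw [show hU.fromSpec = (isAffineOpen_top (Spec (CommRingCat.of K))).fromSpec from rfl,
      IsAffineOpen.fromSpec_top, Scheme.isoSpec_Spec_inv]
  have h : (Spec.preimage (c.isAffine.fromSpec ≫ f)).hom.IsStandardSmoothOfRelativeDimension g := by
    rw [hmap]
    exact RingHom.isStandardSmoothOfRelativeDimension_respectsIso.2 _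
      (Scheme.ΓSpecIso (CommRingCat.of K)).symm.commRingCatIsoToRingEquiv hφ
  exact (@RingHom.isStandardSmoothOfRelativeDimension_algebraMap g K c.Ring _ _ _).1 h

section Closed

variable [IsAlgClosed K] [LocallyOfFiniteType f]

/-- The point of `A` under a `K`-point. -/
def base (P : RPoint f K) : A := P.1 (IsLocalRing.closedPoint K)

theorem isClosed_base (P : RPoint f K) : IsClosed ({base f P} : Set A) :=
  ((pointEquivClosedPoint f) ⟨P.1, by rw [P.2, specStr_self]⟩).2

theorem base_injective : Function.Injective (base f) := fun P Q h =>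
  Subtype.ext (ext_of_apply_closedPoint_eq f (by rw [P.2, specStr_self])
    (by rw [Q.2, specStr_self]) h)

theorem exists_base_eq {x : A} (hx : IsClosed ({x} : Set A)) : ∃ P : RPoint f K, base f P = x :=
  ⟨⟨pointOfClosedPoint f x hx, by rw [pointOfClosedPoint_comp, specStr_self]⟩,
    pointOfClosedPoint_apply f x hx _⟩

theorem exists_base_mem {U : A.Opens} (hU : (U : Set A).Nonempty) :
    ∃ P : RPoint f K, base f P ∈ U := by
  have := LocallyOfFiniteType.jacobsonSpace f
  obtain ⟨x, hxU, hx⟩ := nonempty_inter_closedPoints hU U.isOpen.isLocallyClosed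
  obtain ⟨P, rfl⟩ := exists_base_eq f hx
  exact ⟨P, hxU⟩

omit [IsAlgClosed K] [LocallyOfFiniteType f] in
theorem primeIdealOf_base (c : Chart f) (e : c.Ring →ₐ[K] K)
    (h : base f (c.pointOfHom e) ∈ c.V) :
    (c.isAffine.primeIdealOf ⟨base f (c.pointOfHom e), h⟩).asIdeal = RingHom.ker e := by
  have h1 : c.isAffine.fromSpec (c.isAffine.primeIdealOf ⟨_, h⟩) =
      c.isAffine.fromSpec (Spec.map (CommRingCat.ofHom e.toRingHom) (IsLocalRing.closedPoint K)) :=
    (c.isAffine.fromSpec_primeIdealOf _).trans rfl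
  rw [c.isAffine.fromSpec.isOpenEmbedding.injective h1]
  ext b
  change e b ∈ IsLocalRing.maximalIdeal K ↔ _
  simp [RingHom.mem_ker]

theorem exists_hom_ker_eq (c : Chart f) (m : Ideal c.Ring) [m.IsMaximal] :
    ∃ e : c.Ring →ₐ[K] K, RingHom.ker e = m := by
  let := Ideal.Quotient.field m
  have := finite_of_finite_type_of_isJacobsonRing K (c.Ring ⧸ m)
  let q : K ≃ₐ[K] c.Ring ⧸ m := AlgEquiv.ofBijective (Algebra.ofId K _)
    IsAlgClosed.algebraMap_bijective_of_isIntegral
  refine ⟨q.symm.toAlgHom.comp (Ideal.Quotient.mkₐ K m), ?_⟩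
  ext b
  simp [RingHom.mem_ker, Ideal.Quotient.eq_zero_iff_mem]

end Closed

/-- The localisation at a rational point of a standard smooth algebra is a domain embedded in
power series. -/
theorem PointChart.isDomain_localization {B : Type u} [CommRing B] [Algebra K B]
    [IsNoetherianRing B] {e : B →ₐ[K] K} {g : ℕ} (c : PointChart B e g) (b : B)
    (hb : c.expand b = 0) : ∃ s : B, e s ≠ 0 ∧ s * b = 0 := by
  have hker : (RingHom.ker e).IsMaximal :=
    RingHom.ker_isMaximal_of_surjective e fun r => ⟨algebraMap K B r, by simp⟩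
  have hmem : ∀ N : ℕ, b ∈ (RingHom.ker e) ^ N := fun N => by
    rw [c.mem_ker_pow_iff, hb]; exact zero_mem _
  have h := (Ideal.mem_iInf_smul_pow_eq_bot_iff (RingHom.ker e) b).1
    ((Submodule.mem_iInf _).2 fun N => by simpa [Ideal.mul_top] using hmem N)
  obtain ⟨r, hr⟩ := h
  refine ⟨1 - r, ?_, by rw [sub_mul, one_mul, ← smul_eq_mul (r : B), hr, sub_self]⟩
  have hr0 : e r = 0 := r.2
  simp [hr0]

section Integral

variable [IsAlgClosed K] (g : ℕ) [SmoothOfRelativeDimension g f]

theorem eq_zero_of_localizations {B : Type u} [CommRing B] (b : B)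
    (h : ∀ m : Ideal B, m.IsMaximal → ∃ s, s ∉ m ∧ s * b = 0) : b = 0 := by
  let I : Ideal B := LinearMap.ker (LinearMap.toSpanSingleton B B b)
  have hI : I = ⊤ := by
    by_contra hne
    obtain ⟨m, hm, hle⟩ := Ideal.exists_le_maximal I hne
    obtain ⟨s, hs, hsb⟩ := h m hm
    exact hs (hle (by simpa [I, LinearMap.toSpanSingleton_apply] using hsb))
  simpa [I] using (Ideal.eq_top_iff_one I).1 hI

include f g in
theorem isReduced_of_smooth : IsReduced A := by
  have : Smooth f := SmoothOfRelativeDimension.smooth g f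
  have hst : ∀ x : A, _root_.IsReduced (A.presheaf.stalk x) := fun x => by
    obtain ⟨c, hx, hs⟩ := exists_smooth_chart f g x
    have : IsNoetherianRing c.Ring := Algebra.FiniteType.isNoetherianRing K c.Ring
    have hred : _root_.IsReduced c.Ring := ⟨fun b hb => eq_zero_of_localizations b fun m hm => by
      obtain ⟨e, he⟩ := exists_hom_ker_eq f c m
      obtain ⟨pc⟩ := nonempty_pointChart g e
      have : IsDomain (MvPowerSeries (Fin g) K) := NoZeroDivisors.to_isDomain _
      obtain ⟨s, hs, hsb⟩ := pc.isDomain_localization b (IsNilpotent.eq_zero (hb.map pc.expand))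
      exact ⟨s, fun h => hs (by rwa [← he] at h), hsb⟩⟩
    let : Algebra Γ(A, c.V) (A.presheaf.stalk x) :=
      TopCat.Presheaf.algebra_section_stalk A.presheaf ⟨x, hx⟩
    have := c.isAffine.isLocalization_stalk ⟨x, hx⟩
    exact isReduced_localizationPreserves (c.isAffine.primeIdealOf ⟨x, hx⟩).asIdeal.primeCompl
      (A.presheaf.stalk x) hred
  exact @isReduced_of_isReduced_stalk A hst

include f g in
theorem isIntegral_of_smooth_of_connected [QuasiCompact f] [ConnectedSpace A] :
    IsIntegral A := by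
  have : Smooth f := SmoothOfRelativeDimension.smooth g f
  have := LocallyOfFiniteType.jacobsonSpace f
  have : IsLocallyNoetherian A := LocallyOfFiniteType.isLocallyNoetherian f
  have : CompactSpace A := QuasiCompact.compactSpace_of_compactSpace f
  have : IsNoetherian A := {}
  have := isReduced_of_smooth f g
  -- two generic points of components with a common closed specialisation agree
  have key : ∀ x : A, IsClosed ({x} : Set A) → ∀ η₁ η₂ : A,
      (∀ y, y ⤳ η₁ → η₁ ⤳ y) → (∀ y, y ⤳ η₂ → η₂ ⤳ y) → η₁ ⤳ x → η₂ ⤳ x → η₁ = η₂ := by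
    intro x hx η₁ η₂ h₁ h₂ hs₁ hs₂
    obtain ⟨c, hxc, hsm⟩ := exists_smooth_chart f g x
    have : IsNoetherianRing c.Ring := Algebra.FiniteType.isNoetherianRing K c.Ring
    let px := c.isAffine.primeIdealOf ⟨x, hxc⟩
    have hmax : px.asIdeal.IsMaximal := c.isAffine.primeIdealOf_isMaximal_of_isClosed _ hx
    obtain ⟨e, he⟩ := exists_hom_ker_eq f c px.asIdeal
    obtain ⟨pc⟩ := nonempty_pointChart g e
    have : IsDomain (MvPowerSeries (Fin g) K) := NoZeroDivisors.to_isDomain _
    let q : PrimeSpectrum c.Ring := ⟨RingHom.ker pc.expand, RingHom.ker_isPrime _⟩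
    suffices H : ∀ η : A, (∀ y, y ⤳ η → η ⤳ y) → η ⤳ x → η = c.isAffine.fromSpec q from
      (H η₁ h₁ hs₁).trans (H η₂ h₂ hs₂).symm
    intro η h hs
    have hηc : η ∈ c.V := hs.mem_open c.V.isOpen hxc
    let pη := c.isAffine.primeIdealOf ⟨η, hηc⟩
    have hle : pη.asIdeal ≤ px.asIdeal := by
      have h0 : c.isAffine.fromSpec pη ⤳ c.isAffine.fromSpec px := by
        erw [c.isAffine.fromSpec_primeIdealOf, c.isAffine.fromSpec_primeIdealOf]
        exact hs
      have : pη ⤳ px := c.isAffine.fromSpec.isOpenEmbedding.isInducing.specializes_iff.1 h0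
      exact (PrimeSpectrum.le_iff_specializes pη px).2 this
    have hq : q.asIdeal ≤ pη.asIdeal := fun b hb => by
      obtain ⟨s, hs, hsb⟩ := pc.isDomain_localization b hb
      refine (pη.isPrime.mem_or_mem (hsb ▸ pη.asIdeal.zero_mem)).resolve_left fun hsm => hs ?_
      have := hle hsm
      rwa [← he] at this
    have hspec : c.isAffine.fromSpec q ⤳ η := by
      rw [show η = c.isAffine.fromSpec pη from
        (c.isAffine.fromSpec_primeIdealOf ⟨η, hηc⟩).symm]
      exact ((PrimeSpectrum.le_iff_specializes q pη).1 hq).map c.isAffine.fromSpec.continuous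
    exact ((h _ hspec).antisymm hspec).eq
  have hirr : IrreducibleSpace A := by
    have hfin : (irreducibleComponents A).Finite :=
      TopologicalSpace.NoetherianSpace.finite_irreducibleComponents
    obtain ⟨x₀⟩ : Nonempty A := inferInstance
    let Z := irreducibleComponent x₀
    have hZ : Z ∈ irreducibleComponents A := irreducibleComponent_mem_irreducibleComponents x₀
    let O := ⋃ W ∈ irreducibleComponents A \ {Z}, W
    have hO : IsClosed O :=
      hfin.sdiff.isClosed_biUnion fun W hW => isClosed_of_mem_irreducibleComponents W hW.1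
    have hdis : Z ∩ O = ∅ := by
      by_contra hne
      have hne' : (Z ∩ O).Nonempty := Set.nonempty_iff_ne_empty.2 hne
      obtain ⟨x, ⟨hxZ, hxO⟩, hx⟩ := nonempty_inter_closedPoints hne'
        ((isClosed_of_mem_irreducibleComponents Z hZ).inter hO).isLocallyClosed
      obtain ⟨W, hW, hxW⟩ := Set.mem_iUnion₂.1 hxO
      obtain ⟨η₁, h₁⟩ := QuasiSober.sober hZ.1 (isClosed_of_mem_irreducibleComponents Z hZ)
      obtain ⟨η₂, h₂⟩ := QuasiSober.sober hW.1.1 (isClosed_of_mem_irreducibleComponents W hW.1)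
      have gen : ∀ (T : Set A), T ∈ irreducibleComponents A → ∀ η, IsGenericPoint η T →
          ∀ y, y ⤳ η → η ⤳ y := fun T hT η hη y hy => by
        rw [specializes_iff_closure_subset] at hy ⊢
        have hle : T ⊆ closure {y} := hη.def ▸ hy
        rw [hη.def]
        exact hT.2 isIrreducible_singleton.closure hle
      have := key x hx η₁ η₂ (gen Z hZ η₁ h₁) (gen W hW.1 η₂ h₂) (h₁.specializes hxZ)
        (h₂.specializes hxW)
      exact hW.2 (by rw [Set.mem_singleton_iff, ← h₁.def, ← h₂.def, this])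
    have hcov : Z ∪ O = Set.univ := by
      refine Set.eq_univ_of_forall fun x => ?_
      by_cases h : irreducibleComponent x = Z
      · exact Or.inl (h ▸ mem_irreducibleComponent)
      · exact Or.inr (Set.mem_iUnion₂.2 ⟨irreducibleComponent x,
          ⟨irreducibleComponent_mem_irreducibleComponents x, h⟩, mem_irreducibleComponent⟩)
    have hOc : O = Zᶜ := by
      ext x
      exact ⟨fun hx hxZ => (Set.eq_empty_iff_forall_notMem.1 hdis) x ⟨hxZ, hx⟩,
        fun hx => ((hcov ▸ Set.mem_univ x : x ∈ Z ∪ O)).resolve_left hx⟩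
    have hclopen : IsClopen Z :=
      ⟨isClosed_of_mem_irreducibleComponents Z hZ, by rw [← isClosed_compl_iff, ← hOc]; exact hO⟩
    have hZu : Z = Set.univ :=
      (isClopen_iff.1 hclopen).resolve_left (Set.nonempty_iff_ne_empty.1 hZ.1.1)
    have : PreirreducibleSpace A := ⟨hZu ▸ hZ.1.2⟩
    exact ⟨inferInstance⟩
  exact isIntegral_of_irreducibleSpace_of_isReduced _

end Integral

section Fields

variable [IsProper f]

theorem schemePoints_valuative (L : Type u) [Field L] [Algebra K L] (V : ValuationSubring L)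
    (hV : ∀ a : K, algebraMap K L a ∈ V) :
    letI := valuationAlgebra V hV
    Function.Bijective (RPoint.map f (valuationIncl V hV)) := by
  letI := valuationAlgebra V hV
  have hval : ValuativeCriterion f := by
    have h : (ValuativeCriterion ⊓ @QuasiCompact ⊓ @QuasiSeparated ⊓ @LocallyOfFiniteType) f :=
      IsProper.eq_valuativeCriterion ▸ ‹IsProper f›
    exact h.1.1.1
  have hw : Spec.map (CommRingCat.ofHom (algebraMap V L)) ≫ specStr K V = specStr K L :=
    specMap_specStr (valuationIncl V hV)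
  constructor
  · intro P Q h
    let S : ValuativeCommSq f :=
      { R := V, K := L
        i₁ := (RPoint.map f (valuationIncl V hV) P).1
        i₂ := specStr K V
        commSq := ⟨by rw [(RPoint.map f _ P).2, hw]⟩ }
    obtain ⟨huniq⟩ := hval S
    let l₁ : S.commSq.LiftStruct := ⟨P.1, rfl, P.2⟩
    let l₂ : S.commSq.LiftStruct := ⟨Q.1, congrArg Subtype.val h.symm, Q.2⟩
    have hl : l₁ = l₂ := (huniq.uniq l₁).trans (huniq.uniq l₂).symm
    exact Subtype.ext (congrArg CommSq.LiftStruct.l hl)
  · intro P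
    let S : ValuativeCommSq f :=
      { R := V, K := L
        i₁ := P.1
        i₂ := specStr K V
        commSq := ⟨by rw [P.2, hw]⟩ }
    obtain ⟨huniq⟩ := hval S
    exact ⟨⟨huniq.default.l, huniq.default.fac_right⟩, Subtype.ext huniq.default.fac_left⟩

omit [IsProper f] in
theorem schemePoints_map_injective {L L' : Type u} [Field L] [Algebra K L] [Field L']
    [Algebra K L'] (φ : L →ₐ[K] L') : Function.Injective (RPoint.map f φ) := by
  intro P Q h
  have h' : Spec.map (CommRingCat.ofHom φ.toRingHom) ≫ P.1 =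
      Spec.map (CommRingCat.ofHom φ.toRingHom) ≫ Q.1 := congrArg Subtype.val h
  have hpt : Spec.map (CommRingCat.ofHom φ.toRingHom) (IsLocalRing.closedPoint L') =
      IsLocalRing.closedPoint L := Subsingleton.elim (α := PrimeSpectrum L) _ _
  have hx : P.1 (IsLocalRing.closedPoint L) = Q.1 (IsLocalRing.closedPoint L) :=
    (congrArg P.1 hpt).symm.trans
      ((congrArg (fun m : Spec (CommRingCat.of L') ⟶ A => m (IsLocalRing.closedPoint L')) h').trans
        (congrArg Q.1 hpt))
  obtain ⟨c, hc⟩ := exists_chart_mem f (P.1 (IsLocalRing.closedPoint L))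
  obtain ⟨p, rfl⟩ := c.exists_pointOfHom_eq_of_local P hc
  obtain ⟨q, rfl⟩ := c.exists_pointOfHom_eq_of_local Q (hx ▸ hc)
  rw [c.map_pointOfHom, c.map_pointOfHom] at h
  have h3 := c.pointOfHom_injective h
  exact congrArg c.pointOfHom (AlgHom.ext fun b => φ.toRingHom.injective (AlgHom.congr_fun h3 b))

theorem schemePoints_exists_fg (L : Type u) [Field L] [Algebra K L] (P : RPoint f L) :
    ∃ s : Finset L, P ∈ Set.range (RPoint.map f (IntermediateField.adjoin K (s : Set L)).val) := by
  classical
  obtain ⟨c, hc⟩ := exists_chart_mem f (P.1 (IsLocalRing.closedPoint L))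
  obtain ⟨φ, rfl⟩ := c.exists_pointOfHom_eq_of_local P hc
  obtain ⟨t, ht⟩ := (Algebra.FiniteType.out : (⊤ : Subalgebra K c.Ring).FG)
  let E := IntermediateField.adjoin K ((t.image φ : Finset L) : Set L)
  have hφ : ∀ b, φ b ∈ E.toSubalgebra := fun b => by
    have : (⊤ : Subalgebra K c.Ring) ≤ E.toSubalgebra.comap φ := by
      rw [← ht, Algebra.adjoin_le_iff]
      intro x hx
      exact IntermediateField.subset_adjoin _ _ (by simpa using ⟨x, hx, rfl⟩)
    exact this trivial
  refine ⟨t.image φ, c.pointOfHom (φ.codRestrict E.toSubalgebra hφ), ?_⟩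
  rw [c.map_pointOfHom]
  rfl

end Fields

end Fermat.Agent.AbelianVariety
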