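/-
Local rings at rational points: universal property, expansion, and first order data.
-/
import Fermat.Agent.AbelianVariety.SecondPoints
import Mathlib.RingTheory.EssentialFiniteness
import Mathlib.RingTheory.Nakayama
import Mathlib.RingTheory.Localization.AtPrime.Basic
import Mathlib.RingTheory.LocalRing.ResidueField.Basic
import Mathlib.Algebra.TrivSqZeroExt.Basic
import Mathlib.RingTheory.Algebraic.Integral

set_option autoImplicit false

noncomputable section

open CategoryTheory CategoryTheory.Limits AlgebraicGeometry NeronModelInfra GoodReductionJacobian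

namespace Fermat.Agent.AbelianVariety

universe u

variable {K : Type u} [Field K] {A : Scheme.{u}} (f : A ⟶ Spec (CommRingCat.of K))

/-- A smooth chart with parameters around a rational point. -/
structure LocalModel (g : ℕ) (c : RPoint f K) where
  /-- the chart -/
  C : Chart f
  /-- evaluation at the point -/
  e : C.Ring →ₐ[K] K
  point_eq : C.pointOfHom e = c
  /-- parameters and expansion -/
  pc : PointChart C.Ring e g

theorem nonempty_localModel (g : ℕ) [SmoothOfRelativeDimension g f] (c : RPoint f K) :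
    Nonempty (LocalModel f g c) := by
  obtain ⟨C, hx, hs⟩ := exists_smooth_chart f g (c.1 (IsLocalRing.closedPoint K))
  obtain ⟨e, he⟩ := C.exists_pointOfHom_eq_of_local c hx
  obtain ⟨pc⟩ := nonempty_pointChart g e
  exact ⟨⟨C, e, he, pc⟩⟩

variable {f}

/-- In a local ring, a point with closed image in a chart comes from the chart. -/
theorem RPoint.ext_of_injective {R S : Type u} [CommRing R] [IsLocalRing R] [Algebra K R]
    [CommRing S] [Algebra K S] (ψ : R →ₐ[K] S) (hψ : Function.Injective ψ) (P Q : RPoint f R)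
    (h : RPoint.map f ψ P = RPoint.map f ψ Q)
    (hx : P.1 (IsLocalRing.closedPoint R) = Q.1 (IsLocalRing.closedPoint R)) : P = Q := by
  obtain ⟨C, hC⟩ := exists_chart_mem f (P.1 (IsLocalRing.closedPoint R))
  obtain ⟨p, rfl⟩ := C.exists_pointOfHom_eq_of_local P hC
  obtain ⟨q, rfl⟩ := C.exists_pointOfHom_eq_of_local Q (hx ▸ hC)
  rw [C.map_pointOfHom, C.map_pointOfHom] at h
  exact congrArg C.pointOfHom
    (AlgHom.ext fun b => hψ (AlgHom.congr_fun (C.pointOfHom_injective h) b))

/-- A local ring valued point which is generically a rational point is that point. -/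
theorem RPoint.eq_const_of_injective [IsAlgClosed K] [LocallyOfFiniteType f]
    {R : Type u} [CommRing R] [IsLocalRing R] [Algebra K R] {Λ : Type u} [Field Λ] [Algebra K Λ]
    (ψ : R →ₐ[K] Λ) (hψ : Function.Injective ψ) (P : RPoint f R) (d : RPoint f K)
    (h : RPoint.map f ψ P = RPoint.map f (Algebra.ofId K Λ) d) :
    P = RPoint.map f (Algebra.ofId K R) d := by
  have hd : RPoint.map f ψ (RPoint.map f (Algebra.ofId K R) d) =
      RPoint.map f (Algebra.ofId K Λ) d := by
    apply Subtype.ext
    rw [RPoint.map_val, RPoint.map_val, RPoint.map_val, ← Category.assoc, ← Spec.map_comp,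
      ← CommRingCat.ofHom_comp]
    congr 3
    exact ψ.comp_algebraMap
  refine RPoint.ext_of_injective ψ hψ P _ (h.trans hd.symm) ?_
  have h2 : (RPoint.map f (Algebra.ofId K R) d).1 (IsLocalRing.closedPoint R) = base f d := by
    rw [RPoint.map_val]
    exact congrArg d.1 (Subsingleton.elim (α := PrimeSpectrum K) _ _)
  rw [h2]
  let y := Spec.map (CommRingCat.ofHom ψ.toRingHom) (IsLocalRing.closedPoint Λ)
  have h3 : P.1 y = base f d :=
    (congrArg (fun m : Spec (CommRingCat.of Λ) ⟶ A => m (IsLocalRing.closedPoint Λ))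
      (congrArg Subtype.val h)).trans (congrArg d.1 (Subsingleton.elim (α := PrimeSpectrum K) _ _))
  have hs : P.1 y ⤳ P.1 (IsLocalRing.closedPoint R) :=
    (IsLocalRing.specializes_closedPoint (R := R) y).map P.1.continuous
  rw [h3] at hs
  exact Set.mem_singleton_iff.1 (hs.mem_closed (isClosed_base f d) rfl)

namespace LocalModel

variable {g : ℕ} {c : RPoint f K} (M : LocalModel f g c)

theorem ker_isMaximal : (RingHom.ker M.e).IsMaximal :=
  RingHom.ker_isMaximal_of_surjective M.e fun r => ⟨algebraMap K M.C.Ring r, by simp⟩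

instance : (RingHom.ker M.e).IsPrime := M.ker_isMaximal.isPrime

/-- The local ring. -/
abbrev O : Type u := Localization.AtPrime (RingHom.ker M.e)

/-- The map from the chart ring to the local ring. -/
def toO : M.C.Ring →ₐ[K] M.O := IsScalarTower.toAlgHom K M.C.Ring M.O

/-- The tautological point. -/
def univ : RPoint f M.O := M.C.pointOfHom M.toO

/-- Evaluation at the point. -/
def ev : M.O →ₐ[K] K :=
  IsLocalization.liftAlgHom (M := (RingHom.ker M.e).primeCompl) (f := M.e) fun s =>
    isUnit_iff_ne_zero.2 fun h => s.2 h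

theorem ev_toO (b : M.C.Ring) : M.ev (M.toO b) = M.e b := IsLocalization.lift_eq _ _

theorem map_ev_univ : RPoint.map f M.ev M.univ = c := by
  rw [univ, M.C.map_pointOfHom, show M.ev.comp M.toO = M.e from AlgHom.ext M.ev_toO, M.point_eq]

theorem ev_eq_zero_iff (x : M.O) : M.ev x = 0 ↔ x ∈ IsLocalRing.maximalIdeal M.O := by
  obtain ⟨⟨b, s⟩, hx⟩ := IsLocalization.surj (RingHom.ker M.e).primeCompl x
  have hu : IsUnit (M.toO s) := IsLocalization.map_units M.O s
  have h1 : M.ev x * M.e s = M.e b := by
    rw [← M.ev_toO, ← M.ev_toO, ← map_mul]; exact congrArg M.ev hx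
  have hs : M.e s ≠ 0 := fun h => s.2 h
  have h2 : x ∈ IsLocalRing.maximalIdeal M.O ↔ M.toO b ∈ IsLocalRing.maximalIdeal M.O := by
    rw [← Ideal.mul_unit_mem_iff_mem _ hu, show x * M.toO s = M.toO b from hx]
  rw [h2, show M.toO b ∈ IsLocalRing.maximalIdeal M.O ↔ b ∈ RingHom.ker M.e from
    IsLocalization.AtPrime.to_map_mem_maximal_iff M.O (RingHom.ker M.e) b]
  rw [RingHom.mem_ker]
  exact ⟨fun h => by rw [← h1, h, zero_mul], fun h => by
    rw [h, mul_eq_zero] at h1; exact h1.resolve_right hs⟩

theorem residue_eq (x : M.O) :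
    IsLocalRing.residue M.O x = algebraMap K (IsLocalRing.ResidueField M.O) (M.ev x) := by
  rw [IsScalarTower.algebraMap_apply K M.O (IsLocalRing.ResidueField M.O),
    IsLocalRing.ResidueField.algebraMap_eq, ← sub_eq_zero, ← map_sub,
    IsLocalRing.residue_eq_zero_iff, ← M.ev_eq_zero_iff]
  simp

/-- A local homomorphism out of the local ring is the evaluation modulo the maximal ideal. -/
theorem residue_comp {R : Type u} [CommRing R] [IsLocalRing R] [Algebra K R] (φ : M.O →ₐ[K] R)
    (hφ : IsLocalHom (φ : M.O →+* R)) :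
    (IsScalarTower.toAlgHom K R (IsLocalRing.ResidueField R)).comp φ =
      (Algebra.ofId K (IsLocalRing.ResidueField R)).comp M.ev := by
  refine AlgHom.ext fun x => ?_
  rw [AlgHom.comp_apply, AlgHom.comp_apply, ← sub_eq_zero]
  have h : x - algebraMap K M.O (M.ev x) ∈ IsLocalRing.maximalIdeal M.O := by
    rw [← M.ev_eq_zero_iff]; simp
  have h2 : φ x - algebraMap K R (M.ev x) ∈ IsLocalRing.maximalIdeal R := by
    rw [← φ.commutes, ← map_sub]
    have h3 : (IsLocalRing.maximalIdeal M.O).map (φ : M.O →+* R) ≤ IsLocalRing.maximalIdeal R :=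
      ((IsLocalRing.local_hom_TFAE (φ : M.O →+* R)).out 0 2).1 hφ
    exact h3 (Ideal.mem_map_of_mem _ h)
  rw [← IsLocalRing.residue_eq_zero_iff, map_sub] at h2
  simpa [IsScalarTower.algebraMap_apply K R (IsLocalRing.ResidueField R)] using h2

theorem isLocalHom_of_comp {R : Type u} [CommRing R] [IsLocalRing R] [Algebra K R]
    (φ : M.O →ₐ[K] R) (h : ∀ x, M.ev x = 0 → φ x ∈ IsLocalRing.maximalIdeal R) :
    IsLocalHom (φ : M.O →+* R) :=
  have h3 : (IsLocalRing.maximalIdeal M.O).map (φ : M.O →+* R) ≤ IsLocalRing.maximalIdeal R :=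
    Ideal.map_le_iff_le_comap.2 fun x hx => Ideal.mem_comap.2 (h x ((M.ev_eq_zero_iff x).2 hx))
  ((IsLocalRing.local_hom_TFAE (φ : M.O →+* R)).out 0 2).2 h3

/-- Universal property of the local ring. -/
theorem existsUnique_lift {R : Type u} [CommRing R] [IsLocalRing R] [Algebra K R]
    (P : RPoint f R)
    (hP : RPoint.map f (IsScalarTower.toAlgHom K R (IsLocalRing.ResidueField R)) P =
      RPoint.map f (Algebra.ofId K (IsLocalRing.ResidueField R)) c) :
    ∃! φ : M.O →ₐ[K] R, IsLocalHom (φ : M.O →+* R) ∧ RPoint.map f φ M.univ = P := by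
  set κ := IsLocalRing.ResidueField R
  let π := IsScalarTower.toAlgHom K R κ
  have hclosed : P.1 (IsLocalRing.closedPoint R) ∈ M.C.V := by
    have hy : Spec.map (CommRingCat.ofHom π.toRingHom) (IsLocalRing.closedPoint κ) =
        IsLocalRing.closedPoint R := by
      refine PrimeSpectrum.ext ?_
      change (IsLocalRing.maximalIdeal κ).comap (IsLocalRing.residue R) = _
      rw [IsLocalRing.maximalIdeal_eq_bot (R := κ), ← RingHom.ker_eq_comap_bot,
        IsLocalRing.ker_residue]
      rfl
    rw [← hy]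
    have h1 : (RPoint.map f π P).1 (IsLocalRing.closedPoint κ) ∈ M.C.V := by
      rw [hP, show RPoint.map f (Algebra.ofId K κ) c = M.C.pointOfHom ((Algebra.ofId K κ).comp M.e)
        from by rw [← M.C.map_pointOfHom, M.point_eq]]
      exact M.C.range_pointOfHom _ (Set.mem_range_self _)
    exact h1
  obtain ⟨φ, rfl⟩ := M.C.exists_pointOfHom_eq_of_local P hclosed
  have hres : π.comp φ = (Algebra.ofId K κ).comp M.e := by
    apply M.C.pointOfHom_injective
    rw [← M.C.map_pointOfHom, ← M.C.map_pointOfHom, M.point_eq]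
    exact hP
  have hunit : ∀ s : (RingHom.ker M.e).primeCompl, IsUnit (φ s) := fun s => by
    rw [← IsLocalRing.notMem_maximalIdeal, ← IsLocalRing.residue_eq_zero_iff]
    change π.comp φ s ≠ 0
    rw [hres, AlgHom.comp_apply, Algebra.ofId_apply, Ne,
      map_eq_zero_iff _ (algebraMap K κ).injective]
    exact fun h => s.2 h
  let ψ : M.O →ₐ[K] R := IsLocalization.liftAlgHom (M := (RingHom.ker M.e).primeCompl) hunit
  have hψ : ψ.comp M.toO = φ := AlgHom.ext fun b => IsLocalization.lift_eq _ _
  refine ⟨ψ, ⟨?_, by rw [univ, M.C.map_pointOfHom, hψ]⟩, ?_⟩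
  · refine M.isLocalHom_of_comp ψ fun x hx => ?_
    obtain ⟨⟨b, s⟩, hbs⟩ := IsLocalization.surj (RingHom.ker M.e).primeCompl x
    have h1 : ψ x * φ s = φ b := by
      rw [← AlgHom.congr_fun hψ, ← AlgHom.congr_fun hψ, AlgHom.comp_apply, AlgHom.comp_apply,
        ← map_mul]
      exact congrArg ψ hbs
    have hb : M.e b = 0 := by
      have := congrArg M.ev hbs
      rw [map_mul, hx, zero_mul] at this
      exact (M.ev_toO b).symm.trans this.symm
    rw [← Ideal.mul_unit_mem_iff_mem _ (hunit s), h1, ← IsLocalRing.residue_eq_zero_iff]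
    change π.comp φ b = 0
    rw [hres, AlgHom.comp_apply, hb, map_zero]
  · rintro ψ' ⟨-, h'⟩
    rw [univ, M.C.map_pointOfHom] at h'
    have h2 := M.C.pointOfHom_injective h'
    exact IsLocalization.algHom_ext (RingHom.ker M.e).primeCompl (AlgHom.ext fun b => by
      have := AlgHom.congr_fun (h2.trans hψ.symm) b
      exact this)

/-- The expansion in power series. -/
def expand : M.O →ₐ[K] MvPowerSeries (Fin g) K :=
  IsLocalization.liftAlgHom (M := (RingHom.ker M.e).primeCompl) (f := M.pc.expand) fun s => by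
    rw [MvPowerSeries.isUnit_iff_constantCoeff, M.pc.constantCoeff_expand, isUnit_iff_ne_zero]
    exact fun h => s.2 h

theorem expand_toO (b : M.C.Ring) : M.expand (M.toO b) = M.pc.expand b :=
  IsLocalization.lift_eq _ _

theorem constantCoeff_expand (x : M.O) : MvPowerSeries.constantCoeff (M.expand x) = M.ev x := by
  obtain ⟨⟨b, s⟩, hx⟩ := IsLocalization.surj (RingHom.ker M.e).primeCompl x
  have h1 : M.ev x * M.e s = M.e b := by
    rw [← M.ev_toO, ← M.ev_toO, ← map_mul]; exact congrArg M.ev hx
  have h2 : MvPowerSeries.constantCoeff (M.expand x) * M.e s = M.e b := by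
    rw [← M.pc.constantCoeff_expand, ← M.pc.constantCoeff_expand, ← M.expand_toO, ← M.expand_toO,
      ← map_mul, ← map_mul]
    exact congrArg (fun y => MvPowerSeries.constantCoeff (M.expand y)) hx
  exact mul_right_cancel₀ (fun h => s.2 h) (h2.trans h1.symm)

/-- The parameters. -/
def t (i : Fin g) : M.O := M.toO (M.pc.param (.X i))

theorem expand_t (i : Fin g) : M.expand (M.t i) = MvPowerSeries.X i := by
  rw [t, expand_toO, PointChart.expand_paramX]

theorem ev_t (i : Fin g) : M.ev (M.t i) = 0 := (M.ev_toO _).trans (M.pc.eval_param i)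

instance [LocallyOfFiniteType f] : IsNoetherianRing M.O :=
  have : IsNoetherianRing M.C.Ring := Algebra.FiniteType.isNoetherianRing K M.C.Ring
  IsLocalization.isNoetherianRing (RingHom.ker M.e).primeCompl M.O inferInstance

theorem comap_expand_pow (N : ℕ) :
    ((IsLocalRing.maximalIdeal (MvPowerSeries (Fin g) K)) ^ N).comap
      (M.expand : M.O →+* MvPowerSeries (Fin g) K) = (IsLocalRing.maximalIdeal M.O) ^ N := by
  refine le_antisymm (fun x hx => ?_) ?_
  · obtain ⟨⟨b, s⟩, hbs⟩ := IsLocalization.surj (RingHom.ker M.e).primeCompl x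
    have hu : IsUnit (M.toO s) := IsLocalization.map_units M.O s
    rw [← Ideal.mul_unit_mem_iff_mem _ hu, show x * M.toO s = M.toO b from hbs]
    have hb : b ∈ (RingHom.ker M.e) ^ N := by
      rw [M.pc.mem_ker_pow_iff, ← M.expand_toO, ← show x * M.toO s = M.toO b from hbs, map_mul]
      exact Ideal.mul_mem_right _ _ hx
    rw [← IsLocalization.AtPrime.map_eq_maximalIdeal (RingHom.ker M.e) M.O, ← Ideal.map_pow]
    exact Ideal.mem_map_of_mem _ hb
  · refine le_trans (Ideal.pow_right_mono ?_ N) (Ideal.le_comap_pow _ N)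
    intro x hx
    rw [Ideal.mem_comap, IsLocalRing.mem_maximalIdeal, mem_nonunits_iff]
    change ¬ IsUnit (M.expand x)
    rw [MvPowerSeries.isUnit_iff_constantCoeff, M.constantCoeff_expand, (M.ev_eq_zero_iff x).2 hx]
    exact not_isUnit_zero

theorem mem_pow_iff (N : ℕ) (x : M.O) : x ∈ (IsLocalRing.maximalIdeal M.O) ^ N ↔
    ∀ d : Fin g →₀ ℕ, d.degree < N → MvPowerSeries.coeff d (M.expand x) = 0 := by
  rw [← M.comap_expand_pow, Ideal.mem_comap, maximalIdeal_mvPowerSeries, mem_pow_span_X_iff]
  rfl

theorem expand_injective [LocallyOfFiniteType f] : Function.Injective M.expand := by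
  rw [injective_iff_map_eq_zero]
  intro x hx
  have h := Ideal.iInf_pow_eq_bot_of_isLocalRing (IsLocalRing.maximalIdeal M.O)
    (IsLocalRing.maximalIdeal.isMaximal M.O).ne_top
  have h2 : x ∈ ⨅ N : ℕ, (IsLocalRing.maximalIdeal M.O) ^ N :=
    (Submodule.mem_iInf _).2 fun N => by rw [M.mem_pow_iff, hx]; simp
  rwa [h, Ideal.mem_bot] at h2

theorem isDomain [LocallyOfFiniteType f] : IsDomain M.O :=
  have : IsDomain (MvPowerSeries (Fin g) K) := NoZeroDivisors.to_isDomain _
  M.expand_injective.isDomain M.expand.toRingHom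

theorem dense (N : ℕ) (s : MvPowerSeries (Fin g) K) : ∃ x : M.O,
    M.expand x - s ∈ (IsLocalRing.maximalIdeal (MvPowerSeries (Fin g) K)) ^ N :=
  (M.pc.dense N s).imp' M.toO fun b hb => by rwa [expand_toO]

theorem essFiniteType [LocallyOfFiniteType f] : Algebra.EssFiniteType K M.O :=
  have : Algebra.EssFiniteType M.C.Ring M.O :=
    Algebra.EssFiniteType.of_isLocalization _ (RingHom.ker M.e).primeCompl
  Algebra.EssFiniteType.comp K M.C.Ring M.O

theorem span_t [LocallyOfFiniteType f] :
    Ideal.span (Set.range M.t) = IsLocalRing.maximalIdeal M.O := by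
  refine le_antisymm (Ideal.span_le.2 ?_) ?_
  · rintro _ ⟨i, rfl⟩
    exact (M.ev_eq_zero_iff _).1 (M.ev_t i)
  refine Submodule.le_of_le_smul_of_le_jacobson_bot (IsNoetherian.noetherian _)
    (IsLocalRing.maximalIdeal_le_jacobson _) ?_
  have h := Ideal.map_mono (f := algebraMap M.C.Ring M.O) M.pc.ker_le_span_sup
  rw [IsLocalization.AtPrime.map_eq_maximalIdeal, Ideal.map_sup, Ideal.map_span, Ideal.map_pow,
    IsLocalization.AtPrime.map_eq_maximalIdeal, pow_two, ← Set.range_comp] at h
  exact h

theorem algebraic_t [LocallyOfFiniteType f] (x : M.O) :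
    IsAlgebraic (Algebra.adjoin K (Set.range M.t)) x := by
  have := M.isDomain
  let F := FractionRing M.O
  let h : M.C.Ring →ₐ[K] F := (IsScalarTower.toAlgHom K M.O F).comp M.toO
  have hpar : ∀ p, M.expand (M.toO (M.pc.param p)) = (p : MvPowerSeries (Fin g) K) := fun p => by
    rw [expand_toO, M.pc.expand_param]
  have hinjO : Function.Injective (M.toO.comp M.pc.param) := fun p q hpq => by
    have h' := congrArg M.expand hpq
    rw [AlgHom.comp_apply, AlgHom.comp_apply, hpar, hpar] at h'
    exact MvPolynomial.coe_inj.1 h'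
  have hinj : Function.Injective (h.comp M.pc.param) :=
    (IsFractionRing.injective M.O F).comp hinjO
  let : Algebra (MvPolynomial (Fin g) K) F := (h.comp M.pc.param).toRingHom.toAlgebra
  have halg : IsAlgebraic (MvPolynomial (Fin g) K) (algebraMap M.O F x) := by
    obtain ⟨⟨b, s⟩, hbs⟩ := IsLocalization.surj (RingHom.ker M.e).primeCompl x
    have hb := M.pc.isAlgebraic_of_field h hinj b
    have hs := M.pc.isAlgebraic_of_field h hinj s
    have hs0 : h s ≠ 0 := by
      change algebraMap M.O F (M.toO s) ≠ 0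
      rw [Ne, map_eq_zero_iff _ (IsFractionRing.injective M.O F)]
      exact (IsLocalization.map_units M.O s).ne_zero
    have hxs : algebraMap M.O F x = h b * (h s)⁻¹ := by
      rw [eq_mul_inv_iff_mul_eq₀ hs0]
      exact (map_mul (algebraMap M.O F) _ _).symm.trans (congrArg (algebraMap M.O F) hbs)
    rw [hxs]
    exact hb.mul hs.inv
  let σ : MvPolynomial (Fin g) K →ₐ[K] Algebra.adjoin K (Set.range M.t) :=
    MvPolynomial.aeval fun i => ⟨M.t i, Algebra.subset_adjoin ⟨i, rfl⟩⟩
  have hσ : ∀ p, ((σ p : Algebra.adjoin K (Set.range M.t)) : M.O) = M.toO (M.pc.param p) := by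
    intro p
    have : (Algebra.adjoin K (Set.range M.t)).val.comp σ = M.toO.comp M.pc.param :=
      MvPolynomial.algHom_ext fun i => by simp [σ, t]
    exact AlgHom.congr_fun this p
  obtain ⟨q, hq0, hq'⟩ := halg
  have hq : q.eval₂ (M.toO.comp M.pc.param).toRingHom x = 0 := by
    apply IsFractionRing.injective M.O F
    rw [Polynomial.hom_eval₂, map_zero]
    exact hq'
  refine ⟨q.map σ.toRingHom, ?_, ?_⟩
  · refine (Polynomial.map_ne_zero_iff ?_).2 hq0
    intro p p' hpp
    exact hinjO (by
      have := congrArg Subtype.val hpp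
      change ((σ p : Algebra.adjoin K (Set.range M.t)) : M.O) = σ p' at this
      rwa [hσ, hσ] at this)
  · rw [Polynomial.aeval_def, Polynomial.eval₂_map]
    have hc : (algebraMap (Algebra.adjoin K (Set.range M.t)) M.O).comp σ.toRingHom =
        (M.toO.comp M.pc.param).toRingHom := RingHom.ext fun p => hσ p
    rw [hc]
    exact hq

end LocalModel

end Fermat.Agent.AbelianVariety
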