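/-
Multiplication by `n` near the origin, torsion points, translations.
-/
import Fermat.Agent.AbelianVariety.SecondLocal
import Mathlib.AlgebraicGeometry.FunctionField
import Mathlib.RingTheory.Localization.FractionRing

set_option autoImplicit false

noncomputable section

open CategoryTheory CategoryTheory.Limits AlgebraicGeometry NeronModelInfra GoodReductionJacobian

namespace Fermat.Agent.AbelianVariety

universe u

open TrivSqZeroExt in
instance isLocalRing_tsze (K : Type u) [Field K] (V : Type u) [AddCommGroup V] [Module K V]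
    [Module Kᵐᵒᵖ V] [IsCentralScalar K V] : IsLocalRing (TrivSqZeroExt K V) :=
  .of_isUnit_or_isUnit_one_sub_self fun x => by
    simp only [isUnit_iff_isUnit_fst, fst_sub, fst_one]
    exact IsLocalRing.isUnit_or_isUnit_one_sub_self _

open TrivSqZeroExt in
theorem mem_maximalIdeal_tsze {K : Type u} [Field K] {V : Type u} [AddCommGroup V] [Module K V]
    [Module Kᵐᵒᵖ V] [IsCentralScalar K V] (x : TrivSqZeroExt K V) :
    x ∈ IsLocalRing.maximalIdeal (TrivSqZeroExt K V) ↔ fst x = 0 := by
  simp [isUnit_iff_isUnit_fst]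

variable {K : Type u} [Field K] {A : Scheme.{u}} {f : A ⟶ Spec (CommRingCat.of K)}

namespace LocalModel

variable {g : ℕ} {c : RPoint f K} (M : LocalModel f g c)

open TrivSqZeroExt

/-- The first order data: value and gradient. -/
def grad : M.O →ₐ[K] TrivSqZeroExt K (Fin g → K) where
  toFun x := inl (M.ev x) + inr fun i => MvPowerSeries.coeff (Finsupp.single i 1) (M.expand x)
  map_one' := by
    classical
    ext i
    · simp
    · simp [MvPowerSeries.coeff_one]
  map_mul' x y := by
    classical
    ext i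
    · simp
    · simp only [snd_add, snd_inl, snd_inr, zero_add, snd_mul, fst_add, fst_inl, fst_inr,
        add_zero, map_mul, Pi.add_apply, Pi.smul_apply, smul_eq_mul, op_smul_eq_smul,
        MvPowerSeries.coeff_mul]
      rw [Finsupp.antidiagonal_single]
      simp only [Finset.sum_map, Finset.Nat.antidiagonal_succ, Finset.Nat.antidiagonal_zero,
        Finset.sum_cons, Finset.sum_singleton, Function.Embedding.coe_prodMap,
        Function.Embedding.coeFn_mk, Prod.map]
      simp [MvPowerSeries.coeff_zero_eq_constantCoeff_apply, M.constantCoeff_expand]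
      ring
  map_zero' := by ext i <;> simp
  map_add' x y := by ext i <;> simp
  commutes' r := by
    classical
    ext i
    · simp [algebraMap_eq_inl]
    · simp [algebraMap_eq_inl, show algebraMap K (MvPowerSeries (Fin g) K) r = MvPowerSeries.C r
        from rfl, MvPowerSeries.coeff_C]

theorem fst_grad (x : M.O) : fst (M.grad x) = M.ev x := by simp [grad]

theorem snd_grad (x : M.O) (i : Fin g) :
    snd (M.grad x) i = MvPowerSeries.coeff (Finsupp.single i 1) (M.expand x) := by simp [grad]

theorem isLocalHom_grad : IsLocalHom (M.grad : M.O →+* TrivSqZeroExt K (Fin g → K)) :=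
  M.isLocalHom_of_comp _ fun x hx => by rw [mem_maximalIdeal_tsze, fst_grad, hx]

theorem mem_sq_iff (x : M.O) : x ∈ (IsLocalRing.maximalIdeal M.O) ^ 2 ↔ M.grad x = 0 := by
  classical
  rw [M.mem_pow_iff]
  constructor
  · intro h
    ext i
    · rw [fst_grad, ← M.constantCoeff_expand, ← MvPowerSeries.coeff_zero_eq_constantCoeff_apply,
        h 0 (by simp)]
      simp
    · rw [snd_grad, h _ (by simp)]
      simp
  · intro h d hd
    rcases Nat.lt_or_ge d.degree 1 with h0 | h1
    · obtain rfl : d = 0 := (Finsupp.degree_eq_zero_iff d).1 (by omega)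
      rw [MvPowerSeries.coeff_zero_eq_constantCoeff_apply, M.constantCoeff_expand, ← fst_grad, h]
      rfl
    · obtain ⟨d', hd', hdeg⟩ := exists_le_degree_eq d 1 h1
      obtain ⟨j, hj⟩ : ∃ j, d' j ≠ 0 := by
        by_contra! hcon
        exact absurd hdeg (by simp [show d' = 0 from Finsupp.ext hcon])
      have hle : Finsupp.single j 1 ≤ d := Finsupp.single_le_iff.2 (le_trans (by omega) (hd' j))
      have hsub : (d - Finsupp.single j 1).degree = 0 := by
        have h := congrArg Finsupp.degree (add_tsub_cancel_of_le hle)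
        rw [map_add, Finsupp.degree_single] at h
        omega
      rw [← add_tsub_cancel_of_le hle, (Finsupp.degree_eq_zero_iff _).1 hsub, add_zero,
        ← snd_grad, h]
      rfl

theorem grad_t (i : Fin g) : M.grad (M.t i) = inr (Pi.single i 1) := by
  classical
  ext j
  · rw [fst_grad, M.ev_t, fst_inr]
  · rw [snd_grad, M.expand_t, snd_inr, MvPowerSeries.coeff_X]
    simp [Finsupp.single_left_inj, Pi.single_apply]

end LocalModel

section Group

variable (L : RelativeGroupLaw K f) (hc : L.IsCommutative)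

/-- The reduction of a local point is the origin. -/
def ReducesToZero {R : Type u} [CommRing R] [IsLocalRing R] [Algebra K R]
    (P : (schemePoints f L hc).Pt R) : Prop :=
  (schemePoints f L hc).map (IsScalarTower.toAlgHom K R (IsLocalRing.ResidueField R)) P = 0

variable {L hc}

theorem reducesToZero_iff {R : Type u} [CommRing R] [IsLocalRing R] [Algebra K R]
    (P : (schemePoints f L hc).Pt R) : ReducesToZero L hc P ↔
      (schemePoints f L hc).map (IsScalarTower.toAlgHom K R (IsLocalRing.ResidueField R)) P = 0 :=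
  Iff.rfl

variable {g : ℕ} (M : LocalModel f g (L.one (specStr K K)))

/-- The tautological point at the origin. -/
def LocalModel.point : (schemePoints f L hc).Pt M.O := M.univ

theorem LocalModel.map_ev_point :
    (schemePoints f L hc).map M.ev M.point = 0 := M.map_ev_univ

theorem LocalModel.map_ofId_ev {R : Type u} [CommRing R] [Algebra K R] :
    (schemePoints f L hc).map ((Algebra.ofId K R).comp M.ev) M.point = 0 := by
  rw [(schemePoints f L hc).map_comp, M.map_ev_point, map_zero]

theorem LocalModel.reducesToZero_map {R : Type u} [CommRing R] [IsLocalRing R] [Algebra K R]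
    (φ : M.O →ₐ[K] R) (hφ : IsLocalHom (φ : M.O →+* R)) :
    ReducesToZero L hc ((schemePoints f L hc).map φ M.point) := by
  rw [reducesToZero_iff, (schemePoints f L hc).map_map, M.residue_comp φ hφ, M.map_ofId_ev]

theorem LocalModel.existsUnique_lift₀ {R : Type u} [CommRing R] [IsLocalRing R] [Algebra K R]
    (P : (schemePoints f L hc).Pt R) (hP : ReducesToZero L hc P) :
    ∃! φ : M.O →ₐ[K] R, IsLocalHom (φ : M.O →+* R) ∧ (schemePoints f L hc).map φ M.point = P :=
  M.existsUnique_lift P (hP.trans (map_zero ((schemePoints f L hc).map _)).symm)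

theorem LocalModel.eq_of_map_eq {R : Type u} [CommRing R] [IsLocalRing R] [Algebra K R]
    (φ ψ : M.O →ₐ[K] R) (hφ : IsLocalHom (φ : M.O →+* R)) (hψ : IsLocalHom (ψ : M.O →+* R))
    (h : (schemePoints f L hc).map φ M.point = (schemePoints f L hc).map ψ M.point) : φ = ψ :=
  (M.existsUnique_lift₀ _ (M.reducesToZero_map ψ hψ)).unique ⟨hφ, h⟩ ⟨hψ, rfl⟩

open TrivSqZeroExt in
/-- Points with values in square zero extensions add like tangent vectors. -/
theorem LocalModel.map_grad_add {V : Type u} [AddCommGroup V] [Module K V] [Module Kᵐᵒᵖ V]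
    [IsCentralScalar K V] (l₁ l₂ : (Fin g → K) →ₗ[K] V) :
    (schemePoints f L hc).map ((TrivSqZeroExt.map l₁).comp M.grad) M.point +
      (schemePoints f L hc).map ((TrivSqZeroExt.map l₂).comp M.grad) M.point =
        (schemePoints f L hc).map ((TrivSqZeroExt.map (l₁ + l₂)).comp M.grad) M.point := by
  let T := TrivSqZeroExt K (V × V)
  have hfg : ∀ x, fst (M.grad x) = M.ev x := fun x => M.fst_grad x
  let χ : ((Fin g → K) →ₗ[K] V × V) → (M.O →ₐ[K] T) := fun l => (TrivSqZeroExt.map l).comp M.grad
  have hloc : ∀ {W : Type u} [AddCommGroup W] [Module K W] [Module Kᵐᵒᵖ W] [IsCentralScalar K W]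
      (φ : M.O →ₐ[K] TrivSqZeroExt K W), (∀ x, fst (φ x) = M.ev x) →
      IsLocalHom (φ : M.O →+* TrivSqZeroExt K W) := fun φ h =>
    M.isLocalHom_of_comp _ fun x hx => by rw [mem_maximalIdeal_tsze, h, hx]
  have hχ : ∀ l, IsLocalHom (χ l : M.O →+* T) := fun l => hloc _ fun x => by
    simp [χ, hfg]
  set a := (schemePoints f L hc).map (χ (LinearMap.prod l₁ 0)) M.point with ha
  set b := (schemePoints f L hc).map (χ (LinearMap.prod 0 l₂)) M.point with hb
  have hab : ReducesToZero L hc (a + b) := by
    rw [reducesToZero_iff, map_add, M.reducesToZero_map _ (hχ _), M.reducesToZero_map _ (hχ _),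
      add_zero]
  obtain ⟨ψ, ⟨hψl, hψ⟩, -⟩ := M.existsUnique_lift₀ (a + b) hab
  have hψfst : ∀ x, fst (ψ x) = M.ev x := fun x => by
    have hm : x - algebraMap K M.O (M.ev x) ∈ IsLocalRing.maximalIdeal M.O := by
      rw [← M.ev_eq_zero_iff]; simp
    have hm2 : ψ (x - algebraMap K M.O (M.ev x)) ∈ IsLocalRing.maximalIdeal T := by
      rw [IsLocalRing.mem_maximalIdeal, mem_nonunits_iff]
      exact fun hu => ((IsLocalRing.mem_maximalIdeal _).1 hm) (hψl.map_nonunit _ hu)
    rw [mem_maximalIdeal_tsze, map_sub, fst_sub, AlgHom.commutes, algebraMap_eq_inl, fst_inl,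
      sub_eq_zero] at hm2
    exact hm2
  have hzero : ∀ {W : Type u} [AddCommGroup W] [Module K W] [Module Kᵐᵒᵖ W] [IsCentralScalar K W],
      (schemePoints f L hc).map ((TrivSqZeroExt.map (0 : (Fin g → K) →ₗ[K] W)).comp M.grad)
        M.point = 0 := by
    intro W _ _ _ _
    rw [show (TrivSqZeroExt.map (0 : (Fin g → K) →ₗ[K] W)).comp M.grad =
      (Algebra.ofId K _).comp M.ev from AlgHom.ext fun x => by
        refine TrivSqZeroExt.ext ?_ ?_ <;>
          simp [hfg, algebraMap_eq_inl, Algebra.ofId_apply]]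
    exact M.map_ofId_ev
  have key : ψ = χ (LinearMap.prod l₁ l₂) := by
    have h1 : (TrivSqZeroExt.map (LinearMap.fst K V V)).comp ψ =
        (TrivSqZeroExt.map l₁).comp M.grad := by
      refine M.eq_of_map_eq (hc := hc) _ _ (hloc _ fun x => by simp [hψfst])
        (hloc _ fun x => by simp [hfg]) ?_
      rw [(schemePoints f L hc).map_comp, hψ, map_add, ha, hb, (schemePoints f L hc).map_map,
        (schemePoints f L hc).map_map]
      simp only [χ, ← AlgHom.comp_assoc, ← TrivSqZeroExt.map_comp_map, LinearMap.fst_prod]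
      rw [hzero, add_zero]
    have h2 : (TrivSqZeroExt.map (LinearMap.snd K V V)).comp ψ =
        (TrivSqZeroExt.map l₂).comp M.grad := by
      refine M.eq_of_map_eq (hc := hc) _ _ (hloc _ fun x => by simp [hψfst])
        (hloc _ fun x => by simp [hfg]) ?_
      rw [(schemePoints f L hc).map_comp, hψ, map_add, ha, hb, (schemePoints f L hc).map_map,
        (schemePoints f L hc).map_map]
      simp only [χ, ← AlgHom.comp_assoc, ← TrivSqZeroExt.map_comp_map, LinearMap.snd_prod]
      rw [hzero, zero_add]
    refine AlgHom.ext fun x => TrivSqZeroExt.ext ?_ (Prod.ext ?_ ?_)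
    · simp [χ, hψfst, hfg]
    · simpa [χ] using congrArg snd (AlgHom.congr_fun h1 x)
    · simpa [χ] using congrArg snd (AlgHom.congr_fun h2 x)
  have hsum := congrArg
    ((schemePoints f L hc).map (TrivSqZeroExt.map (LinearMap.fst K V V + LinearMap.snd K V V))) hψ
  rw [map_add, ha, hb, key] at hsum
  simp only [χ, (schemePoints f L hc).map_map, ← AlgHom.comp_assoc,
    ← TrivSqZeroExt.map_comp_map] at hsum
  rw [show (LinearMap.fst K V V + LinearMap.snd K V V) ∘ₗ LinearMap.prod l₁ l₂ = l₁ + l₂ from
      LinearMap.ext fun x => rfl,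
    show (LinearMap.fst K V V + LinearMap.snd K V V) ∘ₗ LinearMap.prod l₁ 0 = l₁ from
      LinearMap.ext fun x => by simp,
    show (LinearMap.fst K V V + LinearMap.snd K V V) ∘ₗ LinearMap.prod 0 l₂ = l₂ from
      LinearMap.ext fun x => by simp] at hsum
  exact hsum.symm

theorem LocalModel.map_grad_nsmul (n : ℕ) :
    n • (schemePoints f L hc).map M.grad M.point =
      (schemePoints f L hc).map
        ((TrivSqZeroExt.map ((n : K) • LinearMap.id)).comp M.grad) M.point := by
  induction n with
  | zero =>
    rw [zero_nsmul]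
    refine ((M.map_ofId_ev (R := TrivSqZeroExt K (Fin g → K))).symm.trans ?_)
    refine congrArg (fun φ => (schemePoints f L hc).map φ M.point) ?_
    refine AlgHom.ext fun x => ?_
    refine TrivSqZeroExt.ext ?_ ?_ <;>
      simp [show (M.grad x).fst = M.ev x from M.fst_grad x, TrivSqZeroExt.algebraMap_eq_inl,
        Algebra.ofId_apply]
  | succ n ih =>
    rw [succ_nsmul, ih, Nat.cast_succ, add_smul, one_smul, ← M.map_grad_add]
    congr 2
    rw [TrivSqZeroExt.map_id, AlgHom.id_comp]

theorem LocalModel.exists_mulBy (n : ℕ) :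
    ∃ ν : M.O →ₐ[K] M.O, IsLocalHom (ν : M.O →+* M.O) ∧
      (schemePoints f L hc).map ν M.point = n • M.point ∧
      ∀ i, ν (M.t i) - (n : K) • M.t i ∈ (IsLocalRing.maximalIdeal M.O) ^ 2 := by
  have hred : ReducesToZero L hc (n • M.point) := by
    have h := M.reducesToZero_map (hc := hc) (AlgHom.id K M.O) ⟨fun a ha => ha⟩
    rw [(schemePoints f L hc).map_id] at h
    rw [reducesToZero_iff, map_nsmul, h, nsmul_zero]
  obtain ⟨ν, ⟨hν, hνp⟩, -⟩ := M.existsUnique_lift₀ _ hred
  refine ⟨ν, hν, hνp, fun i => ?_⟩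
  have h : M.grad.comp ν = (TrivSqZeroExt.map ((n : K) • LinearMap.id)).comp M.grad := by
    refine M.eq_of_map_eq (hc := hc) _ _ ?_ ?_ ?_
    · exact @RingHom.isLocalHom_comp _ _ _ _ _ _ _ _ M.isLocalHom_grad hν
    · exact M.isLocalHom_of_comp _ fun x hx => by
        rw [mem_maximalIdeal_tsze, AlgHom.comp_apply, TrivSqZeroExt.fst_map]
        exact (M.fst_grad x).trans hx
    · rw [(schemePoints f L hc).map_comp, hνp, map_nsmul, M.map_grad_nsmul]
  rw [M.mem_sq_iff, map_sub, map_smul, sub_eq_zero, show M.grad (ν (M.t i)) = _ from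
    AlgHom.congr_fun h (M.t i), AlgHom.comp_apply, M.grad_t, TrivSqZeroExt.map_inr,
    ← TrivSqZeroExt.inr_smul]
  rfl

include M in
/-- A local point killed by `n` which reduces to the origin is the origin. -/
theorem LocalModel.eq_zero_of_nsmul [LocallyOfFiniteType f] {n : ℕ} (hn : (n : K) ≠ 0)
    {R : Type u} [CommRing R] [IsLocalRing R] [Algebra K R] (Q : (schemePoints f L hc).Pt R)
    (hQ : ReducesToZero L hc Q) (hnQ : n • Q = 0) : Q = 0 := by
  obtain ⟨ψ, ⟨hψl, hψ⟩, -⟩ := M.existsUnique_lift₀ Q hQ
  obtain ⟨ν, hν, hνp, hνt⟩ := M.exists_mulBy n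
  have hcomp : ψ.comp ν = (Algebra.ofId K R).comp M.ev := by
    refine M.eq_of_map_eq (hc := hc) _ _ (@RingHom.isLocalHom_comp _ _ _ _ _ _ _ _ hψl hν)
      (M.isLocalHom_of_comp _ fun x hx => by simp [hx]) ?_
    rw [(schemePoints f L hc).map_comp, hνp, map_nsmul, hψ, hnQ, M.map_ofId_ev]
  let J : Ideal R := (IsLocalRing.maximalIdeal M.O).map (ψ : M.O →+* R)
  have hJm : J ≤ IsLocalRing.maximalIdeal R :=
    ((IsLocalRing.local_hom_TFAE (ψ : M.O →+* R)).out 0 2).1 hψl
  have hJfg : J.FG := by
    have h : (IsLocalRing.maximalIdeal M.O).FG := by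
      rw [← M.span_t]; exact Submodule.fg_span (Set.finite_range _)
    exact h.map _
  have hJ : J ≤ J • J := by
    refine Ideal.map_le_iff_le_comap.2 ?_
    rw [← M.span_t, Ideal.span_le]
    rintro _ ⟨i, rfl⟩
    change ψ (M.t i) ∈ J • J
    have h0 : ψ (ν (M.t i)) = 0 := by
      rw [← AlgHom.comp_apply, hcomp, AlgHom.comp_apply, M.ev_t, map_zero]
    have h1 : ψ (ν (M.t i) - (n : K) • M.t i) ∈ J • J := by
      rw [smul_eq_mul, ← pow_two, ← Ideal.map_pow]
      exact Ideal.mem_map_of_mem _ (hνt i)
    rw [map_sub, h0, zero_sub, map_smul, neg_mem_iff,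
      show (n : K) • ψ (M.t i) = algebraMap K R (n : K) * ψ (M.t i) from Algebra.smul_def _ _] at h1
    exact (Ideal.unit_mul_mem_iff_mem _ ((Ne.isUnit hn).map (algebraMap K R))).1 h1
  have hJ0 : J = ⊥ := Submodule.eq_bot_of_le_smul_of_le_jacobson_bot J J hJfg hJ
    (hJm.trans (IsLocalRing.maximalIdeal_le_jacobson _))
  rw [← hψ, show ψ = (Algebra.ofId K R).comp M.ev from ?_, M.map_ofId_ev]
  refine AlgHom.ext fun x => ?_
  have h : ψ (x - algebraMap K M.O (M.ev x)) ∈ J := Ideal.mem_map_of_mem _ (by
    rw [← M.ev_eq_zero_iff]; simp)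
  rw [hJ0, Ideal.mem_bot, map_sub, sub_eq_zero, AlgHom.commutes] at h
  exact h

end Group

section Torsion

variable [IsAlgClosed K] [IsProper f] (L : RelativeGroupLaw K f) (hc : L.IsCommutative)
  (g : ℕ) [SmoothOfRelativeDimension g f]

include g in
/-- A local point which is generically torsion is the constant point of its reduction. -/
theorem const_of_nsmul_local (n : ℕ) (hn : (n : K) ≠ 0) {R : Type u} [CommRing R] [IsLocalRing R]
    [Algebra K R] {Λ : Type u} [Field Λ] [Algebra K Λ] (ι : R →ₐ[K] Λ) (hι : Function.Injective ι)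
    (Q : (schemePoints f L hc).Pt R) (c : (schemePoints f L hc).Pt K)
    (hπQ : (schemePoints f L hc).map (IsScalarTower.toAlgHom K R (IsLocalRing.ResidueField R)) Q =
      (schemePoints f L hc).map (Algebra.ofId K (IsLocalRing.ResidueField R)) c)
    (hP : n • (schemePoints f L hc).map ι Q = 0) :
    n • c = 0 ∧
      (schemePoints f L hc).map (Algebra.ofId K Λ) c = (schemePoints f L hc).map ι Q := by
  have hnQ : n • Q = 0 := by
    have h : (schemePoints f L hc).map ι (n • Q) =
        (schemePoints f L hc).map (Algebra.ofId K Λ) (0 : (schemePoints f L hc).Pt K) := by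
      rw [map_nsmul, hP, map_zero]
    exact (RPoint.eq_const_of_injective ι hι (n • Q) (0 : (schemePoints f L hc).Pt K) h).trans
      (map_zero ((schemePoints f L hc).map (Algebra.ofId K R)))
  have hinj : Function.Injective
      ((schemePoints f L hc).map (Algebra.ofId K (IsLocalRing.ResidueField R))) :=
    schemePoints_map_injective f _
  have hnc : n • c = 0 := by
    apply hinj
    rw [map_nsmul, ← hπQ, ← map_nsmul, hnQ, map_zero, map_zero]
  refine ⟨hnc, ?_⟩
  obtain ⟨M₀⟩ := nonempty_localModel f g (L.one (specStr K K))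
  have hred : ReducesToZero L hc (Q - (schemePoints f L hc).map (Algebra.ofId K R) c) := by
    rw [reducesToZero_iff, map_sub, hπQ, (schemePoints f L hc).map_map,
      Subsingleton.elim ((IsScalarTower.toAlgHom K R (IsLocalRing.ResidueField R)).comp
        (Algebra.ofId K R)) (Algebra.ofId K (IsLocalRing.ResidueField R)), sub_self]
  have h0 := M₀.eq_zero_of_nsmul hn _ hred (by
    rw [nsmul_sub, hnQ, ← map_nsmul, hnc, map_zero, sub_zero])
  rw [sub_eq_zero.1 h0, (schemePoints f L hc).map_map,
    Subsingleton.elim (ι.comp (Algebra.ofId K R)) (Algebra.ofId K Λ)]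

include g in
/-- Torsion points over fields are rational. -/
theorem exists_torsion_const (n : ℕ) (hn : (n : K) ≠ 0) (Λ : Type u) [Field Λ] [Algebra K Λ]
    (P : (schemePoints f L hc).Pt Λ) (hP : n • P = 0) :
    ∃ c : (schemePoints f L hc).Pt K, n • c = 0 ∧
      (schemePoints f L hc).map (Algebra.ofId K Λ) c = P := by
  have := LocallyOfFiniteType.jacobsonSpace f
  have : CompactSpace A := QuasiCompact.compactSpace_of_compactSpace f
  let x := P.1 (IsLocalRing.closedPoint Λ)
  obtain ⟨y, hy, hyc⟩ := nonempty_inter_closedPoints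
    (Z := closure ({x} : Set A)) ⟨x, subset_closure rfl⟩ isClosed_closure.isLocallyClosed
  obtain ⟨c, rfl⟩ : ∃ c : (schemePoints f L hc).Pt K, base f c = y := exists_base_eq f hyc
  have hspec : x ⤳ base f c := specializes_iff_mem_closure.2 hy
  obtain ⟨M⟩ := nonempty_localModel f g c
  have hbase : base f c ∈ M.C.V := by
    have h := M.C.range_pointOfHom M.e (Set.mem_range_self (IsLocalRing.closedPoint K))
    rwa [M.point_eq] at h
  have hx : x ∈ M.C.V := hspec.mem_open M.C.V.isOpen hbase
  obtain ⟨φ, hφ⟩ := M.C.exists_pointOfHom_eq_of_local P hx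
  have hker : RingHom.ker φ ≤ RingHom.ker M.e := by
    have hxeq : x = M.C.isAffine.fromSpec
        (Spec.map (CommRingCat.ofHom φ.toRingHom) (IsLocalRing.closedPoint Λ)) := by
      exact congrArg (fun Q : RPoint f Λ => Q.1 (IsLocalRing.closedPoint Λ)) hφ.symm
    have hceq : base f c = M.C.isAffine.fromSpec
        (Spec.map (CommRingCat.ofHom M.e.toRingHom) (IsLocalRing.closedPoint K)) := by
      exact congrArg (fun Q : RPoint f K => Q.1 (IsLocalRing.closedPoint K)) M.point_eq.symm
    rw [hxeq, hceq] at hspec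
    have h2 := (PrimeSpectrum.le_iff_specializes _ _).2
      (M.C.isAffine.fromSpec.isOpenEmbedding.isInducing.specializes_iff.1 hspec)
    intro b hb
    have hb' : b ∈ (Spec.map (CommRingCat.ofHom φ.toRingHom)
        (IsLocalRing.closedPoint Λ)).asIdeal := by
      change φ b ∈ IsLocalRing.maximalIdeal Λ
      rw [RingHom.mem_ker] at hb
      rw [hb]
      exact zero_mem _
    have h3 := h2 hb'
    change M.e b ∈ IsLocalRing.maximalIdeal K at h3
    simpa using h3
  have : (RingHom.ker M.e).IsPrime := M.ker_isMaximal.isPrime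
  have hunit : ∀ s : (RingHom.ker M.e).primeCompl, IsUnit (φ s) := fun s =>
    isUnit_iff_ne_zero.2 fun h => s.2 (hker h)
  let Φ : M.O →ₐ[K] Λ := IsLocalization.liftAlgHom (M := (RingHom.ker M.e).primeCompl) hunit
  have hΦ : Φ.comp M.toO = φ := AlgHom.ext fun b => IsLocalization.lift_eq _ _
  let R := M.O ⧸ RingHom.ker Φ
  have : Nontrivial R := Ideal.Quotient.nontrivial_iff.2 (RingHom.ker_ne_top _)
  have : IsLocalRing R :=
    IsLocalRing.of_surjective' (Ideal.Quotient.mk (RingHom.ker Φ)) Ideal.Quotient.mk_surjective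
  let ι : R →ₐ[K] Λ := Ideal.Quotient.liftₐ _ Φ (fun a ha => ha)
  have hι : Function.Injective ι := by
    rw [injective_iff_map_eq_zero]
    intro a ha
    obtain ⟨a, rfl⟩ := Ideal.Quotient.mk_surjective a
    exact Ideal.Quotient.eq_zero_iff_mem.2 ha
  let pt : (schemePoints f L hc).Pt M.O := M.univ
  let Q : (schemePoints f L hc).Pt R :=
    (schemePoints f L hc).map (Ideal.Quotient.mkₐ K (RingHom.ker Φ)) pt
  have hQP : (schemePoints f L hc).map ι Q = P := by
    refine ((schemePoints f L hc).map_map _ _ pt).trans ?_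
    rw [show ι.comp (Ideal.Quotient.mkₐ K (RingHom.ker Φ)) = Φ from AlgHom.ext fun a => rfl]
    change RPoint.map f Φ (M.C.pointOfHom M.toO) = P
    rw [M.C.map_pointOfHom, hΦ]
    exact hφ
  have hloc : IsLocalHom ((Ideal.Quotient.mkₐ K (RingHom.ker Φ)) : M.O →+* R) :=
    IsLocalHom.of_surjective _ Ideal.Quotient.mk_surjective
  have hπQ : (schemePoints f L hc).map (IsScalarTower.toAlgHom K R (IsLocalRing.ResidueField R)) Q =
      (schemePoints f L hc).map (Algebra.ofId K (IsLocalRing.ResidueField R)) c := by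
    refine ((schemePoints f L hc).map_map _ _ pt).trans ?_
    rw [M.residue_comp _ hloc, (schemePoints f L hc).map_comp]
    exact congrArg ((schemePoints f L hc).map (Algebra.ofId K _)) M.map_ev_univ
  obtain ⟨hnc, hcQ⟩ := const_of_nsmul_local L hc g n hn ι hι Q c hπQ (hQP.symm ▸ hP)
  exact ⟨c, hnc, hcQ.trans hQP⟩

omit [IsAlgClosed K] [IsProper f] in
/-- Multiplication by `n` on points is composition with the scheme morphism. -/
theorem nsmul_val (n : ℕ) {R : Type u} [CommRing R] [Algebra K R]
    (P : (schemePoints f L hc).Pt R) : (n • P).1 = P.1 ≫ L.schemeNsmul n := by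
  rw [show n • P = L.nsmul (specStr K R) n P from nsmul_eq_law f L hc _ n P]
  have h := L.nsmul_natural f (specStr K R) P.1 P.2 n RelativeGroupLaw.idPoint
  rw [show schemeHomOverComp P.1 P.2 (RelativeGroupLaw.idPoint) = P from
    Subtype.ext (Category.comp_id _)] at h
  rw [← h]
  rfl

include g in
theorem finite_torsion (n : ℕ) (hn : (n : K) ≠ 0) :
    {c : (schemePoints f L hc).Pt K | n • c = 0}.Finite := by
  have := LocallyOfFiniteType.jacobsonSpace f
  have : IsLocallyNoetherian A := LocallyOfFiniteType.isLocallyNoetherian f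
  have : CompactSpace A := QuasiCompact.compactSpace_of_compactSpace f
  have : IsNoetherian A := {}
  let o := base f (0 : (schemePoints f L hc).Pt K)
  let Z : Set A := L.schemeNsmul n ⁻¹' {o}
  have hZc : IsClosed Z := (isClosed_base f _).preimage (L.schemeNsmul n).continuous
  have hclosed : ∀ z ∈ Z, IsClosed ({z} : Set A) := by
    intro z hz
    obtain ⟨C, hC⟩ := exists_chart_mem f z
    let Λ : Type u := A.residueField z
    let : Algebra K Λ := (Spec.preimage (A.fromSpecResidueField z ≫ f)).hom.toAlgebra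
    let P : (schemePoints f L hc).Pt Λ := ⟨A.fromSpecResidueField z, (Spec.map_preimage _).symm⟩
    have hnP : n • P = 0 := by
      have hcl : (n • P).1 (IsLocalRing.closedPoint Λ) = o := by
        rw [nsmul_val L hc]
        refine (congrArg (L.schemeNsmul n) ?_).trans hz
        exact A.fromSpecResidueField_apply z _
      obtain ⟨C₀, hC₀⟩ := exists_chart_mem f o
      obtain ⟨φ, hφ⟩ := C₀.exists_pointOfHom_eq_of_local (n • P) (hcl ▸ hC₀)
      obtain ⟨e, he⟩ := C₀.exists_pointOfHom_eq_of_local (0 : (schemePoints f L hc).Pt K) hC₀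
      rw [← hφ, ← map_zero ((schemePoints f L hc).map (Algebra.ofId K Λ)), ← he]
      change C₀.pointOfHom φ = RPoint.map f _ (C₀.pointOfHom e)
      rw [C₀.map_pointOfHom]
      congr 1
      -- a homomorphism whose kernel contains that of `e` is `e`
      have hker : ∀ b, e b = 0 → φ b = 0 := by
        intro b hb
        have h1 : C₀.isAffine.fromSpec (Spec.map (CommRingCat.ofHom φ.toRingHom)
            (IsLocalRing.closedPoint Λ)) = C₀.isAffine.fromSpec
            (Spec.map (CommRingCat.ofHom e.toRingHom) (IsLocalRing.closedPoint K)) := by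
          exact ((congrArg (fun Q : RPoint f Λ => Q.1 (IsLocalRing.closedPoint Λ)) hφ).trans
            hcl).trans (congrArg (fun Q : RPoint f K => Q.1 (IsLocalRing.closedPoint K)) he).symm
        have h2 := congrArg PrimeSpectrum.asIdeal
          (C₀.isAffine.fromSpec.isOpenEmbedding.injective h1)
        have h3 : b ∈ (Spec.map (CommRingCat.ofHom e.toRingHom)
            (IsLocalRing.closedPoint K)).asIdeal := by
          change e b ∈ IsLocalRing.maximalIdeal K
          rw [hb]; exact zero_mem _
        rw [← h2] at h3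
        change φ b ∈ IsLocalRing.maximalIdeal Λ at h3
        rwa [IsLocalRing.maximalIdeal_eq_bot (R := Λ), Ideal.mem_bot] at h3
      refine AlgHom.ext fun b => ?_
      have h := hker (b - algebraMap K _ (e b)) (by simp)
      rw [map_sub, sub_eq_zero, AlgHom.commutes] at h
      exact h
    obtain ⟨c, -, hcP⟩ := exists_torsion_const L hc g n hn Λ P hnP
    have hzc : z = base f c := by
      rw [← A.fromSpecResidueField_apply z (IsLocalRing.closedPoint Λ)]
      exact (congrArg (fun Q : RPoint f Λ => Q.1 (IsLocalRing.closedPoint Λ)) hcP).symm.trans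
        (congrArg c.1 (Subsingleton.elim (α := PrimeSpectrum K) _ _))
    rw [hzc]
    exact isClosed_base f c
  have hfin : Z.Finite := by
    obtain ⟨T, hT, hTc, hTi, hZT⟩ :=
      TopologicalSpace.NoetherianSpace.exists_finite_set_isClosed_irreducible hZc
    rw [hZT]
    refine hT.sUnion fun W hW => ?_
    obtain ⟨η, hη⟩ := QuasiSober.sober (hTi W hW) (hTc W hW)
    have hηZ : η ∈ Z := hZT ▸ ⟨W, hW, hη.mem⟩
    rw [← hη.def, (hclosed η hηZ).closure_eq]
    exact Set.finite_singleton η
  refine Set.Finite.of_finite_image (f := fun c => base f c) (hfin.subset ?_)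
    (base_injective f).injOn
  rintro _ ⟨c, hc0, rfl⟩
  change L.schemeNsmul n (c.1 (IsLocalRing.closedPoint K)) = o
  have h := congrArg (fun m : Spec (CommRingCat.of K) ⟶ A => m (IsLocalRing.closedPoint K))
    (nsmul_val L hc n c)
  rw [show n • c = 0 from hc0] at h
  exact h.symm

end Torsion

end Fermat.Agent.AbelianVariety
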