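/-
Generic points: surjectivity of multiplication by `n`, translations of the function field, and
points specialising to all points.
-/
import Fermat.Agent.AbelianVariety.SecondTorsion
import Fermat.Agent.AbelianVariety.Data
import Mathlib.RingTheory.Valuation.LocalSubring
import Mathlib.FieldTheory.IsAlgClosed.AlgebraicClosure

set_option autoImplicit false

noncomputable section

open CategoryTheory CategoryTheory.Limits AlgebraicGeometry NeronModelInfra GoodReductionJacobian

namespace Fermat.Agent.AbelianVariety

universe u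

section GenericHom

variable {K : Type u} [Field K] {A : Scheme.{u}} {f : A ⟶ Spec (CommRingCat.of K)}

theorem Chart.isDomain (C : Chart f) [AlgebraicGeometry.IsIntegral A] {x : A} (hx : x ∈ C.V) :
    IsDomain C.Ring :=
  have : Nonempty C.V := ⟨⟨x, hx⟩⟩
  IsIntegral.component_integral C.V

/-- A field valued point of a chart is generic iff it is injective on functions. -/
theorem Chart.apply_eq_genericPoint_iff [AlgebraicGeometry.IsIntegral A] (C : Chart f)
    {Λ : Type u} [Field Λ] [Algebra K Λ] (φ : C.Ring →ₐ[K] Λ) :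
    (C.pointOfHom φ).1 (IsLocalRing.closedPoint Λ) = genericPoint A ↔ Function.Injective φ := by
  have hmem : (C.pointOfHom φ).1 (IsLocalRing.closedPoint Λ) ∈ C.V :=
    C.range_pointOfHom φ (Set.mem_range_self _)
  have := C.isDomain hmem
  have : Nonempty (Spec (CommRingCat.of C.Ring)) := ⟨(⊥ : PrimeSpectrum C.Ring)⟩
  have hgen : genericPoint A = C.isAffine.fromSpec (⊥ : PrimeSpectrum C.Ring) := by
    rw [← genericPoint_eq_of_isOpenImmersion C.isAffine.fromSpec, genericPoint_eq_bot_of_affine]
  rw [hgen]
  change C.isAffine.fromSpec (Spec.map (CommRingCat.ofHom φ.toRingHom) (IsLocalRing.closedPoint Λ))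
    = _ ↔ _
  refine C.isAffine.fromSpec.isOpenEmbedding.injective.eq_iff.trans ?_
  constructor
  · intro h
    rw [injective_iff_map_eq_zero]
    intro b hb
    have hmem' : b ∈ (Spec.map (CommRingCat.ofHom φ.toRingHom)
        (IsLocalRing.closedPoint Λ)).asIdeal := by
      change φ b ∈ IsLocalRing.maximalIdeal Λ
      rw [hb]; exact zero_mem _
    rw [h] at hmem'
    exact (Submodule.mem_bot _).1 hmem'
  · intro h
    refine PrimeSpectrum.ext (le_antisymm (fun b hb => ?_) bot_le)
    change φ b ∈ IsLocalRing.maximalIdeal Λ at hb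
    rw [IsLocalRing.maximalIdeal_eq_bot (R := Λ), Ideal.mem_bot, map_eq_zero_iff φ h] at hb
    exact (Submodule.mem_bot _).2 hb

namespace LocalModel

variable {g : ℕ} {c : RPoint f K} (M : LocalModel f g c)

/-- The tautological point with values in the field of fractions of a local ring is generic. -/
theorem apply_generic [AlgebraicGeometry.IsIntegral A] [LocallyOfFiniteType f] {Λ : Type u}
    [Field Λ] [Algebra K Λ] (ψ : M.O →ₐ[K] Λ) (hψ : Function.Injective ψ) :
    (RPoint.map f ψ M.univ).1 (IsLocalRing.closedPoint Λ) = genericPoint A := by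
  rw [univ, M.C.map_pointOfHom, M.C.apply_eq_genericPoint_iff]
  have hx := M.C.range_pointOfHom M.e (Set.mem_range_self (IsLocalRing.closedPoint K))
  have := M.C.isDomain hx
  refine hψ.comp ?_
  exact IsLocalization.injective M.O (M := (RingHom.ker M.e).primeCompl)
    fun s hs => mem_nonZeroDivisors_of_ne_zero fun h => hs (by simp [h, RingHom.mem_ker])

end LocalModel

end GenericHom

section Group

variable {K : Type u} [Field K] [IsAlgClosed K] {A : Scheme.{u}}
  {f : A ⟶ Spec (CommRingCat.of K)} [IsProper f]
  (L : RelativeGroupLaw K f) (hc : L.IsCommutative) {g : ℕ}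

omit [IsAlgClosed K] [IsProper f] in
/-- Congruence of monomials: products of elements congruent modulo the next power. -/
theorem prod_pow_congr {R : Type u} [CommRing R] (m : Ideal R) (a b : Fin g → R)
    (ha : ∀ i, a i ∈ m) (hb : ∀ i, b i ∈ m) (h : ∀ i, a i - b i ∈ m ^ 2) (d : Fin g →₀ ℕ) :
    (d.prod fun i e => a i ^ e) - (d.prod fun i e => b i ^ e) ∈ m ^ (d.degree + 1) := by
  classical
  let Cong : ℕ → R → R → Prop := fun D u v => u ∈ m ^ D ∧ v ∈ m ^ D ∧ u - v ∈ m ^ (D + 1)
  have hmul : ∀ {D D' : ℕ} {u v u' v' : R}, Cong D u v → Cong D' u' v' →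
      Cong (D + D') (u * u') (v * v') := by
    rintro D D' u v u' v' ⟨hu, hv, huv⟩ ⟨hu', hv', huv'⟩
    refine ⟨pow_add m D D' ▸ Ideal.mul_mem_mul hu hu', pow_add m D D' ▸ Ideal.mul_mem_mul hv hv', ?_⟩
    rw [show u * u' - v * v' = (u - v) * u' + v * (u' - v') by ring]
    refine add_mem ?_ ?_
    · rw [show D + D' + 1 = (D + 1) + D' by ring, pow_add]
      exact Ideal.mul_mem_mul huv hu'
    · rw [show D + D' + 1 = D + (D' + 1) by ring, pow_add]
      exact Ideal.mul_mem_mul hv huv'
  have hone : Cong 0 1 1 := by simp [Cong]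
  have hpow : ∀ i (k : ℕ), Cong k (a i ^ k) (b i ^ k) := by
    intro i k
    induction k with
    | zero => simpa using hone
    | succ k ih =>
      rw [pow_succ, pow_succ]
      exact hmul ih ⟨by simpa using ha i, by simpa using hb i, h i⟩
  suffices H : Cong d.degree (d.prod fun i e => a i ^ e) (d.prod fun i e => b i ^ e) from H.2.2
  induction d using Finsupp.induction with
  | zero => simpa using hone
  | single_add i k d hi hk ih =>
    rw [Finsupp.prod_add_index' (fun _ => pow_zero _) (fun _ _ _ => pow_add _ _ _),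
      Finsupp.prod_add_index' (fun _ => pow_zero _) (fun _ _ _ => pow_add _ _ _),
      Finsupp.prod_single_index (h := fun i e => a i ^ e) (pow_zero _),
      Finsupp.prod_single_index (h := fun i e => b i ^ e) (pow_zero _), map_add,
      Finsupp.degree_single]
    exact hmul (hpow i k) ih

omit [IsAlgClosed K] in
/-- Multiplication by an invertible integer is injective on the local ring at the origin. -/
theorem LocalModel.mulBy_injective {c : RPoint f K} (M : LocalModel f g c) {n : K} (hn : n ≠ 0)
    (ν : M.O →ₐ[K] M.O) (hν : IsLocalHom (ν : M.O →+* M.O))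
    (hνt : ∀ i, ν (M.t i) - n • M.t i ∈ (IsLocalRing.maximalIdeal M.O) ^ 2) :
    Function.Injective ν := by
  classical
  rw [injective_iff_map_eq_zero]
  intro x hx
  by_contra hx0
  have hne : M.expand x ≠ 0 := (map_ne_zero_iff _ M.expand_injective).2 hx0
  obtain ⟨d₀, hd₀⟩ := (MvPowerSeries.ne_zero_iff_exists_coeff_ne_zero _).1 hne
  have hex : ∃ D, ∃ d : Fin g →₀ ℕ, d.degree = D ∧ MvPowerSeries.coeff d (M.expand x) ≠ 0 :=
    ⟨_, d₀, rfl, hd₀⟩
  set D := Nat.find hex with hDdef
  obtain ⟨d₁, hd₁D, hd₁⟩ := Nat.find_spec hex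
  have hmin : ∀ d : Fin g →₀ ℕ, d.degree < D → MvPowerSeries.coeff d (M.expand x) = 0 :=
    fun d hd => by_contra fun h => Nat.find_min hex hd ⟨d, rfl, h⟩
  let S : Finset (Fin g →₀ ℕ) :=
    (Finsupp.finite_of_degree_le D).toFinset.filter (fun d => d.degree = D)
  have hS : ∀ d, d ∈ S ↔ d.degree = D := fun d => by simp (config := {contextual := true}) [S]
  let mon : (Fin g → M.O) → (Fin g →₀ ℕ) → M.O := fun a d => d.prod fun i e => a i ^ e
  have hexp : ∀ d, M.expand (mon M.t d) = MvPowerSeries.monomial d (1 : K) := fun d => by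
    simp only [mon, map_finsuppProd, map_pow, M.expand_t]
    rw [MvPowerSeries.monomial_eq', map_one, one_mul]
  let P : M.O := ∑ d ∈ S, MvPowerSeries.coeff d (M.expand x) • mon M.t d
  have hcP : ∀ e : Fin g →₀ ℕ, MvPowerSeries.coeff e (M.expand P) =
      if e.degree = D then MvPowerSeries.coeff e (M.expand x) else 0 := fun e => by
    simp only [P, map_sum, map_smul, hexp, smul_eq_mul, MvPowerSeries.coeff_monomial, mul_ite,
      mul_one, mul_zero, Finset.sum_ite_eq, hS]
  have hxP : x - P ∈ (IsLocalRing.maximalIdeal M.O) ^ (D + 1) := by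
    rw [M.mem_pow_iff]
    intro e he
    rw [map_sub, map_sub, hcP]
    split_ifs with h
    · rw [sub_self]
    · rw [hmin e (by omega), sub_zero]
  have hνm : (IsLocalRing.maximalIdeal M.O).map (ν : M.O →+* M.O) ≤
      IsLocalRing.maximalIdeal M.O := ((IsLocalRing.local_hom_TFAE _).out 0 2).1 hν
  have h1 : ν (x - P) ∈ (IsLocalRing.maximalIdeal M.O) ^ (D + 1) := by
    have h := Ideal.mem_map_of_mem (ν : M.O →+* M.O) hxP
    rw [Ideal.map_pow] at h
    exact Ideal.pow_right_mono hνm _ h
  have htm : ∀ i, M.t i ∈ IsLocalRing.maximalIdeal M.O := fun i => (M.ev_eq_zero_iff _).1 (M.ev_t i)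
  have h2 : ν P - n ^ D • P ∈ (IsLocalRing.maximalIdeal M.O) ^ (D + 1) := by
    simp only [P, map_sum, Finset.smul_sum, ← Finset.sum_sub_distrib]
    refine Ideal.sum_mem _ fun d hd => ?_
    rw [map_smul, smul_comm, ← smul_sub, Algebra.smul_def]
    refine Ideal.mul_mem_left _ _ ?_
    have h3 : n ^ D • mon M.t d = mon (fun i => n • M.t i) d := by
      simp only [mon, smul_pow, Finsupp.prod]
      rw [Finset.prod_smul, Finset.prod_pow_eq_pow_sum, ← Finsupp.degree_apply, (hS d).1 hd]
    rw [h3, show ν (mon M.t d) = mon (fun i => ν (M.t i)) d by simp [mon, map_finsuppProd], ← (hS d).1 hd]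
    refine prod_pow_congr _ _ _ (fun i => hνm (Ideal.mem_map_of_mem _ (htm i))) (fun i => ?_) hνt d
    rw [Algebra.smul_def]
    exact Ideal.mul_mem_left _ _ (htm i)
  have h3 : n ^ D • P ∈ (IsLocalRing.maximalIdeal M.O) ^ (D + 1) := by
    have h := add_mem h1 h2
    rw [map_sub, hx, zero_sub, neg_add_eq_sub, sub_sub_cancel_left, neg_mem_iff] at h
    exact h
  apply hd₁
  have h4 := (M.mem_pow_iff _ _).1 h3 d₁ (by omega)
  rw [map_smul, map_smul, hcP, if_pos hd₁D, smul_eq_mul, mul_eq_zero] at h4
  exact h4.resolve_left (pow_ne_zero _ hn)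

omit [IsAlgClosed K] [IsProper f] in
/-- An injective homomorphism into a field extends to the fraction field. -/
theorem exists_algHom_fractionRing {R F : Type u} [CommRing R] [IsDomain R] [Algebra K R]
    [Field F] [Algebra K F] (φ : R →ₐ[K] F) (hφ : Function.Injective φ) :
    ∃ Φ : FractionRing R →ₐ[K] F, Φ.comp (IsScalarTower.toAlgHom K R (FractionRing R)) = φ :=
  ⟨IsLocalization.liftAlgHom (M := nonZeroDivisors R) (f := φ) fun s =>
    isUnit_iff_ne_zero.2 ((map_ne_zero_iff φ hφ).2 (nonZeroDivisors.ne_zero s.2)),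
   AlgHom.ext fun x => IsLocalization.lift_eq _ x⟩

variable [AlgebraicGeometry.IsIntegral A]

include g hc in
theorem schemeNsmul_surjective [SmoothOfRelativeDimension g f] (n : ℕ) (hn : (n : K) ≠ 0) :
    Surjective (L.schemeNsmul n) := by
  obtain ⟨M⟩ := nonempty_localModel f g (L.one (specStr K K))
  have := M.isDomain
  obtain ⟨ν, hν, hνp, hνt⟩ := M.exists_mulBy (hc := hc) n
  let q : M.O →ₐ[K] FractionRing M.O := IsScalarTower.toAlgHom K M.O _
  have hq : Function.Injective q := IsFractionRing.injective M.O _
  have hinj : Function.Injective (q.comp ν) := hq.comp (M.mulBy_injective hn ν hν hνt)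
  have h1 := M.apply_generic (q.comp ν) hinj
  have h2 : ((schemePoints f L hc).map q (n • M.point)).1 (IsLocalRing.closedPoint _) =
      genericPoint A := by
    rw [← hνp, (schemePoints f L hc).map_map]
    exact h1
  rw [map_nsmul, nsmul_val L hc] at h2
  have hmem : genericPoint A ∈ Set.range (L.schemeNsmul n) := ⟨_, h2⟩
  have hproper : IsProper (L.schemeNsmul n) := by
    have : IsProper (L.schemeNsmul n ≫ f) := by rw [L.schemeNsmul_over]; infer_instance
    exact IsProper.of_comp _ f
  refine ⟨fun x => ?_⟩
  have hcl : IsClosed (Set.range (L.schemeNsmul n)) := (L.schemeNsmul n).isClosedMap.isClosed_range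
  exact ((genericPoint_spec A).specializes trivial).mem_closed hcl hmem

include g in
theorem nsmul_points_surjective [SmoothOfRelativeDimension g f] (n : ℕ) (hn : (n : K) ≠ 0)
    (Λ : Type u) [Field Λ] [Algebra K Λ] [IsAlgClosed Λ] :
    Function.Surjective (fun P : (schemePoints f L hc).Pt Λ => n • P) := by
  intro P
  have := schemeNsmul_surjective L hc (g := g) n hn
  have hproper : IsProper (L.schemeNsmul n) := by
    have : IsProper (L.schemeNsmul n ≫ f) := by rw [L.schemeNsmul_over]; infer_instance
    exact IsProper.of_comp _ f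
  let p : Spec (CommRingCat.of Λ) ⟶ A := P.1
  have hp : p ≫ f = specStr K Λ := P.2
  let φ := pullback.snd (L.schemeNsmul n) p
  have : LocallyOfFiniteType φ :=
    MorphismProperty.IsStableUnderBaseChange.of_isPullback
      (IsPullback.of_hasPullback (L.schemeNsmul n) p) inferInstance
  have : Surjective φ :=
    MorphismProperty.IsStableUnderBaseChange.of_isPullback
      (IsPullback.of_hasPullback (L.schemeNsmul n) p) inferInstance
  have := LocallyOfFiniteType.jacobsonSpace φ
  obtain ⟨z, -⟩ := φ.surjective (IsLocalRing.closedPoint Λ)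
  obtain ⟨x, -, hx⟩ := nonempty_inter_closedPoints (Z := Set.univ) ⟨z, trivial⟩
    isClosed_univ.isLocallyClosed
  let s := pointOfClosedPoint φ x hx ≫ pullback.fst (L.schemeNsmul n) p
  have hs : s ≫ L.schemeNsmul n = p := by
    simp only [s, Category.assoc, pullback.condition]
    rw [← Category.assoc]
    erw [pointOfClosedPoint_comp φ x hx]
    rw [Category.id_comp]
  refine ⟨⟨s, ?_⟩, Subtype.ext ?_⟩
  · refine Eq.trans ?_ hp
    rw [← hs, Category.assoc s, L.schemeNsmul_over]
  · exact (nsmul_val L hc n _).trans hs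

omit [IsAlgClosed K] [IsProper f] [AlgebraicGeometry.IsIntegral A] in
/-- The translation by a rational point, as a morphism over the base. -/
def translation (c : (schemePoints f L hc).Pt K) : SchemeHomOver f f :=
  L.mul f (schemeHomOverComp f (by rw [specStr_self, Category.comp_id]) c) RelativeGroupLaw.idPoint

omit [IsAlgClosed K] [IsProper f] [AlgebraicGeometry.IsIntegral A] in
theorem comp_translation (c : (schemePoints f L hc).Pt K) {R : Type u} [CommRing R] [Algebra K R]
    (P : (schemePoints f L hc).Pt R) :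
    P.1 ≫ (translation L hc c).1 =
      ((schemePoints f L hc).map (Algebra.ofId K R) c + P).1 := by
  have h := L.mul_natural f (specStr K R) P.1 P.2
    (schemeHomOverComp f (by rw [specStr_self, Category.comp_id]) c) RelativeGroupLaw.idPoint
  rw [show schemeHomOverComp P.1 P.2 (RelativeGroupLaw.idPoint) = P from
    Subtype.ext (Category.comp_id _)] at h
  have hcst : schemeHomOverComp P.1 P.2
      (schemeHomOverComp f (by rw [specStr_self, Category.comp_id]) c) =
      (schemePoints f L hc).map (Algebra.ofId K R) c := by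
    apply Subtype.ext
    change P.1 ≫ (f ≫ c.1) = specStr K R ≫ c.1
    rw [← Category.assoc, P.2]
  rw [hcst] at h
  exact congrArg Subtype.val h

omit [IsAlgClosed K] [IsProper f] [AlgebraicGeometry.IsIntegral A] in
theorem translation_comp_neg (c : (schemePoints f L hc).Pt K) :
    (translation L hc c).1 ≫ (translation L hc (-c)).1 = 𝟙 A := by
  have h := L.mul_natural f f (translation L hc c).1 (translation L hc c).2
    (schemeHomOverComp f (by rw [specStr_self, Category.comp_id]) (-c)) RelativeGroupLaw.idPoint
  rw [show schemeHomOverComp (translation L hc c).1 (translation L hc c).2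
      (RelativeGroupLaw.idPoint) = translation L hc c from Subtype.ext (Category.comp_id _),
    show schemeHomOverComp (translation L hc c).1 (translation L hc c).2
      (schemeHomOverComp f (by rw [specStr_self, Category.comp_id]) (-c)) =
      schemeHomOverComp f (by rw [specStr_self, Category.comp_id]) (-c) from by
        apply Subtype.ext
        change (translation L hc c).1 ≫ (f ≫ (-c).1) = f ≫ (-c).1
        rw [← Category.assoc, (translation L hc c).2]] at h
  refine (congrArg Subtype.val h).trans ?_
  change (L.mul f _ (L.mul f _ _)).1 = (RelativeGroupLaw.idPoint (f := f)).1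
  rw [← L.mul_assoc, ← L.mul_natural (specStr K K) f f
    (by rw [specStr_self, Category.comp_id]) (-c) c,
    show L.mul (specStr K K) (-c) c = L.one (specStr K K) from L.inv_mul_cancel _ c,
    L.one_natural, L.one_mul]

theorem exists_translate_aux [SmoothOfRelativeDimension g f]
    (M : LocalModel f g (L.one (specStr K K))) (c : (schemePoints f L hc).Pt K)
    {F : Type u} [Field F] [Algebra K F] (q : M.O →ₐ[K] F) (hq : Function.Injective q) :
    ∃ φ₁ : M.O →ₐ[K] F, Function.Injective φ₁ ∧
      (schemePoints f L hc).map φ₁ M.point =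
        (schemePoints f L hc).map (Algebra.ofId K F) c + (schemePoints f L hc).map q M.point := by
  let Q := (schemePoints f L hc).map (Algebra.ofId K F) c + (schemePoints f L hc).map q M.point
  have hτ : IsIso (translation L hc c).1 := ⟨(translation L hc (-c)).1,
    translation_comp_neg L hc c, by simpa using translation_comp_neg L hc (-c)⟩
  have hηgen : ((schemePoints f L hc).map q M.point).1 (IsLocalRing.closedPoint F) = genericPoint A :=
    M.apply_generic q hq
  have hQgen : Q.1 (IsLocalRing.closedPoint F) = genericPoint A := by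
    have h := congrArg (fun m : Spec (CommRingCat.of F) ⟶ A => m (IsLocalRing.closedPoint F))
      (comp_translation L hc c ((schemePoints f L hc).map q M.point))
    refine h.symm.trans ((congrArg (translation L hc c).1 hηgen).trans ?_)
    exact genericPoint_eq_of_isOpenImmersion (translation L hc c).1
  have hgenC : genericPoint A ∈ M.C.V :=
    ((genericPoint_spec A).mem_open_set_iff M.C.V.isOpen).2
      ⟨_, trivial, M.C.range_pointOfHom M.e (Set.mem_range_self (IsLocalRing.closedPoint K))⟩
  obtain ⟨φ₀, hφ₀⟩ := M.C.exists_pointOfHom_eq_of_local Q (hQgen.symm ▸ hgenC)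
  have hφ₀inj : Function.Injective φ₀ :=
    (M.C.apply_eq_genericPoint_iff φ₀).1 (by rw [hφ₀]; exact hQgen)
  let φ₁ : M.O →ₐ[K] F := IsLocalization.liftAlgHom (M := (RingHom.ker M.e).primeCompl) (f := φ₀)
    fun s => isUnit_iff_ne_zero.2 fun h => s.2 (by
      rw [(injective_iff_map_eq_zero φ₀).1 hφ₀inj _ h]; simp)
  have hφ₁ : φ₁.comp M.toO = φ₀ := AlgHom.ext fun b => IsLocalization.lift_eq _ _
  have hφ₁inj : Function.Injective φ₁ := by
    rw [injective_iff_map_eq_zero]
    intro x hx
    obtain ⟨⟨b, s⟩, hbs⟩ := IsLocalization.surj (RingHom.ker M.e).primeCompl x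
    have h := congrArg φ₁ hbs
    rw [map_mul, hx, zero_mul] at h
    have hb : b = 0 := (injective_iff_map_eq_zero φ₀).1 hφ₀inj b
      ((AlgHom.congr_fun hφ₁ b).symm.trans h.symm)
    subst hb
    rw [map_zero] at hbs
    exact (IsLocalization.map_units M.O s).mul_left_eq_zero.1 hbs
  refine ⟨φ₁, hφ₁inj, ?_⟩
  change RPoint.map f φ₁ (M.C.pointOfHom M.toO) = Q
  rw [M.C.map_pointOfHom, hφ₁]
  exact hφ₀

end Group

end Fermat.Agent.AbelianVariety
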