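/-
Rational functions on an integral scheme over a field, and their values at points.
-/
import Fermat.Agent.AbelianVariety.SecondGeneric

set_option autoImplicit false

noncomputable section

open CategoryTheory CategoryTheory.Limits AlgebraicGeometry NeronModelInfra GoodReductionJacobian
open TopologicalSpace Opposite

namespace Fermat.Agent.AbelianVariety

universe u

variable {K : Type u} [Field K] {A : Scheme.{u}} (f : A ⟶ Spec (CommRingCat.of K))

section Eval

/-- The value of a section at a point lying in its domain. -/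
def sectionEval {R : Type u} [CommRing R] [Algebra K R] (U : A.Opens) (P : RPoint f R)
    (hP : Set.range P.1 ⊆ U) : Γ(A, U) →+* R :=
  (P.1.appLE U ⊤ (fun y _ => hP ⟨y, rfl⟩) ≫ (Scheme.ΓSpecIso (CommRingCat.of R)).hom).hom

theorem appLE_specMap_comp {B : Scheme.{u}} {R S : CommRingCat.{u}} (p : Spec R ⟶ B) (φ : R ⟶ S)
    (U : B.Opens) (e : ⊤ ≤ p ⁻¹ᵁ U) (e' : ⊤ ≤ (Spec.map φ ≫ p) ⁻¹ᵁ U) :
    (Spec.map φ ≫ p).appLE U ⊤ e' ≫ (Scheme.ΓSpecIso S).hom =
      p.appLE U ⊤ e ≫ (Scheme.ΓSpecIso R).hom ≫ φ := by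
  have h1 : (Spec.map φ ≫ p).appLE U ⊤ e' = p.appLE U ⊤ e ≫ (Spec.map φ).appTop := by
    rw [← Scheme.Hom.appLE_comp_appLE (Spec.map φ) p U ⊤ ⊤ e le_top]
    exact congrArg (fun m => p.appLE U ⊤ e ≫ m) (Scheme.Hom.appLE_eq_app (Spec.map φ) (U := ⊤))
  rw [h1, Category.assoc, Scheme.ΓSpecIso_naturality]

theorem range_map_subset {R S : Type u} [CommRing R] [Algebra K R] [CommRing S] [Algebra K S]
    (φ : R →ₐ[K] S) {U : A.Opens} {P : RPoint f R} (hP : Set.range P.1 ⊆ U) :
    Set.range (RPoint.map f φ P).1 ⊆ U := by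
  rintro _ ⟨y, rfl⟩
  exact hP ⟨Spec.map (CommRingCat.ofHom φ.toRingHom) y, rfl⟩

theorem sectionEval_map {R S : Type u} [CommRing R] [Algebra K R] [CommRing S] [Algebra K S]
    (φ : R →ₐ[K] S) (U : A.Opens) (P : RPoint f R) (hP : Set.range P.1 ⊆ U) (s : Γ(A, U)) :
    φ (sectionEval f U P hP s) =
      sectionEval f U (RPoint.map f φ P) (range_map_subset f φ hP) s := by
  have h := (appLE_specMap_comp P.1 (CommRingCat.ofHom φ.toRingHom) U (fun y _ => hP ⟨y, rfl⟩)
    (fun y _ => range_map_subset f φ hP ⟨y, rfl⟩)).symm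
  exact congrArg (fun m => m.hom s) h

theorem sectionEval_res {R : Type u} [CommRing R] [Algebra K R] {U V : A.Opens} (h : V ≤ U)
    (P : RPoint f R) (hP : Set.range P.1 ⊆ V) (s : Γ(A, U)) :
    sectionEval f V P hP (A.presheaf.map (homOfLE h).op s) =
      sectionEval f U P (hP.trans h) s := by
  have e := Scheme.Hom.map_appLE_assoc P.1 (U := V) (U' := U) (V := ⊤) (fun y _ => hP ⟨y, rfl⟩)
    (homOfLE h).op (Scheme.ΓSpecIso (CommRingCat.of R)).hom
  exact congrArg (fun m => m.hom s) e

theorem appLE_fromSpec_comp {B : Scheme.{u}} {V : B.Opens} (hV : IsAffineOpen V)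
    {R : CommRingCat.{u}} (φ : Γ(B, V) ⟶ R) (e : ⊤ ≤ (Spec.map φ ≫ hV.fromSpec) ⁻¹ᵁ V) :
    (Spec.map φ ≫ hV.fromSpec).appLE V ⊤ e ≫ (Scheme.ΓSpecIso R).hom = φ := by
  have h1 : (⊤ : (Spec Γ(B, V)).Opens) ≤ hV.fromSpec ⁻¹ᵁ V := hV.fromSpec_preimage_self.ge
  have h2 : hV.fromSpec.appLE V ⊤ h1 = (Scheme.ΓSpecIso Γ(B, V)).inv := by
    rw [Scheme.Hom.appLE, hV.fromSpec_app_self, Category.assoc, ← Functor.map_comp]
    convert Category.comp_id _
    exact CategoryTheory.Functor.map_id _ _
  rw [appLE_specMap_comp hV.fromSpec φ V h1 e, h2, Iso.inv_hom_id_assoc]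

theorem sectionEval_pointOfHom {R : Type u} [CommRing R] [Algebra K R] (C : Chart f)
    (φ : C.Ring →ₐ[K] R) (s : Γ(A, C.V)) :
    sectionEval f C.V (C.pointOfHom φ) (C.range_pointOfHom φ) s = φ s := by
  exact congrArg (fun m => m.hom s) (appLE_fromSpec_comp C.isAffine
    (CommRingCat.ofHom φ.toRingHom) fun y _ => C.range_pointOfHom φ ⟨y, rfl⟩)

end Eval

section Regular

variable [AlgebraicGeometry.IsIntegral A]

/-- The function field, as an algebra over the base field. -/
def FunField (_f : A ⟶ Spec (CommRingCat.of K)) : Type u := A.functionField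

instance : Field (FunField f) := inferInstanceAs (Field A.functionField)

instance : Algebra K (FunField f) :=
  RingHom.toAlgebra
    (Spec.preimage (A.fromSpecStalk (genericPoint A) ≫ f) :
      CommRingCat.of K ⟶ A.functionField).hom

/-- The germ at the generic point. -/
def germF (U : A.Opens) (hU : genericPoint A ∈ U) : Γ(A, U) →+* FunField f :=
  (A.presheaf.germ U (genericPoint A) hU).hom

theorem germF_injective (U : A.Opens) (hU : genericPoint A ∈ U) :
    Function.Injective (germF f U hU) :=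
  germ_injective_of_isIntegral _ _ _

theorem germF_res {U V : A.Opens} (h : V ≤ U) (hV : genericPoint A ∈ V) (s : Γ(A, U)) :
    germF f V hV (A.presheaf.map (homOfLE h).op s) = germF f U (h hV) s :=
  A.presheaf.germ_res_apply (homOfLE h) (genericPoint A) hV s

theorem genericPoint_mem {U : A.Opens} {x : A} (hx : x ∈ U) : genericPoint A ∈ U :=
  ((genericPoint_spec A).mem_open_set_iff U.isOpen).2 ⟨x, trivial, hx⟩

theorem genericPoint_specializes (p : A) : genericPoint A ⤳ p :=
  (genericPoint_spec A).specializes (Set.mem_univ p)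

/-- The stalk inside the function field. -/
def stalkToFunField (p : A) : A.presheaf.stalk p →+* FunField f :=
  (A.presheaf.stalkSpecializes (genericPoint_specializes p)).hom

/-- The functions regular at a point. -/
def regularAt (p : A) : Subring (FunField f) :=
  (stalkToFunField f p).range

theorem germF_mem_regularAt {U : A.Opens} {p : A} (hp : p ∈ U) (s : Γ(A, U)) :
    germF f U (genericPoint_mem hp) s ∈ regularAt f p :=
  ⟨A.presheaf.germ U p hp s, A.presheaf.germ_stalkSpecializes_apply _ _ _⟩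

theorem exists_open_of_regularAt {p : A} {h : FunField f} (hh : h ∈ regularAt f p) :
    ∃ (U : A.Opens) (hp : p ∈ U) (s : Γ(A, U)), germF f U (genericPoint_mem hp) s = h := by
  obtain ⟨t, rfl⟩ := hh
  obtain ⟨U, hp, s, rfl⟩ := A.presheaf.exists_germ_eq t
  exact ⟨U, hp, s, (A.presheaf.germ_stalkSpecializes_apply _ _ _).symm⟩

theorem exists_section (U : A.Opens) (hU : genericPoint A ∈ U) (h : FunField f)
    (hh : ∀ p ∈ U, h ∈ regularAt f p) : ∃ s : Γ(A, U), germF f U hU s = h := by
  choose W hW s hs using fun p : U => exists_open_of_regularAt f (hh p p.2)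
  have hcov : U ≤ ⨆ p : U, U ⊓ W p := fun x hx =>
    TopologicalSpace.Opens.mem_iSup.2 ⟨⟨x, hx⟩, hx, hW ⟨x, hx⟩⟩
  let sf : ∀ p : U, Γ(A, U ⊓ W p) := fun p =>
    A.presheaf.map (homOfLE (inf_le_right : U ⊓ W p ≤ W p)).op (s p)
  have hsf : ∀ p : U, germF f (U ⊓ W p) (show genericPoint A ∈ U ⊓ W p from ⟨hU, genericPoint_mem (hW p)⟩) (sf p) = h := fun p =>
    (germF_res f _ _ _).trans (hs p)
  obtain ⟨t, ht, -⟩ := A.sheaf.existsUnique_gluing' (fun p : U => U ⊓ W p) U
    (fun p => homOfLE inf_le_left) hcov sf fun p q => by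
      have hg : genericPoint A ∈ (U ⊓ W p) ⊓ (U ⊓ W q) :=
        ⟨⟨hU, genericPoint_mem (hW p)⟩, ⟨hU, genericPoint_mem (hW q)⟩⟩
      apply germF_injective f _ hg
      exact ((germF_res f _ hg _).trans (hsf p)).trans ((germF_res f _ hg _).trans (hsf q)).symm
  refine ⟨t, ?_⟩
  let p₀ : U := ⟨genericPoint A, hU⟩
  have := congrArg (germF f _
    (show genericPoint A ∈ U ⊓ W p₀ from ⟨hU, genericPoint_mem (hW p₀)⟩)) (ht p₀)
  exact ((germF_res f _ _ _).symm.trans this).trans (hsf p₀)

open Classical in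
/-- The value of a rational function at a point in its domain. -/
def val (h : FunField f) {R : Type u} [CommRing R] [Algebra K R] (P : RPoint f R) : R :=
  if H : ∃ (U : A.Opens) (hU : genericPoint A ∈ U) (s : Γ(A, U)),
      Set.range P.1 ⊆ U ∧ germF f U hU s = h then
    sectionEval f H.choose P H.choose_spec.choose_spec.choose_spec.1
      H.choose_spec.choose_spec.choose
  else 0

theorem val_eq {h : FunField f} {R : Type u} [CommRing R] [Algebra K R] {P : RPoint f R}
    (U : A.Opens) (hU : genericPoint A ∈ U) (hP : Set.range P.1 ⊆ U) (s : Γ(A, U))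
    (hs : germF f U hU s = h) : val f h P = sectionEval f U P hP s := by
  have H : ∃ (U : A.Opens) (hU : genericPoint A ∈ U) (s : Γ(A, U)),
      Set.range P.1 ⊆ U ∧ germF f U hU s = h := ⟨U, hU, s, hP, hs⟩
  rw [val, dif_pos H]
  suffices key : ∀ (U' : A.Opens) (hU' : genericPoint A ∈ U') (hP' : Set.range P.1 ⊆ U')
      (s' : Γ(A, U')), germF f U' hU' s' = h →
        sectionEval f U' P hP' s' = sectionEval f U P hP s from
    key _ H.choose_spec.choose _ _ H.choose_spec.choose_spec.choose_spec.2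
  intro U' hU' hP' s' hs'
  have hP2 : Set.range P.1 ⊆ ((U' ⊓ U : A.Opens) : Set A) := fun y hy => ⟨hP' hy, hP hy⟩
  rw [← sectionEval_res f (inf_le_left : U' ⊓ U ≤ U') P hP2,
    ← sectionEval_res f (inf_le_right : U' ⊓ U ≤ U) P hP2]
  refine congrArg _ (germF_injective f _ (show genericPoint A ∈ U' ⊓ U from ⟨hU', hU⟩) ?_)
  rw [germF_res, germF_res]
  exact hs'.trans hs.symm

variable {R : Type u} [CommRing R] [Algebra K R] {P : RPoint f R} {U : A.Opens}
  {hU : genericPoint A ∈ U}

theorem val_map {S : Type u} [CommRing S] [Algebra K S] (φ : R →ₐ[K] S)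
    (hU : genericPoint A ∈ U) (hP : Set.range P.1 ⊆ U) {h : FunField f}
    (hh : ∀ p ∈ U, h ∈ regularAt f p) : φ (val f h P) = val f h (RPoint.map f φ P) := by
  obtain ⟨s, hs⟩ := exists_section f U hU h hh
  rw [val_eq f U hU hP s hs, sectionEval_map, val_eq f U hU (range_map_subset f φ hP) s hs]

theorem val_mul (hU : genericPoint A ∈ U) (hP : Set.range P.1 ⊆ U) {h k : FunField f}
    (hh : ∀ p ∈ U, h ∈ regularAt f p) (hk : ∀ p ∈ U, k ∈ regularAt f p) :
    val f (h * k) P = val f h P * val f k P := by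
  obtain ⟨s, hs⟩ := exists_section f U hU h hh
  obtain ⟨t, ht⟩ := exists_section f U hU k hk
  rw [val_eq f U hU hP s hs, val_eq f U hU hP t ht,
    val_eq f U hU hP (s * t) (by rw [map_mul, hs, ht]), map_mul]

theorem val_one (hU : genericPoint A ∈ U) (hP : Set.range P.1 ⊆ U) : val f 1 P = 1 := by
  rw [val_eq f U hU hP 1 (map_one _), map_one]

theorem isUnit_val (hU : genericPoint A ∈ U) (hP : Set.range P.1 ⊆ U) {h : FunField f}
    (h0 : h ≠ 0) (hh : ∀ p ∈ U, h ∈ regularAt f p) (hi : ∀ p ∈ U, h⁻¹ ∈ regularAt f p) :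
    IsUnit (val f h P) := by
  refine IsUnit.of_mul_eq_one (val f h⁻¹ P) ?_
  rw [← val_mul f hU hP hh hi, mul_inv_cancel₀ h0, val_one f hU hP]

end Regular

section Chart

variable [AlgebraicGeometry.IsIntegral A]

/-- The generic point. -/
def genericRPoint : RPoint f (FunField f) :=
  ⟨A.fromSpecStalk (genericPoint A), (Spec.map_preimage _).symm⟩

namespace Chart

variable {f} (C : Chart f) (hC : genericPoint A ∈ C.V)

/-- Functions on a chart as rational functions. -/
def toFunField : C.Ring →ₐ[K] FunField f :=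
  { germF f C.V hC with
    commutes' := fun r => by
      have e : CommRingCat.ofHom (algebraMap K C.Ring) ≫ A.presheaf.germ C.V (genericPoint A) hC =
          Spec.preimage (A.fromSpecStalk (genericPoint A) ≫ f) := by
        apply Spec.map_injective
        rw [Spec.map_preimage, Spec.map_comp, ← C.isAffine.fromSpecStalk_eq_fromSpecStalk hC,
          IsAffineOpen.fromSpecStalk, Category.assoc, C.fromSpec_comp]
      exact congrArg (fun m => m.hom r) e }

theorem toFunField_injective : Function.Injective (C.toFunField hC) :=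
  germF_injective f C.V hC

theorem pointOfHom_toFunField : C.pointOfHom (C.toFunField hC) = genericRPoint f := by
  apply Subtype.ext
  change Spec.map (A.presheaf.germ C.V (genericPoint A) hC) ≫ C.isAffine.fromSpec = _
  exact C.isAffine.fromSpecStalk_eq_fromSpecStalk hC

theorem toFunField_mem_regularAt {p : A} (hp : p ∈ C.V) (b : C.Ring) :
    C.toFunField hC b ∈ regularAt f p :=
  germF_mem_regularAt f hp b

theorem inv_mem_regularAt {p : A} (hp : p ∈ C.V) (s : C.Ring)
    (hs : s ∉ (C.isAffine.primeIdealOf ⟨p, hp⟩).asIdeal) :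
    (C.toFunField hC s)⁻¹ ∈ regularAt f p := by
  let : Algebra Γ(A, C.V) (A.presheaf.stalk p) :=
    TopCat.Presheaf.algebra_section_stalk A.presheaf ⟨p, hp⟩
  have := C.isAffine.isLocalization_stalk ⟨p, hp⟩
  obtain ⟨w, hw⟩ := IsLocalization.map_units (A.presheaf.stalk p)
    (⟨s, hs⟩ : (C.isAffine.primeIdealOf ⟨p, hp⟩).asIdeal.primeCompl)
  let σ := stalkToFunField f p
  refine ⟨↑w⁻¹, ?_⟩
  refine (eq_inv_of_mul_eq_one_left (?_ : σ ↑w⁻¹ * C.toFunField hC s = 1))
  have hσ : C.toFunField hC s = σ w := by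
    rw [hw]
    exact (A.presheaf.germ_stalkSpecializes_apply _ _ _).symm
  rw [hσ]
  refine (map_mul σ _ _).symm.trans ?_
  rw [Units.inv_mul, map_one]

theorem exists_fraction_of_regularAt {p : A} (hp : p ∈ C.V) {h : FunField f}
    (hh : h ∈ regularAt f p) : ∃ b s : C.Ring, s ∉ (C.isAffine.primeIdealOf ⟨p, hp⟩).asIdeal ∧
      h * C.toFunField hC s = C.toFunField hC b := by
  obtain ⟨t, rfl⟩ := hh
  let : Algebra Γ(A, C.V) (A.presheaf.stalk p) :=
    TopCat.Presheaf.algebra_section_stalk A.presheaf ⟨p, hp⟩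
  have := C.isAffine.isLocalization_stalk ⟨p, hp⟩
  obtain ⟨⟨b, s⟩, hbs⟩ :=
    IsLocalization.surj (C.isAffine.primeIdealOf ⟨p, hp⟩).asIdeal.primeCompl t
  let σ := stalkToFunField f p
  refine ⟨b, s, s.2, ?_⟩
  have hσ : ∀ z : C.Ring, C.toFunField hC z = σ (algebraMap Γ(A, C.V) (A.presheaf.stalk p) z) :=
    fun z => (A.presheaf.germ_stalkSpecializes_apply _ _ _).symm
  rw [hσ, hσ]
  exact (map_mul σ _ _).symm.trans (congrArg σ hbs)

theorem exists_fraction (h : FunField f) : ∃ b s : C.Ring, s ≠ 0 ∧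
    h * C.toFunField hC s = C.toFunField hC b := by
  obtain ⟨b, s, hs, e⟩ := C.exists_fraction_of_regularAt hC (p := genericPoint A) hC (h := h)
    ⟨h, by
      change (A.presheaf.stalkSpecializes _).hom h = h
      erw [TopCat.Presheaf.stalkSpecializes_refl]; rfl⟩
  exact ⟨b, s, fun hz => hs (by rw [hz]; exact zero_mem _), e⟩

end Chart

theorem algebraMap_mem_regularAt (p : A) (r : K) : algebraMap K (FunField f) r ∈ regularAt f p := by
  obtain ⟨C, hp⟩ := exists_chart_mem f p
  rw [← (C.toFunField (genericPoint_mem hp)).commutes r]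
  exact C.toFunField_mem_regularAt _ hp _

namespace LocalModel

variable {f} {g : ℕ} {c : RPoint f K} (M : LocalModel f g c)

theorem generic_mem : genericPoint A ∈ M.C.V :=
  genericPoint_mem (M.C.range_pointOfHom M.e (Set.mem_range_self (IsLocalRing.closedPoint K)))

/-- The local ring inside the function field. -/
def toFunField : M.O →ₐ[K] FunField f :=
  IsLocalization.liftAlgHom (M := (RingHom.ker M.e).primeCompl)
    (f := M.C.toFunField M.generic_mem) fun s =>
      isUnit_iff_ne_zero.2 fun h => s.2 (by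
        rw [(injective_iff_map_eq_zero _).1 (M.C.toFunField_injective _) _ h]; simp)

theorem toFunField_toO (b : M.C.Ring) :
    M.toFunField (M.toO b) = M.C.toFunField M.generic_mem b :=
  IsLocalization.lift_eq _ _

theorem toFunField_injective : Function.Injective M.toFunField := by
  rw [injective_iff_map_eq_zero]
  intro x hx
  obtain ⟨⟨b, s⟩, hbs⟩ := IsLocalization.surj (RingHom.ker M.e).primeCompl x
  have h : M.toFunField x * M.toFunField (M.toO s) = M.toFunField (M.toO b) :=
    (map_mul M.toFunField _ _).symm.trans (congrArg M.toFunField hbs)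
  rw [hx, zero_mul, toFunField_toO] at h
  obtain rfl : b = 0 := (injective_iff_map_eq_zero _).1 (M.C.toFunField_injective _) b h.symm
  rw [map_zero] at hbs
  exact (IsLocalization.map_units M.O s).mul_left_eq_zero.1 hbs

theorem map_toFunField_univ : RPoint.map f M.toFunField M.univ = genericRPoint f := by
  rw [univ, M.C.map_pointOfHom, ← M.C.pointOfHom_toFunField M.generic_mem]
  exact congrArg M.C.pointOfHom (AlgHom.ext M.toFunField_toO)

theorem mem_regularAt_iff [IsAlgClosed K] [LocallyOfFiniteType f] (h : FunField f) :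
    h ∈ regularAt f (base f c) ↔ ∃ y, M.toFunField y = h := by
  have hb : base f c ∈ M.C.V := by
    exact congrArg (base f) M.point_eq ▸ M.C.range_pointOfHom M.e (Set.mem_range_self _)
  have hprime : (M.C.isAffine.primeIdealOf ⟨base f c, hb⟩).asIdeal = RingHom.ker M.e := by
    have hb' : base f (M.C.pointOfHom M.e) ∈ M.C.V := by rw [M.point_eq]; exact hb
    rw [← primeIdealOf_base f M.C M.e hb']
    congr 3
    exact (congrArg (base f) M.point_eq).symm
  constructor
  · intro hh
    obtain ⟨b, s, hs, e⟩ := M.C.exists_fraction_of_regularAt M.generic_mem hb hh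
    rw [hprime] at hs
    obtain ⟨w, hw⟩ := IsLocalization.map_units M.O (⟨s, hs⟩ : (RingHom.ker M.e).primeCompl)
    refine ⟨M.toO b * ↑w⁻¹, ?_⟩
    have hw' : (w : M.O) = M.toO s := hw
    have hne : M.C.toFunField M.generic_mem s ≠ 0 := fun h0 => hs (by
      rw [(injective_iff_map_eq_zero _).1 (M.C.toFunField_injective _) _ h0]; simp)
    apply mul_right_cancel₀ hne
    rw [e, ← M.toFunField_toO s, ← map_mul, mul_assoc, ← hw', Units.inv_mul, mul_one,
      toFunField_toO]
  · rintro ⟨y, rfl⟩
    obtain ⟨⟨b, s⟩, hbs⟩ := IsLocalization.surj (RingHom.ker M.e).primeCompl y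
    have hne : M.C.toFunField M.generic_mem s ≠ 0 := fun h0 => s.2 (by
      rw [(injective_iff_map_eq_zero _).1 (M.C.toFunField_injective _) _ h0]; simp)
    have e : M.toFunField y = M.C.toFunField M.generic_mem b *
        (M.C.toFunField M.generic_mem s)⁻¹ := by
      rw [eq_mul_inv_iff_mul_eq₀ hne, ← M.toFunField_toO, ← M.toFunField_toO, ← map_mul]
      exact congrArg M.toFunField hbs
    rw [e]
    exact mul_mem (M.C.toFunField_mem_regularAt _ hb _)
      (M.C.inv_mem_regularAt _ hb _ (by rw [hprime]; exact s.2))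

end LocalModel

end Chart

end Fermat.Agent.AbelianVariety
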