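/-
The divisor of poles of finitely many rational functions on a smooth integral scheme over an
algebraically closed field, as a line bundle given by local equations, and its sections.
-/
import Fermat.Agent.AbelianVariety.SecondSections

set_option autoImplicit false

noncomputable section

open CategoryTheory CategoryTheory.Limits AlgebraicGeometry NeronModelInfra GoodReductionJacobian
open TopologicalSpace Opposite

namespace Fermat.Agent.AbelianVariety

universe u

variable {K : Type u} [Field K] {A : Scheme.{u}} (f : A ⟶ Spec (CommRingCat.of K))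
  [AlgebraicGeometry.IsIntegral A]

/-- At `p`, the element `a` generates the ideal of functions `b` with `b` and `b * x` regular. -/
structure IsGen (p : A) (x a : FunField f) : Prop where
  ne_zero : a ≠ 0
  mem : a ∈ regularAt f p
  mul_reg : a * x ∈ regularAt f p
  div_mem : ∀ b ∈ regularAt f p, b * x ∈ regularAt f p → b / a ∈ regularAt f p

variable {f}

theorem IsGen.inv_mem {p : A} {x a : FunField f} (h : IsGen f p x a) (hx : x ∈ regularAt f p) :
    a⁻¹ ∈ regularAt f p := by
  simpa using h.div_mem 1 (one_mem _) (by rwa [one_mul])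

theorem IsGen.div_gen {p : A} {x a a' : FunField f} (h : IsGen f p x a) (h' : IsGen f p x a') :
    a / a' ∈ regularAt f p :=
  h'.div_mem a h.mem h.mul_reg

omit [AlgebraicGeometry.IsIntegral A] in
theorem exists_chart_mem_le {p : A} {U : A.Opens} (hp : p ∈ U) :
    ∃ C : Chart f, p ∈ C.V ∧ C.V ≤ U := by
  obtain ⟨V, hV, hx, hle⟩ := exists_isAffineOpen_mem_and_subset hp
  exact ⟨⟨V, hV⟩, hx, hle⟩

section Existence

variable [IsAlgClosed K] [LocallyOfFiniteType f]

variable (f) in
theorem exists_isGen_closed (g : ℕ) [SmoothOfRelativeDimension g f] (x : FunField f)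
    (c : RPoint f K) : ∃ a, IsGen f (base f c) x a := by
  obtain ⟨M⟩ := nonempty_localModel f g c
  obtain ⟨b, s, hs, hbs⟩ := M.C.exists_fraction M.generic_mem x
  let num := M.toO b
  let den := M.toO s
  have hden : M.toFunField den ≠ 0 := by
    change M.toFunField (M.toO s) ≠ 0
    rw [M.toFunField_toO]
    exact (map_ne_zero_iff _ (M.C.toFunField_injective _)).2 hs
  have hden0 : den ≠ 0 := fun h => hden (by rw [h, map_zero])
  have hx : x * M.toFunField den = M.toFunField num := by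
    change x * M.toFunField (M.toO s) = M.toFunField (M.toO b)
    rw [M.toFunField_toO, M.toFunField_toO]
    exact hbs
  have : IsDomain (MvPowerSeries (Fin g) K) := NoZeroDivisors.to_isDomain _
  have := ufm_mvPowerSeries (k := K) g
  obtain ⟨j, hj⟩ := exists_colon_eq_span_of_dense (M.expand : M.O →+* MvPowerSeries (Fin g) K)
    M.expand_injective M.comap_expand_pow M.dense den num hden0
  have hne : M.toFunField j ≠ 0 := fun h => by
    obtain ⟨r, hr⟩ := (hj den).1 (dvd_mul_left _ _)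
    exact hden (by rw [hr, map_mul, h, zero_mul])
  refine ⟨M.toFunField j, hne, (M.mem_regularAt_iff _).2 ⟨_, rfl⟩, ?_, ?_⟩
  · obtain ⟨q, hq⟩ := (hj j).2 dvd_rfl
    refine (M.mem_regularAt_iff _).2 ⟨q, mul_right_cancel₀ hden ?_⟩
    rw [mul_assoc, hx, ← map_mul, ← map_mul, mul_comm j, hq, mul_comm den]
  · intro y hy hyx
    obtain ⟨y, rfl⟩ := (M.mem_regularAt_iff _).1 hy
    obtain ⟨q, hq⟩ := (M.mem_regularAt_iff _).1 hyx
    have hdvd : den ∣ num * y := ⟨q, M.toFunField_injective (by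
      rw [map_mul, map_mul, hq, ← hx]; ring)⟩
    obtain ⟨w, rfl⟩ := (hj y).1 hdvd
    exact (M.mem_regularAt_iff _).2 ⟨w, by rw [map_mul, mul_div_cancel_left₀ _ hne]⟩

omit [IsAlgClosed K] in
theorem IsGen.exists_open {q : A} {x a : FunField f} (h : IsGen f q x a) :
    ∃ U : A.Opens, q ∈ U ∧ ∀ p ∈ U, IsGen f p x a := by
  classical
  obtain ⟨U₁, hq₁, s₁, hs₁⟩ := exists_open_of_regularAt f h.mem
  obtain ⟨U₂, hq₂, s₂, hs₂⟩ := exists_open_of_regularAt f h.mul_reg
  obtain ⟨C, hqC, hle⟩ := exists_chart_mem_le (f := f)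
    (show q ∈ U₁ ⊓ U₂ from ⟨hq₁, hq₂⟩)
  let ι := C.toFunField (genericPoint_mem hqC)
  have hι : Function.Injective ι := C.toFunField_injective _
  let a' : C.Ring := A.presheaf.map (homOfLE (hle.trans inf_le_left)).op s₁
  let e' : C.Ring := A.presheaf.map (homOfLE (hle.trans inf_le_right)).op s₂
  have ha : ι a' = a := (germF_res f _ _ _).trans hs₁
  have he : ι e' = a * x := (germF_res f _ _ _).trans hs₂
  have : IsNoetherianRing C.Ring := Algebra.FiniteType.isNoetherianRing K C.Ring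
  let I : Ideal C.Ring := Submodule.comap (LinearMap.mulRight C.Ring e') (Ideal.span {a'})
  have hI : ∀ β, β ∈ I ↔ ∃ r, β * e' = r * a' := fun β => by
    simp [I, Ideal.mem_span_singleton', eq_comm]
  obtain ⟨G, hG⟩ := IsNoetherian.noetherian I
  let P := (C.isAffine.primeIdealOf ⟨q, hqC⟩).asIdeal
  have hloc : ∀ β ∈ G, ∃ w r, w ∉ P ∧ β * w = r * a' := fun β hβ => by
    obtain ⟨r, hr⟩ := (hI β).1 (hG ▸ Ideal.subset_span hβ)
    have hβx : ι β * x = ι r := by
      have h2 := congrArg ι hr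
      rw [map_mul, map_mul, he, ha] at h2
      exact mul_right_cancel₀ h.ne_zero (by linear_combination h2)
    have hd := h.div_mem (ι β) (C.toFunField_mem_regularAt _ hqC _)
      (hβx ▸ C.toFunField_mem_regularAt _ hqC _)
    obtain ⟨r', w, hw, hrw⟩ := C.exists_fraction_of_regularAt (genericPoint_mem hqC) hqC hd
    refine ⟨w, r', hw, hι ?_⟩
    rw [map_mul, map_mul, ha]
    calc ι β * ι w = ι β / a * ι w * a := by field_simp [h.ne_zero]
      _ = ι r' * a := by rw [hrw]
  choose! w r hw hr using hloc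
  let W := ∏ β ∈ G, w β
  have hWP : W ∉ P := fun hmem => by
    obtain ⟨β, hβ, hβw⟩ := (Ideal.IsPrime.prod_mem_iff (p := P)).1 hmem
    exact hw β hβ hβw
  have hspan : ∀ β ∈ I, ∃ t, β * W = t * a' := by
    have hle' : I ≤ Submodule.comap (LinearMap.mulRight C.Ring W) (Ideal.span {a'}) := by
      rw [← hG, Submodule.span_le]
      intro β hβ
      refine Ideal.mem_span_singleton'.2 ⟨r β * ∏ γ ∈ G.erase β, w γ, ?_⟩
      change _ = β * W
      rw [show W = w β * ∏ γ ∈ G.erase β, w γ from (Finset.mul_prod_erase G w hβ).symm]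
      linear_combination -(∏ γ ∈ G.erase β, w γ) * hr β hβ
    intro β hβ
    obtain ⟨t, ht⟩ := Ideal.mem_span_singleton'.1 (hle' hβ)
    exact ⟨t, ht.symm⟩
  refine ⟨A.basicOpen W, ?_, fun p hp => ?_⟩
  · let : Algebra Γ(A, C.V) (A.presheaf.stalk q) :=
      TopCat.Presheaf.algebra_section_stalk A.presheaf ⟨q, hqC⟩
    have := C.isAffine.isLocalization_stalk ⟨q, hqC⟩
    rw [Scheme.mem_basicOpen _ _ q hqC]
    exact IsLocalization.map_units (A.presheaf.stalk q) (⟨W, hWP⟩ : P.primeCompl)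
  · have hpC : p ∈ C.V := A.basicOpen_le W hp
    have hWinv : (ι W)⁻¹ ∈ regularAt f p := by
      refine C.inv_mem_regularAt _ hpC W fun hmem => ?_
      let : Algebra Γ(A, C.V) (A.presheaf.stalk p) :=
        TopCat.Presheaf.algebra_section_stalk A.presheaf ⟨p, hpC⟩
      have := C.isAffine.isLocalization_stalk ⟨p, hpC⟩
      have hu : IsUnit (algebraMap Γ(A, C.V) (A.presheaf.stalk p) W) :=
        (Scheme.mem_basicOpen _ _ p hpC).1 hp
      exact ((IsLocalization.AtPrime.isUnit_to_map_iff (A.presheaf.stalk p)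
        (C.isAffine.primeIdealOf ⟨p, hpC⟩).asIdeal W).1 hu) hmem
    refine ⟨h.ne_zero, ha ▸ C.toFunField_mem_regularAt _ hpC _,
      he ▸ C.toFunField_mem_regularAt _ hpC _, fun b hb hbx => ?_⟩
    obtain ⟨β, u₁, hu₁, hb₁⟩ := C.exists_fraction_of_regularAt (genericPoint_mem hpC) hpC hb
    obtain ⟨γ, u₂, hu₂, hb₂⟩ := C.exists_fraction_of_regularAt (genericPoint_mem hpC) hpC hbx
    change b * ι u₁ = ι β at hb₁
    change b * x * ι u₂ = ι γ at hb₂
    have hmem : β * u₂ ∈ I := (hI _).2 ⟨γ * u₁, hι (by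
      rw [map_mul, map_mul, map_mul, map_mul, he, ha, ← hb₁, ← hb₂]; ring)⟩
    obtain ⟨t, ht⟩ := hspan _ hmem
    have hu0 : ∀ u : C.Ring, u ∉ (C.isAffine.primeIdealOf ⟨p, hpC⟩).asIdeal → ι u ≠ 0 :=
      fun u hu h0 => hu (by rw [(injective_iff_map_eq_zero ι).1 hι u h0]; exact zero_mem _)
    have hW0 : ι W ≠ 0 := fun h0 => hWP (by
      rw [(injective_iff_map_eq_zero ι).1 hι W h0]; exact zero_mem _)
    have key : b / a = ι t * ((ι u₁)⁻¹ * (ι u₂)⁻¹ * (ι W)⁻¹) := by
      have h1 : b * ι u₁ * ι u₂ * ι W = ι t * a := by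
        rw [hb₁, ← ha, ← map_mul, ← map_mul, ← map_mul, ht]
      have := hu0 u₁ hu₁
      have := hu0 u₂ hu₂
      have := h.ne_zero
      field_simp
      linear_combination h1
    rw [key]
    exact mul_mem (C.toFunField_mem_regularAt _ hpC _) (mul_mem (mul_mem
      (C.inv_mem_regularAt _ hpC _ hu₁) (C.inv_mem_regularAt _ hpC _ hu₂)) hWinv)

variable (f) in
theorem exists_isGen_open (g : ℕ) [SmoothOfRelativeDimension g f] (x : FunField f) (p : A) :
    ∃ (U : A.Opens) (a : FunField f), p ∈ U ∧ ∀ q ∈ U, IsGen f q x a := by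
  have := LocallyOfFiniteType.jacobsonSpace f
  obtain ⟨z, hz, hzc⟩ := nonempty_inter_closedPoints (Z := closure ({p} : Set A))
    ⟨p, subset_closure rfl⟩ isClosed_closure.isLocallyClosed
  obtain ⟨c, rfl⟩ := exists_base_eq f hzc
  obtain ⟨a, ha⟩ := exists_isGen_closed f g x c
  obtain ⟨U, hcU, hU⟩ := ha.exists_open
  exact ⟨U, a, (specializes_iff_mem_closure.2 hz).mem_open U.isOpen hcU, hU⟩

end Existence

variable (f) in
/-- An affine open with local equations of the polar divisors of the functions `x`. -/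
structure EqChart {m : ℕ} (x : Fin m → FunField f) where
  /-- the open -/
  C : Chart f
  gen_mem : genericPoint A ∈ C.V
  /-- the equations -/
  a : Fin m → FunField f
  isGen : ∀ p ∈ C.V, ∀ k, IsGen f p (x k) (a k)

namespace EqChart

variable {m : ℕ} {x : Fin m → FunField f}

/-- The equation of the divisor. -/
def eqn (i : EqChart f x) : FunField f := ∏ k, i.a k

theorem eqn_ne_zero (i : EqChart f x) : i.eqn ≠ 0 :=
  Finset.prod_ne_zero_iff.2 fun k _ => (i.isGen _ i.gen_mem k).ne_zero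

theorem eqn_mem (i : EqChart f x) {p : A} (hp : p ∈ i.C.V) : i.eqn ∈ regularAt f p :=
  prod_mem fun k _ => (i.isGen p hp k).mem

theorem eqn_mul_mem (i : EqChart f x) {p : A} (hp : p ∈ i.C.V) (k : Fin m) :
    i.eqn * x k ∈ regularAt f p := by
  rw [eqn, ← Finset.mul_prod_erase Finset.univ i.a (Finset.mem_univ k), mul_right_comm]
  exact mul_mem (i.isGen p hp k).mul_reg (prod_mem fun l _ => (i.isGen p hp l).mem)

theorem eqn_div_mem (i j : EqChart f x) {p : A} (hi : p ∈ i.C.V) (hj : p ∈ j.C.V) :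
    i.eqn / j.eqn ∈ regularAt f p := by
  rw [eqn, eqn, ← Finset.prod_div_distrib]
  exact prod_mem fun k _ => (i.isGen p hi k).div_gen (j.isGen p hj k)

variable [IsAlgClosed K] [LocallyOfFiniteType f]

theorem exists_mem (g : ℕ) [SmoothOfRelativeDimension g f] (p : A) :
    ∃ i : EqChart f x, p ∈ i.C.V := by
  choose U a hp ha using fun k => exists_isGen_open f g (x k) p
  obtain ⟨C, hpC, hle⟩ := exists_chart_mem_le (f := f) (U := Finset.univ.inf U) (p := p) (by
    rw [← SetLike.mem_coe, TopologicalSpace.Opens.coe_finset_inf]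
    simp [hp])
  exact ⟨⟨C, genericPoint_mem hpC, a, fun q hq k =>
    ha k q ((Finset.inf_le (f := U) (Finset.mem_univ k)) (hle hq))⟩, hpC⟩

end EqChart

section Bundle

variable [IsAlgClosed K] [IsProper f] (L : RelativeGroupLaw K f) (hc : L.IsCommutative)
  (g : ℕ) [SmoothOfRelativeDimension g f] {m : ℕ} (x : Fin m → FunField f)

omit [AlgebraicGeometry.IsIntegral A] [IsAlgClosed K] [IsProper f] in
theorem in_reflect_open {R S : Type u} [CommRing R] [IsLocalRing R] [Algebra K R] [CommRing S]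
    [IsLocalRing S] [Algebra K S] (φ : R →ₐ[K] S) (hφ : IsLocalHom (φ : R →+* S))
    (P : RPoint f R) (U : A.Opens) (h : Set.range (RPoint.map f φ P).1 ⊆ U) :
    Set.range P.1 ⊆ U := by
  refine (Chart.apply_mem_iff_range_subset P U).1 ?_
  have h1 : Spec.map (CommRingCat.ofHom φ.toRingHom) (IsLocalRing.closedPoint S) =
      IsLocalRing.closedPoint R := IsLocalRing.comap_closedPoint (φ : R →+* S)
  rw [← h1]
  exact h ⟨IsLocalRing.closedPoint S, rfl⟩

omit [AlgebraicGeometry.IsIntegral A] [IsAlgClosed K] in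
theorem in_spread_chart (C : Chart f) {E : Type u} [Field E] [Algebra K E] (P : RPoint f E)
    (hP : Set.range P.1 ⊆ C.V) :
    ∃ s : Finset E, ∀ (V : ValuationSubring E) (hV : ∀ a : K, algebraMap K E a ∈ V),
      (∀ x ∈ s, x ∈ V) →
      letI := valuationAlgebra V hV
      ∀ Q : RPoint f V, RPoint.map f (valuationIncl V hV) Q = P → Set.range Q.1 ⊆ C.V := by
  classical
  obtain ⟨φ, rfl⟩ := C.exists_pointOfHom_eq P hP
  obtain ⟨t, ht⟩ := (Algebra.FiniteType.out : (⊤ : Subalgebra K C.Ring).FG)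
  refine ⟨t.image φ, fun V hV hs Q hQ => ?_⟩
  let := valuationAlgebra V hV
  let S : Subalgebra K E := { V.toSubring with algebraMap_mem' := hV }
  have hφ : ∀ b, φ b ∈ V := fun b => by
    have hle : (⊤ : Subalgebra K C.Ring) ≤ S.comap φ := by
      rw [← ht, Algebra.adjoin_le_iff]
      intro y hy
      exact hs _ (Finset.mem_image_of_mem φ hy)
    exact hle (Algebra.mem_top (x := b))
  let ψ : C.Ring →ₐ[K] V :=
    { (φ : C.Ring →+* E).codRestrict V hφ with commutes' := fun r => Subtype.ext (φ.commutes r) }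
  have hQψ : Q = C.pointOfHom ψ := (schemePoints_valuative f E V hV).1 (by
    rw [hQ, C.map_pointOfHom]; rfl)
  rw [hQψ]
  exact C.range_pointOfHom ψ

/-- The transition unit. -/
def transitionUnit {R : Type u} [CommRing R] [Algebra K R] {P : RPoint f R} (i j : EqChart f x)
    (hi : Set.range P.1 ⊆ i.C.V) (hj : Set.range P.1 ⊆ j.C.V) : Rˣ :=
  (isUnit_val f (U := i.C.V ⊓ j.C.V) ⟨i.gen_mem, j.gen_mem⟩ (fun y hy => ⟨hi hy, hj hy⟩)
    (div_ne_zero i.eqn_ne_zero j.eqn_ne_zero) (fun p hp => i.eqn_div_mem j hp.1 hp.2)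
    (fun p hp => by rw [inv_div]; exact j.eqn_div_mem i hp.2 hp.1)).unit

/-- The line bundle of the polar divisor. -/
def divisorBundle : LineData (schemePoints f L hc) where
  ι := EqChart f x
  In i P := Set.range P.1 ⊆ i.C.V
  in_map φ i P h := range_map_subset f φ h
  exists_in {R} _ _ _ P := by
    obtain ⟨i, hi⟩ := EqChart.exists_mem (f := f) (x := x) g (P.1 (IsLocalRing.closedPoint R))
    exact ⟨i, (Chart.apply_mem_iff_range_subset P i.C.V).1 hi⟩
  in_reflect φ hφ i P h := in_reflect_open φ hφ P i.C.V h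
  in_spread P i h := in_spread_chart i.C P h
  g {R} _ _ {i j P} hi hj := transitionUnit x i j hi hj
  g_map {R S} _ _ _ _ φ {i j P} hi hj := val_map f φ (U := i.C.V ⊓ j.C.V) ⟨i.gen_mem, j.gen_mem⟩
    (fun y hy => ⟨hi hy, hj hy⟩) fun p hp => i.eqn_div_mem j hp.1 hp.2
  g_cocycle {R} _ _ {i j l P} hi hj hl := Units.ext (by
    change val f (i.eqn / j.eqn) P * val f (j.eqn / l.eqn) P = val f (i.eqn / l.eqn) P
    rw [← val_mul f (U := i.C.V ⊓ j.C.V ⊓ l.C.V) ⟨⟨i.gen_mem, j.gen_mem⟩, l.gen_mem⟩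
      (fun y hy => ⟨⟨hi hy, hj hy⟩, hl hy⟩) (fun p hp => i.eqn_div_mem j hp.1.1 hp.1.2)
      (fun p hp => j.eqn_div_mem l hp.1.2 hp.2), div_mul_div_cancel₀ j.eqn_ne_zero])

/-- The function `y` as a section, when its poles are bounded by the divisor. -/
def divisorSection (y : FunField f)
    (hy : ∀ i : EqChart f x, ∀ p ∈ i.C.V, i.eqn * y ∈ regularAt f p) :
    (divisorBundle L hc g x).Section where
  val {R} _ _ {i P} _ := val f (i.eqn * y) P
  val_map {R S} _ _ _ _ φ {i P} hi :=
    val_map f φ (U := i.C.V) i.gen_mem hi (hy i)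
  val_eq {R} _ _ {i j P} hi hj := by
    change val f (i.eqn * y) P = val f (i.eqn / j.eqn) P * val f (j.eqn * y) P
    rw [← val_mul f (U := i.C.V ⊓ j.C.V) ⟨i.gen_mem, j.gen_mem⟩
      (fun z hz => ⟨hi hz, hj hz⟩) (fun p hp => i.eqn_div_mem j hp.1 hp.2)
      (fun p hp => hy j p hp.2)]
    congr 1
    field_simp [j.eqn_ne_zero]

/-- The sections `1, x 0, x 1, ...`. -/
def divisorSec (k : Fin (m + 1)) : (divisorBundle L hc g x).Section :=
  divisorSection L hc g x (Fin.cons (α := fun _ => FunField f) 1 x k) fun i p hp => by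
    induction k using Fin.cases with
    | zero => rw [Fin.cons_zero, mul_one]; exact i.eqn_mem hp
    | succ k => rw [Fin.cons_succ]; exact i.eqn_mul_mem hp k

end Bundle

end Fermat.Agent.AbelianVariety
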