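/-
The locus where the polar divisor of the coordinates of an affine open is trivial is that open.
-/
import Fermat.Agent.AbelianVariety.SecondDivisor

set_option autoImplicit false

noncomputable section

open CategoryTheory CategoryTheory.Limits AlgebraicGeometry NeronModelInfra GoodReductionJacobian
open TopologicalSpace Opposite

namespace Fermat.Agent.AbelianVariety

universe u

variable {K : Type u} [Field K] {A : Scheme.{u}} {f : A ⟶ Spec (CommRingCat.of K)}
  [AlgebraicGeometry.IsIntegral A]

theorem inv_mem_of_isUnit_val (c : RPoint f K) (h : FunField f) (V : A.Opens)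
    (hc : base f c ∈ V) (hh : ∀ p ∈ V, h ∈ regularAt f p) (hu : IsUnit (val f h c)) :
    h⁻¹ ∈ regularAt f (base f c) := by
  have hP : Set.range c.1 ⊆ V := (Chart.apply_mem_iff_range_subset c V).1 hc
  obtain ⟨s, rfl⟩ := exists_section f V (genericPoint_mem hc) h hh
  rw [val_eq f V _ hP s rfl] at hu
  have hu' : IsUnit (c.1.appLE V ⊤ (fun y _ => hP ⟨y, rfl⟩) s) := by
    have h1 := hu.map (Scheme.ΓSpecIso (CommRingCat.of K)).inv.hom
    have h2 := congrArg (fun m => (CommRingCat.Hom.hom m) (c.1.appLE V ⊤ (fun y _ => hP ⟨y, rfl⟩) s))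
      (Scheme.ΓSpecIso (CommRingCat.of K)).hom_inv_id
    exact h2 ▸ h1
  have hmem : base f c ∈ A.basicOpen s := by
    have hb := (Spec (CommRingCat.of K)).basicOpen_of_isUnit hu'
    erw [Scheme.basicOpen_appLE] at hb
    have : IsLocalRing.closedPoint K ∈ (⊤ : (Spec (CommRingCat.of K)).Opens) ⊓
        c.1 ⁻¹ᵁ A.basicOpen s := hb.symm ▸ trivial
    exact this.2
  obtain ⟨w, hw⟩ := (Scheme.mem_basicOpen _ _ _ hc).1 hmem
  refine ⟨↑w⁻¹, eq_inv_of_mul_eq_one_left ?_⟩
  have hs : germF f V (genericPoint_mem hc) s = stalkToFunField f (base f c) w := by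
    rw [hw]
    exact (A.presheaf.germ_stalkSpecializes_apply _ _ _).symm
  rw [hs]
  refine (map_mul (stalkToFunField f (base f c)) _ _).symm.trans ?_
  rw [Units.inv_mul, map_one]

section Locus

variable [IsAlgClosed K] [IsProper f]

/-- An affine open containing all functions regular at a rational point contains that point. -/
theorem base_mem_of_regular (g : ℕ) [SmoothOfRelativeDimension g f] (C : Chart f)
    (hC : genericPoint A ∈ C.V) (c : RPoint f K)
    (h : ∀ b, C.toFunField hC b ∈ regularAt f (base f c)) : base f c ∈ C.V := by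
  obtain ⟨M⟩ := nonempty_localModel f g c
  obtain ⟨V, hV⟩ :=
    LocalSubring.exists_le_valuationSubring (LocalSubring.range (M.toFunField : M.O →+* FunField f))
  obtain ⟨hle, hloc⟩ := hV
  have hVK : ∀ a : K, algebraMap K (FunField f) a ∈ V := fun a =>
    hle ⟨algebraMap K M.O a, M.toFunField.commutes a⟩
  let := valuationAlgebra V hVK
  let ψ : M.O →ₐ[K] V :=
    { (M.toFunField : M.O →+* FunField f).codRestrict V fun x => hle ⟨x, rfl⟩ with
      commutes' := fun a => Subtype.ext (M.toFunField.commutes a) }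
  have hψ : IsLocalHom (ψ : M.O →+* V) := by
    have h1 : IsLocalHom (M.toFunField : M.O →+* FunField f).rangeRestrict :=
      IsLocalHom.of_surjective _ (RingHom.rangeRestrict_surjective _)
    have h2 : IsLocalHom
        ((Subring.inclusion hle).comp (M.toFunField : M.O →+* FunField f).rangeRestrict) :=
      @RingHom.isLocalHom_comp _ _ _ _ _ _ _ _ hloc h1
    exact ⟨fun x hx => h2.map_nonunit x hx⟩
  have hB : ∀ b, C.toFunField hC b ∈ V := fun b => by
    obtain ⟨y, hy⟩ := (M.mem_regularAt_iff _).1 (h b)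
    exact hy ▸ hle ⟨y, rfl⟩
  let χ : C.Ring →ₐ[K] V :=
    { (C.toFunField hC : C.Ring →+* FunField f).codRestrict V hB with
      commutes' := fun a => Subtype.ext ((C.toFunField hC).commutes a) }
  have heq : RPoint.map f ψ M.univ = C.pointOfHom χ := by
    apply (schemePoints_valuative f (FunField f) V hVK).1
    rw [C.map_pointOfHom, show (valuationIncl V hVK).comp χ = C.toFunField hC from
      AlgHom.ext fun _ => rfl, C.pointOfHom_toFunField]
    apply Eq.trans _ M.map_toFunField_univ
    rw [LocalModel.univ, M.C.map_pointOfHom, M.C.map_pointOfHom, M.C.map_pointOfHom]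
    rfl
  have hmem : (RPoint.map f ψ M.univ).1 (IsLocalRing.closedPoint V) ∈ C.V :=
    heq ▸ C.range_pointOfHom χ (Set.mem_range_self _)
  have h1 : Spec.map (CommRingCat.ofHom ψ.toRingHom) (IsLocalRing.closedPoint V) =
      IsLocalRing.closedPoint M.O := IsLocalRing.comap_closedPoint (ψ : M.O →+* V)
  have hev : IsLocalHom (M.ev : M.O →+* K) := M.isLocalHom_of_comp _ fun x hx => by simp [hx]
  have h2 : Spec.map (CommRingCat.ofHom M.ev.toRingHom) (IsLocalRing.closedPoint K) =
      IsLocalRing.closedPoint M.O := IsLocalRing.comap_closedPoint (M.ev : M.O →+* K)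
  have h3 : base f c = (RPoint.map f ψ M.univ).1 (IsLocalRing.closedPoint V) := by
    refine ((congrArg (base f) M.map_ev_univ).symm.trans ?_)
    exact congrArg M.univ.1 (h2.trans h1.symm)
  exact h3 ▸ hmem

variable (L : RelativeGroupLaw K f) (hc : L.IsCommutative) (g : ℕ) [SmoothOfRelativeDimension g f]
  (C : Chart f) (hC : genericPoint A ∈ C.V) {m : ℕ} (gen : Fin m → C.Ring)
  (hgen : Algebra.adjoin K (Set.range gen) = ⊤)

include hgen in
/-- The locus where the first section is a unit is the affine open. -/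
theorem isUnitAt_iff (c : RPoint f K) :
    (divisorSec L hc g (fun k => C.toFunField hC (gen k)) 0).IsUnitAt
      (divisorBundle L hc g fun k => C.toFunField hC (gen k)) c ↔ base f c ∈ C.V := by
  let x := fun k => C.toFunField hC (gen k)
  constructor
  · rintro ⟨i, hi, hu⟩
    change IsUnit (val f (i.eqn * Fin.cons (α := fun _ => FunField f) 1 x 0) c) at hu
    rw [Fin.cons_zero, mul_one] at hu
    have hic : base f c ∈ i.C.V := hi (Set.mem_range_self _)
    have hinv := inv_mem_of_isUnit_val c i.eqn i.C.V hic (fun p hp => i.eqn_mem hp) hu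
    refine base_mem_of_regular g C hC c fun b => ?_
    let S : Subalgebra K (FunField f) :=
      { regularAt f (base f c) with algebraMap_mem' := algebraMap_mem_regularAt f _ }
    have hS : (⊤ : Subalgebra K C.Ring) ≤ S.comap (C.toFunField hC) := by
      rw [← hgen, Algebra.adjoin_le_iff]
      rintro _ ⟨k, rfl⟩
      change x k ∈ regularAt f (base f c)
      have := mul_mem hinv (i.eqn_mul_mem hic k)
      rwa [← mul_assoc, inv_mul_cancel₀ i.eqn_ne_zero, one_mul] at this
    exact hS (Algebra.mem_top (x := b))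
  · intro hcC
    obtain ⟨i, hi⟩ := EqChart.exists_mem (f := f) (x := x) g (base f c)
    have hr : Set.range c.1 ⊆ i.C.V := (Chart.apply_mem_iff_range_subset c i.C.V).1 hi
    refine ⟨i, hr, ?_⟩
    change IsUnit (val f (i.eqn * Fin.cons (α := fun _ => FunField f) 1 x 0) c)
    rw [Fin.cons_zero, mul_one]
    have hinv : i.eqn⁻¹ ∈ regularAt f (base f c) := by
      rw [EqChart.eqn, ← Finset.prod_inv_distrib]
      exact prod_mem fun k _ =>
        (i.isGen _ hi k).inv_mem (C.toFunField_mem_regularAt _ hcC _)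
    obtain ⟨U, hU, s, hs⟩ := exists_open_of_regularAt f hinv
    refine isUnit_val f (U := U ⊓ i.C.V) ⟨genericPoint_mem hU, i.gen_mem⟩ ?_ i.eqn_ne_zero
      (fun p hp => i.eqn_mem hp.2) fun p hp => hs ▸ germF_mem_regularAt f hp.1 s
    exact (Chart.apply_mem_iff_range_subset c (U ⊓ i.C.V)).1 ⟨hU, hi⟩

theorem isRatioAt_coord {R : Type u} [CommRing R] [Algebra K R] (φ : C.Ring →ₐ[K] R)
    (k : Fin m) :
    (divisorSec L hc g (fun k => C.toFunField hC (gen k)) k.succ).IsRatioAt
      (divisorBundle L hc g fun k => C.toFunField hC (gen k))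
      (divisorSec L hc g (fun k => C.toFunField hC (gen k)) 0) (C.pointOfHom φ) (φ (gen k)) := by
  let x := fun k => C.toFunField hC (gen k)
  intro i hi
  have hv : val f (C.toFunField hC (gen k)) (C.pointOfHom φ) = φ (gen k) :=
    (val_eq f C.V hC (C.range_pointOfHom φ) (gen k) rfl).trans (sectionEval_pointOfHom f C φ _)
  change val f (i.eqn * Fin.cons (α := fun _ => FunField f) 1 x k.succ) (C.pointOfHom φ) =
    φ (gen k) * val f (i.eqn * Fin.cons (α := fun _ => FunField f) 1 x 0) (C.pointOfHom φ)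
  rw [Fin.cons_succ, Fin.cons_zero, mul_one, mul_comm i.eqn,
    val_mul f (U := C.V ⊓ i.C.V) ⟨hC, i.gen_mem⟩
      (fun y hy => ⟨C.range_pointOfHom φ hy, hi hy⟩)
      (fun p hp => C.toFunField_mem_regularAt _ hp.1 _) (fun p hp => i.eqn_mem hp.2), hv]

include hgen in
theorem separates_coord (c c' : RPoint f K) (hu : base f c ∈ C.V) (hu' : base f c' ∈ C.V)
    (hne : c ≠ c') : ∃ (i : Fin (m + 1)) (r r' : K),
      (divisorSec L hc g (fun k => C.toFunField hC (gen k)) i).IsRatioAt
        (divisorBundle L hc g fun k => C.toFunField hC (gen k))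
        (divisorSec L hc g (fun k => C.toFunField hC (gen k)) 0) c r ∧
      (divisorSec L hc g (fun k => C.toFunField hC (gen k)) i).IsRatioAt
        (divisorBundle L hc g fun k => C.toFunField hC (gen k))
        (divisorSec L hc g (fun k => C.toFunField hC (gen k)) 0) c' r' ∧ r ≠ r' := by
  obtain ⟨φ, rfl⟩ := C.exists_pointOfHom_eq_of_local c hu
  obtain ⟨φ', rfl⟩ := C.exists_pointOfHom_eq_of_local c' hu'
  obtain ⟨k, hk⟩ : ∃ k, φ (gen k) ≠ φ' (gen k) := by
    by_contra! h
    exact hne (congrArg C.pointOfHom (AlgHom.ext_of_adjoin_eq_top hgen (by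
      rintro _ ⟨k, rfl⟩; exact h k)))
  exact ⟨k.succ, _, _, isRatioAt_coord L hc g C hC gen φ k,
    isRatioAt_coord L hc g C hC gen φ' k, hk⟩

include hgen in
theorem tangent_coord (M : LocalModel f g (L.one (specStr K K)))
    (c : (schemePoints f L hc).Pt K) (hu : base f c ∈ C.V) :
    IsLocalRing.maximalIdeal M.O ≤ Ideal.span {r' : M.O | ∃ (i : Fin (m + 1)) (r : M.O),
        (divisorSec L hc g (fun k => C.toFunField hC (gen k)) i).IsRatioAt
          (divisorBundle L hc g fun k => C.toFunField hC (gen k))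
          (divisorSec L hc g (fun k => C.toFunField hC (gen k)) 0)
          ((schemePoints f L hc).map (Algebra.ofId K M.O) c + M.point) r ∧
        r' = r - algebraMap K M.O (M.ev r)} ⊔ IsLocalRing.maximalIdeal M.O ^ 2 := by
  set S := {r' : M.O | ∃ (i : Fin (m + 1)) (r : M.O), _ ∧ r' = r - algebraMap K M.O (M.ev r)}
    with hS
  set I := Ideal.span S ⊔ IsLocalRing.maximalIdeal M.O ^ 2 with hI
  rcases eq_or_ne I ⊤ with htop | htop
  · rw [htop]; exact le_top
  set P := (schemePoints f L hc).map (Algebra.ofId K M.O) c + M.point with hP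
  have hevl : IsLocalHom (M.ev : M.O →+* K) := M.isLocalHom_of_comp _ fun x hx => by simp [hx]
  have hPev : (schemePoints f L hc).map M.ev P = c := by
    rw [hP, map_add, (schemePoints f L hc).map_map, M.map_ev_point, add_zero,
      Subsingleton.elim (M.ev.comp (Algebra.ofId K M.O)) (AlgHom.id K K),
      (schemePoints f L hc).map_id]
  have h2 : Spec.map (CommRingCat.ofHom M.ev.toRingHom) (IsLocalRing.closedPoint K) =
      IsLocalRing.closedPoint M.O := IsLocalRing.comap_closedPoint (M.ev : M.O →+* K)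
  have hPC : P.1 (IsLocalRing.closedPoint M.O) ∈ C.V := by
    rw [← hPev] at hu
    exact congrArg P.1 h2 ▸ hu
  obtain ⟨φ, hφ⟩ := C.exists_pointOfHom_eq_of_local P hPC
  have : Nontrivial (M.O ⧸ I) := Ideal.Quotient.nontrivial_iff.2 htop
  let π : M.O →ₐ[K] M.O ⧸ I := Ideal.Quotient.mkₐ K I
  have : IsLocalRing (M.O ⧸ I) :=
    IsLocalRing.of_surjective' (Ideal.Quotient.mk I) Ideal.Quotient.mk_surjective
  have hπl : IsLocalHom (π : M.O →+* M.O ⧸ I) :=
    IsLocalHom.of_surjective _ Ideal.Quotient.mk_surjective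
  have hel : IsLocalHom (((Algebra.ofId K (M.O ⧸ I)).comp M.ev : M.O →ₐ[K] M.O ⧸ I) :
      M.O →+* M.O ⧸ I) := M.isLocalHom_of_comp _ fun x hx => by simp [hx]
  have hcomp : π.comp φ = ((Algebra.ofId K (M.O ⧸ I)).comp M.ev).comp φ := by
    refine AlgHom.ext_of_adjoin_eq_top hgen ?_
    rintro _ ⟨k, rfl⟩
    change Ideal.Quotient.mk I (φ (gen k)) =
      Ideal.Quotient.mk I (algebraMap K M.O (M.ev (φ (gen k))))
    rw [Ideal.Quotient.eq]
    refine Submodule.mem_sup_left (Ideal.subset_span ?_)
    refine ⟨k.succ, φ (gen k), ?_, rfl⟩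
    have h := isRatioAt_coord L hc g C hC gen φ k
    rw [hφ] at h
    exact h
  have hmapP : (schemePoints f L hc).map π P =
      (schemePoints f L hc).map ((Algebra.ofId K (M.O ⧸ I)).comp M.ev) P := by
    rw [← hφ]
    exact (C.map_pointOfHom φ π).trans ((congrArg C.pointOfHom hcomp).trans
      (C.map_pointOfHom φ _).symm)
  have hcst : ∀ χ : M.O →ₐ[K] M.O ⧸ I, (schemePoints f L hc).map χ
      ((schemePoints f L hc).map (Algebra.ofId K M.O) c) =
      (schemePoints f L hc).map (Algebra.ofId K (M.O ⧸ I)) c := fun χ =>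
    (schemePoints f L hc).map_const χ c
  rw [hP, map_add, map_add, hcst, hcst, add_right_inj] at hmapP
  have hkey := M.eq_of_map_eq (hc := hc) π _ hπl hel hmapP
  intro x hx
  have h := AlgHom.congr_fun hkey x
  rw [AlgHom.comp_apply, (M.ev_eq_zero_iff x).2 hx, map_zero] at h
  exact Ideal.Quotient.eq_zero_iff_mem.1 h

end Locus

end Fermat.Agent.AbelianVariety
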