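/-
A point with values in an algebraically closed field which specialises to every point with values
in a given algebraically closed field: the generic point of the base change.
-/
import Fermat.Agent.AbelianVariety.SecondGeneric
import Mathlib.AlgebraicGeometry.Morphisms.UniversallyOpen
import Mathlib.AlgebraicGeometry.PullbackCarrier

set_option autoImplicit false

noncomputable section

open CategoryTheory CategoryTheory.Limits AlgebraicGeometry NeronModelInfra GoodReductionJacobian

namespace Fermat.Agent.AbelianVariety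

universe u

variable {K : Type u} [Field K] [IsAlgClosed K] {A : Scheme.{u}}
  {f : A ⟶ Spec (CommRingCat.of K)} [IsProper f] {g : ℕ}

section BaseChange

variable (f) (E : Type u) [Field E] [Algebra K E]

/-- The base change to a field extension. -/
abbrev baseChange : pullback f (specStr K E) ⟶ Spec (CommRingCat.of E) :=
  pullback.snd f (specStr K E)

theorem connectedSpace_baseChange [ConnectedSpace A] : ConnectedSpace ↥(pullback f (specStr K E)) := by
  let π := pullback.fst f (specStr K E)
  have hsurjE : Surjective (specStr K E) := ⟨fun x => ⟨IsLocalRing.closedPoint E,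
    Subsingleton.elim (α := PrimeSpectrum K) _ _⟩⟩
  have : Surjective π := MorphismProperty.IsStableUnderBaseChange.of_isPullback
    (IsPullback.of_hasPullback f (specStr K E)).flip hsurjE
  have : UniversallyOpen (specStr K E) := inferInstance
  have : UniversallyOpen π := inferInstance
  have := LocallyOfFiniteType.jacobsonSpace f
  -- fibres over rational points are single points
  have hfib : ∀ (c : RPoint f K) (z z' : ↥(pullback f (specStr K E))),
      π z = base f c → π z' = base f c → z = z' := by
    intro c z z' hz hz'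
    have key : ∀ w, π w = base f c → ∃ v : ↥(pullback c.1 π), pullback.snd c.1 π v = w := by
      intro w hw
      obtain ⟨v, -, hv⟩ := Scheme.Pullback.exists_preimage_pullback (f := c.1) (g := π)
        (IsLocalRing.closedPoint K) w hw.symm
      exact ⟨v, hv⟩
    have hsub : Subsingleton ↥(pullback c.1 π) := by
      have : IsIso (c.1 ≫ f) := by rw [c.2, specStr_self]; infer_instance
      let i : pullback c.1 π ≅ pullback (c.1 ≫ f) (specStr K E) :=
        pullbackRightPullbackFstIso f (specStr K E) c.1
      let j : pullback (c.1 ≫ f) (specStr K E) ≅ Spec (CommRingCat.of E) :=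
        asIso (pullback.snd (c.1 ≫ f) (specStr K E))
      have : Subsingleton ↥(Spec (CommRingCat.of E)) :=
        inferInstanceAs (Subsingleton (PrimeSpectrum E))
      exact (i ≪≫ j).hom.homeomorph.subsingleton
    obtain ⟨v, rfl⟩ := key z hz
    obtain ⟨v', rfl⟩ := key z' hz'
    rw [hsub.elim v v']
  obtain ⟨a₀⟩ : Nonempty A := inferInstance
  obtain ⟨z₀, -⟩ := π.surjective a₀
  have : Nonempty ↥(pullback f (specStr K E)) := ⟨z₀⟩
  refine connectedSpace_iff_clopen.2 ⟨inferInstance, fun U hU => ?_⟩
  by_contra hne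
  push Not at hne
  obtain ⟨hU1, hU2⟩ := hne
  have hU1' : U.Nonempty := Set.nonempty_iff_ne_empty.2 (by simpa [Set.nonempty_iff_ne_empty] using hU1)
  have hU2' : Uᶜ.Nonempty := Set.nonempty_compl.2 hU2
  have hopen := π.isOpenMap
  have ho1 : IsOpen (π '' U) := hopen U hU.isOpen
  have ho2 : IsOpen (π '' Uᶜ) := hopen _ hU.compl.isOpen
  have hcov : (Set.univ : Set A) ⊆ π '' U ∪ π '' Uᶜ := fun a _ => by
    obtain ⟨z, rfl⟩ := π.surjective a
    by_cases hz : z ∈ U
    · exact Or.inl ⟨z, hz, rfl⟩
    · exact Or.inr ⟨z, hz, rfl⟩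
  obtain ⟨a, -, ha⟩ := isPreconnected_univ (π '' U) (π '' Uᶜ) ho1 ho2 hcov
    (by simpa using hU1'.image π) (by simpa using hU2'.image π)
  obtain ⟨c, hc1, hc2⟩ : ∃ c, base f c ∈ π '' U ∧ base f c ∈ π '' Uᶜ := by
    obtain ⟨c, hc⟩ := exists_base_mem f (U := ⟨π '' U ∩ π '' Uᶜ, ho1.inter ho2⟩) ⟨a, ha⟩
    exact ⟨c, hc⟩
  obtain ⟨z, hz, hz1⟩ := hc1
  obtain ⟨z', hz', hz2⟩ := hc2
  exact hz' (hfib c z z' hz1 hz2 ▸ hz)

theorem smoothOfRelativeDimension_baseChange [SmoothOfRelativeDimension g f] :
    SmoothOfRelativeDimension g (baseChange f E) :=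
  (smoothOfRelativeDimension_isStableUnderBaseChange g).of_isPullback
    (IsPullback.of_hasPullback f (specStr K E)) inferInstance

variable {f E}

/-- Points of the base change give points. -/
def RPoint.toBase {R : Type u} [CommRing R] [Algebra K R] [Algebra E R] [IsScalarTower K E R]
    (P : RPoint (baseChange f E) R) : RPoint f R :=
  ⟨P.1 ≫ pullback.fst f (specStr K E), by
    rw [Category.assoc, pullback.condition, ← Category.assoc,
      show P.1 ≫ pullback.snd f (specStr K E) = specStr E R from P.2, specStr, specStr, specStr,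
      ← Spec.map_comp, ← CommRingCat.ofHom_comp, ← IsScalarTower.algebraMap_eq]⟩

omit [IsAlgClosed K] [IsProper f] in
theorem RPoint.map_toBase {R S : Type u} [CommRing R] [Algebra K R] [Algebra E R]
    [IsScalarTower K E R] [CommRing S] [Algebra K S] [Algebra E S] [IsScalarTower K E S]
    (φ : R →ₐ[E] S) (ψ : R →ₐ[K] S) (h : ∀ x, φ x = ψ x) (P : RPoint (baseChange f E) R) :
    RPoint.map f ψ P.toBase = (RPoint.map (baseChange f E) φ P).toBase := by
  apply Subtype.ext
  change Spec.map _ ≫ (P.1 ≫ _) = (Spec.map _ ≫ P.1) ≫ _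
  rw [Category.assoc]
  congr 3
  exact RingHom.ext fun x => (h x).symm

end BaseChange

variable (L : RelativeGroupLaw K f) (hc : L.IsCommutative)

include g in
theorem specializesToAll_of_generic [ConnectedSpace A] [SmoothOfRelativeDimension g f]
    (E : Type u) [Field E] [Algebra K E] [IsAlgClosed E]
    [AlgebraicGeometry.IsIntegral (pullback f (specStr K E))]
    [IsProper (baseChange f E)] [SmoothOfRelativeDimension g (baseChange f E)]
    (Λ : Type u) [Field Λ] [Algebra K Λ] [Algebra E Λ] [IsScalarTower K E Λ]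
    (ηE : RPoint (baseChange f E) Λ)
    (hgen : ηE.1 (IsLocalRing.closedPoint Λ) = genericPoint ↥(pullback f (specStr K E))) :
    SpecializesToAll (schemePoints f L hc) E Λ ηE.toBase := by
  intro y
  let fE := baseChange f E
  let AE := pullback f (specStr K E)
  let σ : RPoint fE E := ⟨pullback.lift y.1 (𝟙 _) (by
    rw [Category.id_comp]; exact y.2), by
      rw [specStr_self]; exact pullback.lift_snd _ _ _⟩
  have hσ : σ.toBase = y := Subtype.ext (pullback.lift_fst _ _ _)
  obtain ⟨M⟩ := nonempty_localModel fE g σ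
  have := M.isDomain
  have hgenC : genericPoint AE ∈ M.C.V :=
    ((genericPoint_spec AE).mem_open_set_iff M.C.V.isOpen).2
      ⟨_, trivial, M.C.range_pointOfHom M.e (Set.mem_range_self (IsLocalRing.closedPoint E))⟩
  obtain ⟨φ, hφ⟩ := M.C.exists_pointOfHom_eq_of_local ηE (hgen.symm ▸ hgenC)
  have hφinj : Function.Injective φ :=
    (M.C.apply_eq_genericPoint_iff φ).1 (by rw [hφ]; exact hgen)
  let Φ : M.O →ₐ[E] Λ := IsLocalization.liftAlgHom (M := (RingHom.ker M.e).primeCompl) (f := φ)
    fun s => isUnit_iff_ne_zero.2 fun h => s.2 (by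
      rw [(injective_iff_map_eq_zero φ).1 hφinj _ h]; simp)
  have hΦ : Φ.comp M.toO = φ := AlgHom.ext fun b => IsLocalization.lift_eq _ _
  obtain ⟨V, hV⟩ := LocalSubring.exists_le_valuationSubring (LocalSubring.range (Φ : M.O →+* Λ))
  obtain ⟨hle, hloc⟩ := hV
  have hEV : ∀ a : E, algebraMap E Λ a ∈ V := fun a => hle ⟨algebraMap E M.O a, Φ.commutes a⟩
  refine ⟨V, hEV, ?_⟩
  have hVK : ∀ a : K, algebraMap K Λ a ∈ V := fun a => by
    rw [IsScalarTower.algebraMap_apply K E Λ]; exact hEV _
  letI := valuationAlgebra V hVK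
  letI : Algebra E V := valuationAlgebra V hEV
  have : IsScalarTower K E V :=
    .of_algebraMap_eq fun a => Subtype.ext (IsScalarTower.algebraMap_apply K E Λ a)
  let ψ₀ : M.O →+* V := (Φ : M.O →+* Λ).codRestrict V fun x => hle ⟨x, rfl⟩
  let ψ : M.O →ₐ[E] V := { ψ₀ with commutes' := fun a => Subtype.ext (Φ.commutes a) }
  have hψloc : IsLocalHom (ψ : M.O →+* V) := by
    have h1 : IsLocalHom (Φ : M.O →+* Λ).rangeRestrict :=
      IsLocalHom.of_surjective _ (RingHom.rangeRestrict_surjective _)
    have h : IsLocalHom ((Subring.inclusion hle).comp (Φ : M.O →+* Λ).rangeRestrict) :=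
      @RingHom.isLocalHom_comp _ _ _ _ _ _ _ _ hloc h1
    exact ⟨fun x hx => h.map_nonunit x hx⟩
  let P₀ : RPoint fE V := RPoint.map fE ψ M.univ
  refine ⟨P₀.toBase, ?_, ?_⟩
  · change RPoint.map f (valuationIncl V hVK) P₀.toBase = ηE.toBase
    rw [RPoint.map_toBase (valuationIncl V hEV) (valuationIncl V hVK) (fun _ => rfl)]
    congr 1
    change RPoint.map fE _ (RPoint.map fE ψ (M.C.pointOfHom M.toO)) = _
    rw [M.C.map_pointOfHom, M.C.map_pointOfHom, ← AlgHom.comp_assoc,
      show (valuationIncl V hEV).comp ψ = Φ from AlgHom.ext fun _ => rfl, hΦ, hφ]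
  · intro κ _ _ r s hr hrs
    letI : Algebra E κ := (s : E →+* κ).toAlgebra
    have : IsScalarTower K E κ := .of_algebraMap_eq fun a => (s.commutes a).symm
    let rE : V →ₐ[E] κ := { (r : V →+* κ) with commutes' := fun a => hrs a }
    change RPoint.map f r P₀.toBase = RPoint.map f s y
    rw [RPoint.map_toBase rE r (fun _ => rfl), ← hσ,
      RPoint.map_toBase (Algebra.ofId E κ) s (fun _ => rfl)]
    congr 1
    change RPoint.map fE rE (RPoint.map fE ψ (M.C.pointOfHom M.toO)) =
      RPoint.map fE (Algebra.ofId E κ) σ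
    rw [show RPoint.map fE (Algebra.ofId E κ) σ = M.C.pointOfHom ((Algebra.ofId E κ).comp M.e) from
      by rw [← M.C.map_pointOfHom, M.point_eq], M.C.map_pointOfHom, M.C.map_pointOfHom]
    congr 1
    refine AlgHom.ext fun b => ?_
    change rE (ψ (M.toO b)) = algebraMap E κ (M.e b)
    have hcomp : IsLocalHom ((rE.comp ψ : M.O →ₐ[E] κ) : M.O →+* κ) :=
      ⟨fun x hx => hψloc.map_nonunit x (hr.map_nonunit _ hx)⟩
    have hmem : M.toO b - algebraMap E M.O (M.e b) ∈ IsLocalRing.maximalIdeal M.O := by
      rw [← M.ev_eq_zero_iff, map_sub, M.ev_toO, AlgHom.commutes]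
      simp
    have h0 : rE.comp ψ (M.toO b - algebraMap E M.O (M.e b)) = 0 := by
      by_contra hne
      exact (IsLocalRing.mem_maximalIdeal _).1 hmem (hcomp.map_nonunit _ (Ne.isUnit hne))
    rw [map_sub, AlgHom.commutes, sub_eq_zero] at h0
    exact h0

include g in
theorem exists_specializesToAll [ConnectedSpace A] [SmoothOfRelativeDimension g f]
    (E : Type u) [Field E] [Algebra K E] [IsAlgClosed E] :
    ∃ (Λ : Type u) (_ : Field Λ) (_ : Algebra K Λ) (_ : Algebra E Λ) (_ : IsScalarTower K E Λ)
      (_ : IsAlgClosed Λ) (η : (schemePoints f L hc).Pt Λ),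
      SpecializesToAll (schemePoints f L hc) E Λ η := by
  have hp : IsProper (baseChange f E) := MorphismProperty.IsStableUnderBaseChange.of_isPullback
    (IsPullback.of_hasPullback f (specStr K E)) inferInstance
  have := smoothOfRelativeDimension_baseChange (g := g) f E
  have := connectedSpace_baseChange f E
  have : AlgebraicGeometry.IsIntegral (pullback f (specStr K E)) :=
    isIntegral_of_smooth_of_connected (baseChange f E) g
  let F := (pullback f (specStr K E)).functionField
  let ξ : Spec F ⟶ pullback f (specStr K E) :=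
    (pullback f (specStr K E)).fromSpecStalk (genericPoint ↥(pullback f (specStr K E)))
  let Λ : Type u := AlgebraicClosure F
  let η₀ : Spec (CommRingCat.of Λ) ⟶ pullback f (specStr K E) :=
    Spec.map (CommRingCat.ofHom (algebraMap F Λ)) ≫ ξ
  let iEΛ : Algebra E Λ := (Spec.preimage (η₀ ≫ baseChange f E)).hom.toAlgebra
  let iKΛ : Algebra K Λ := ((algebraMap E Λ).comp (algebraMap K E)).toAlgebra
  have iT : IsScalarTower K E Λ := .of_algebraMap_eq fun _ => rfl
  let ηE : RPoint (baseChange f E) Λ := ⟨η₀, (Spec.map_preimage _).symm⟩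
  have hgen : ηE.1 (IsLocalRing.closedPoint Λ) = genericPoint ↥(pullback f (specStr K E)) := by
    change ξ (Spec.map (CommRingCat.ofHom (algebraMap F Λ)) (IsLocalRing.closedPoint Λ)) = _
    rw [show Spec.map (CommRingCat.ofHom (algebraMap F Λ)) (IsLocalRing.closedPoint Λ) =
      IsLocalRing.closedPoint F from Subsingleton.elim (α := PrimeSpectrum F) _ _]
    exact Scheme.fromSpecStalk_closedPoint
  exact ⟨Λ, inferInstance, iKΛ, iEΛ, iT, inferInstance, ηE.toBase,
    specializesToAll_of_generic L hc (g := g) E Λ ηE hgen⟩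

end Fermat.Agent.AbelianVariety
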