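/-
The data of an abelian variety needed for the count of its torsion points, extracted from an
abelian scheme over an algebraically closed field.
-/
import Fermat.Agent.AbelianVariety.SecondLocus
import Fermat.Agent.AbelianVariety.SecondSpecialize
import Fermat.Prelude.Def_JacJ1Iface

set_option autoImplicit false

noncomputable section

open CategoryTheory CategoryTheory.Limits AlgebraicGeometry NeronModelInfra GoodReductionJacobian

namespace Fermat.Agent.AbelianVariety

universe u

variable {K : Type u} [Field K] {A : Scheme.{u}} {f : A ⟶ Spec (CommRingCat.of K)}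
  (L : RelativeGroupLaw K f) (hc : L.IsCommutative)

/-- The affine translate of multiplication by an integer, on points. -/
theorem exists_translatedMul (m : ℤ) (c : (schemePoints f L hc).Pt K) :
    ∃ α : A ⟶ A, ∀ u : (schemePoints f L hc).Pt K, (m • u + c).1 = u.1 ≫ α := by
  let := pointAddCommGroup L hc f
  let := pointAddCommGroup L hc (specStr K K)
  have hft : f ≫ specStr K K = f := by rw [specStr_self, Category.comp_id]
  let a : SchemeHomOver f f := m • RelativeGroupLaw.idPoint + schemeHomOverComp f hft c
  refine ⟨a.1, fun u => ?_⟩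
  let pc : SchemeHomOver f f →+ SchemeHomOver (specStr K K) f :=
    AddMonoidHom.mk' (schemeHomOverComp u.1 u.2) fun x y => L.mul_natural _ _ _ _ x y
  have h : pc a = m • pc RelativeGroupLaw.idPoint + pc (schemeHomOverComp f hft c) := by
    rw [map_add, map_zsmul]
  have h1 : pc RelativeGroupLaw.idPoint = u := Subtype.ext (Category.comp_id _)
  have h2 : pc (schemeHomOverComp f hft c) = c := Subtype.ext (by
    change u.1 ≫ f ≫ c.1 = c.1
    rw [← Category.assoc, u.2]
    exact (congrArg (fun m => m ≫ c.1) (specStr_self K)).trans (Category.id_comp _))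
  rw [h1, h2] at h
  exact (congrArg Subtype.val h).symm

variable [IsAlgClosed K] [IsProper f] [AlgebraicGeometry.IsIntegral A]
  (g : ℕ) [SmoothOfRelativeDimension g f]

include g in
theorem exists_simultaneous (W : A.Opens) (w : (schemePoints f L hc).Pt K) (hw : base f w ∈ W)
    (s : Finset (ℤ × (schemePoints f L hc).Pt K)) (hs : ∀ p ∈ s, (p.1 : K) ≠ 0) :
    ∃ u : (schemePoints f L hc).Pt K, ∀ p ∈ s, base f (p.1 • u + p.2) ∈ W := by
  classical
  have h : ∀ p : ℤ × (schemePoints f L hc).Pt K, ∃ U : A.Opens,
      (∀ u : (schemePoints f L hc).Pt K, base f u ∈ U → base f (p.1 • u + p.2) ∈ W) ∧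
      ((p.1 : K) ≠ 0 → genericPoint A ∈ U) := fun p => by
    obtain ⟨α, hα⟩ := exists_translatedMul L hc p.1 p.2
    have hb : ∀ u : (schemePoints f L hc).Pt K,
        base f (p.1 • u + p.2) = α (base f u) := fun u =>
      congrArg (fun m : Spec (CommRingCat.of K) ⟶ A => m (IsLocalRing.closedPoint K)) (hα u)
    refine ⟨α ⁻¹ᵁ W, fun u hu => (hb u).symm ▸ hu, fun hp => ?_⟩
    have hn : (p.1.natAbs : K) ≠ 0 := by
      intro h0
      apply hp
      rcases Int.natAbs_eq p.1 with he | he <;> rw [he]
      · rw [Int.cast_natCast, h0]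
      · rw [Int.cast_neg, Int.cast_natCast, h0, neg_zero]
    obtain ⟨v, hv⟩ := nsmul_points_surjective L hc (g := g) p.1.natAbs hn K (w - p.2)
    obtain ⟨u, hu⟩ : ∃ u : (schemePoints f L hc).Pt K, p.1 • u = w - p.2 := by
      rcases Int.natAbs_eq p.1 with he | he
      · exact ⟨v, by rw [he, natCast_zsmul]; exact hv⟩
      · exact ⟨-v, by rw [he, neg_smul, smul_neg, neg_neg, natCast_zsmul]; exact hv⟩
    refine genericPoint_mem (x := base f u) ?_
    change α (base f u) ∈ W
    rw [← hb, hu, sub_add_cancel]
    exact hw
  choose U hU hgen using h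
  have hne : ((s.inf U : A.Opens) : Set A).Nonempty := ⟨genericPoint A, by
    rw [TopologicalSpace.Opens.coe_finset_inf]
    simpa using fun p q hpq => hgen (p, q) (hs _ hpq)⟩
  obtain ⟨u, hu⟩ := exists_base_mem f hne
  exact ⟨u, fun p hp => hU p u ((Finset.inf_le (f := U) hp) hu)⟩

include g in
theorem exists_translate_fraction (M : LocalModel f g (L.one (specStr K K))) [IsDomain M.O]
    (c : (schemePoints f L hc).Pt K) :
    ∃ φ : FractionRing M.O →ₐ[K] FractionRing M.O,
      (schemePoints f L hc).map φ
          ((schemePoints f L hc).map (IsScalarTower.toAlgHom K M.O (FractionRing M.O)) M.point) =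
        (schemePoints f L hc).map (Algebra.ofId K (FractionRing M.O)) c +
          (schemePoints f L hc).map (IsScalarTower.toAlgHom K M.O (FractionRing M.O)) M.point := by
  obtain ⟨φ₁, hφ₁, h⟩ := exists_translate_aux L hc M c
    (IsScalarTower.toAlgHom K M.O (FractionRing M.O)) (IsFractionRing.injective M.O _)
  obtain ⟨Φ, hΦ⟩ := exists_algHom_fractionRing φ₁ hφ₁
  exact ⟨Φ, by rw [(schemePoints f L hc).map_map, hΦ, h]⟩

omit [IsAlgClosed K] [IsProper f] [AlgebraicGeometry.IsIntegral A] in
theorem isTorsionPoint_congr {t t' : Spec (CommRingCat.of K) ⟶ Spec (CommRingCat.of K)} (h : t = t')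
    (n : ℕ) : Nat.card {x // L.IsTorsionPoint t n x} = Nat.card {x // L.IsTorsionPoint t' n x} := by
  subst h; rfl

include hc in
theorem exists_avData_of_isIntegral [ConnectedSpace A] : ∃ D : AVData K g, ∀ n : ℕ, (n : K) ≠ 0 →
    Nat.card {c : D.Pt K // n • c = 0} =
      Nat.card {x // L.IsTorsionPoint (𝟙 (Spec (CommRingCat.of K))) n x} := by
  classical
  obtain ⟨M⟩ := nonempty_localModel f g (L.one (specStr K K))
  have := M.isDomain
  have := M.essFiniteType
  obtain ⟨m, gen, hgen⟩ : ∃ (m : ℕ) (gen : Fin m → M.C.Ring),
      Algebra.adjoin K (Set.range gen) = ⊤ := by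
    obtain ⟨t, ht⟩ := (Algebra.FiniteType.out : (⊤ : Subalgebra K M.C.Ring).FG)
    refine ⟨t.card, fun k => (t.equivFin.symm k : M.C.Ring), ?_⟩
    rw [← ht]
    congr 1
    ext y
    constructor
    · rintro ⟨k, rfl⟩; exact (t.equivFin.symm k).2
    · intro hy; exact ⟨t.equivFin ⟨y, hy⟩, by simp⟩
  have hC := M.generic_mem
  let x := fun k => M.C.toFunField hC (gen k)
  have hunit := isUnitAt_iff L hc g M.C hC gen hgen
  refine ⟨{
    toPointFunctor := schemePoints f L hc
    valuative := fun E _ _ V hV => schemePoints_valuative f E V hV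
    map_injective := fun φ => schemePoints_map_injective f φ
    exists_fg := fun E _ _ P => schemePoints_exists_fg f E P
    R₀ := M.O
    e₀ := M.ev
    univ := M.point
    map_e₀_univ := M.map_ev_point
    lift := fun P hP => M.existsUnique_lift₀ P hP
    t := M.t
    span_t := M.span_t
    algebraic_t := M.algebraic_t
    expand := M.expand
    expand_injective := M.expand_injective
    expand_t := M.expand_t
    translate := exists_translate_fraction L hc g M
    nsmul_surjective := fun n hn Λ _ _ _ => nsmul_points_surjective L hc (g := g) n hn Λ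
    torsion_const := fun n hn Λ _ _ P hP => exists_torsion_const L hc g n hn Λ P hP
    finite_torsion := fun n hn => finite_torsion L hc g n hn
    exists_generic := fun E _ _ _ => exists_specializesToAll L hc (g := g) E
    D := divisorBundle L hc g x
    M := m
    sec := divisorSec L hc g x
    exists_point := fun s hs => by
      obtain ⟨u, hu⟩ := exists_simultaneous L hc g M.C.V (L.one (specStr K K))
        ((congrArg (base f) M.point_eq) ▸ M.C.range_pointOfHom M.e (Set.mem_range_self _)) s hs
      exact ⟨u, fun p hp => (hunit _).2 (hu p hp)⟩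
    separates := fun c c' h h' hne =>
      separates_coord L hc g M.C hC gen hgen c c' ((hunit c).1 h) ((hunit c').1 h') hne
    tangent := fun c h => tangent_coord L hc g M.C hC gen hgen M c ((hunit c).1 h) }, ?_⟩
  intro n _
  rw [← isTorsionPoint_congr L (specStr_self K) n]
  refine Nat.card_congr (Equiv.subtypeEquivRight fun c => ?_)
  change n • c = 0 ↔ L.nsmul (specStr K K) n c = L.one (specStr K K)
  rw [← nsmul_eq_law f L hc (specStr K K) n c]
  rfl

omit [IsProper f] [AlgebraicGeometry.IsIntegral A] [IsAlgClosed K] in
theorem connectedSpace_of_bundle (hA : AbelianSchemePropertyBundle K f) : ConnectedSpace A := by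
  have h := hA.connectedFibres (IsLocalRing.closedPoint K)
  have : f.base ⁻¹' {IsLocalRing.closedPoint K} = Set.univ :=
    Set.eq_univ_of_forall fun a => Subsingleton.elim (α := PrimeSpectrum K) _ _
  exact connectedSpace_iff_univ.2 (this ▸ h)

end Fermat.Agent.AbelianVariety

namespace Fermat.Agent.AbelianVariety

universe u

/-- The data of an abelian variety attached to an abelian scheme over an algebraically closed
field, with the same torsion points. -/
theorem exists_avData (K : Type u) [Field K] [IsAlgClosed K] {A : Scheme.{u}}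
    (f : A ⟶ Spec (CommRingCat.of K)) (L : RelativeGroupLaw K f) (hc : L.IsCommutative)
    (hA : AbelianSchemePropertyBundle K f) (g : ℕ) [SmoothOfRelativeDimension g f] :
    ∃ D : AVData K g, ∀ n : ℕ, (n : K) ≠ 0 → Nat.card {c : D.Pt K // n • c = 0} =
      Nat.card {x // L.IsTorsionPoint (𝟙 (Spec (CommRingCat.of K))) n x} := by
  have := hA.proper
  have := connectedSpace_of_bundle hA
  have := isIntegral_of_smooth_of_connected f g
  exact exists_avData_of_isIntegral L hc g

end Fermat.Agent.AbelianVariety
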