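/-
The number of `n`-torsion points of an abelian variety, from its functor-of-points data.
-/
import Fermat.Agent.AbelianVariety.Count
import Mathlib.Analysis.SpecificLimits.Basic
import Mathlib.GroupTheory.QuotientGroup.Basic

set_option autoImplicit false

noncomputable section

namespace Fermat.Agent.AbelianVariety

open Filter Topology

universe u

/-- A bound `a * x ^ g ≤ b * (c * x + e) ^ g` for all `x ≥ 1` gives `a ≤ b * c ^ g`. -/
theorem le_mul_pow_of_forall_mul_pow_le (a b c e g : ℕ)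
    (h : ∀ x : ℕ, 1 ≤ x → a * x ^ g ≤ b * (c * x + e) ^ g) : a ≤ b * c ^ g := by
  have hlim : Tendsto (fun x : ℕ => (b : ℝ) * ((c : ℝ) + (e : ℝ) / x) ^ g) atTop
      (𝓝 ((b : ℝ) * ((c : ℝ) + 0) ^ g)) :=
    ((tendsto_const_nhds.add (tendsto_const_div_atTop_nhds_zero_nat (e : ℝ))).pow g).const_mul _
  rw [add_zero] at hlim
  have h' : (a : ℝ) ≤ (b : ℝ) * (c : ℝ) ^ g := by
    refine ge_of_tendsto hlim (eventually_atTop.mpr ⟨1, fun x hx => ?_⟩)
    have hx0 : (0 : ℝ) < x := by exact_mod_cast hx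
    have h1 : (a : ℝ) * (x : ℝ) ^ g ≤ (b : ℝ) * ((c : ℝ) * x + e) ^ g := by exact_mod_cast h x hx
    rw [show (c : ℝ) + (e : ℝ) / x = ((c : ℝ) * x + e) / x by field_simp, div_pow, mul_div_assoc',
      le_div_iff₀ (pow_pos hx0 g)]
    exact h1
  exact_mod_cast h'

/-- Powers dominated up to a constant are ordered. -/
theorem le_of_forall_pow_le_mul_pow (a b c : ℕ) (hb : 0 < b)
    (h : ∀ k, 1 ≤ k → a ^ k ≤ c * b ^ k) : a ≤ b := by
  by_contra hab
  obtain ⟨k, hk⟩ := pow_unbounded_of_one_lt (c : ℝ)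
    (show (1 : ℝ) < (a : ℝ) / b by rw [one_lt_div (by exact_mod_cast hb)]; exact_mod_cast not_le.mp hab)
  have hk' : (c : ℝ) < ((a : ℝ) / b) ^ (k + 1) :=
    hk.trans_le (pow_le_pow_right₀
      (le_of_lt (by rw [one_lt_div (by exact_mod_cast hb)]; exact_mod_cast not_le.mp hab))
      (Nat.le_succ k))
  rw [div_pow, lt_div_iff₀ (pow_pos (by exact_mod_cast hb) _)] at hk'
  have : (a : ℝ) ^ (k + 1) ≤ (c : ℝ) * (b : ℝ) ^ (k + 1) := by
    exact_mod_cast h (k + 1) (Nat.succ_le_succ (Nat.zero_le k))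
  linarith

theorem succ_pow_le_factorial_mul_choose (x g : ℕ) :
    (x + 1) ^ g ≤ g.factorial * (x + g).choose g := by
  rw [← Nat.descFactorial_eq_factorial_mul_choose]
  have h := Nat.pow_sub_le_descFactorial (x + g) g
  rwa [show x + g + 1 - g = x + 1 by omega] at h

theorem factorial_mul_choose_le_pow (x g : ℕ) :
    g.factorial * (x + g).choose g ≤ (x + g) ^ g := by
  rw [← Nat.descFactorial_eq_factorial_mul_choose]
  exact Nat.descFactorial_le_pow _ _

variable {K : Type u} [Field K] [IsAlgClosed K] {g : ℕ} (A : AVData K g)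

namespace AVData

theorem card_torsion_le_pow (ℓ : GenericLine A) (n : ℕ) (hn : (n : K) ≠ 0) :
    Nat.card {c : A.Pt K // n • c = 0} ≤ (n ^ 2 * (A.lineDegree ℓ).toNat) ^ g := by
  set d := Nat.card {c : A.Pt K // n • c = 0}
  set δ := (A.lineDegree ℓ).toNat
  refine (le_mul_pow_of_forall_mul_pow_le d 1 (n ^ 2 * δ) ((d - 1) * δ + g) g fun x hx => ?_).trans
    (le_of_eq (one_mul _))
  obtain ⟨m, rfl⟩ : ∃ m, x = m + 1 := ⟨x - 1, by omega⟩
  rw [one_mul]
  calc d * (m + 1) ^ g ≤ d * (g.factorial * (m + g).choose g) :=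
        Nat.mul_le_mul_left _ (succ_pow_le_factorial_mul_choose m g)
    _ = g.factorial * (d * (m + g).choose g) := by ring
    _ ≤ g.factorial * (((m * n ^ 2 + (d - 1)) * δ + g).choose g) :=
        Nat.mul_le_mul_left _ (card_torsion_choose_le ℓ n hn m)
    _ ≤ ((m * n ^ 2 + (d - 1)) * δ + g) ^ g := factorial_mul_choose_le_pow _ g
    _ ≤ (n ^ 2 * δ * (m + 1) + ((d - 1) * δ + g)) ^ g := by
        refine Nat.pow_le_pow_left ?_ g
        rw [add_mul, mul_add, show m * n ^ 2 * δ = n ^ 2 * δ * m by ring]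
        omega

theorem pow_le_card_torsion (ℓ : GenericLine A) (n : ℕ) (hn : (n : K) ≠ 0) :
    (n ^ 2) ^ g ≤ Nat.card {c : A.Pt K // n • c = 0} * (A.lineDegree ℓ).toNat ^ g := by
  haveI : Finite {c : A.Pt K // n • c = 0} := (A.finite_torsion n hn).to_subtype
  haveI : Nonempty {c : A.Pt K // n • c = 0} := ⟨⟨0, nsmul_zero n⟩⟩
  set d := Nat.card {c : A.Pt K // n • c = 0} with hd
  set δ := (A.lineDegree ℓ).toNat
  have hd0 : 0 < d := Nat.card_pos
  refine Nat.le_of_mul_le_mul_left ?_ (pow_pos hd0 g)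
  calc d ^ g * (n ^ 2) ^ g ≤ d * (d * δ) ^ g := by
        refine le_mul_pow_of_forall_mul_pow_le _ d (d * δ) (g * n ^ 2) g fun m _ => ?_
        calc d ^ g * (n ^ 2) ^ g * m ^ g = (n ^ 2) ^ g * (d * m) ^ g := by ring
          _ ≤ (n ^ 2) ^ g * (d * m + 1) ^ g :=
              Nat.mul_le_mul_left _ (Nat.pow_le_pow_left (Nat.le_succ _) g)
          _ ≤ (n ^ 2) ^ g * (g.factorial * (d * m + g).choose g) :=
              Nat.mul_le_mul_left _ (succ_pow_le_factorial_mul_choose _ g)
          _ ≤ (n ^ 2) ^ g * (g.factorial * (d * (d * m * δ / n ^ 2 + g).choose g)) :=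
              Nat.mul_le_mul_left _ (Nat.mul_le_mul_left _ (choose_card_torsion_le ℓ n hn m))
          _ = d * ((n ^ 2) ^ g * (g.factorial * (d * m * δ / n ^ 2 + g).choose g)) := by ring
          _ ≤ d * ((n ^ 2) ^ g * (d * m * δ / n ^ 2 + g) ^ g) :=
              Nat.mul_le_mul_left _ (Nat.mul_le_mul_left _ (factorial_mul_choose_le_pow _ g))
          _ ≤ d * (d * δ * m + g * n ^ 2) ^ g := by
              rw [← mul_pow]
              refine Nat.mul_le_mul_left _ (Nat.pow_le_pow_left ?_ g)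
              rw [mul_add, show d * δ * m = d * m * δ by ring, mul_comm g]
              exact Nat.add_le_add_right (Nat.mul_div_le _ _) _
    _ = d ^ g * (d * δ ^ g) := by ring

theorem card_torsion_mul (n N : ℕ) (hn : (n : K) ≠ 0) :
    Nat.card {c : A.Pt K // (N * n) • c = 0} =
      Nat.card {c : A.Pt K // n • c = 0} * Nat.card {c : A.Pt K // N • c = 0} := by
  let f : (nsmulAddMonoidHom (N * n) : A.Pt K →+ A.Pt K).ker →+
      (nsmulAddMonoidHom N : A.Pt K →+ A.Pt K).ker :=
    ((nsmulAddMonoidHom n : A.Pt K →+ A.Pt K).comp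
      (nsmulAddMonoidHom (N * n) : A.Pt K →+ A.Pt K).ker.subtype).codRestrict _ fun x => by
      have h : (N * n) • (x : A.Pt K) = 0 := x.2
      show N • n • (x : A.Pt K) = 0
      rwa [← mul_smul]
  have hsurj : Function.Surjective f := fun y => by
    obtain ⟨x, hx⟩ := A.nsmul_surjective n hn K (y : A.Pt K)
    refine ⟨⟨x, ?_⟩, Subtype.ext hx⟩
    show (N * n) • x = 0
    rw [mul_smul, show n • x = (y : A.Pt K) from hx]
    exact y.2
  have h1 := AddSubgroup.card_eq_card_quotient_mul_card_addSubgroup f.ker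
  rw [Nat.card_congr (QuotientAddGroup.quotientKerEquivOfSurjective f hsurj).toEquiv] at h1
  have h2 : Nat.card f.ker = Nat.card {c : A.Pt K // n • c = 0} := by
    refine Nat.card_congr
      { toFun := fun x => ⟨x.1.1, congrArg Subtype.val (show f x.1 = 0 from x.2)⟩
        invFun := fun c => ⟨⟨c.1, ?_⟩, Subtype.ext c.2⟩
        left_inv := fun x => rfl
        right_inv := fun c => rfl }
    show (N * n) • c.1 = 0
    rw [mul_smul, c.2, nsmul_zero]
  rw [h2] at h1
  refine Eq.trans ?_ (h1.trans (mul_comm _ _))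
  rfl

theorem card_torsion_pow (n : ℕ) (hn : (n : K) ≠ 0) (k : ℕ) :
    Nat.card {c : A.Pt K // (n ^ k) • c = 0} = Nat.card {c : A.Pt K // n • c = 0} ^ k := by
  induction k with
  | zero =>
    haveI : Unique {c : A.Pt K // (n ^ 0) • c = 0} :=
      { default := ⟨0, nsmul_zero _⟩
        uniq := fun c => Subtype.ext (by
          have h : (n ^ 0) • c.1 = 0 := c.2
          exact (one_nsmul c.1).symm.trans ((congrArg (· • c.1) (pow_zero n).symm).trans h)) }
    rw [pow_zero (Nat.card _), Nat.card_unique]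
  | succ k ih => rw [pow_succ, card_torsion_mul A n (n ^ k) hn, ih, pow_succ']

/-- An abelian variety of dimension `g` over an algebraically closed field has `n ^ (2 g)` points
killed by `n`, for `n` invertible in the field. -/
theorem natCard_torsion (n : ℕ) (hn : (n : K) ≠ 0) :
    Nat.card {c : A.Pt K // n • c = 0} = n ^ (2 * g) := by
  obtain ⟨ℓ⟩ := A.nonempty_genericLine
  haveI : Finite {c : A.Pt K // n • c = 0} := (A.finite_torsion n hn).to_subtype
  haveI : Nonempty {c : A.Pt K // n • c = 0} := ⟨⟨0, nsmul_zero n⟩⟩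
  set d := Nat.card {c : A.Pt K // n • c = 0} with hd
  set δ := (A.lineDegree ℓ).toNat
  have hk : ∀ k : ℕ, ((n ^ k : ℕ) : K) ≠ 0 := fun k => by
    rw [Nat.cast_pow]; exact pow_ne_zero _ hn
  have hn0 : 0 < n := Nat.pos_of_ne_zero fun h => hn (by rw [h, Nat.cast_zero])
  apply le_antisymm
  · refine le_of_forall_pow_le_mul_pow _ _ (δ ^ g) (pow_pos hn0 _) fun k _ => ?_
    calc d ^ k ≤ ((n ^ k) ^ 2 * δ) ^ g := by
          rw [hd, ← card_torsion_pow A n hn k]
          exact card_torsion_le_pow A ℓ _ (hk k)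
      _ = δ ^ g * (n ^ (2 * g)) ^ k := by rw [mul_pow, ← pow_mul, ← pow_mul, ← pow_mul]; ring
  · refine le_of_forall_pow_le_mul_pow _ _ (δ ^ g) Nat.card_pos fun k _ => ?_
    calc (n ^ (2 * g)) ^ k = ((n ^ k) ^ 2) ^ g := by rw [← pow_mul, ← pow_mul, ← pow_mul]; ring_nf
      _ ≤ δ ^ g * d ^ k := by
          rw [mul_comm, hd, ← card_torsion_pow A n hn k]
          exact pow_le_card_torsion A ℓ _ (hk k)

end AVData

end Fermat.Agent.AbelianVariety
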